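import Fermat.Agent.W.LL3.TwxDefs

/-!
# W-CHAIN, gap LL3, leaf FLAT-RES (helper16): local transport for LOC3-h, the `3`-old case

A representation `U` over `ZMod 3` which is flat at `3` in the prelude's sense (as a
`GaloisRepAdic (ZMod 3)`, `GaloisRepAdic.IsFlatAt`) has `FlatShape`: the clause of `IsFlatAt`
at the ideal `⊥`, and `V ⧸ (⊥ • ⊤) ≃ V`.

* `stmt_FlatRes : Stmt_FlatRes`.
-/

set_option autoImplicit false

namespace Fermat.Agent.W.LL3.H16

open Fermat.Agent.W.LL3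

/-- **FLAT-RES**: flat at `3` (prelude shape, over the field `ZMod 3`) gives `FlatShape`. -/
def Stmt_FlatRes : Prop :=
  ∀ U : ResidualGaloisRep (ZMod 3),
    (GaloisRepAdic.ofResidualGaloisRep U).IsFlatAt 3 → FlatShape U

/-- The clause of `IsFlatAt` at the ideal `⊥`, on `V` itself. -/
theorem flat_bot (ρ : GaloisRepAdic (ZMod 3)) (hflat : ρ.IsFlatAt 3) :
    ∃ (H : Type) (_ : CommRing H) (_ : HopfAlgebra (GaloisRep.ratLocalizedAt 3) H),
      Module.Finite (GaloisRep.ratLocalizedAt 3) H ∧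
      Module.Flat (GaloisRep.ratLocalizedAt 3) H ∧
      Coalgebra.IsCocomm (GaloisRep.ratLocalizedAt 3) H ∧
      ∃ e : WithConv (H →ₐ[GaloisRep.ratLocalizedAt 3] AlgebraicClosure ℚ) ≃ ρ.V,
        (∀ f g : WithConv (H →ₐ[GaloisRep.ratLocalizedAt 3] AlgebraicClosure ℚ),
          e (f * g) = e f + e g) ∧
        ∀ (σ : AlgebraicClosure ℚ ≃ₐ[ℚ] AlgebraicClosure ℚ)
          (f g : WithConv (H →ₐ[GaloisRep.ratLocalizedAt 3] AlgebraicClosure ℚ)),
          (∀ h : H, g h = σ (f h)) → e g = ρ.ρ σ (e f) := by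
  obtain ⟨-, hflat'⟩ := hflat
  haveI : Finite (ZMod 3 ⧸ (⊥ : Ideal (ZMod 3))) :=
    Finite.of_surjective (Ideal.Quotient.mk (⊥ : Ideal (ZMod 3))) Ideal.Quotient.mk_surjective
  obtain ⟨H, i1, i2, hfin, hfl, hco, e, hadd, hequiv⟩ := hflat' ⊥ inferInstance
  have hbot : ((⊥ : Ideal (ZMod 3)) • (⊤ : Submodule (ZMod 3) ρ.V)) = ⊥ := Submodule.bot_smul _
  let q : (ρ.V ⧸ ((⊥ : Ideal (ZMod 3)) • (⊤ : Submodule (ZMod 3) ρ.V))) ≃ₗ[ZMod 3] ρ.V :=
    Submodule.quotEquivOfEqBot _ hbot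
  have hq : ∀ v : ρ.V, q (Submodule.Quotient.mk v) = v := fun v => rfl
  refine ⟨H, i1, i2, hfin, hfl, hco, e.trans q.toEquiv, ?_, ?_⟩
  · intro f g
    show q (e (f * g)) = q (e f) + q (e g)
    rw [hadd, map_add]
  · intro σ f g hfg
    show q (e g) = ρ.ρ σ (q (e f))
    rw [hequiv σ f g hfg]
    obtain ⟨v, hv⟩ := Submodule.Quotient.mk_surjective _ (e f)
    rw [← hv]
    show q (Submodule.mapQ _ _ (ρ.ρ σ) _ (Submodule.Quotient.mk v)) = _
    rw [Submodule.mapQ_apply, hq, hq]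

theorem stmt_FlatRes : Stmt_FlatRes :=
  fun U hflat => flat_bot (GaloisRepAdic.ofResidualGaloisRep U) hflat

end Fermat.Agent.W.LL3.H16
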