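import Fermat.Agent.W.LL3.TwxDefs
import Fermat.Prelude.Def_GaloisRep_StrictOrdinary
import Fermat.Agent.Lib.FrobExists

/-!
# W-CHAIN, gap LL3, leaf ORD-RES (helper16): local transport for LOC3-h, the `3`-new case

If a representation `ρ` over a local ring `A` is STRICTLY ORDINARY at `3` (prelude
`GaloisRepAdic.IsStrictOrdinaryAt`) and its residual representation is equivalent to the base change
of a representation `U` over `ZMod 3`, then `U` has a nonzero vector on which an inertia group at
`3` acts by the mod-3 cyclotomic character: `OrdShape U`.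

* `exists_eigvec_of_baseChange` : a family of endomorphisms with a common eigenvector (eigenvalues
  in the small field) after a field extension has one before it (a coordinate with respect to a
  basis of the big field).
* `ordRes_at` : the statement at a given place over `3`.
* `stmt_OrdRes : Stmt_OrdRes`.
-/

set_option autoImplicit false

open scoped TensorProduct

namespace Fermat.Agent.W.LL3.H16

open Fermat.Agent.W.LL3

/-- **ORD-RES**: strictly ordinary at `3` with residual representation `U ⊗ k` gives `OrdShape U`. -/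
def Stmt_OrdRes : Prop :=
  ∀ (A : Type) [CommRing A] [IsLocalRing A] (ρ : GaloisRepAdic A)
    (U : ResidualGaloisRep (ZMod 3)) (φ : ZMod 3 →+* IsLocalRing.ResidueField A),
    ρ.residual.IsEquiv (U.baseChangeAlong φ) → ρ.IsStrictOrdinaryAt 3 → OrdShape U

/-- Descent of a common eigenvector along a field extension. -/
theorem exists_eigvec_of_baseChange (F k V : Type) [Field F] [Field k] [Algebra F k]
    [AddCommGroup V] [Module F V] {ι : Type} (f : ι → Module.End F V) (c : ι → F)
    (y : k ⊗[F] V) (hy : y ≠ 0)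
    (h : ∀ i, (f i).baseChange k y = algebraMap F k (c i) • y) :
    ∃ x : V, x ≠ 0 ∧ ∀ i, f i x = c i • x := by
  classical
  let ℬ := Module.Free.chooseBasis F k
  let E := TensorProduct.equivFinsuppOfBasisLeft (N := V) ℬ
  have hE : E y ≠ 0 := fun h0 => hy (E.injective (by rw [h0, map_zero]))
  obtain ⟨j, hj⟩ : ∃ j, E y j ≠ 0 := by
    by_contra hne
    push Not at hne
    exact hE (Finsupp.ext hne)
  refine ⟨E y j, hj, fun i => ?_⟩
  have hcomm : ∀ w : k ⊗[F] V, E ((f i).baseChange k w) j = f i (E w j) := by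
    intro w
    induction w using TensorProduct.induction_on with
    | zero => simp
    | tmul a v =>
      rw [LinearMap.baseChange_tmul]
      show TensorProduct.equivFinsuppOfBasisLeft ℬ (a ⊗ₜ[F] (f i) v) j =
        f i (TensorProduct.equivFinsuppOfBasisLeft ℬ (a ⊗ₜ[F] v) j)
      rw [TensorProduct.equivFinsuppOfBasisLeft_apply_tmul_apply,
        TensorProduct.equivFinsuppOfBasisLeft_apply_tmul_apply, map_smul]
    | add w₁ w₂ h₁ h₂ => simp only [map_add, Finsupp.add_apply, h₁, h₂]
  rw [← hcomm, h i, algebraMap_smul, map_smul, Finsupp.smul_apply]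

/-- The action on the cube roots of unity is given by `omega3`. -/
theorem omega3_spec (σ : AlgebraicClosure ℚ ≃ₐ[ℚ] AlgebraicClosure ℚ) (μ : AlgebraicClosure ℚ)
    (hμ : μ ^ 3 = 1) : σ μ = μ ^ (omega3 σ).val := by
  have hμ0 : μ ≠ 0 := by
    rintro rfl
    simp at hμ
  have ht : Units.mk0 μ hμ0 ∈ rootsOfUnity 3 (AlgebraicClosure ℚ) := by
    rw [mem_rootsOfUnity]
    ext
    simpa using hμ
  have h := modularCyclotomicCharacter.spec (AlgebraicClosure ℚ)
    (IsAlgClosed.card_rootsOfUnity_eq (AlgebraicClosure ℚ) 3)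
    (σ : AlgebraicClosure ℚ ≃+* AlgebraicClosure ℚ) ht
  simpa [omega3] using h

/-- **ORD-RES** at a given place over `3`. -/
theorem ordRes_at (A : Type) [CommRing A] [IsLocalRing A] (ρ : GaloisRepAdic A)
    (U : ResidualGaloisRep (ZMod 3)) (φ : ZMod 3 →+* IsLocalRing.ResidueField A)
    (he : ρ.residual.IsEquiv (U.baseChangeAlong φ)) (hso : ρ.IsStrictOrdinaryAt 3)
    (P : ValuationSubring (AlgebraicClosure ℚ)) (hP : P.LiesOverPrime 3) :
    ∃ x : U.V, x ≠ 0 ∧ ∀ σ ∈ P.inertiaSubgroupIn ℚ, U.ρ σ x = omega3 σ • x := by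
  classical
  obtain ⟨h3, hso'⟩ := hso
  obtain ⟨L, ⟨b, hL⟩, -, hI, hchar⟩ := hso' P hP
  obtain ⟨e⟩ := he
  have hb0 : b 0 ∈ L := by rw [hL]; exact Submodule.mem_span_singleton_self _
  -- the inertia group acts on `b 0` by a scalar which reduces to `omega3`
  have key : ∀ σ ∈ P.inertiaSubgroupIn ℚ, ∃ x : A, ρ.ρ σ (b 0) = x • b 0 ∧
      IsLocalRing.residue A x = φ (omega3 σ) := by
    intro σ hσ
    have hσD : σ ∈ P.decompositionSubgroup ℚ := by
      obtain ⟨τ, -, rfl⟩ := hσ
      exact τ.2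
    obtain ⟨x, z, hx, hz, hxz⟩ := hchar σ hσD
    refine ⟨x, hx _ hb0, ?_⟩
    have hz1 : z = 1 := by
      have h1 : (z - 1) • b 1 ∈ L := by
        have h2 := L.sub_mem (hI σ hσ (b 1)) (hz (b 1))
        have e2 : ρ.ρ σ (b 1) - b 1 - (ρ.ρ σ (b 1) - z • b 1) = (z - 1) • b 1 := by
          rw [sub_smul, one_smul]; abel
        rwa [e2] at h2
      rw [hL, Submodule.mem_span_singleton] at h1
      obtain ⟨c, hc⟩ := h1
      have h3' := congrArg (fun v => b.repr v 1) hc
      simp only [map_smul, Module.Basis.repr_self, Finsupp.smul_apply, smul_eq_mul] at h3'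
      rw [Finsupp.single_eq_of_ne (by decide), Finsupp.single_eq_same, mul_zero, mul_one] at h3'
      exact (sub_eq_zero.mp h3'.symm)
    have hmem := hxz 1 (omega3 σ).val (fun μ hμ => omega3_spec σ μ (by simpa using hμ))
    rw [hz1, mul_one] at hmem
    have hle : Ideal.span {((3 ^ 1 : ℕ) : A)} ≤ IsLocalRing.maximalIdeal A := by
      rw [Ideal.span_le, Set.singleton_subset_iff]
      simpa using h3
    have hres : IsLocalRing.residue A (x - ((omega3 σ).val : A)) = 0 :=
      (IsLocalRing.residue_eq_zero_iff _).mpr (hle hmem)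
    rw [map_sub, sub_eq_zero, map_natCast] at hres
    rw [hres, ← map_natCast φ, ZMod.natCast_zmod_val]
  -- the vector `1 ⊗ b 0` of the residual representation
  let y₀ : ρ.residual.V := (1 : IsLocalRing.ResidueField A) ⊗ₜ[A] b 0
  have hy₀ : y₀ ≠ 0 := by
    have h := (b.baseChange (IsLocalRing.ResidueField A)).ne_zero 0
    rwa [Module.Basis.baseChange_apply] at h
  have hy₀σ : ∀ σ ∈ P.inertiaSubgroupIn ℚ, ρ.residual.ρ σ y₀ = φ (omega3 σ) • y₀ := by
    intro σ hσ
    obtain ⟨x, hx, hxres⟩ := key σ hσ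
    show (ρ.ρ σ).baseChange (IsLocalRing.ResidueField A) ((1 : IsLocalRing.ResidueField A) ⊗ₜ[A] b 0)
      = φ (omega3 σ) • ((1 : IsLocalRing.ResidueField A) ⊗ₜ[A] b 0)
    rw [LinearMap.baseChange_tmul, hx, TensorProduct.tmul_smul, ← hxres,
      ← IsLocalRing.ResidueField.algebraMap_eq, algebraMap_smul]
  -- transport along the equivalence and descend
  letI : Algebra (ZMod 3) (IsLocalRing.ResidueField A) := φ.toAlgebra
  let y : IsLocalRing.ResidueField A ⊗[ZMod 3] U.V := e.toLinearEquiv y₀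
  have hy : y ≠ 0 := fun h0 => hy₀ (e.toLinearEquiv.injective (by rw [map_zero]; exact h0))
  have hyσ : ∀ i : {σ // σ ∈ P.inertiaSubgroupIn ℚ},
      (U.ρ i.1).baseChange (IsLocalRing.ResidueField A) y =
        algebraMap (ZMod 3) (IsLocalRing.ResidueField A) (omega3 i.1) • y := by
    intro i
    have h1 := e.map_apply i.1 y₀
    rw [hy₀σ i.1 i.2, map_smul] at h1
    exact h1.symm
  obtain ⟨x, hx0, hx⟩ := exists_eigvec_of_baseChange (ZMod 3) (IsLocalRing.ResidueField A) U.V
    (fun i : {σ // σ ∈ P.inertiaSubgroupIn ℚ} => U.ρ i.1) (fun i => omega3 i.1) y hy hyσ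
  exact ⟨x, hx0, fun σ hσ => hx ⟨σ, hσ⟩⟩

theorem stmt_OrdRes : Stmt_OrdRes := by
  intro A _ _ ρ U φ he hso
  obtain ⟨P, hP⟩ := Fermat.Agent.Lib.FrobExists.exists_liesOverPrime 3 Nat.prime_three
  obtain ⟨x, hx0, hx⟩ := ordRes_at A ρ U φ he hso P hP
  exact ⟨P, hP, x, hx0, hx⟩

end Fermat.Agent.W.LL3.H16
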