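import Fermat.Agent.W.LL3.Defs
import Fermat.Agent.S58.H99_Odd
import Fermat.Agent.S59.LL.H77_BridgeRes
import Fermat.Agent.S59.Datum.H57_ResIrr
import Fermat.Prelude.Def_GaloisRep_ModThreeCyclotomic
import Fermat.Prelude.Def_GaloisRep_ResidualEquiv

/-!
# W-CHAIN, gap LL3, package TWX, leaf GAL-ISO (helper88)

A residual representation `U` over a field `k` of characteristic `3` with the Frobenius
characteristic polynomials `X² - χ₋₃(ℓ) a_ℓ(W) X + ℓ` (the TWISTED system of a curve `W` with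
irreducible `W[3]`) is equivalent to `(W[3] ⊗ ω) ⊗ k`, where `ω` is the mod-3 cyclotomic
character.

* `twistRes ρ χ hχ` : the twist of a residual representation by a character of finite level.
* `omega3`, `omega3_finiteLevel`, `omega3_frob` : the mod-3 cyclotomic character, of finite
  level, with value `ℓ` at a Frobenius element at `ℓ ≠ 3`.
* `torsTw W hΔ` : `W[3] ⊗ ω` as a `ResidualGaloisRep (ZMod 3)`.
* `stmt_GALISO : Stmt_GALISO` : the leaf.
* `galIso_of_attached` : the form used after `ResSys (twist W.apOfModel) W.IsGoodPrimeFor M'`.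
* `equiv_apply` : what an equivalence says elementwise.
-/

set_option autoImplicit false
set_option linter.unusedSectionVars false
set_option linter.unusedVariables false

open Polynomial IsLocalRing WeierstrassCurve WeierstrassCurve.Affine
open scoped TensorProduct

namespace Fermat.Agent.W.LL3.H88

open Fermat.Agent.W.LL3

local notation "GQ" => (AlgebraicClosure ℚ ≃ₐ[ℚ] AlgebraicClosure ℚ)

/-! ### The twist of a residual representation by a character -/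

/-- The twist `χ ⊗ ρ` of a residual representation by a character of finite level. -/
noncomputable def twistRes {k : Type} [Field k] (ρ : ResidualGaloisRep k) (χ : GQ →* kˣ)
    (hχ : GaloisFactorsThroughFiniteLevel χ) : ResidualGaloisRep k where
  V := ρ.V
  finrank_eq := ρ.finrank_eq
  ρ :=
    { toFun := fun σ => ((χ σ : kˣ) : k) • ρ.ρ σ
      map_one' := by rw [map_one, map_one, Units.val_one, one_smul]
      map_mul' := fun σ τ => by
        rw [map_mul, map_mul, Units.val_mul, smul_mul_smul_comm] }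
  factorsThroughFiniteLevel := by
    obtain ⟨L₁, hL₁, h₁⟩ := ρ.factorsThroughFiniteLevel
    obtain ⟨L₂, hL₂, h₂⟩ := hχ
    have := hL₁
    have := hL₂
    refine ⟨L₁ ⊔ L₂, IntermediateField.finiteDimensional_sup L₁ L₂, fun σ hσ => ?_⟩
    show ((χ σ : kˣ) : k) • ρ.ρ σ = 1
    rw [h₁ σ (fun x hx => hσ x ((le_sup_left : L₁ ≤ L₁ ⊔ L₂) hx)),
      h₂ σ (fun x hx => hσ x ((le_sup_right : L₂ ≤ L₁ ⊔ L₂) hx)), Units.val_one, one_smul]

theorem twistRes_rho {k : Type} [Field k] (ρ : ResidualGaloisRep k) (χ : GQ →* kˣ)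
    (hχ : GaloisFactorsThroughFiniteLevel χ) (σ : GQ) :
    (twistRes ρ χ hχ).ρ σ = ((χ σ : kˣ) : k) • ρ.ρ σ :=
  rfl

/-- The characteristic polynomial of a twist. -/
theorem charpoly_twistRes {k : Type} [Field k] (ρ : ResidualGaloisRep k) (χ : GQ →* kˣ)
    (hχ : GaloisFactorsThroughFiniteLevel χ) (σ : GQ) :
    LinearMap.charpoly ((twistRes ρ χ hχ).ρ σ) =
      X ^ 2 - C (((χ σ : kˣ) : k) * LinearMap.trace k ρ.V (ρ.ρ σ)) * X +
        C (((χ σ : kˣ) : k) ^ 2 * LinearMap.det (ρ.ρ σ)) := by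
  rw [Fermat.Agent.R.H91.charpoly_eq_of_finrank_two (twistRes ρ χ hχ).finrank_eq]
  have h1 : LinearMap.trace k (twistRes ρ χ hχ).V ((twistRes ρ χ hχ).ρ σ) =
      ((χ σ : kˣ) : k) * LinearMap.trace k ρ.V (ρ.ρ σ) := by
    show LinearMap.trace k ρ.V (((χ σ : kˣ) : k) • ρ.ρ σ) = _
    rw [map_smul, smul_eq_mul]
  have h2 : LinearMap.det ((twistRes ρ χ hχ).ρ σ) =
      ((χ σ : kˣ) : k) ^ 2 * LinearMap.det (ρ.ρ σ) := by
    show LinearMap.det (((χ σ : kˣ) : k) • ρ.ρ σ) = _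
    rw [LinearMap.det_smul, ρ.finrank_eq]
  rw [h1, h2]

/-- A twist of an absolutely irreducible representation is absolutely irreducible. -/
theorem absIrr_twistRes {k : Type} [Field k] (ρ : ResidualGaloisRep k) (χ : GQ →* kˣ)
    (hχ : GaloisFactorsThroughFiniteLevel χ) (h : ρ.IsAbsolutelyIrreducible) :
    (twistRes ρ χ hχ).IsAbsolutelyIrreducible := by
  intro N hN
  refine h N (fun σ x hx => ?_)
  have h1 : (((χ σ : kˣ) : k) • ρ.ρ σ).baseChange (AlgebraicClosure k) x ∈ N := hN σ x hx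
  have h2 : (((χ σ : kˣ) : k) • ρ.ρ σ).baseChange (AlgebraicClosure k) x =
      algebraMap k (AlgebraicClosure k) ((χ σ : kˣ) : k) •
        (ρ.ρ σ).baseChange (AlgebraicClosure k) x := by
    rw [LinearMap.baseChange_smul, LinearMap.smul_apply, algebraMap_smul]
  have h3 : (ρ.ρ σ).baseChange (AlgebraicClosure k) x =
      algebraMap k (AlgebraicClosure k) (((χ σ)⁻¹ : kˣ) : k) •
        (((χ σ : kˣ) : k) • ρ.ρ σ).baseChange (AlgebraicClosure k) x := by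
    rw [h2, smul_smul, ← map_mul, Units.inv_mul, map_one, one_smul]
  exact (congrArg (fun z => z ∈ N) h3).mpr (N.smul_mem _ h1)

/-! ### The mod-3 cyclotomic character -/

/-- The mod-3 cyclotomic character (prelude `modThreeCyclotomicChar`). -/
noncomputable abbrev omega3 : GQ →* (ZMod 3)ˣ := WeierstrassCurve.modThreeCyclotomicChar

/-- The defining property of `omega3`. -/
theorem omega3_spec (σ : GQ) (ζ : AlgebraicClosure ℚ) (hζ : ζ ^ 3 = 1) :
    σ ζ = ζ ^ ((omega3 σ : (ZMod 3)ˣ) : ZMod 3).val := by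
  have hu : IsUnit ζ := IsUnit.of_pow_eq_one hζ (by norm_num)
  obtain ⟨t, rfl⟩ := hu
  have ht : t ∈ rootsOfUnity 3 (AlgebraicClosure ℚ) := by
    rw [mem_rootsOfUnity]
    exact Units.ext (by simpa using hζ)
  exact modularCyclotomicCharacter.spec (AlgebraicClosure ℚ)
    (IsAlgClosed.card_rootsOfUnity_eq (AlgebraicClosure ℚ) 3)
    (σ : AlgebraicClosure ℚ ≃+* AlgebraicClosure ℚ) ht

/-- If `σ` acts on the cube roots of unity by `ζ ↦ ζ ^ c`, then `omega3 σ = c`. -/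
theorem omega3_unique (σ : GQ) (c : ZMod 3)
    (h : ∀ ζ : AlgebraicClosure ℚ, ζ ^ 3 = 1 → σ ζ = ζ ^ c.val) :
    ((omega3 σ : (ZMod 3)ˣ) : ZMod 3) = c := by
  refine (modularCyclotomicCharacter.unique (AlgebraicClosure ℚ)
    (IsAlgClosed.card_rootsOfUnity_eq (AlgebraicClosure ℚ) 3)
    (σ : AlgebraicClosure ℚ ≃+* AlgebraicClosure ℚ) (c := c) ?_).symm
  intro t ht
  have ht3 : ((t : (AlgebraicClosure ℚ)ˣ) : AlgebraicClosure ℚ) ^ 3 = 1 := by
    rw [mem_rootsOfUnity] at ht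
    have := congrArg (fun u : (AlgebraicClosure ℚ)ˣ => (u : AlgebraicClosure ℚ)) ht
    simpa using this
  exact h _ ht3

/-- `omega3` is of finite level. -/
theorem omega3_finiteLevel : GaloisFactorsThroughFiniteLevel omega3 := by
  obtain ⟨ζ, hζ, hζ1⟩ := Fermat.Agent.S58.H99.exists_root_ne_one Nat.prime_three
  have hζint : IsIntegral ℚ ζ :=
    IsIntegral.of_pow (by norm_num : 0 < 3) (by rw [hζ]; exact isIntegral_one)
  refine ⟨IntermediateField.adjoin ℚ {ζ}, IntermediateField.adjoin.finiteDimensional hζint,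
    fun σ hσ => ?_⟩
  have hfix : σ ζ = ζ := hσ ζ (IntermediateField.mem_adjoin_simple_self ℚ ζ)
  -- every cube root of unity is `1`, `ζ` or `ζ ^ 2`
  have hsq : ζ ^ 2 + ζ + 1 = 0 := by
    have h0 : (ζ - 1) * (ζ ^ 2 + ζ + 1) = 0 := by ring_nf; rw [hζ]; ring
    rcases mul_eq_zero.mp h0 with h | h
    · exact absurd (sub_eq_zero.mp h) hζ1
    · exact h
  have hall : ∀ ξ : AlgebraicClosure ℚ, ξ ^ 3 = 1 → σ ξ = ξ := by
    intro ξ hξ
    have h0 : (ξ - 1) * (ξ - ζ) * (ξ - ζ ^ 2) = 0 := by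
      have e : (ξ - 1) * (ξ - ζ) * (ξ - ζ ^ 2) =
          ξ ^ 3 - (ζ ^ 2 + ζ + 1) * ξ ^ 2 + (ζ ^ 3 + ζ ^ 2 + ζ) * ξ - ζ ^ 3 := by ring
      rw [e, hξ, hζ, hsq]
      have : (1 : AlgebraicClosure ℚ) + ζ ^ 2 + ζ = 0 := by rw [← hsq]; ring
      rw [this]; ring
    rcases mul_eq_zero.mp h0 with h | h
    · rcases mul_eq_zero.mp h with h | h
      · rw [sub_eq_zero.mp h, map_one]
      · rw [sub_eq_zero.mp h, hfix]
    · rw [sub_eq_zero.mp h, map_pow, hfix]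
  have h1 : ((omega3 σ : (ZMod 3)ˣ) : ZMod 3) = 1 := by
    refine omega3_unique σ 1 (fun ξ hξ => ?_)
    rw [hall ξ hξ]
    have : (1 : ZMod 3).val = 1 := rfl
    rw [this, pow_one]
  exact Units.ext h1

/-- The value of `omega3` at a Frobenius element at `ℓ ≠ 3`. -/
theorem omega3_frob (B : ValuationSubring (AlgebraicClosure ℚ)) (σ : GQ) {ℓ : ℕ}
    (hℓ : ℓ.Prime) (hℓ3 : ℓ ≠ 3) (hB : B.LiesOverPrime ℓ) (hσ : B.IsFrobeniusAt σ ℓ) :
    ((omega3 σ : (ZMod 3)ˣ) : ZMod 3) = (ℓ : ZMod 3) := by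
  refine omega3_unique σ (ℓ : ZMod 3) (fun ξ hξ => ?_)
  rw [Fermat.Agent.S58.H99.frobenius_root B σ hℓ Nat.prime_three (Ne.symm hℓ3) hB hσ ξ hξ]
  -- `ξ ^ ℓ = ξ ^ (ℓ mod 3)`
  rw [ZMod.val_natCast]
  conv_lhs => rw [← Nat.div_add_mod ℓ 3]
  rw [pow_add, pow_mul, hξ, one_pow, one_mul]

/-! ### `W[3] ⊗ ω` -/

/-- `W[3]` is absolutely irreducible if it is irreducible. -/
theorem absIrr_torsRes (W : WeierstrassCurve ℤ) (hΔ : W.Δ ≠ 0)
    (h3 : W.ModRepIsIrreducible 3) :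
    (Fermat.Agent.S58.H99.torsRes W hΔ 3).IsAbsolutelyIrreducible := by
  obtain ⟨g, hg⟩ := Fermat.Agent.S58.H99.exists_gram_ne_zero_of_span
    (Fermat.Agent.S58.H99.finrank_torsW W hΔ 3) (Fermat.Agent.S58.H99.torsRho W 3)
    (Fermat.Agent.S58.H99.span_torsRho W hΔ 3 (by norm_num) h3)
  exact Fermat.Agent.S58.H99.isAbsolutelyIrreducible_of_gram
    (Fermat.Agent.S58.H99.torsRes W hΔ 3) g hg

/-- `W[3] ⊗ ω` as a residual representation over `ZMod 3`. -/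
noncomputable def torsTw (W : WeierstrassCurve ℤ) (hΔ : W.Δ ≠ 0) : ResidualGaloisRep (ZMod 3) :=
  twistRes (Fermat.Agent.S58.H99.torsRes W hΔ 3) omega3 omega3_finiteLevel

theorem torsTw_rho (W : WeierstrassCurve ℤ) (hΔ : W.Δ ≠ 0) (σ : GQ) :
    (torsTw W hΔ).ρ σ =
      ((omega3 σ : (ZMod 3)ˣ) : ZMod 3) • Fermat.Agent.S58.H99.torsRho W 3 σ :=
  rfl

theorem absIrr_torsTw (W : WeierstrassCurve ℤ) (hΔ : W.Δ ≠ 0) (h3 : W.ModRepIsIrreducible 3) :
    (torsTw W hΔ).IsAbsolutelyIrreducible :=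
  absIrr_twistRes _ _ _ (absIrr_torsRes W hΔ h3)

theorem chiNegThree_cast (n : ℕ) :
    ((EisensteinWeightOne.chiNegThree n : ℤ) : ZMod 3) = (n : ZMod 3) := by
  have hn : (n : ZMod 3) = ((n % 3 : ℕ) : ZMod 3) := by
    rw [ZMod.natCast_mod]
  rw [hn]
  unfold EisensteinWeightOne.chiNegThree
  have h : n % 3 = 0 ∨ n % 3 = 1 ∨ n % 3 = 2 := by omega
  rcases h with h | h | h
  · simp [h]
  · simp [h]
  · simp [h]
    decide

/-- Frobenius characteristic polynomials of `W[3] ⊗ ω` at the good primes `ℓ ≠ 3`. -/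
theorem charpoly_torsTw (W : WeierstrassCurve ℤ) (hΔ : W.Δ ≠ 0) (ℓ : ℕ) (hℓ : ℓ.Prime)
    (hℓ3 : ℓ ≠ 3) (hgood : W.IsGoodPrimeFor ℓ)
    (B : ValuationSubring (AlgebraicClosure ℚ)) (hB : B.LiesOverPrime ℓ)
    (σ : GQ) (hσ : B.IsFrobeniusAt σ ℓ) :
    LinearMap.charpoly ((torsTw W hΔ).ρ σ) =
      X ^ 2 - C (((twist W.apOfModel ℓ : ℤ) : ZMod 3)) * X + C ((ℓ : ZMod 3)) := by
  obtain ⟨-, htr, hdet⟩ :=
    Fermat.Agent.Lib.EllFinite.stmt_main W 3 ℓ hℓ (Ne.symm hℓ3) hgood B hB σ hσ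
  have htr' : LinearMap.trace (ZMod 3) (Fermat.Agent.S58.H99.torsRes W hΔ 3).V
      ((Fermat.Agent.S58.H99.torsRes W hΔ 3).ρ σ) = ((W.apOfModel ℓ : ℤ) : ZMod 3) := htr
  have hdet' : LinearMap.det ((Fermat.Agent.S58.H99.torsRes W hΔ 3).ρ σ) = (ℓ : ZMod 3) := hdet
  unfold torsTw
  rw [charpoly_twistRes, htr', hdet', omega3_frob B σ hℓ hℓ3 hB hσ]
  have e1 : (ℓ : ZMod 3) * ((W.apOfModel ℓ : ℤ) : ZMod 3) =
      ((twist W.apOfModel ℓ : ℤ) : ZMod 3) := by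
    show _ = ((EisensteinWeightOne.chiNegThree ℓ * W.apOfModel ℓ : ℤ) : ZMod 3)
    rw [Int.cast_mul, chiNegThree_cast]
  have e2 : (ℓ : ZMod 3) ^ 2 * (ℓ : ZMod 3) = (ℓ : ZMod 3) := by
    have : ∀ x : ZMod 3, x ^ 2 * x = x := by decide
    exact this _
  rw [e1, e2]

/-! ### The leaf -/

/-- **GAL-ISO**: a residual representation over `k` (of characteristic 3, via `j`) with the
Frobenius characteristic polynomials of the twisted system of `W` outside a finite set `S` is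
equivalent to `(W[3] ⊗ ω) ⊗ k`. -/
def Stmt_GALISO : Prop :=
  ∀ (W : WeierstrassCurve ℤ) (hΔ : W.Δ ≠ 0), W.ModRepIsIrreducible 3 →
    ∀ (k : Type) [Field k] (j : ZMod 3 →+* k) (U : ResidualGaloisRep k) (S : Finset ℕ),
      (∀ ℓ : ℕ, ℓ.Prime → ℓ ∉ S → ℓ ≠ 3 → W.IsGoodPrimeFor ℓ →
        ∀ B : ValuationSubring (AlgebraicClosure ℚ), B.LiesOverPrime ℓ →
          ∀ σ : GQ, B.IsFrobeniusAt σ ℓ →
            LinearMap.charpoly (U.ρ σ) =
              X ^ 2 - C (((twist W.apOfModel ℓ : ℤ) : k)) * X + C ((ℓ : k))) →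
      U.IsEquiv ((torsTw W hΔ).baseChangeAlong j)

theorem stmt_GALISO : Stmt_GALISO := by
  intro W hΔ h3 k _ j U S hU
  classical
  refine Fermat.Agent.S59.Datum.H57.stmt_ResEq k U _
    (S ∪ insert 3 W.Δ.natAbs.primeFactors)
    (Fermat.Agent.S59.Datum.H57.absIrr_baseChangeAlong j _ (absIrr_torsTw W hΔ h3)) ?_
  intro ℓ hℓ hℓS B hB σ hσ
  have hℓS' : ℓ ∉ S := fun h => hℓS (Finset.mem_union_left _ h)
  have hℓ3 : ℓ ≠ 3 := fun h =>
    hℓS (Finset.mem_union_right _ (h ▸ Finset.mem_insert_self _ _))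
  have hgood : W.IsGoodPrimeFor ℓ := by
    intro hdvd
    refine hℓS (Finset.mem_union_right _ (Finset.mem_insert_of_mem
      (Nat.mem_primeFactors.2 ⟨hℓ, ?_, ?_⟩)))
    · exact Int.natCast_dvd.1 hdvd
    · exact Int.natAbs_ne_zero.2 hΔ
  rw [hU ℓ hℓ hℓS' hℓ3 hgood B hB σ hσ, Fermat.Agent.S59.Asm.charpoly_bcAlong_resid,
    charpoly_torsTw W hΔ ℓ hℓ hℓ3 hgood B hB σ hσ]
  simp only [Polynomial.map_add, Polynomial.map_sub, Polynomial.map_mul, Polynomial.map_pow,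
    Polynomial.map_X, map_intCast, map_natCast, Polynomial.map_intCast, Polynomial.map_natCast]

/-- **GAL-ISO**, in the form used after `ResSys (twist W.apOfModel) W.IsGoodPrimeFor M'`: a
residual representation attached to an eigenform `h` of level `M' > 0` whose eigenvalues are
congruent to the twisted system of `W` is equivalent to `(W[3] ⊗ ω) ⊗ k`. -/
theorem galIso_of_attached (W : WeierstrassCurve ℤ) (hΔ : W.Δ ≠ 0)
    (h3 : W.ModRepIsIrreducible 3) {M' : ℕ} (hM' : 0 < M')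
    (h : CuspForm (CongruenceSubgroup.Gamma0 M') 2) (𝔪 : Ideal (integralClosure ℤ ℂ))
    (hcong : ∀ ℓ : ℕ, ℓ.Prime → W.IsGoodPrimeFor ℓ → ¬ ℓ ∣ M' → ℓ ≠ 3 →
      ∃ c : integralClosure ℤ ℂ, (c : ℂ) = ModularFormClass.qCoeff h ℓ ∧
        c - ((twist W.apOfModel ℓ : ℤ) : integralClosure ℤ ℂ) ∈ 𝔪)
    (k : Type) [Field k] (j : ZMod 3 →+* k) (φ : integralClosure ℤ ℂ →+* k)
    (hφ : 𝔪 ≤ RingHom.ker φ) (U : ResidualGaloisRep k) (hU : U.IsAttachedTo h φ) :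
    U.IsEquiv ((torsTw W hΔ).baseChangeAlong j) := by
  refine stmt_GALISO W hΔ h3 k j U M'.primeFactors ?_
  intro ℓ hℓ hℓS hℓ3 hgood B hB σ hσ
  have hndvd : ¬ ℓ ∣ M' := fun hd => hℓS (Nat.mem_primeFactors.2 ⟨hℓ, hd, hM'.ne'⟩)
  have hℓk : (ℓ : k) ≠ 0 := by
    have h1 : (ℓ : ZMod 3) ≠ 0 := by
      intro h0
      rw [ZMod.natCast_eq_zero_iff] at h0
      exact hℓ3 ((Nat.prime_dvd_prime_iff_eq Nat.prime_three hℓ).mp h0).symm
    have h2 : j (ℓ : ZMod 3) ≠ 0 := fun h0 => h1 ((map_eq_zero j).mp h0)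
    rwa [map_natCast] at h2
  obtain ⟨a, ha, hcp⟩ := hU ℓ hℓ hndvd hℓk B hB σ hσ
  obtain ⟨c, hc, hcm⟩ := hcong ℓ hℓ hgood hndvd hℓ3
  have hac : a = c := Subtype.ext (ha.trans hc.symm)
  have hφa : φ a = ((twist W.apOfModel ℓ : ℤ) : k) := by
    have h0 : φ (c - ((twist W.apOfModel ℓ : ℤ) : integralClosure ℤ ℂ)) = 0 :=
      RingHom.mem_ker.mp (hφ hcm)
    rw [map_sub, map_intCast, sub_eq_zero] at h0
    rw [hac, h0]
  rw [hcp, hφa]

/-- What an equivalence with `(W[3] ⊗ ω) ⊗ k` says elementwise. -/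
theorem equiv_apply (W : WeierstrassCurve ℤ) (hΔ : W.Δ ≠ 0) {k : Type} [Field k]
    (j : ZMod 3 →+* k) (U : ResidualGaloisRep k)
    (e : ResidualGaloisRep.Equiv U ((torsTw W hΔ).baseChangeAlong j)) (σ : GQ) (x : U.V) :
    e.toLinearEquiv (U.ρ σ x) =
      ((torsTw W hΔ).baseChangeAlong j).ρ σ (e.toLinearEquiv x) :=
  e.map_apply σ x

end Fermat.Agent.W.LL3.H88
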