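import Fermat.Agent.W.LL3.H28_Loc3h
import Fermat.Agent.W.LL3.H16_OrdRes
import Fermat.Agent.W.LL3.H16_FlatRes
import Fermat.Agent.W.LL3.H88_GalIso
import Fermat.Agent.Tate.T7.H7_TWT

/-!
# W-CHAIN, gap LL3, leaf LOC3-h in EXPLICIT form (helper28; route (A) of the TWX arbitration)

`loc3h_explicit` : for `W` semistable with irreducible mod-3 representation and the twisted system
in level `3 * M₀` (`3 ∤ M₀`), the EXPLICIT representation `detTwist (torsRep W 3 hcard hker)`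
(`W[3]` twisted by its determinant) has the flat shape or the ordinary shape.

`loc3h_torsW` : the packaged form consumed by `twxloc_core` (helper99): there are `U` and a linear
equivalence `e : U.V ≃ₗ TorsW W 3` with `e (U.ρ σ u) = omega3 σ • (σ • e u)` and
`FlatShape U ∨ OrdShape U`.  No Galois isomorphism is used.

The proof is the one of `H28.loc3h_of` (front end of helper71's `S39/H71_OldNewP.lean`), with the
representation kept explicit.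
-/

set_option autoImplicit false
set_option linter.unusedSectionVars false
set_option linter.unusedVariables false
set_option linter.style.haveILetI false
set_option maxHeartbeats 1000000
set_option synthInstance.maxHeartbeats 400000

open Polynomial IsLocalRing CuspForm
open WeierstrassCurve WeierstrassCurve.Affine
open scoped TensorProduct WeierstrassCurve.Affine

namespace Fermat.Agent.W.LL3.H28

open Fermat.Agent.W.LL3 Fermat.Agent.R

/-- **LOC3-h, explicit form**, from the two local transports. -/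
theorem loc3h_explicit_of (hO : Stmt_ORDRES) (hF : Stmt_FLATRES)
    (W : WeierstrassCurve ℤ) (hΔ : W.Δ ≠ 0) (hW : W.IsSemistableModel)
    (hirr : W.ModRepIsIrreducible 3) (M₀ : ℕ) (hM₀ : 0 < M₀) (h3M₀ : ¬ 3 ∣ M₀)
    (hmod : ResSys (twist W.apOfModel) W.IsGoodPrimeFor (3 * M₀))
    (hcard₁ : Nat.card (Submodule.torsionBy ℤ
      ((W.map (Int.castRingHom ℚ))⁄(AlgebraicClosure ℚ)).Point 3) = 3 ^ 2)
    (hker : GaloisFactorsThroughFiniteLevel
      (WeierstrassCurve.Affine.Point.galoisRepModuleEnd (K := AlgebraicClosure ℚ) ℚ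
        (W.map (Int.castRingHom ℚ)) 3)) :
    FlatShape (detTwist (Fermat.Agent.S59.LL.H77.torsRep W 3 hcard₁ hker)) ∨
      OrdShape (detTwist (Fermat.Agent.S59.LL.H77.torsRep W 3 hcard₁ hker)) := by
  classical
  have hp : (3 : ℕ).Prime := Nat.prime_three
  have hp2 : (3 : ℕ) ≠ 2 := by norm_num
  haveI : Fact (3 : ℕ).Prime := ⟨hp⟩
  have hM : 0 < 3 * M₀ := by omega
  haveI : NeZero (3 * M₀) := ⟨hM.ne'⟩
  haveI : NeZero M₀ := ⟨hM₀.ne'⟩
  obtain ⟨f, 𝔪, hf, h𝔪, hp𝔪, hcong⟩ := hmod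
  -- the set `S`
  set S : Finset ℕ := (3 * M₀).primeFactors with hS
  have hNS : ∀ q : ℕ, q.Prime → q ∣ 3 * M₀ → q ∈ S := fun q hq hqM =>
    Nat.mem_primeFactors.mpr ⟨hq, hqM, hM.ne'⟩
  have hpS : 3 ∈ S := hNS 3 hp (Dvd.intro M₀ rfl)
  have hNS₀ : ∀ q : ℕ, q.Prime → q ∣ M₀ → q ∈ S := fun q hq hqM =>
    hNS q hq (Dvd.dvd.mul_left hqM 3)
  have hSM : ∀ ℓ : ℕ, ℓ.Prime → ¬ ℓ ∣ 3 * M₀ → ℓ ∉ (↑S : Set ℕ) := fun ℓ hℓ hℓM h =>
    hℓM (Nat.dvd_of_mem_primeFactors (Finset.mem_coe.1 h))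
  -- the eigen-character
  obtain ⟨χg, hχg⟩ := Fermat.Agent.R.H99.stmt_eigenChar (3 * M₀) (↑S : Set ℕ) f hf
  let R : Subring (integralClosure ℤ ℂ) := χg.range
  haveI hfinT : Module.Finite ℤ (CuspForm.heckeAlgebra (3 * M₀) 2 (↑S : Set ℕ)) :=
    Fermat.Agent.S22.result (3 * M₀) 2 _
  haveI hfinR : Module.Finite ℤ R :=
    Module.Finite.of_surjective (χg.rangeRestrict.toIntAlgHom.toLinearMap)
      χg.rangeRestrict_surjective
  let P : Ideal R := 𝔪.comap R.subtype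
  have hsubint : R.subtype.IsIntegral := by
    intro x
    have hx : IsIntegral ℤ x := Algebra.IsIntegral.isIntegral x
    obtain ⟨q, hq, hqx⟩ := hx
    refine ⟨q.map (Int.castRingHom R), hq.map _, ?_⟩
    rw [Polynomial.eval₂_map]
    have : R.subtype.comp (Int.castRingHom R) = algebraMap ℤ (integralClosure ℤ ℂ) :=
      RingHom.ext_int _ _
    rw [this]
    exact hqx
  haveI := h𝔪
  haveI hPmax : P.IsMaximal :=
    Ideal.isMaximal_comap_of_isIntegral_of_isMaximal' R.subtype hsubint 𝔪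
  obtain ⟨𝒪', iCR, iD, iDVR, iAC, iFin, iCZ, ι, hιinj, hιcomap⟩ :=
    Fermat.Agent.R.H2.stmt_PDVR R P
  have hPmem : ∀ r : R, r ∈ P → ι r ∈ maximalIdeal 𝒪' := by
    intro r hr
    have : r ∈ (maximalIdeal 𝒪').comap ι := hιcomap ▸ hr
    exact this
  have hp𝒪' : ((3 : ℕ) : 𝒪') ∈ maximalIdeal 𝒪' := by
    have hpP : ((3 : ℕ) : R) ∈ P := by
      show R.subtype ((3 : ℕ) : R) ∈ 𝔪
      rw [map_natCast]; exact hp𝔪
    have := hPmem _ hpP
    rwa [map_natCast] at this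
  let χ : CuspForm.heckeAlgebra (3 * M₀) 2 (↑S : Set ℕ) →+* 𝒪' := ι.comp χg.rangeRestrict
  -- the Galois representation
  obtain ⟨𝒪'', iCR'', iD'', iDVR'', iAC'', iFin'', iCZ'', iAlg, iMF, iLH, hinj'', ρ, hchar, hunr⟩ :=
    Fermat.Agent.R.H33.stmt_S30 3 (3 * M₀) S hpS hNS 𝒪' hp𝒪' χ
  have hloc : ∀ x : 𝒪', x ∈ maximalIdeal 𝒪' → algebraMap 𝒪' 𝒪'' x ∈ maximalIdeal 𝒪'' := by
    intro x hx
    rw [mem_maximalIdeal, mem_nonunits_iff] at hx ⊢
    exact fun hu => hx (isUnit_of_map_unit (algebraMap 𝒪' 𝒪'') _ hu)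
  have hp𝒪'' : ((3 : ℕ) : 𝒪'') ∈ maximalIdeal 𝒪'' := by
    have := hloc _ hp𝒪'
    rwa [map_natCast] at this
  let χ'' : CuspForm.heckeAlgebra (3 * M₀) 2 (↑S : Set ℕ) →+* 𝒪'' := (algebraMap 𝒪' 𝒪'').comp χ
  have hρ : HasFrobCharpoly χ'' ρ := fun ℓ hℓ hℓN hℓS B hB σ hσ =>
    hchar ℓ hℓ hℓN hℓS B hB σ hσ
  -- the congruence (twisted system)
  have hχW : ∀ (ℓ : ℕ) (hℓ : ℓ.Prime) (hℓM : ¬ ℓ ∣ 3 * M₀) (hℓS : ℓ ∉ (↑S : Set ℕ)),
      W.IsGoodPrimeFor ℓ →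
        χ'' (heckeAlgebra.T hℓ hℓM hℓS) -
          ((EisensteinWeightOne.chiNegThree ℓ * W.apOfModel ℓ : ℤ) : 𝒪'') ∈
            maximalIdeal 𝒪'' := by
    intro ℓ hℓ hℓM hℓS hgood
    have hℓp : ℓ ≠ 3 := fun h => hℓS (Finset.mem_coe.2 (h ▸ hpS))
    obtain ⟨a, ha, ham⟩ := hcong ℓ hℓ hgood hℓM hℓp
    have hae : a = χg (heckeAlgebra.T hℓ hℓM hℓS) :=
      Subtype.ext (ha.trans (hχg ℓ hℓ hℓM hℓS).symm)
    have h1 : χg.rangeRestrict (heckeAlgebra.T hℓ hℓM hℓS) -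
        ((EisensteinWeightOne.chiNegThree ℓ * W.apOfModel ℓ : ℤ) : R) ∈ P := by
      show R.subtype (χg.rangeRestrict (heckeAlgebra.T hℓ hℓM hℓS) -
        ((EisensteinWeightOne.chiNegThree ℓ * W.apOfModel ℓ : ℤ) : R)) ∈ 𝔪
      rw [map_sub, map_intCast]
      rw [hae] at ham
      exact ham
    have h2 := hloc _ (hPmem _ h1)
    rwa [map_sub, map_intCast, map_sub, map_intCast] at h2
  -- the residue field
  have hchar' : CharP (ResidueField 𝒪'') 3 :=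
    Fermat.Agent.S58.H99.charP_residueField hp hp𝒪''
  let j : ZMod 3 →+* ResidueField 𝒪'' := ZMod.castHom (dvd_refl 3) (ResidueField 𝒪'')
  letI : Algebra (ZMod 3) (ResidueField 𝒪'') := j.toAlgebra
  -- `E[3]` and its twist
  let ρ₀ : ResidualGaloisRep (ZMod 3) := Fermat.Agent.S59.LL.H77.torsRep W 3 hcard₁ hker
  let U : ResidualGaloisRep (ZMod 3) := detTwist ρ₀
  let ρ₁ : ResidualGaloisRep (ResidueField 𝒪'') := U.baseChangeAlong j
  -- trace and determinant of `U` at the Frobenius elements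
  have hUfrob : ∀ ℓ : ℕ, ℓ.Prime → ℓ ≠ 3 → W.IsGoodPrimeFor ℓ →
      ∀ B : ValuationSubring (AlgebraicClosure ℚ), B.LiesOverPrime ℓ →
        ∀ σ : GQ28, B.IsFrobeniusAt σ ℓ →
          LinearMap.trace (ZMod 3) U.V (U.ρ σ) =
            ((EisensteinWeightOne.chiNegThree ℓ * W.apOfModel ℓ : ℤ) : ZMod 3) ∧
          LinearMap.det (U.ρ σ) = (ℓ : ZMod 3) := by
    intro ℓ hℓ hℓ3 hgood B hB σ hσ
    obtain ⟨-, htr, hdet⟩ :=
      Fermat.Agent.Lib.EllFinite.stmt_main W 3 ℓ hℓ hℓ3.symm hgood B hB σ hσ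
    have h1 : LinearMap.trace (ZMod 3) ρ₀.V (ρ₀.ρ σ) = ((W.apOfModel ℓ : ℤ) : ZMod 3) := htr
    have h2 : LinearMap.det (ρ₀.ρ σ) = (ℓ : ZMod 3) := hdet
    refine ⟨?_, ?_⟩
    · rw [trace_detTwist ρ₀ σ, h1, h2, Int.cast_mul, chiNegThree_cast]
    · rw [det_detTwist ρ₀ σ, h2, zmod3_pow_three]
  -- equal Frobenius characteristic polynomials
  have hfrob : ∀ ℓ : ℕ, ℓ.Prime → ℓ ∉ S ∪ W.Δ.natAbs.primeFactors →
      ∀ B : ValuationSubring (AlgebraicClosure ℚ), B.LiesOverPrime ℓ →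
        ∀ σ : GQ28, B.IsFrobeniusAt σ ℓ →
          LinearMap.charpoly (ρ.residual.ρ σ) = LinearMap.charpoly (ρ₁.ρ σ) := by
    intro ℓ hℓ hℓS' B hB σ hσ
    have hℓS : ℓ ∉ (↑S : Set ℕ) := fun h => hℓS' (Finset.mem_union_left _ (Finset.mem_coe.1 h))
    have hℓM : ¬ ℓ ∣ 3 * M₀ := fun h => hℓS (Finset.mem_coe.2 (hNS ℓ hℓ h))
    have hℓp : ℓ ≠ 3 := fun h => hℓS (Finset.mem_coe.2 (h ▸ hpS))
    have hgood : W.IsGoodPrimeFor ℓ := by
      intro hdvd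
      refine hℓS' (Finset.mem_union_right _ (Nat.mem_primeFactors.2 ⟨hℓ, ?_, ?_⟩))
      · exact Int.natCast_dvd.1 hdvd
      · exact Int.natAbs_ne_zero.2 hΔ
    have hres : residue 𝒪'' (χ'' (heckeAlgebra.T hℓ hℓM hℓS)) =
        j (((EisensteinWeightOne.chiNegThree ℓ * W.apOfModel ℓ : ℤ) : ZMod 3)) := by
      have h1 := (residue_eq_zero_iff _).2 (hχW ℓ hℓ hℓM hℓS hgood)
      rw [map_sub, sub_eq_zero, map_intCast] at h1
      rw [h1, map_intCast]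
    obtain ⟨hUt, hUd⟩ := hUfrob ℓ hℓ hℓp hgood B hB σ hσ
    rw [Fermat.Agent.S59.Asm.charpoly_resid, hρ ℓ hℓ hℓM hℓS B hB σ hσ,
      Fermat.Agent.S59.Asm.charpoly_bcAlong_resid,
      Fermat.Agent.R.H91.charpoly_eq_of_finrank_two U.finrank_eq (U.ρ σ), hUt, hUd]
    simp only [Polynomial.map_add, Polynomial.map_sub, Polynomial.map_mul, Polynomial.map_pow,
      Polynomial.map_X, Polynomial.map_C, hres, map_natCast, Polynomial.map_natCast]
  have hcp : ∀ g : GQ28, LinearMap.charpoly (ρ.residual.ρ g) = LinearMap.charpoly (ρ₁.ρ g) :=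
    Fermat.Agent.S59.Datum.H57.charpoly_eq_of_frob ρ.residual ρ₁ _ hfrob
  have htd : ∀ g : GQ28,
      LinearMap.trace (ResidueField 𝒪'') ρ.residual.V (ρ.residual.ρ g) =
        j (LinearMap.trace (ZMod 3) U.V (U.ρ g)) := by
    intro g
    obtain ⟨h1, -⟩ := Fermat.Agent.R.trace_det_eq_of_charpoly_eq ρ.residual.finrank_eq
      ρ₁.finrank_eq _ _ (hcp g)
    exact h1.trans (LinearMap.trace_baseChange (U.ρ g) (ResidueField 𝒪''))
  -- absolute irreducibility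
  have hspan₀ : Submodule.span (ZMod 3) (Set.range ρ₀.ρ) = ⊤ :=
    Fermat.Agent.S58.H99.span_torsRho W hΔ 3 hp2 hirr
  obtain ⟨g, hg⟩ := Fermat.Agent.S58.H99.exists_gram_ne_zero_of_span U.finrank_eq
    U.ρ (span_detTwist ρ₀ hspan₀)
  have habs : ρ.residual.IsAbsolutelyIrreducible := by
    apply Fermat.Agent.S58.H99.isAbsolutelyIrreducible_of_gram ρ.residual g
    have hmap : (Matrix.of fun a b =>
          LinearMap.trace (ResidueField 𝒪'') ρ.residual.V (ρ.residual.ρ (g a * g b))) =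
        (Matrix.of fun a b =>
          LinearMap.trace (ZMod 3) U.V (U.ρ (g a * g b))).map j := by
      ext a b
      simp only [Matrix.of_apply, Matrix.map_apply]
      exact htd (g a * g b)
    rw [hmap, ← RingHom.mapMatrix_apply, ← RingHom.map_det]
    exact fun h0 => hg ((map_eq_zero _).mp h0)
  -- the equivalence `ρ.residual ≅ U ⊗ k`
  have hequiv : ρ.residual.IsEquiv (U.baseChangeAlong j) := by
    obtain ⟨E⟩ := Fermat.Agent.S59.Datum.H57.isEquiv_of_charpoly_eq ρ₁ ρ.residual habs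
      (fun σ => (hcp σ).symm)
    exact ⟨E.symm⟩
  show FlatShape U ∨ OrdShape U
  by_cases hocc : OccursAtLevel χ'' M₀
  · -- the `3`-old case: flat
    left
    obtain ⟨χ₀, hχ₀⟩ := hocc
    have hρ₀ : HasFrobCharpoly χ₀ ρ := by
      intro ℓ hℓ hℓM₀ hℓS B hB σ hσ
      have hℓM : ¬ ℓ ∣ 3 * M₀ := fun h => hℓS (Finset.mem_coe.2 (hNS ℓ hℓ h))
      rw [hχ₀ ℓ hℓ hℓM hℓM₀ hℓS]
      exact hρ ℓ hℓ hℓM hℓS B hB σ hσ
    have hflat : ρ.IsFlatAt 3 :=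
      Fermat.Agent.S59.NonMin.H7.stmt_FlatPoint 3 M₀ S 𝒪'' hp hp2 hp𝒪'' h3M₀ hpS hNS₀ χ₀ ρ hρ₀
        habs
    exact hF U (Fermat.Agent.S59.Datum.H78.stmt_FlatDesc 3 hp (ZMod 3) U 𝒪'' j ρ hequiv hflat)
  · -- the `3`-new case: strictly ordinary
    right
    have hMM' : 3 * M₀ = M₀ * 3 := Nat.mul_comm 3 M₀
    have hso : ρ.IsStrictOrdinaryAt 3 :=
      Fermat.Agent.S33.New.H36.stmt_OrdNewStrict 3 (3 * M₀) M₀ S 𝒪'' hp hp2 hp𝒪'' hMM' h3M₀ hNS
        χ'' ρ hρ habs hocc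
    exact hO 𝒪'' ρ U j hequiv hso

/-- **LOC3-h, explicit form** (unconditional). -/
theorem loc3h_explicit
    (W : WeierstrassCurve ℤ) (hΔ : W.Δ ≠ 0) (hW : W.IsSemistableModel)
    (hirr : W.ModRepIsIrreducible 3) (M₀ : ℕ) (hM₀ : 0 < M₀) (h3M₀ : ¬ 3 ∣ M₀)
    (hmod : ResSys (twist W.apOfModel) W.IsGoodPrimeFor (3 * M₀))
    (hcard₁ : Nat.card (Submodule.torsionBy ℤ
      ((W.map (Int.castRingHom ℚ))⁄(AlgebraicClosure ℚ)).Point 3) = 3 ^ 2)
    (hker : GaloisFactorsThroughFiniteLevel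
      (WeierstrassCurve.Affine.Point.galoisRepModuleEnd (K := AlgebraicClosure ℚ) ℚ
        (W.map (Int.castRingHom ℚ)) 3)) :
    FlatShape (detTwist (Fermat.Agent.S59.LL.H77.torsRep W 3 hcard₁ hker)) ∨
      OrdShape (detTwist (Fermat.Agent.S59.LL.H77.torsRep W 3 hcard₁ hker)) :=
  loc3h_explicit_of
    Fermat.Agent.W.LL3.H16.stmt_OrdRes Fermat.Agent.W.LL3.H16.stmt_FlatRes
    W hΔ hW hirr M₀ hM₀ h3M₀ hmod hcard₁ hker

/-- The cardinality of `W[3]`. -/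
theorem card_tors3 (W : WeierstrassCurve ℤ) (hΔ : W.Δ ≠ 0) :
    Nat.card (Submodule.torsionBy ℤ
      ((W.map (Int.castRingHom ℚ))⁄(AlgebraicClosure ℚ)).Point 3) = 3 ^ 2 := by
  have hfr := Fermat.Agent.S58.H99.finrank_torsW W hΔ 3
  have : Module.Finite (ZMod 3) (Fermat.Agent.S58.H99.TorsW W 3) :=
    Module.finite_of_finrank_eq_succ hfr
  have h := Module.natCard_eq_pow_finrank (K := ZMod 3)
    (V := Fermat.Agent.S58.H99.TorsW W 3)
  rw [hfr, Nat.card_zmod] at h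
  exact h

/-- The determinant of `W[3]` is the mod-3 cyclotomic character. -/
theorem det_torsRho_eq_omega3 (W : WeierstrassCurve ℤ) (hΔ : W.Δ ≠ 0) (σ : GQ28) :
    LinearMap.det (Fermat.Agent.S58.H99.torsRho W 3 σ) = omega3 σ := by
  have h := Fermat.Agent.Tate.T7.H7.det_torsRho_of_cyc W 3 hΔ σ
    (((Fermat.Agent.W.LL3.H88.omega3 σ : (ZMod 3)ˣ) : ZMod 3).val)
    (fun μ hμ => Fermat.Agent.W.LL3.H88.omega3_spec σ μ hμ)
  rw [h, ZMod.natCast_zmod_val]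
  rfl

/-- The twisted `3`-torsion `W[3] ⊗ ω`, explicitly: `detTwist` of the `3`-torsion. -/
noncomputable def torsDetTw (W : WeierstrassCurve ℤ) (hΔ : W.Δ ≠ 0) :
    ResidualGaloisRep (ZMod 3) :=
  detTwist (Fermat.Agent.S59.LL.H77.torsRep W 3 (card_tors3 W hΔ)
    (Fermat.Agent.S58.H99.torsW_finiteLevel W hΔ 3))

/-- The underlying space of `torsDetTw` is `W[3]`. -/
noncomputable def torsDetTwEquiv (W : WeierstrassCurve ℤ) (hΔ : W.Δ ≠ 0) :
    (torsDetTw W hΔ).V ≃ₗ[ZMod 3] Fermat.Agent.S58.H99.TorsW W 3 :=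
  LinearEquiv.refl (ZMod 3) (Fermat.Agent.S58.H99.TorsW W 3)

theorem torsDetTwEquiv_rho (W : WeierstrassCurve ℤ) (hΔ : W.Δ ≠ 0) (σ : GQ28)
    (u : (torsDetTw W hΔ).V) :
    torsDetTwEquiv W hΔ ((torsDetTw W hΔ).ρ σ u) =
      omega3 σ • (σ • torsDetTwEquiv W hΔ u) := by
  have h1 : (torsDetTw W hΔ).ρ σ u =
      LinearMap.det (Fermat.Agent.S58.H99.torsRho W 3 σ) •
        (Fermat.Agent.S58.H99.torsRho W 3 σ) (torsDetTwEquiv W hΔ u) := rfl
  have h2 : torsDetTwEquiv W hΔ ((torsDetTw W hΔ).ρ σ u) = (torsDetTw W hΔ).ρ σ u := rfl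
  rw [h2, h1, det_torsRho_eq_omega3 W hΔ σ, Point.galoisRepModuleEnd_apply]

/-- **LOC3-h, packaged for `twxloc_core`** (helper99): the twisted `3`-torsion of `W` has the flat
shape or the ordinary shape. -/
theorem loc3h_torsW
    (W : WeierstrassCurve ℤ) (hΔ : W.Δ ≠ 0) (hW : W.IsSemistableModel)
    (hirr : W.ModRepIsIrreducible 3) (M₀ : ℕ) (hM₀ : 0 < M₀) (h3M₀ : ¬ 3 ∣ M₀)
    (hmod : ResSys (twist W.apOfModel) W.IsGoodPrimeFor (3 * M₀)) :
    ∃ (U : ResidualGaloisRep (ZMod 3)) (e : U.V ≃ₗ[ZMod 3] Fermat.Agent.S58.H99.TorsW W 3),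
      (∀ (σ : GQ28) (u : U.V), e (U.ρ σ u) = omega3 σ • (σ • e u)) ∧
        (FlatShape U ∨ OrdShape U) :=
  ⟨torsDetTw W hΔ, torsDetTwEquiv W hΔ, torsDetTwEquiv_rho W hΔ,
    loc3h_explicit W hΔ hW hirr M₀ hM₀ h3M₀ hmod _ _⟩

end Fermat.Agent.W.LL3.H28
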