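import Fermat.Agent.W.Chain.Defs

/-!
# W-CHAIN, gap LL3 (lowering at 3): top-level interface and wiring (helper4)

`Stmt_LL3` (`W/Chain/Defs.lean`) is the one link between the frozen S50 and the input of the
frozen S59 at `p = 3`.  This file cuts it into three independent packages:

* `Stmt_AS` (global, Ash-Stevens with the twist kept): a mod-3 system of eigenvalues that occurs
  in level `9K` occurs in level `3K`, possibly twisted by the quadratic character `χ₋₃`
  (`= ω`, the mod-3 cyclotomic character);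
* `Stmt_NONEIS` (Galois): the system of a curve with irreducible mod-3 representation is not
  Eisenstein, in the strong form used at the boundary (primes `ℓ ≡ 1 mod N`);
* `Stmt_TWX` (local at 3): for a semistable curve without inertia-fixed 3-torsion at 3 the TWISTED
  system does not occur in any level not divisible by `9`.

`ll3_of : Stmt_AS → Stmt_NONEIS → Stmt_TWX → Stmt_LL3` is proved here (induction on the level).
-/

set_option autoImplicit false

open WeierstrassCurve WeierstrassCurve.Affine WeierstrassCurve.Affine.Point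
open scoped WeierstrassCurve.Affine
open CuspForm

namespace Fermat.Agent.W.LL3

open Fermat.Agent.W.Chain

/-- The system `a` (an integer for every prime; only primes `ℓ` with `G ℓ`, `ℓ ∤ M`, `ℓ ≠ 3`
matter) occurs modulo a prime over `3` in the normalized eigenforms of weight 2 and level `M`. -/
def ResSys (a : ℕ → ℤ) (G : ℕ → Prop) (M : ℕ) : Prop :=
  ∃ (f : CuspForm (CongruenceSubgroup.Gamma0 M) 2) (𝔪 : Ideal (integralClosure ℤ ℂ)),
    f.IsNormalizedEigenform ∧ 𝔪.IsMaximal ∧ ((3 : ℕ) : integralClosure ℤ ℂ) ∈ 𝔪 ∧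
    ∀ ℓ : ℕ, ℓ.Prime → G ℓ → ¬ ℓ ∣ M → ℓ ≠ 3 →
      ∃ c : integralClosure ℤ ℂ, (c : ℂ) = ModularFormClass.qCoeff f ℓ ∧
        c - ((a ℓ : ℤ) : integralClosure ℤ ℂ) ∈ 𝔪

/-- Residual modularity at 3 is `ResSys` for the system of the curve. -/
theorem isResiduallyModularOfLevel_three_iff (W : WeierstrassCurve ℤ) (M : ℕ) :
    W.IsResiduallyModularOfLevel 3 M ↔ ResSys W.apOfModel W.IsGoodPrimeFor M :=
  Iff.rfl

/-- The twist of a system by `χ₋₃`. -/
def twist (a : ℕ → ℤ) : ℕ → ℤ := fun ℓ => EisensteinWeightOne.chiNegThree ℓ * a ℓ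

/-- Non-Eisenstein, in the form used at the boundary: for every modulus `N` there is a prime
`ℓ ≡ 1 mod N` in the good set with `a ℓ ≢ ℓ + 1 mod 3`. -/
def NonEis3 (a : ℕ → ℤ) (G : ℕ → Prop) : Prop :=
  ∀ N : ℕ, 0 < N → ∃ ℓ : ℕ, ℓ.Prime ∧ G ℓ ∧ ℓ ≡ 1 [MOD N] ∧ ¬ (3 : ℤ) ∣ a ℓ - ((ℓ : ℤ) + 1)

/-- The `3`-torsion of `W` has no nonzero point fixed by an inertia group at `3`
(the clause of the frozen S50). -/
def NoFixed3 (W : WeierstrassCurve ℤ) : Prop :=
  ∀ A : ValuationSubring (AlgebraicClosure ℚ), A.LiesOverPrime 3 →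
    ∀ x : Submodule.torsionBy ℤ
        ((W.map (Int.castRingHom ℚ))⁄(AlgebraicClosure ℚ)).Point (3 : ℕ),
      (∀ σ ∈ A.inertiaSubgroupIn ℚ, σ • x = x) → x = 0

/-- **AS** (Ash-Stevens with the twist kept): from level `9K` to level `3K`. -/
def Stmt_AS : Prop :=
  ∀ (a : ℕ → ℤ) (G : ℕ → Prop) (K : ℕ), 0 < K → NonEis3 a G →
    ResSys a G (9 * K) → ResSys a G (3 * K) ∨ ResSys (twist a) G (3 * K)

/-- **NONEIS**: the system of a curve with irreducible mod-3 representation is not Eisenstein. -/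
def Stmt_NONEIS : Prop :=
  ∀ W : WeierstrassCurve ℤ, W.Δ ≠ 0 → W.ModRepIsIrreducible 3 →
    NonEis3 W.apOfModel W.IsGoodPrimeFor

/-- **TWX** (exclusion of the twist, local at 3): for a semistable curve with irreducible mod-3
representation and no inertia-fixed 3-torsion at `3`, the twisted system does not occur in a
level not divisible by `9`. -/
def Stmt_TWX : Prop :=
  ∀ W : WeierstrassCurve ℤ, W.Δ ≠ 0 → W.IsSemistableModel → W.ModRepIsIrreducible 3 →
    NoFixed3 W → ∀ M' : ℕ, 0 < M' → ¬ 3 ^ 2 ∣ M' →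
      ¬ ResSys (twist W.apOfModel) W.IsGoodPrimeFor M'

/-! ### Wiring -/

theorem chiNegThree_sq {ℓ : ℕ} (hℓ : ℓ.Prime) (h3 : ℓ ≠ 3) :
    EisensteinWeightOne.chiNegThree ℓ * EisensteinWeightOne.chiNegThree ℓ = 1 := by
  have h0 : ℓ % 3 ≠ 0 := by
    intro h
    have hd : 3 ∣ ℓ := Nat.dvd_of_mod_eq_zero h
    rcases (Nat.dvd_prime hℓ).1 hd with h | h
    · omega
    · exact h3 h.symm
  unfold EisensteinWeightOne.chiNegThree
  have : ℓ % 3 = 1 ∨ ℓ % 3 = 2 := by omega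
  rcases this with h | h <;> simp [h]

theorem chiNegThree_of_modEq_one {ℓ N : ℕ} (h : ℓ ≡ 1 [MOD 3 * N]) :
    EisensteinWeightOne.chiNegThree ℓ = 1 := by
  have h3 : ℓ ≡ 1 [MOD 3] := h.of_mul_right N
  have : ℓ % 3 = 1 := by simpa [Nat.ModEq] using h3
  simp [EisensteinWeightOne.chiNegThree, this]

theorem resSys_congr {a b : ℕ → ℤ} {G : ℕ → Prop} {M : ℕ}
    (hab : ∀ ℓ : ℕ, ℓ.Prime → ℓ ≠ 3 → a ℓ = b ℓ) (h : ResSys a G M) : ResSys b G M := by
  obtain ⟨f, 𝔪, hf, h𝔪, h3, hc⟩ := h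
  refine ⟨f, 𝔪, hf, h𝔪, h3, fun ℓ hℓ hG hM hℓ3 => ?_⟩
  obtain ⟨c, hc1, hc2⟩ := hc ℓ hℓ hG hM hℓ3
  exact ⟨c, hc1, by rw [← hab ℓ hℓ hℓ3]; exact hc2⟩

theorem resSys_twist_twist {a : ℕ → ℤ} {G : ℕ → Prop} {M : ℕ}
    (h : ResSys (twist (twist a)) G M) : ResSys a G M := by
  refine resSys_congr (fun ℓ hℓ h3 => ?_) h
  show EisensteinWeightOne.chiNegThree ℓ * (EisensteinWeightOne.chiNegThree ℓ * a ℓ) = a ℓ
  rw [← mul_assoc, chiNegThree_sq hℓ h3, one_mul]

theorem nonEis3_twist {a : ℕ → ℤ} {G : ℕ → Prop} (h : NonEis3 a G) : NonEis3 (twist a) G := by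
  intro N hN
  obtain ⟨ℓ, hℓ, hG, hmod, hnd⟩ := h (3 * N) (by omega)
  refine ⟨ℓ, hℓ, hG, hmod.of_mul_left 3, ?_⟩
  show ¬ (3 : ℤ) ∣ EisensteinWeightOne.chiNegThree ℓ * a ℓ - ((ℓ : ℤ) + 1)
  rw [chiNegThree_of_modEq_one hmod, one_mul]
  exact hnd

/-- Iterating `Stmt_AS`: a system that occurs (twisted or not) in level `M` occurs (twisted or
not) in a level `M' ∣ M` not divisible by `9`. -/
theorem lower_of_AS (hAS : Stmt_AS) (a : ℕ → ℤ) (G : ℕ → Prop) (hNE : NonEis3 a G) :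
    ∀ M : ℕ, 0 < M → (ResSys a G M ∨ ResSys (twist a) G M) →
      ∃ M' : ℕ, 0 < M' ∧ M' ∣ M ∧ ¬ 3 ^ 2 ∣ M' ∧ (ResSys a G M' ∨ ResSys (twist a) G M') := by
  intro M
  induction M using Nat.strong_induction_on with
  | _ M ih =>
    intro hM h
    by_cases h9 : 3 ^ 2 ∣ M
    · obtain ⟨K, rfl⟩ := h9
      have hK : 0 < K := by
        rcases Nat.eq_zero_or_pos K with h0 | h0
        · subst h0; simp at hM
        · exact h0
      have h9K : (3 ^ 2 * K) = 9 * K := by norm_num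
      rw [h9K] at h
      have hstep : ResSys a G (3 * K) ∨ ResSys (twist a) G (3 * K) := by
        rcases h with h | h
        · exact hAS a G K hK hNE h
        · rcases hAS (twist a) G K hK (nonEis3_twist hNE) h with h' | h'
          · exact Or.inr h'
          · exact Or.inl (resSys_twist_twist h')
      obtain ⟨M', hM', hdvd, hn9, hres⟩ := ih (3 * K) (by omega) (by omega) hstep
      exact ⟨M', hM', hdvd.trans ⟨3, by ring⟩, hn9, hres⟩
    · exact ⟨M, hM, dvd_rfl, h9, h⟩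

/-- **The lowering at 3 from the three packages.** -/
theorem ll3_of (hAS : Stmt_AS) (hNE : Stmt_NONEIS) (hTWX : Stmt_TWX) : Stmt_LL3 := by
  intro W hΔ hW h3 M hM _ hres hcube hfix
  obtain ⟨M', hM', hdvd, hn9, hres'⟩ :=
    lower_of_AS hAS W.apOfModel W.IsGoodPrimeFor (hNE W hΔ h3) M hM (Or.inl hres)
  refine ⟨M', hM', ?_, hn9, fun q hq hq3 hdq => hcube q hq hq3 (hdq.trans hdvd)⟩
  rcases hres' with h | h
  · exact h
  · exact (hTWX W hΔ hW h3 hfix M' hM' hn9 h).elim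

end Fermat.Agent.W.LL3
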