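import Fermat.Agent.Tate.T7.Main
import Fermat.Agent.W.LL3.Defs

/-!
# W-CHAIN, gap LL3, leaf W-ORD (helper38)

`W` a semistable integral Weierstrass curve, `A` a valuation subring of `Q̄` over `3`.
If `W` is multiplicative at `3`, or good at `3` with a `3`-torsion point outside the kernel of
reduction at `A` (good ordinary), then there is a subspace `T ≠ ⊤` of `W[3]` such that

* the inertia group `I_A` acts trivially on `W[3] / T`;
* every `σ ∈ I_A` acts on `T` through the determinant, i.e. through the mod `3` cyclotomic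
  character `ω`.

If moreover `W[3]` has no nonzero point fixed by `I_A` (the clause of the frozen S50), then `T` is
a line.  So `W[3] ⊗ ω` has an `I_A`-FIXED line with quotient character `ω`: this is the input of
FLAT-SPLIT in the package TWX.

Everything comes from the landed local packages of S59 (`Tate.T7`): `stmt_LOCbad`,
`stmt_LOCgood` (ordinary type `OrdAt`) and `det_torsRho_of_cyc`.
-/

set_option autoImplicit false

open WeierstrassCurve WeierstrassCurve.Affine

namespace Fermat.Agent.W.LL3.H38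

open Fermat.Agent.Tate Fermat.Agent.Tate.T7 Fermat.Agent.S58.H99

/-! ### Linear algebra in a plane -/

section Lin

variable {F : Type*} [Field F] {V : Type*} [AddCommGroup V] [Module F V]

/-- If `g - 1` maps the plane `V` into a proper subspace `T`, then `(g - det g)(g - 1) = 0`. -/
theorem sub_det_mul_sub_one (hV : Module.finrank F V = 2) (T : Submodule F V) (hT : T ≠ ⊤)
    (g : Module.End F V) (h : ∀ v, g v - v ∈ T) (w : V) :
    g (g w - w) = LinearMap.det g • (g w - w) := by
  have h0 : LinearMap.det (g - 1) = 0 :=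
    H7.end_det_eq_zero_of_range hV (g - 1) T hT (fun v => by
      simpa [LinearMap.sub_apply] using h v)
  have h1 := H7.end_det_sub_one hV g
  rw [h0] at h1
  have htr : LinearMap.trace F V g = 1 + LinearMap.det g := by linear_combination h1
  have hc := congrArg (fun f : Module.End F V => f w) (H7.end_cayley hV g)
  simp only [Module.End.mul_apply, LinearMap.sub_apply, LinearMap.smul_apply,
    Module.End.one_apply] at hc
  rw [map_sub, hc, htr, smul_sub, add_smul, one_smul]
  abel

/-- If `g - 1` maps the plane `V` into a proper subspace `T`, then `g` acts on `T` through its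
determinant. -/
theorem apply_eq_det_smul_of_mem (hV : Module.finrank F V = 2) (T : Submodule F V) (hT : T ≠ ⊤)
    (g : Module.End F V) (h : ∀ v, g v - v ∈ T) (v : V) (hv : v ∈ T) :
    g v = LinearMap.det g • v := by
  have hfin : Module.Finite F V := Module.finite_of_finrank_eq_succ hV
  by_cases hg : ∀ w, g w = w
  · have hg1 : g = 1 := LinearMap.ext hg
    rw [hg1, map_one, one_smul, Module.End.one_apply]
  · push Not at hg
    obtain ⟨w, hw⟩ := hg
    have ht0 : g w - w ≠ 0 := sub_ne_zero.mpr hw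
    have hlt : Module.finrank F T < 2 := by
      rw [← hV]
      exact Submodule.finrank_lt hT
    have hle : Module.finrank F T ≤ 1 := by omega
    obtain ⟨u, hu⟩ := finrank_le_one_iff.mp hle
    obtain ⟨a, ha⟩ := hu ⟨g w - w, h w⟩
    obtain ⟨b, hb⟩ := hu ⟨v, hv⟩
    have ha' : a • (u : V) = g w - w := congrArg Subtype.val ha
    have hb' : b • (u : V) = v := congrArg Subtype.val hb
    have ha0 : a ≠ 0 := by
      rintro rfl
      rw [zero_smul] at ha'
      exact ht0 ha'.symm
    have hvt : v = (b * a⁻¹) • (g w - w) := by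
      rw [← ha', smul_smul, mul_assoc, inv_mul_cancel₀ ha0, mul_one, hb']
    rw [hvt, map_smul, sub_det_mul_sub_one hV T hT g h w, smul_comm]

end Lin

/-! ### The ordinary line -/

/-- **Ordinary type at 3**: multiplicative reduction, or good reduction with a `3`-torsion point
outside the kernel of reduction, is of ordinary type (landed `Tate.T7` packages). -/
theorem ordAt_three (W : WeierstrassCurve ℤ) (hΔ : W.Δ ≠ 0) (hss : W.IsSemistableModel)
    (A : ValuationSubring Qb) (hA : A.LiesOverPrime 3)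
    (h : ¬ W.IsGoodPrimeFor 3 ∨ ¬ AllInKer W 3 A) : OrdAt W 3 A := by
  by_cases hgd : W.IsGoodPrimeFor 3
  · rcases h with h | h
    · exact absurd hgd h
    · exact H7.stmt_LOCgood W hΔ 3 Nat.prime_three (by norm_num) hgd A hA h
  · exact H14.stmt_LOCbad W hΔ hss 3 Nat.prime_three (by norm_num) hgd A hA

/-- **W-ORD**, first form. -/
def Stmt_WORD : Prop :=
  ∀ (W : WeierstrassCurve ℤ), W.Δ ≠ 0 → W.IsSemistableModel →
    ∀ A : ValuationSubring Qb, A.LiesOverPrime 3 →
      (¬ W.IsGoodPrimeFor 3 ∨ ¬ AllInKer W 3 A) →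
      ∃ T : Submodule (ZMod 3) (TorsW W 3), T ≠ ⊤ ∧
        (∀ σ ∈ A.inertiaSubgroupIn ℚ, ∀ v : TorsW W 3, σ • v - v ∈ T) ∧
        (∀ σ ∈ A.inertiaSubgroupIn ℚ, ∀ v ∈ T, σ • v ∈ T) ∧
        (∀ σ ∈ A.inertiaSubgroupIn ℚ, ∀ a : ℕ,
          (∀ μ : AlgebraicClosure ℚ, μ ^ 3 = 1 → σ μ = μ ^ a) →
            ∀ v ∈ T, σ • v = (a : ZMod 3) • v)

theorem stmt_WORD : Stmt_WORD := by
  intro W hΔ hss A hA hord
  obtain ⟨G', instG', c, ⟨P₀, hP₀, hcP₀⟩, hinv⟩ := ordAt_three W hΔ hss A hA hord
  have hV := finrank_torsW W hΔ 3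
  let cT : TorsW W 3 →+ G' :=
    c.comp (Submodule.torsionBy ℤ (EQbar W) ((3 : ℕ) : ℤ)).toAddSubgroup.subtype
  have hcT : ∀ v : TorsW W 3, cT v = c (v : EQbar W) := fun _ => rfl
  let T : Submodule (ZMod 3) (TorsW W 3) := AddSubgroup.toZModSubmodule 3 cT.ker
  have hmemT : ∀ v : TorsW W 3, v ∈ T ↔ c (v : EQbar W) = 0 := by
    intro v
    rw [AddSubgroup.mem_toZModSubmodule, AddMonoidHom.mem_ker, hcT]
  have hT : T ≠ ⊤ := by
    intro h
    have : (⟨P₀, H7.mem_torsW W 3 hP₀⟩ : TorsW W 3) ∈ T := by rw [h]; trivial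
    rw [hmemT] at this
    exact hcP₀ this
  have hI : ∀ σ ∈ A.inertiaSubgroupIn ℚ, ∀ v : TorsW W 3, σ • v - v ∈ T := by
    intro σ hσ v
    rw [hmemT]
    have e : (((σ • v - v : TorsW W 3)) : EQbar W) = σ • (v : EQbar W) - (v : EQbar W) := rfl
    rw [e, map_sub, hinv σ hσ, sub_self]
  have hI' : ∀ σ ∈ A.inertiaSubgroupIn ℚ, ∀ v : TorsW W 3, torsRho W 3 σ v - v ∈ T := by
    intro σ hσ v
    rw [Point.galoisRepModuleEnd_apply]
    exact hI σ hσ v
  refine ⟨T, hT, hI, ?_, ?_⟩
  · intro σ hσ v hv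
    have := T.add_mem (hI σ hσ v) hv
    simpa using this
  · intro σ hσ a ha v hv
    have h1 := apply_eq_det_smul_of_mem hV T hT (torsRho W 3 σ) (hI' σ hσ) v hv
    rw [H7.det_torsRho_of_cyc W 3 hΔ σ a ha, Point.galoisRepModuleEnd_apply] at h1
    exact h1

/-- **W-ORD**, final form: under the clause of the frozen S50 (no nonzero inertia-fixed point in
`W[3]`) the subspace is a line. -/
def Stmt_WORDLine : Prop :=
  ∀ (W : WeierstrassCurve ℤ), W.Δ ≠ 0 → W.IsSemistableModel → NoFixed3 W →
    ∀ A : ValuationSubring Qb, A.LiesOverPrime 3 →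
      (¬ W.IsGoodPrimeFor 3 ∨ ¬ AllInKer W 3 A) →
      ∃ T : Submodule (ZMod 3) (TorsW W 3), Module.finrank (ZMod 3) T = 1 ∧
        (∀ σ ∈ A.inertiaSubgroupIn ℚ, ∀ v : TorsW W 3, σ • v - v ∈ T) ∧
        (∀ σ ∈ A.inertiaSubgroupIn ℚ, ∀ v ∈ T, σ • v ∈ T) ∧
        (∀ σ ∈ A.inertiaSubgroupIn ℚ, ∀ a : ℕ,
          (∀ μ : AlgebraicClosure ℚ, μ ^ 3 = 1 → σ μ = μ ^ a) →
            ∀ v ∈ T, σ • v = (a : ZMod 3) • v)

theorem stmt_WORDLine : Stmt_WORDLine := by
  intro W hΔ hss hfix A hA hord
  obtain ⟨T, hT, hI, hst, hch⟩ := stmt_WORD W hΔ hss A hA hord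
  have hV := finrank_torsW W hΔ 3
  have hfin : Module.Finite (ZMod 3) (TorsW W 3) := Module.finite_of_finrank_eq_succ hV
  refine ⟨T, ?_, hI, hst, hch⟩
  have hlt : Module.finrank (ZMod 3) T < 2 := by
    rw [← hV]
    exact Submodule.finrank_lt hT
  have hpos : 0 < Module.finrank (ZMod 3) T := by
    rw [Module.finrank_pos_iff_exists_ne_zero]
    by_contra hno
    push Not at hno
    -- then `T = ⊥`, so inertia fixes every point
    have hbot : ∀ v : TorsW W 3, v ∈ T → v = 0 := fun v hv => by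
      have := hno ⟨v, hv⟩
      exact congrArg Subtype.val this
    have hnt : Nontrivial (TorsW W 3) := by
      apply Module.nontrivial_of_finrank_pos (R := ZMod 3)
      rw [hV]; norm_num
    obtain ⟨x, hx⟩ := exists_ne (0 : TorsW W 3)
    apply hx
    apply hfix A hA x
    intro σ hσ
    have := hbot _ (hI σ hσ x)
    exact sub_eq_zero.mp this
  omega

end Fermat.Agent.W.LL3.H38
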