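import Fermat.Agent.W.LL3.TwxDefs
import Fermat.Agent.S33.H86_FlatInf
import Fermat.Agent.Tate.T7.H52_Cyc

/-!
# LL3, package TWX, leaf FLAT-SPLIT (helper41)

A two-dimensional `𝔽₃`-representation `U` of `G_ℚ` which is FLAT at `3` (`FlatShape U`) and has a
nonzero vector `x₀` fixed by an inertia group `I` at `3`, with `I` acting on `U / ⟨x₀⟩` through
the mod-3 cyclotomic character `ω`, is SPLIT on `I`: there is a nonzero `z` with `σ z = ω(σ) z`
for all `σ ∈ I`.

Everything comes from the landed `Fermat.Agent.S33.H86.stmt_FlatInf` (`R.Stmt_FlatInf`: the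
infinitesimal points of a flat Galois module), applied with `N = ⊥`:

* `exists_inf`       : the subgroup `Inf` of a flat `U`: it contains `(σ - 1) U` for `σ ∈ I` and
                       no nonzero vector fixed by `I`;
* `exists_inertia_omega3_neg_one` : some `σ₀ ∈ I` has `ω(σ₀) = -1` (from `T7.H52.stmt_CYC`);
* `omega3_eq_of_pow` : `omega3 σ = a` when `σ μ = μ ^ a` on the cube roots of unity;
* `flatSplit`        : the leaf, `stmt_FLATSPLIT : Stmt_FLATSPLIT`.
-/

set_option autoImplicit false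

namespace Fermat.Agent.W.LL3.H41

open Fermat.Agent.W.LL3

/-- The absolute Galois group of `ℚ`. -/
local notation "GQ" => AlgebraicClosure ℚ ≃ₐ[ℚ] AlgebraicClosure ℚ

/-- **FLAT-SPLIT**. -/
def Stmt_FLATSPLIT : Prop :=
  ∀ U : ResidualGaloisRep (ZMod 3), FlatShape U →
    ∀ A : ValuationSubring (AlgebraicClosure ℚ), A.LiesOverPrime 3 →
      ∀ x₀ : U.V, x₀ ≠ 0 → (∀ σ ∈ A.inertiaSubgroupIn ℚ, U.ρ σ x₀ = x₀) →
        (∀ σ ∈ A.inertiaSubgroupIn ℚ, ∀ y : U.V, ∃ c : ZMod 3,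
          U.ρ σ y - omega3 σ • y = c • x₀) →
        ∃ z : U.V, z ≠ 0 ∧ ∀ σ ∈ A.inertiaSubgroupIn ℚ, U.ρ σ z = omega3 σ • z

/-- Scalars of `ZMod 3` preserve additive subgroups. -/
theorem zmod_smul_mem {V : Type} [AddCommGroup V] [Module (ZMod 3) V] (S : AddSubgroup V)
    (c : ZMod 3) {x : V} (hx : x ∈ S) : c • x ∈ S := by
  have h : c • x = c.val • x := by
    conv_lhs => rw [← ZMod.natCast_zmod_val c]
    exact Nat.cast_smul_eq_nsmul (ZMod 3) c.val x
  rw [h]
  exact S.nsmul_mem hx _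

/-- The subgroup of infinitesimal points of a flat `U` at the place `A` over `3`: it contains
`(σ - 1) U` for every `σ` in the inertia group, and it contains no nonzero vector fixed by the
inertia group. -/
theorem exists_inf (U : ResidualGaloisRep (ZMod 3)) (hU : FlatShape U)
    (A : ValuationSubring (AlgebraicClosure ℚ)) (hA : A.LiesOverPrime 3) :
    ∃ Inf : AddSubgroup U.V,
      (∀ σ ∈ A.inertiaSubgroupIn ℚ, ∀ x : U.V, U.ρ σ x - x ∈ Inf) ∧
      ∀ x ∈ Inf, (∀ σ ∈ A.inertiaSubgroupIn ℚ, U.ρ σ x = x) → x = 0 := by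
  obtain ⟨Inf, h1, h2⟩ := Fermat.Agent.S33.H86.stmt_FlatInf 3 Nat.prime_three (by decide)
    U.V (fun σ => U.ρ σ) hU A hA
  refine ⟨Inf, h1, fun x hx hfix => ?_⟩
  have h3 : (3 : ℕ) • x = 0 := by
    rw [← Nat.cast_smul_eq_nsmul (ZMod 3) 3 x]
    have : ((3 : ℕ) : ZMod 3) = 0 := by decide
    rw [this, zero_smul]
  have hmem : x ∈ (⊥ : AddSubgroup U.V) := by
    refine h2 ⊥ ?_ x hx ?_ ?_
    · intro σ _ y hy
      rw [AddSubgroup.mem_bot] at hy ⊢
      rw [hy, map_zero]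
    · rw [h3]; exact zero_mem _
    · intro σ hσ
      show U.ρ σ x - x ∈ (⊥ : AddSubgroup U.V)
      rw [hfix σ hσ, sub_self]; exact zero_mem _
  exact (AddSubgroup.mem_bot).1 hmem

/-- The value of `omega3` on an automorphism which squares the cube roots of unity. -/
theorem omega3_eq_of_pow (σ : GQ) (a : ℕ)
    (hσ : ∀ μ : AlgebraicClosure ℚ, μ ^ 3 = 1 → σ μ = μ ^ a) :
    omega3 σ = (a : ZMod 3) := by
  have hcard := IsAlgClosed.card_rootsOfUnity_eq (AlgebraicClosure ℚ) 3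
  have key : ((a : ZMod 3)) = ((modularCyclotomicCharacter (AlgebraicClosure ℚ) hcard
      (σ : AlgebraicClosure ℚ ≃+* AlgebraicClosure ℚ) : (ZMod 3)ˣ) : ZMod 3) := by
    refine modularCyclotomicCharacter.unique (AlgebraicClosure ℚ) hcard
      (σ : AlgebraicClosure ℚ ≃+* AlgebraicClosure ℚ) ?_
    intro t ht
    have ht3 : ((t : (AlgebraicClosure ℚ)ˣ) : AlgebraicClosure ℚ) ^ 3 = 1 := by
      have := (mem_rootsOfUnity 3 t).1 ht
      rw [← Units.val_pow_eq_pow_val, this, Units.val_one]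
    have h1 : σ (t : AlgebraicClosure ℚ) = (t : AlgebraicClosure ℚ) ^ a := hσ _ ht3
    have h2 : ((t : AlgebraicClosure ℚ)) ^ a = (t : AlgebraicClosure ℚ) ^ (a % 3) := by
      conv_lhs => rw [← Nat.div_add_mod a 3, pow_add, pow_mul, ht3, one_pow, one_mul]
    show (σ : AlgebraicClosure ℚ ≃+* AlgebraicClosure ℚ) (t : AlgebraicClosure ℚ) = _
    rw [ZMod.val_natCast]
    exact h1.trans h2
  unfold omega3
  rw [WeierstrassCurve.modThreeCyclotomicChar_apply]
  exact key.symm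

/-- Some element of the inertia group at `3` has `ω = -1`. -/
theorem exists_inertia_omega3_neg_one (A : ValuationSubring (AlgebraicClosure ℚ))
    (hA : A.LiesOverPrime 3) : ∃ σ₀ ∈ A.inertiaSubgroupIn ℚ, omega3 σ₀ = -1 := by
  obtain ⟨σ₀, hσ₀, h⟩ := Fermat.Agent.Tate.T7.H52.stmt_CYC 3 Nat.prime_three A hA 2 (by decide)
  refine ⟨σ₀, hσ₀, ?_⟩
  rw [omega3_eq_of_pow σ₀ 2 h]
  decide

/-- In a two-dimensional space some vector is outside the line of `x₀`. -/
theorem exists_not_mem_span (U : ResidualGaloisRep (ZMod 3)) (x₀ : U.V) :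
    ∃ y : U.V, ∀ c : ZMod 3, y ≠ c • x₀ := by
  by_contra hcon
  have hcon : ∀ y : U.V, ∃ c : ZMod 3, y = c • x₀ := by
    intro y
    by_contra hy
    exact hcon ⟨y, fun c hc => hy ⟨c, hc⟩⟩
  have htop : (Submodule.span (ZMod 3) {x₀} : Submodule (ZMod 3) U.V) = ⊤ := by
    rw [Submodule.eq_top_iff']
    intro y
    obtain ⟨c, hc⟩ := hcon y
    rw [hc]
    exact Submodule.smul_mem _ _ (Submodule.mem_span_singleton_self x₀)
  have h1 : Module.finrank (ZMod 3) (Submodule.span (ZMod 3) {x₀} : Submodule (ZMod 3) U.V) ≤ 1 := by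
    refine (finrank_span_le_card ({x₀} : Set U.V)).trans ?_
    simp
  rw [htop, finrank_top, U.finrank_eq] at h1
  omega

/-- **FLAT-SPLIT**: a flat `U` with an inertia-fixed vector `x₀ ≠ 0` and quotient character `ω`
has a nonzero vector on which inertia acts through `ω`. -/
theorem flatSplit : Stmt_FLATSPLIT := by
  intro U hU A hA x₀ hx₀ hfix hquot
  obtain ⟨Inf, h1, h2⟩ := exists_inf U hU A hA
  have hx₀Inf : x₀ ∉ Inf := fun h => hx₀ (h2 x₀ h hfix)
  obtain ⟨σ₀, hσ₀, hω₀⟩ := exists_inertia_omega3_neg_one A hA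
  obtain ⟨y, hy⟩ := exists_not_mem_span U x₀
  obtain ⟨c, hc⟩ := hquot σ₀ hσ₀ y
  rw [hω₀] at hc
  -- `z = σ₀ y - y = y + c x₀`
  have h3 : (3 : ZMod 3) = 0 := by decide
  have hz : U.ρ σ₀ y - y = y + c • x₀ := by
    have e1 : U.ρ σ₀ y = c • x₀ + (-1 : ZMod 3) • y := by
      rw [← hc]; abel
    rw [e1]
    have e2 : c • x₀ + (-1 : ZMod 3) • y - y = y + c • x₀ + (-(3 : ZMod 3)) • y := by module
    rw [e2, h3, neg_zero, zero_smul, add_zero]
  refine ⟨U.ρ σ₀ y - y, ?_, ?_⟩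
  · rw [hz]
    intro h0
    refine hy (-c) ?_
    rw [neg_smul]
    exact eq_neg_of_add_eq_zero_left h0
  · intro σ hσ
    set z : U.V := U.ρ σ₀ y - y with hzdef
    have hzInf : z ∈ Inf := h1 σ₀ hσ₀ y
    obtain ⟨c', hc'⟩ := hquot σ hσ z
    have hmem : c' • x₀ ∈ Inf := by
      rw [← hc']
      have ha : U.ρ σ z ∈ Inf := by
        have := Inf.add_mem (h1 σ hσ z) hzInf
        rwa [sub_add_cancel] at this
      exact Inf.sub_mem ha (zmod_smul_mem Inf _ hzInf)
    have hc0 : c' = 0 := by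
      by_contra hne
      apply hx₀Inf
      have := zmod_smul_mem Inf c'⁻¹ hmem
      rwa [smul_smul, inv_mul_cancel₀ hne, one_smul] at this
    rw [hc0, zero_smul, sub_eq_zero] at hc'
    exact hc'

theorem stmt_FLATSPLIT : Stmt_FLATSPLIT := flatSplit

end Fermat.Agent.W.LL3.H41
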