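/-
LL3 leaf LOC3-E (helper65), part 1: pure algebra.
* scaling of the complete addition law of `Tate.T5.H46` in the coordinates `z = x/ψ`, `w = 1/ψ`;
* valuation estimates (Newton polygon of `Ψ₃` for a curve with `3 ∣ b₂`, `b₈` a unit);
* the trace of an endomorphism `T` of a plane over `ZMod 3` that is intertwined with the
  multiplication by `c` on a field of characteristic `3`: `tr T = c + c ^ 3`.
-/
import Mathlib
import Fermat.Agent.Tate.T5.H46_LawAlg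

set_option autoImplicit false

namespace Fermat.Agent.W.LL3.H65

open Fermat.Agent.Tate.T5.H46

section scaling

variable {R : Type*} [CommRing R]

lemma lawNz_scale (b₂ b₄ b₆ p s₁ r₁ s₂ r₂ : R) :
    lawNz b₂ b₄ b₆ (p * s₁) (p * r₁) (p * s₂) (p * r₂)
      = p * (s₁ + s₂) + p ^ 3 * (lawNz b₂ b₄ b₆ s₁ r₁ s₂ r₂ - s₁ - s₂) := by
  unfold lawNz HX; ring

lemma lawD_scale (b₂ b₄ b₆ p s₁ r₁ s₂ r₂ : R) :
    lawD b₂ b₄ b₆ (p * s₁) (p * r₁) (p * s₂) (p * r₂)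
      = 1 + p ^ 4 * (lawD b₂ b₄ b₆ s₁ r₁ s₂ r₂ - 1) := by
  unfold lawD HY; ring

end scaling

section valuation

variable {L : Type*} [Field L] {Γ₀ : Type*} [LinearOrderedCommGroupWithZero Γ₀]
  (v : Valuation L Γ₀)

/-- Newton polygon of `Ψ₃` when `3 ∣ b₂` and `b₈` is a unit: a root `x` is not integral and
`3 x⁴` is a unit. -/
theorem newton_psi3 (h3 : v 3 < 1) {c b₄ b₆ b₈ x : L}
    (hc : v c ≤ 1) (hb₄ : v b₄ ≤ 1) (hb₆ : v b₆ ≤ 1) (hb₈ : v b₈ = 1)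
    (hx : 3 * x ^ 4 + (3 * c) * x ^ 3 + 3 * b₄ * x ^ 2 + 3 * b₆ * x + b₈ = 0) :
    1 < v x ∧ v 3 * v x ^ 4 = 1 := by
  have hx1 : 1 < v x := by
    by_contra hcon
    have hcon : v x ≤ 1 := not_lt.mp hcon
    have e : b₈ = -(3 * (x ^ 4 + c * x ^ 3 + b₄ * x ^ 2 + b₆ * x)) := by linear_combination hx
    have h1 : v (x ^ 4 + c * x ^ 3 + b₄ * x ^ 2 + b₆ * x) ≤ 1 := by
      have t1 : v (x ^ 4) ≤ 1 := by rw [map_pow]; exact pow_le_one₀ zero_le hcon
      have t2 : v (c * x ^ 3) ≤ 1 := by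
        rw [map_mul, map_pow]; exact mul_le_one₀ hc zero_le (pow_le_one₀ zero_le hcon)
      have t3 : v (b₄ * x ^ 2) ≤ 1 := by
        rw [map_mul, map_pow]; exact mul_le_one₀ hb₄ zero_le (pow_le_one₀ zero_le hcon)
      have t4 : v (b₆ * x) ≤ 1 := by
        rw [map_mul]; exact mul_le_one₀ hb₆ zero_le hcon
      exact v.map_add_le (v.map_add_le (v.map_add_le t1 t2) t3) t4
    have h2 : v b₈ < 1 := by
      rw [e, Valuation.map_neg, map_mul]
      calc v 3 * v (x ^ 4 + c * x ^ 3 + b₄ * x ^ 2 + b₆ * x) ≤ v 3 * 1 := by gcongr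
        _ = v 3 := mul_one _
        _ < 1 := h3
    rw [hb₈] at h2
    exact lt_irrefl _ h2
  refine ⟨hx1, ?_⟩
  have hxne : x ≠ 0 := by
    rintro rfl
    simp at hx1
  have hvx : v x ≠ 0 := by rwa [ne_eq, Valuation.zero_iff]
  set y : L := x⁻¹ with hy
  have hvy : v y < 1 := by
    rw [hy, map_inv₀]
    exact inv_lt_one_of_one_lt₀ hx1
  have e : b₈ * y ^ 4 = -(3 * (1 + (c * y + b₄ * y ^ 2 + b₆ * y ^ 3))) := by
    have hxy : x * y = 1 := by rw [hy]; exact mul_inv_cancel₀ hxne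
    have e4 : x ^ 4 * y ^ 4 = 1 := by rw [← mul_pow, hxy, one_pow]
    have e3 : x ^ 3 * y ^ 4 = y := by
      have : x ^ 3 * y ^ 3 = 1 := by rw [← mul_pow, hxy, one_pow]
      calc x ^ 3 * y ^ 4 = (x ^ 3 * y ^ 3) * y := by ring
        _ = y := by rw [this, one_mul]
    have e2 : x ^ 2 * y ^ 4 = y ^ 2 := by
      have : x ^ 2 * y ^ 2 = 1 := by rw [← mul_pow, hxy, one_pow]
      calc x ^ 2 * y ^ 4 = (x ^ 2 * y ^ 2) * y ^ 2 := by ring
        _ = y ^ 2 := by rw [this, one_mul]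
    have e1 : x * y ^ 4 = y ^ 3 := by
      calc x * y ^ 4 = (x * y) * y ^ 3 := by ring
        _ = y ^ 3 := by rw [hxy, one_mul]
    have := congrArg (· * y ^ 4) hx
    simp only [zero_mul] at this
    linear_combination this - 3 * e4 - 3 * c * e3 - 3 * b₄ * e2 - 3 * b₆ * e1
  have hsmall : v (c * y + b₄ * y ^ 2 + b₆ * y ^ 3) < 1 := by
    have t1 : v (c * y) < 1 := by
      rw [map_mul]; exact mul_lt_one_of_nonneg_of_lt_one_right hc zero_le hvy
    have t2 : v (b₄ * y ^ 2) < 1 := by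
      rw [map_mul, map_pow]
      exact mul_lt_one_of_nonneg_of_lt_one_right hb₄ zero_le
        (pow_lt_one₀ zero_le hvy (by norm_num))
    have t3 : v (b₆ * y ^ 3) < 1 := by
      rw [map_mul, map_pow]
      exact mul_lt_one_of_nonneg_of_lt_one_right hb₆ zero_le
        (pow_lt_one₀ zero_le hvy (by norm_num))
    exact v.map_add_lt (v.map_add_lt t1 t2) t3
  have h1 : v (1 + (c * y + b₄ * y ^ 2 + b₆ * y ^ 3)) = 1 := v.map_one_add_of_lt hsmall
  have h2 : v y ^ 4 = v 3 := by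
    have := congrArg v e
    rw [map_mul, hb₈, one_mul, map_pow, Valuation.map_neg, map_mul, h1, mul_one] at this
    exact this
  rw [← h2, ← mul_pow, hy, map_inv₀, inv_mul_cancel₀ hvx, one_pow]

/-- `ψ² = 4x³ + b₂x² + 2b₄x + b₆` with `x` non-integral: `v(ψ)² = v(x)³`. -/
theorem v_psi_sq {x ψ b₂ b₄ b₆ : L} (h2 : v 2 = 1) (hx1 : 1 < v x)
    (hb₂ : v b₂ ≤ 1) (hb₄ : v b₄ ≤ 1) (hb₆ : v b₆ ≤ 1)
    (hψ : ψ ^ 2 = 4 * x ^ 3 + b₂ * x ^ 2 + 2 * b₄ * x + b₆) : v ψ ^ 2 = v x ^ 3 := by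
  have hpos : 0 < v x := lt_trans zero_lt_one hx1
  have h4 : v (4 * x ^ 3) = v x ^ 3 := by
    have : (4 : L) = 2 * 2 := by norm_num
    rw [map_mul, this, map_mul, h2, one_mul, one_mul, map_pow]
  have hx2 : v x ^ 2 < v x ^ 3 := by
    calc v x ^ 2 = v x ^ 2 * 1 := (mul_one _).symm
      _ < v x ^ 2 * v x := by
        apply mul_lt_mul_of_pos_left hx1 (pow_pos hpos 2)
      _ = v x ^ 3 := (pow_succ (v x) 2).symm
  have hx1' : v x < v x ^ 2 := by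
    calc v x = v x * 1 := (mul_one _).symm
      _ < v x * v x := mul_lt_mul_of_pos_left hx1 hpos
      _ = v x ^ 2 := (sq (v x)).symm
  have t1 : v (b₂ * x ^ 2) < v x ^ 3 := by
    rw [map_mul, map_pow]
    calc v b₂ * v x ^ 2 ≤ 1 * v x ^ 2 := by gcongr
      _ = v x ^ 2 := one_mul _
      _ < v x ^ 3 := hx2
  have t2 : v (2 * b₄ * x) < v x ^ 3 := by
    rw [map_mul, map_mul, h2, one_mul]
    calc v b₄ * v x ≤ 1 * v x := by gcongr
      _ = v x := one_mul _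
      _ < v x ^ 3 := lt_trans hx1' hx2
  have t3 : v b₆ < v x ^ 3 := lt_of_le_of_lt hb₆ (lt_trans hx1 (lt_trans hx1' hx2))
  have hsum : v (b₂ * x ^ 2 + 2 * b₄ * x + b₆) < v (4 * x ^ 3) := by
    rw [h4]; exact v.map_add_lt (v.map_add_lt t1 t2) t3
  have e : ψ ^ 2 = 4 * x ^ 3 + (b₂ * x ^ 2 + 2 * b₄ * x + b₆) := by rw [hψ]; ring
  rw [← map_pow, e, v.map_add_eq_of_lt_left hsum, h4]

/-- The valuations of `z = x/ψ` and `w = 1/ψ`. -/
theorem v_z_w {x ψ : L} (hx1 : 1 < v x) (h38 : v 3 * v x ^ 4 = 1)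
    (hψ2 : v ψ ^ 2 = v x ^ 3) :
    v (x / ψ) ^ 8 = v 3 ∧ v (1 / ψ) = v (x / ψ) ^ 3 := by
  have hpos : 0 < v x := lt_trans zero_lt_one hx1
  have hvx : v x ≠ 0 := ne_of_gt hpos
  have hvψ : v ψ ≠ 0 := by
    intro h
    rw [h] at hψ2
    have : v x ^ 3 ≠ 0 := pow_ne_zero 3 hvx
    exact this (by rw [← hψ2]; simp)
  have hz2 : v (x / ψ) ^ 2 = (v x)⁻¹ := by
    rw [map_div₀, div_pow, hψ2, div_eq_iff (pow_ne_zero 3 hvx), pow_succ' (v x) 2,
      inv_mul_cancel_left₀ hvx]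
  have h3 : v 3 = (v x ^ 4)⁻¹ := by
    exact eq_inv_of_mul_eq_one_left h38
  constructor
  · calc v (x / ψ) ^ 8 = (v (x / ψ) ^ 2) ^ 4 := by rw [← pow_mul]
      _ = ((v x)⁻¹) ^ 4 := by rw [hz2]
      _ = (v x ^ 4)⁻¹ := by rw [inv_pow]
      _ = v 3 := h3.symm
  · have hw2 : v (1 / ψ) ^ 2 = (v (x / ψ) ^ 3) ^ 2 := by
      calc v (1 / ψ) ^ 2 = (v ψ ^ 2)⁻¹ := by rw [map_div₀, map_one, div_pow, one_pow, one_div]
        _ = (v x ^ 3)⁻¹ := by rw [hψ2]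
        _ = ((v x)⁻¹) ^ 3 := by rw [inv_pow]
        _ = (v (x / ψ) ^ 2) ^ 3 := by rw [hz2]
        _ = (v (x / ψ) ^ 3) ^ 2 := by rw [← pow_mul, ← pow_mul]
    exact (pow_left_inj (by norm_num : (2 : ℕ) ≠ 0)).mp hw2

/-- A polynomial expression in integral elements is integral (for `lawD`). -/
theorem v_lawD_le {b₂ b₄ b₆ s₁ r₁ s₂ r₂ : L} (hb₂ : v b₂ ≤ 1) (hb₄ : v b₄ ≤ 1) (hb₆ : v b₆ ≤ 1)
    (hs₁ : v s₁ ≤ 1) (hr₁ : v r₁ ≤ 1) (hs₂ : v s₂ ≤ 1) (hr₂ : v r₂ ≤ 1) :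
    v (lawD b₂ b₄ b₆ s₁ r₁ s₂ r₂) ≤ 1 := by
  rw [← Valuation.mem_integer_iff] at *
  lift b₂ to v.integer using hb₂
  lift b₄ to v.integer using hb₄
  lift b₆ to v.integer using hb₆
  lift s₁ to v.integer using hs₁
  lift r₁ to v.integer using hr₁
  lift s₂ to v.integer using hs₂
  lift r₂ to v.integer using hr₂
  have : lawD (b₂ : L) b₄ b₆ s₁ r₁ s₂ r₂ = ((lawD b₂ b₄ b₆ s₁ r₁ s₂ r₂ : v.integer) : L) :=
    (map_lawD v.integer.subtype b₂ b₄ b₆ s₁ r₁ s₂ r₂).symm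
  rw [this]
  exact (lawD b₂ b₄ b₆ s₁ r₁ s₂ r₂).2

theorem v_lawNz_le {b₂ b₄ b₆ s₁ r₁ s₂ r₂ : L} (hb₂ : v b₂ ≤ 1) (hb₄ : v b₄ ≤ 1) (hb₆ : v b₆ ≤ 1)
    (hs₁ : v s₁ ≤ 1) (hr₁ : v r₁ ≤ 1) (hs₂ : v s₂ ≤ 1) (hr₂ : v r₂ ≤ 1) :
    v (lawNz b₂ b₄ b₆ s₁ r₁ s₂ r₂) ≤ 1 := by
  rw [← Valuation.mem_integer_iff] at *
  lift b₂ to v.integer using hb₂
  lift b₄ to v.integer using hb₄
  lift b₆ to v.integer using hb₆
  lift s₁ to v.integer using hs₁
  lift r₁ to v.integer using hr₁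
  lift s₂ to v.integer using hs₂
  lift r₂ to v.integer using hr₂
  have : lawNz (b₂ : L) b₄ b₆ s₁ r₁ s₂ r₂ = ((lawNz b₂ b₄ b₆ s₁ r₁ s₂ r₂ : v.integer) : L) :=
    (map_lawNz v.integer.subtype b₂ b₄ b₆ s₁ r₁ s₂ r₂).symm
  rw [this]
  exact (lawNz b₂ b₄ b₆ s₁ r₁ s₂ r₂).2

/-- The addition law is additive modulo the maximal ideal in the scaled coordinate `z/π`. -/
theorem add_estimate {π s₁ r₁ s₂ r₂ z₃ b₂ b₄ b₆ : L} (hπ : v π < 1) (hπ0 : π ≠ 0)
    (hb₂ : v b₂ ≤ 1) (hb₄ : v b₄ ≤ 1) (hb₆ : v b₆ ≤ 1)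
    (hs₁ : v s₁ ≤ 1) (hr₁ : v r₁ ≤ 1) (hs₂ : v s₂ ≤ 1) (hr₂ : v r₂ ≤ 1)
    (hlaw : lawD b₂ b₄ b₆ (π * s₁) (π * r₁) (π * s₂) (π * r₂) * z₃
      = lawNz b₂ b₄ b₆ (π * s₁) (π * r₁) (π * s₂) (π * r₂)) :
    v (z₃ / π - (s₁ + s₂)) < 1 := by
  set D' := lawD b₂ b₄ b₆ s₁ r₁ s₂ r₂ with hD'
  set N' := lawNz b₂ b₄ b₆ s₁ r₁ s₂ r₂ with hN'
  have hD'1 : v D' ≤ 1 := v_lawD_le v hb₂ hb₄ hb₆ hs₁ hr₁ hs₂ hr₂
  have hN'1 : v N' ≤ 1 := v_lawNz_le v hb₂ hb₄ hb₆ hs₁ hr₁ hs₂ hr₂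
  rw [lawD_scale, lawNz_scale] at hlaw
  have hs12 : v (s₁ + s₂) ≤ 1 := v.map_add_le hs₁ hs₂
  have hDm : v (D' - 1) ≤ 1 := v.map_sub_le hD'1 (by simp)
  have hNm : v (N' - s₁ - s₂) ≤ 1 := v.map_sub_le (v.map_sub_le hN'1 hs₁) hs₂
  have hπ2 : v (π ^ 2) < 1 := by rw [map_pow]; exact pow_lt_one₀ zero_le hπ (by norm_num)
  have hπ4 : v (π ^ 4) < 1 := by rw [map_pow]; exact pow_lt_one₀ zero_le hπ (by norm_num)
  have hsm : v (π ^ 4 * (D' - 1)) < 1 := by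
    rw [map_mul]; exact mul_lt_one_of_nonneg_of_lt_one_left zero_le hπ4 hDm
  have hD : v (1 + π ^ 4 * (D' - 1)) = 1 := v.map_one_add_of_lt hsm
  have hDne : (1 + π ^ 4 * (D' - 1)) ≠ 0 := by
    intro h; rw [h] at hD; simp at hD
  have e : z₃ / π - (s₁ + s₂)
      = (π ^ 2 * (N' - s₁ - s₂) - (s₁ + s₂) * (π ^ 4 * (D' - 1))) / (1 + π ^ 4 * (D' - 1)) := by
    field_simp
    linear_combination hlaw
  rw [e, map_div₀, hD, div_one]
  apply v.map_sub_lt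
  · rw [map_mul]; exact mul_lt_one_of_nonneg_of_lt_one_left zero_le hπ2 hNm
  · rw [map_mul]; exact mul_lt_one_of_nonneg_of_lt_one_right hs12 zero_le hsm

end valuation

section linalg

open Polynomial

variable {V : Type*} [AddCommGroup V] [Module (ZMod 3) V]
  {k : Type*} [Field k] [Algebra (ZMod 3) k]

/-- An endomorphism `T` of a plane over `𝔽₃` which is intertwined, by an injective linear map into
a field `k` of characteristic `3`, with the multiplication by `c ∈ k` has trace `c + c³`. -/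
theorem trace_eq_of_intertwine (hV : Module.finrank (ZMod 3) V = 2)
    (T : Module.End (ZMod 3) V) (lam : V →ₗ[ZMod 3] k) (hinj : Function.Injective lam)
    (c : k) (hT : ∀ x, lam (T x) = c * lam x) :
    algebraMap (ZMod 3) k (LinearMap.trace (ZMod 3) V T) = c + c ^ 3 := by
  have : Fact (Nat.Prime 3) := ⟨by norm_num⟩
  have : Module.Finite (ZMod 3) V := Module.finite_of_finrank_pos (by rw [hV]; norm_num)
  have : CharP k 3 := (Algebra.charP_iff (ZMod 3) k 3).mp inferInstance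
  let b : Module.Basis (Fin 2) (ZMod 3) V := Module.finBasisOfFinrankEq (ZMod 3) V hV
  set M := LinearMap.toMatrix b b T with hM
  set t := LinearMap.trace (ZMod 3) V T with ht
  have htM : t = M.trace := LinearMap.trace_eq_matrix_trace (ZMod 3) b T
  have hcp : T.charpoly = X ^ 2 - C t * X + C M.det := by
    rw [← LinearMap.charpoly_toMatrix T b, Matrix.charpoly_fin_two, htM]
  have hCH : ∀ x : V, T (T x) - t • T x + M.det • x = 0 := by
    intro x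
    have h := LinearMap.aeval_self_charpoly T
    rw [hcp] at h
    have h2 := congrArg (fun f : Module.End (ZMod 3) V => f x) h
    simpa [Module.End.mul_apply, pow_two, Algebra.smul_def] using h2
  -- a nonzero vector
  have : Nontrivial V := Module.nontrivial_of_finrank_pos (R := ZMod 3) (by rw [hV]; norm_num)
  obtain ⟨x, hx⟩ := exists_ne (0 : V)
  have hlx : lam x ≠ 0 := fun h => hx (hinj (by rw [h, map_zero]))
  set t' := algebraMap (ZMod 3) k t with ht'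
  set d' := algebraMap (ZMod 3) k M.det with hd'
  have hquad : c ^ 2 - t' * c + d' = 0 := by
    have h := congrArg lam (hCH x)
    rw [map_zero, map_add, map_sub, LinearMap.map_smul, LinearMap.map_smul, hT, hT,
      Algebra.smul_def, Algebra.smul_def] at h
    have : (c ^ 2 - t' * c + d') * lam x = 0 := by linear_combination h
    rcases mul_eq_zero.mp this with h | h
    · exact h
    · exact absurd h hlx
  have ht3 : t' ^ 3 = t' := by
    rw [ht', ← map_pow]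
    congr 1
    exact ZMod.pow_card t
  have hd3 : d' ^ 3 = d' := by
    rw [hd', ← map_pow]
    congr 1
    exact ZMod.pow_card M.det
  have hquad3 : c ^ 6 - t' * c ^ 3 + d' = 0 := by
    have h : (c ^ 2 - t' * c + d') ^ 3 = 0 := by rw [hquad]; norm_num
    rw [add_pow_char, sub_pow_char, mul_pow, ht3, hd3] at h
    have e : (c ^ 2) ^ 3 = c ^ 6 := by ring
    rw [e] at h
    exact h
  have hprod : (c - c ^ 3) * (c + c ^ 3 - t') = 0 := by
    linear_combination hquad - hquad3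
  rcases mul_eq_zero.mp hprod with h | h
  · -- `c ∈ 𝔽₃`, `T` is a scalar
    have hc3 : c ^ 3 = c := by linear_combination -h
    have hcc : c * (c - 1) * (c + 1) = 0 := by linear_combination hc3
    have hca : ∃ a : ZMod 3, algebraMap (ZMod 3) k a = c := by
      rcases mul_eq_zero.mp hcc with h1 | h1
      · rcases mul_eq_zero.mp h1 with h2 | h2
        · exact ⟨0, by rw [map_zero, h2]⟩
        · exact ⟨1, by rw [map_one]; linear_combination -h2⟩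
      · exact ⟨-1, by rw [map_neg, map_one]; linear_combination -h1⟩
    obtain ⟨a, ha⟩ := hca
    have hTa : T = a • (LinearMap.id : V →ₗ[ZMod 3] V) := by
      ext y
      apply hinj
      rw [hT, LinearMap.smul_apply, LinearMap.id_apply, LinearMap.map_smul, Algebra.smul_def, ha]
    have htr : t = a * 2 := by
      rw [ht, hTa, map_smul, LinearMap.trace_id, hV, smul_eq_mul]
      norm_num
    rw [ht', htr, map_mul, ha, hc3]
    have : algebraMap (ZMod 3) k 2 = 2 := map_ofNat (algebraMap (ZMod 3) k) 2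
    rw [this]; ring
  · linear_combination -h

end linalg

end Fermat.Agent.W.LL3.H65
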