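/-
LL3 leaf LOC3-E (helper65), part 2: the curve.

`Stmt_Loc3E`: for an integral Weierstrass curve `W` with good supersingular reduction at `3`
(`3 ∤ Δ`, `3 ∣ b₂`), a place `A` of `ℚ̄` over `3`, `σ` in the inertia group of `A` and `π ∈ ℚ̄` with
`π ^ 8 = 3`:  the trace of `σ` on `W[3](ℚ̄)` is `ζ + ζ ^ 3` modulo the maximal ideal of `A`, where
`ζ = σ π / π` (the value at `σ` of the fundamental character of level `2`).

Proof: Newton polygon of `Ψ₃` (all `x`-coordinates have `v(x) = -1/4`), so `z = x/ψ` has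
`v(z) = 1/8`; by the landed addition law of `Tate.T5.H46` the map `P ↦ z(P)/π mod 𝔪` is additive,
injective and turns `σ` into the multiplication by `ζ`; `trace_eq_of_intertwine` concludes.
-/
import Fermat.Agent.W.LL3.H65_Loc3EAlg
import Fermat.Agent.Tate.T5.H46_Law
import Fermat.Agent.Lib.TorsionGen.Final
import Fermat.Agent.Lib.InertiaBridge
import Fermat.Agent.Lib.EllFinite.H46_Finrank
import Fermat.Prelude.Def_FLTPrelim_Ramification
import Fermat.Prelude.Def_EllipticCurve_FrobeniusTrace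

set_option autoImplicit false

namespace Fermat.Agent.W.LL3.H65

open WeierstrassCurve WeierstrassCurve.Affine
open Fermat.Agent.Tate.T5.H46 (zc wc psi lawD lawNz)

/-- `ℚ̄`. -/
abbrev Qb : Type := AlgebraicClosure ℚ

section place

variable (A : ValuationSubring Qb)

theorem v_three_lt (hA : A.LiesOverPrime 3) : A.valuation (3 : Qb) < 1 := by
  have h : ((3 : ℕ) : Qb) ∈ A.nonunits := hA
  have := A.mem_nonunits_iff.mp h
  simpa using this

theorem v_int_le (n : ℤ) : A.valuation (n : Qb) ≤ 1 :=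
  (A.valuation_le_one_iff _).mpr (intCast_mem A n)

theorem v_int_eq_one (hA : A.LiesOverPrime 3) {n : ℤ} (hn : ¬ (3 : ℤ) ∣ n) :
    A.valuation (n : Qb) = 1 := by
  have h3 := v_three_lt A hA
  have hcop : IsCoprime n 3 := by
    have : IsCoprime (3 : ℤ) n :=
      (Prime.coprime_iff_not_dvd (by norm_num : Prime (3 : ℤ))).mpr hn
    exact this.symm
  obtain ⟨a, b, hab⟩ := hcop
  have e : ((a : Qb) * (n : Qb)) = 1 + (-(b : Qb) * 3) := by
    have := congrArg (fun m : ℤ => (m : Qb)) hab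
    push_cast at this
    linear_combination this
  have hsm : A.valuation (-(b : Qb) * 3) < 1 := by
    rw [map_mul, Valuation.map_neg]
    exact mul_lt_one_of_nonneg_of_lt_one_right (v_int_le A b) zero_le h3
  have h1 : A.valuation ((a : Qb) * (n : Qb)) = 1 := by
    rw [e]; exact (A.valuation).map_one_add_of_lt hsm
  rw [map_mul] at h1
  apply le_antisymm (v_int_le A n)
  by_contra hlt
  have hlt : A.valuation (n : Qb) < 1 := not_le.mp hlt
  have : A.valuation (a : Qb) * A.valuation (n : Qb) < 1 :=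
    mul_lt_one_of_nonneg_of_lt_one_right (v_int_le A a) zero_le hlt
  rw [h1] at this
  exact lt_irrefl _ this

theorem v_two (hA : A.LiesOverPrime 3) : A.valuation (2 : Qb) = 1 := by
  have := v_int_eq_one A hA (n := 2) (by norm_num)
  simpa using this

open Classical in
/-- The residue class of an element of `ℚ̄` (`0` outside `A`). -/
noncomputable def resA (a : Qb) : IsLocalRing.ResidueField A :=
  if h : a ∈ A then IsLocalRing.residue A ⟨a, h⟩ else 0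

theorem resA_of_mem {a : Qb} (h : a ∈ A) : resA A a = IsLocalRing.residue A ⟨a, h⟩ := by
  unfold resA; rw [dif_pos h]

theorem resA_add {a b : Qb} (ha : a ∈ A) (hb : b ∈ A) : resA A (a + b) = resA A a + resA A b := by
  rw [resA_of_mem A ha, resA_of_mem A hb, resA_of_mem A (A.add_mem _ _ ha hb), ← map_add]
  rfl

theorem resA_mul {a b : Qb} (ha : a ∈ A) (hb : b ∈ A) : resA A (a * b) = resA A a * resA A b := by
  rw [resA_of_mem A ha, resA_of_mem A hb, resA_of_mem A (A.mul_mem _ _ ha hb), ← map_mul]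
  rfl

theorem resA_eq_zero_iff {a : Qb} (ha : a ∈ A) : resA A a = 0 ↔ A.valuation a < 1 := by
  rw [resA_of_mem A ha, IsLocalRing.residue_eq_zero_iff, A.valuation_lt_one_iff]

theorem resA_zero : resA A 0 = 0 := by
  rw [resA_eq_zero_iff A A.zero_mem]; simp

theorem resA_one : resA A 1 = 1 := by
  rw [resA_of_mem A A.one_mem]
  exact map_one _

theorem resA_eq_of_sub {a b : Qb} (ha : a ∈ A) (hb : b ∈ A) (h : A.valuation (a - b) < 1) :
    resA A a = resA A b := by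
  have hab : a - b ∈ A := A.sub_mem ha hb
  have h0 : resA A (a - b) = 0 := (resA_eq_zero_iff A hab).mpr h
  have : resA A a = resA A (a - b) + resA A b := by
    rw [← resA_add A hab hb]; congr 1; ring
  rw [this, h0, zero_add]

theorem resA_intCast (n : ℤ) : resA A (n : Qb) = (n : IsLocalRing.ResidueField A) := by
  rw [resA_of_mem A (intCast_mem A n)]
  have : (⟨(n : Qb), intCast_mem A n⟩ : A) = (n : A) := by
    ext; simp
  rw [this, map_intCast]

theorem charP_res (hA : A.LiesOverPrime 3) : CharP (IsLocalRing.ResidueField A) 3 := by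
  have h3 : ((3 : ℕ) : IsLocalRing.ResidueField A) = 0 := by
    have := (resA_eq_zero_iff A (a := (3 : Qb)) (by
      exact_mod_cast intCast_mem A 3)).mpr (v_three_lt A hA)
    have e := resA_intCast A 3
    simp only [Int.cast_ofNat] at e
    rw [e] at this
    exact_mod_cast this
  exact (CharP.charP_iff_prime_eq_zero (by norm_num : Nat.Prime 3)).mpr h3

end place

section curve

variable (W : WeierstrassCurve ℤ)

/-- The curve over `ℚ̄`. -/
noncomputable abbrev EQ : Affine Qb := (W.map (Int.castRingHom ℚ)).toAffine⁄Qb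

theorem EQ_a₁ : (EQ W).a₁ = ((W.a₁ : ℤ) : Qb) := by
  simp [WeierstrassCurve.baseChange]

theorem EQ_a₃ : (EQ W).a₃ = ((W.a₃ : ℤ) : Qb) := by
  simp [WeierstrassCurve.baseChange]

theorem EQ_b₂ : (EQ W).b₂ = ((W.b₂ : ℤ) : Qb) := by
  simp [WeierstrassCurve.baseChange, WeierstrassCurve.map_b₂]

theorem EQ_b₄ : (EQ W).b₄ = ((W.b₄ : ℤ) : Qb) := by
  simp [WeierstrassCurve.baseChange, WeierstrassCurve.map_b₄]

theorem EQ_b₆ : (EQ W).b₆ = ((W.b₆ : ℤ) : Qb) := by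
  simp [WeierstrassCurve.baseChange, WeierstrassCurve.map_b₆]

theorem EQ_b₈ : (EQ W).b₈ = ((W.b₈ : ℤ) : Qb) := by
  simp [WeierstrassCurve.baseChange, WeierstrassCurve.map_b₈]

theorem EQ_Δ : (EQ W).Δ = ((W.Δ : ℤ) : Qb) := by
  simp [WeierstrassCurve.baseChange, WeierstrassCurve.map_Δ]

theorem EQ_Δ_ne (hΔ : ¬ (3 : ℤ) ∣ W.Δ) : (EQ W).Δ ≠ 0 := by
  rw [EQ_Δ]
  have : W.Δ ≠ 0 := by
    intro h; apply hΔ; rw [h]; exact dvd_zero _
  exact_mod_cast this

/-- `3 ∤ Δ` and `3 ∣ b₂` force `3 ∤ b₈`. -/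
theorem not_dvd_b₈ (hΔ : ¬ (3 : ℤ) ∣ W.Δ) (hb₂ : (3 : ℤ) ∣ W.b₂) : ¬ (3 : ℤ) ∣ W.b₈ := by
  intro h8
  have hrel := W.b_relation
  have hp : Prime (3 : ℤ) := by norm_num
  -- `3 ∣ b₄ ^ 2`
  have h4sq : (3 : ℤ) ∣ W.b₄ ^ 2 := by
    have e : W.b₄ ^ 2 = W.b₂ * W.b₆ - 4 * W.b₈ := by linear_combination hrel
    rw [e]
    exact dvd_sub (Dvd.dvd.mul_right hb₂ _) (Dvd.dvd.mul_left h8 _)
  have h4 : (3 : ℤ) ∣ W.b₄ := hp.dvd_of_dvd_pow h4sq
  apply hΔ
  have eΔ : W.Δ = -W.b₂ ^ 2 * W.b₈ - 8 * W.b₄ ^ 3 - 27 * W.b₆ ^ 2 + 9 * W.b₂ * W.b₄ * W.b₆ := rfl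
  rw [eΔ]
  obtain ⟨c, hc⟩ := hb₂
  obtain ⟨d, hd⟩ := h4
  exact ⟨-c ^ 2 * 3 * W.b₈ - 8 * 9 * d ^ 3 - 9 * W.b₆ ^ 2 + 9 * c * W.b₄ * W.b₆, by
    rw [hc, hd]; ring⟩

/-- The equation of the `x`-coordinate of a point of order `3`. -/
theorem psi3_eq (hΔ : ¬ (3 : ℤ) ∣ W.Δ) {x y : Qb} (h : (EQ W).Nonsingular x y)
    (h3 : ((3 : ℕ) : ℤ) • (Point.some x y h : (EQ W).Point) = 0) :
    3 * x ^ 4 + ((W.b₂ : ℤ) : Qb) * x ^ 3 + 3 * ((W.b₄ : ℤ) : Qb) * x ^ 2
      + 3 * ((W.b₆ : ℤ) : Qb) * x + ((W.b₈ : ℤ) : Qb) = 0 := by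
  have h1 := (Fermat.Agent.Lib.TorsionGen.prime_zsmul_eq_zero_iff_eval (EQ_Δ_ne W hΔ)
    (p := 3) (by norm_num) (by norm_num) h).mp h3
  have e : (((3 : ℕ) : ℤ)) = 3 := by norm_num
  rw [e, WeierstrassCurve.preΨ_three] at h1
  simp only [WeierstrassCurve.Ψ₃, Polynomial.eval_add, Polynomial.eval_mul, Polynomial.eval_pow,
    Polynomial.eval_X, Polynomial.eval_C, Polynomial.eval_ofNat] at h1
  rw [EQ_b₂, EQ_b₄, EQ_b₆, EQ_b₈] at h1
  exact h1

/-- Galois equivariance of the coordinate `z`. -/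
theorem zc_smul (σ : Qb ≃ₐ[ℚ] Qb) (P : (EQ W).Point) : zc (σ • P) = σ (zc P) := by
  rcases P with _ | ⟨x, y, h⟩
  · change zc (0 : (EQ W).Point) = σ (zc (0 : (EQ W).Point))
    simp
  · change (σ x) / psi (EQ W) (σ x) (σ y) = σ (x / psi (EQ W) x y)
    rw [map_div₀]
    congr 1
    unfold psi
    rw [EQ_a₁, EQ_a₃, map_add, map_add, map_mul, map_mul, map_ofNat, map_intCast, map_intCast]

end curve

section torsion

variable (W : WeierstrassCurve ℤ) (A : ValuationSubring Qb)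

/-- Points killed by `3` have no `2`-torsion. -/
theorem two_nsmul_of_three {P : (EQ W).Point} (h3 : ((3 : ℕ) : ℤ) • P = 0) :
    2 • P = 0 → P = 0 := by
  intro h2
  have e3 : (3 : ℕ) • P = 0 := by
    have := h3
    rw [natCast_zsmul] at this
    exact this
  have : P = (3 : ℕ) • P - 2 • P := by
    rw [succ_nsmul (n := 2)]; abel
  rw [this, e3, h2, sub_zero]

theorem v_pi (hA : A.LiesOverPrime 3) {π : Qb} (hπ : π ^ 8 = 3) :
    A.valuation π ^ 8 = A.valuation 3 ∧ A.valuation π < 1 ∧ π ≠ 0 := by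
  have h8 : A.valuation π ^ 8 = A.valuation 3 := by rw [← map_pow, hπ]
  refine ⟨h8, ?_, ?_⟩
  · by_contra hcon
    have hcon : 1 ≤ A.valuation π := not_lt.mp hcon
    have : 1 ≤ A.valuation π ^ 8 := one_le_pow₀ hcon
    rw [h8] at this
    exact absurd (v_three_lt A hA) (not_lt.mpr this)
  · rintro rfl
    norm_num at hπ

/-- The valuations of the scaled coordinates of a nonzero point of order `3`. -/
theorem v_scaled (hΔ : ¬ (3 : ℤ) ∣ W.Δ) (hb₂ : (3 : ℤ) ∣ W.b₂) (hA : A.LiesOverPrime 3)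
    {π : Qb} (hπ : π ^ 8 = 3) {x y : Qb} (h : (EQ W).Nonsingular x y)
    (h3 : ((3 : ℕ) : ℤ) • (Point.some x y h : (EQ W).Point) = 0) :
    A.valuation (zc (Point.some x y h : (EQ W).Point) / π) = 1 ∧
      A.valuation (wc (Point.some x y h : (EQ W).Point) / π) ≤ 1 := by
  obtain ⟨hπ8, hπ1, hπ0⟩ := v_pi A hA hπ
  have hvπ : A.valuation π ≠ 0 := by rwa [ne_eq, Valuation.zero_iff]
  obtain ⟨c, hc⟩ := hb₂
  have heq := psi3_eq W hΔ h h3
  have hcast : ((W.b₂ : ℤ) : Qb) = 3 * (c : Qb) := by rw [hc]; push_cast; ring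
  have hb₂' : (3 : ℤ) ∣ W.b₂ := ⟨c, hc⟩
  rw [hcast] at heq
  obtain ⟨hx1, h38⟩ := newton_psi3 A.valuation (v_three_lt A hA) (v_int_le A c)
    (v_int_le A W.b₄) (v_int_le A W.b₆) (v_int_eq_one A hA (not_dvd_b₈ W hΔ hb₂')) heq
  have hψ := Fermat.Agent.Tate.T5.H46.psi_sq (W := EQ W) h.1
  rw [EQ_b₂, EQ_b₄, EQ_b₆] at hψ
  have hψ2 := v_psi_sq A.valuation (v_two A hA) hx1 (v_int_le A W.b₂) (v_int_le A W.b₄)
    (v_int_le A W.b₆) hψ
  obtain ⟨hz8, hw⟩ := v_z_w A.valuation hx1 h38 hψ2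
  have hz : A.valuation (x / psi (EQ W) x y) = A.valuation π :=
    (pow_left_inj (by norm_num : (8 : ℕ) ≠ 0)).mp (by rw [hz8, hπ8])
  rw [Fermat.Agent.Tate.T5.H46.zc_some, Fermat.Agent.Tate.T5.H46.wc_some]
  constructor
  · rw [map_div₀, hz, div_self hvπ]
  · rw [map_div₀, hw, hz, div_le_iff₀ (lt_of_le_of_ne zero_le (Ne.symm hvπ)), one_mul]
    calc A.valuation π ^ 3 = A.valuation π ^ 2 * A.valuation π := pow_succ _ 2
      _ ≤ 1 * A.valuation π := by
        gcongr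
        exact pow_le_one₀ zero_le (le_of_lt hπ1)
      _ = A.valuation π := one_mul _

/-- The scaled coordinates of a point killed by `3` are integral. -/
theorem v_scaled_le (hΔ : ¬ (3 : ℤ) ∣ W.Δ) (hb₂ : (3 : ℤ) ∣ W.b₂) (hA : A.LiesOverPrime 3)
    {π : Qb} (hπ : π ^ 8 = 3) {P : (EQ W).Point} (h3 : ((3 : ℕ) : ℤ) • P = 0) :
    A.valuation (zc P / π) ≤ 1 ∧ A.valuation (wc P / π) ≤ 1 := by
  rcases P with _ | ⟨x, y, h⟩
  · change A.valuation (zc (0 : (EQ W).Point) / π) ≤ 1 ∧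
      A.valuation (wc (0 : (EQ W).Point) / π) ≤ 1
    simp
  · obtain ⟨h1, h2⟩ := v_scaled W A hΔ hb₂ hA hπ h h3
    exact ⟨le_of_eq h1, h2⟩

/-- The scaled coordinate `z/π` of a nonzero point killed by `3` is a unit. -/
theorem v_scaled_eq (hΔ : ¬ (3 : ℤ) ∣ W.Δ) (hb₂ : (3 : ℤ) ∣ W.b₂) (hA : A.LiesOverPrime 3)
    {π : Qb} (hπ : π ^ 8 = 3) {P : (EQ W).Point} (h3 : ((3 : ℕ) : ℤ) • P = 0) (hP : P ≠ 0) :
    A.valuation (zc P / π) = 1 := by
  rcases P with _ | ⟨x, y, h⟩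
  · exact absurd rfl hP
  · exact (v_scaled W A hΔ hb₂ hA hπ h h3).1

/-- Additivity of `z/π` modulo the maximal ideal. -/
theorem v_scaled_add (hΔ : ¬ (3 : ℤ) ∣ W.Δ) (hb₂ : (3 : ℤ) ∣ W.b₂) (hA : A.LiesOverPrime 3)
    {π : Qb} (hπ : π ^ 8 = 3) {P Q : (EQ W).Point} (hP : ((3 : ℕ) : ℤ) • P = 0)
    (hQ : ((3 : ℕ) : ℤ) • Q = 0) :
    A.valuation (zc (P + Q) / π - (zc P / π + zc Q / π)) < 1 := by
  obtain ⟨-, hπ1, hπ0⟩ := v_pi A hA hπ
  have hPQ : ((3 : ℕ) : ℤ) • (P + Q) = 0 := by rw [zsmul_add, hP, hQ, add_zero]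
  have h2 : (2 : Qb) ≠ 0 := by norm_num
  obtain ⟨hlaw, -⟩ := Fermat.Agent.Tate.T5.H46.law_add h2 P Q (two_nsmul_of_three W hP)
    (two_nsmul_of_three W hQ) (two_nsmul_of_three W hPQ)
  rw [EQ_b₂, EQ_b₄, EQ_b₆] at hlaw
  obtain ⟨hs₁, hr₁⟩ := v_scaled_le W A hΔ hb₂ hA hπ hP
  obtain ⟨hs₂, hr₂⟩ := v_scaled_le W A hΔ hb₂ hA hπ hQ
  have e1 : π * (zc P / π) = zc P := mul_div_cancel₀ _ hπ0
  have e2 : π * (wc P / π) = wc P := mul_div_cancel₀ _ hπ0
  have e3 : π * (zc Q / π) = zc Q := mul_div_cancel₀ _ hπ0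
  have e4 : π * (wc Q / π) = wc Q := mul_div_cancel₀ _ hπ0
  exact add_estimate A.valuation hπ1 hπ0 (v_int_le A W.b₂) (v_int_le A W.b₄) (v_int_le A W.b₆)
    hs₁ hr₁ hs₂ hr₂ (z₃ := zc (P + Q)) (by rw [e1, e2, e3, e4]; exact hlaw)

end torsion

section main

variable (W : WeierstrassCurve ℤ) (A : ValuationSubring Qb)

/-- The value `ζ = σ π / π` of the fundamental character is a unit of `A`. -/
theorem v_zeta {π : Qb} (hπ : π ^ 8 = 3) (σ : Qb ≃ₐ[ℚ] Qb) : A.valuation (σ π / π) = 1 := by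
  have hπ0 : π ≠ 0 := by rintro rfl; norm_num at hπ
  have h8 : (σ π / π) ^ 8 = 1 := by
    rw [div_pow, ← map_pow, hπ, map_ofNat, div_self (by norm_num)]
  have : A.valuation (σ π / π) ^ 8 = 1 ^ 8 := by rw [← map_pow, h8, map_one, one_pow]
  exact (pow_left_inj (by norm_num : (8 : ℕ) ≠ 0)).mp this

/-- The linearisation `P ↦ z(P)/π mod 𝔪` on the points killed by `3`. -/
noncomputable def lamFun (π : Qb)
    (x : Submodule.torsionBy ℤ (EQ W).Point ((3 : ℕ) : ℤ)) : IsLocalRing.ResidueField A :=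
  resA A (zc (x : (EQ W).Point) / π)

theorem mem_tors (x : Submodule.torsionBy ℤ (EQ W).Point ((3 : ℕ) : ℤ)) :
    ((3 : ℕ) : ℤ) • (x : (EQ W).Point) = 0 :=
  (Submodule.mem_torsionBy_iff _ _).mp x.2

theorem lamFun_add (hΔ : ¬ (3 : ℤ) ∣ W.Δ) (hb₂ : (3 : ℤ) ∣ W.b₂) (hA : A.LiesOverPrime 3)
    {π : Qb} (hπ : π ^ 8 = 3) (x y : Submodule.torsionBy ℤ (EQ W).Point ((3 : ℕ) : ℤ)) :
    lamFun W A π (x + y) = lamFun W A π x + lamFun W A π y := by
  unfold lamFun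
  have hx := mem_tors W x
  have hy := mem_tors W y
  have hxy := mem_tors W (x + y)
  have e : ((x + y : Submodule.torsionBy ℤ (EQ W).Point ((3 : ℕ) : ℤ)) : (EQ W).Point)
      = (x : (EQ W).Point) + (y : (EQ W).Point) := rfl
  rw [e] at hxy ⊢
  have m1 := (A.valuation_le_one_iff _).mp (v_scaled_le W A hΔ hb₂ hA hπ hx).1
  have m2 := (A.valuation_le_one_iff _).mp (v_scaled_le W A hΔ hb₂ hA hπ hy).1
  have m3 := (A.valuation_le_one_iff _).mp (v_scaled_le W A hΔ hb₂ hA hπ hxy).1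
  rw [resA_eq_of_sub A m3 (A.add_mem _ _ m1 m2) (v_scaled_add W A hΔ hb₂ hA hπ hx hy),
    resA_add A m1 m2]

theorem lamFun_zero (π : Qb) : lamFun W A π 0 = 0 := by
  unfold lamFun
  have : zc ((0 : Submodule.torsionBy ℤ (EQ W).Point ((3 : ℕ) : ℤ)) : (EQ W).Point) = 0 := rfl
  rw [this, zero_div, resA_zero]

theorem lamFun_eq_zero (hΔ : ¬ (3 : ℤ) ∣ W.Δ) (hb₂ : (3 : ℤ) ∣ W.b₂) (hA : A.LiesOverPrime 3)
    {π : Qb} (hπ : π ^ 8 = 3) (x : Submodule.torsionBy ℤ (EQ W).Point ((3 : ℕ) : ℤ))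
    (h : lamFun W A π x = 0) : x = 0 := by
  by_contra hx
  have hx' : (x : (EQ W).Point) ≠ 0 := fun h0 => hx (Subtype.ext h0)
  have h1 := v_scaled_eq W A hΔ hb₂ hA hπ (mem_tors W x) hx'
  have m := (A.valuation_le_one_iff _).mp (le_of_eq h1)
  unfold lamFun at h
  have := (resA_eq_zero_iff A m).mp h
  rw [h1] at this
  exact lt_irrefl _ this

theorem lamFun_smul (hΔ : ¬ (3 : ℤ) ∣ W.Δ) (hb₂ : (3 : ℤ) ∣ W.b₂) (hA : A.LiesOverPrime 3)
    {π : Qb} (hπ : π ^ 8 = 3) (σ : Qb ≃ₐ[ℚ] Qb) (hσ : σ ∈ A.inertiaSubgroupIn ℚ)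
    (x : Submodule.torsionBy ℤ (EQ W).Point ((3 : ℕ) : ℤ)) :
    lamFun W A π (σ • x) = resA A (σ π / π) * lamFun W A π x := by
  obtain ⟨hdec, hin⟩ := (Fermat.Agent.Lib.InertiaBridge.mem_inertiaSubgroupIn_iff_forall A σ).mp hσ
  have hπ0 : π ≠ 0 := by rintro rfl; norm_num at hπ
  unfold lamFun
  have e : ((σ • x : Submodule.torsionBy ℤ (EQ W).Point ((3 : ℕ) : ℤ)) : (EQ W).Point)
      = σ • (x : (EQ W).Point) := rfl
  rw [e, zc_smul]
  set s := zc (x : (EQ W).Point) / π with hs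
  have ms : s ∈ A := (A.valuation_le_one_iff _).mp (v_scaled_le W A hΔ hb₂ hA hπ (mem_tors W x)).1
  have mσs : σ s ∈ A :=
    ((Fermat.Agent.Lib.InertiaBridge.mem_decompositionSubgroup_iff_forall A σ).mp hdec s).mpr ms
  have mζ : σ π / π ∈ A := (A.valuation_le_one_iff _).mp (le_of_eq (v_zeta A hπ σ))
  have e2 : σ (zc (x : (EQ W).Point)) / π = (σ π / π) * σ s := by
    have : zc (x : (EQ W).Point) = s * π := by rw [hs]; field_simp
    rw [this, map_mul]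
    have hσπ : σ π ≠ 0 := by
      intro h0
      apply hπ0
      have := congrArg σ.symm h0
      simpa using this
    field_simp
  rw [e2, resA_mul A mζ mσs, resA_eq_of_sub A mσs ms (hin s ms)]

end main

/-- **LOC3-E** (trace form): the trace of an inertia element at `3` on the `3`-torsion of a curve
with good supersingular reduction at `3` is `ζ + ζ ^ 3` modulo the maximal ideal, where
`ζ = σ π / π`, `π ^ 8 = 3`. -/
def Stmt_Loc3E : Prop :=
  ∀ (W : WeierstrassCurve ℤ), ¬ (3 : ℤ) ∣ W.Δ → (3 : ℤ) ∣ W.b₂ →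
    ∀ (A : ValuationSubring Qb), A.LiesOverPrime 3 →
    ∀ σ ∈ A.inertiaSubgroupIn ℚ, ∀ π : Qb, π ^ 8 = 3 →
      ∃ t : ℤ,
        Point.galoisTrace ℚ (W.map (Int.castRingHom ℚ)).toAffine 3 σ = (t : ZMod 3) ∧
        A.valuation ((t : Qb) - (σ π / π + (σ π / π) ^ 3)) < 1

theorem stmt_Loc3E : Stmt_Loc3E := by
  intro W hΔ hb₂ A hA σ hσ π hπ
  have hp3 : Fact (Nat.Prime 3) := ⟨by norm_num⟩
  have hchar : CharP (IsLocalRing.ResidueField A) 3 := charP_res A hA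
  let _ : Algebra (ZMod 3) (IsLocalRing.ResidueField A) := ZMod.algebra _ 3
  have hΔ0 : W.Δ ≠ 0 := by
    intro h; apply hΔ; rw [h]; exact dvd_zero _
  have hfin := Fermat.Agent.Lib.EllFinite.H46.finrank_torsionBy_int W hΔ0 3
  let lamAdd : Submodule.torsionBy ℤ (EQ W).Point ((3 : ℕ) : ℤ) →+ IsLocalRing.ResidueField A :=
    { toFun := lamFun W A π
      map_zero' := lamFun_zero W A π
      map_add' := lamFun_add W A hΔ hb₂ hA hπ }
  let lam : Submodule.torsionBy ℤ (EQ W).Point ((3 : ℕ) : ℤ) →ₗ[ZMod 3]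
      IsLocalRing.ResidueField A := AddMonoidHom.toZModLinearMap 3 lamAdd
  have hlam : ∀ x, lam x = lamFun W A π x := fun _ => rfl
  have hinj : Function.Injective lam := by
    rw [injective_iff_map_eq_zero]
    intro x hx
    exact lamFun_eq_zero W A hΔ hb₂ hA hπ x (by rw [← hlam]; exact hx)
  have hT : ∀ x, lam (Point.galoisRepModuleEnd ℚ (W.map (Int.castRingHom ℚ)).toAffine 3 σ x)
      = resA A (σ π / π) * lam x := by
    intro x
    rw [hlam, hlam, Point.galoisRepModuleEnd_apply]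
    exact lamFun_smul W A hΔ hb₂ hA hπ σ hσ x
  have htr := trace_eq_of_intertwine hfin
    (Point.galoisRepModuleEnd ℚ (W.map (Int.castRingHom ℚ)).toAffine 3 σ) lam hinj _ hT
  set tr : ZMod 3 := Point.galoisTrace ℚ (W.map (Int.castRingHom ℚ)).toAffine 3 σ with htrdef
  have htr' : algebraMap (ZMod 3) (IsLocalRing.ResidueField A) tr
      = resA A (σ π / π) + resA A (σ π / π) ^ 3 := htr
  refine ⟨((ZMod.val tr : ℕ) : ℤ), ?_, ?_⟩
  · simp
  · have mζ : σ π / π ∈ A := (A.valuation_le_one_iff _).mp (le_of_eq (v_zeta A hπ σ))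
    have mt : (((ZMod.val tr : ℕ) : ℤ) : Qb) ∈ A := intCast_mem A _
    have mζ3 : (σ π / π) ^ 3 ∈ A := pow_mem mζ 3
    have msum : σ π / π + (σ π / π) ^ 3 ∈ A := A.add_mem _ _ mζ mζ3
    have hsum : resA A (σ π / π + (σ π / π) ^ 3) = resA A (σ π / π) + resA A (σ π / π) ^ 3 := by
      rw [resA_add A mζ mζ3]
      congr 1
      rw [pow_succ, pow_two, resA_mul A (A.mul_mem _ _ mζ mζ) mζ, resA_mul A mζ mζ, pow_succ,
        pow_two]
    have ht : resA A (((ZMod.val tr : ℕ) : ℤ) : Qb)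
        = algebraMap (ZMod 3) (IsLocalRing.ResidueField A) tr := by
      rw [resA_intCast]
      have : tr = (((ZMod.val tr : ℕ) : ℤ) : ZMod 3) := by simp
      conv_rhs => rw [this]
      rw [map_intCast]
    have hdiff : resA A ((((ZMod.val tr : ℕ) : ℤ) : Qb) - (σ π / π + (σ π / π) ^ 3)) = 0 := by
      have hmem := A.sub_mem mt msum
      have : resA A ((((ZMod.val tr : ℕ) : ℤ) : Qb) - (σ π / π + (σ π / π) ^ 3))
          + resA A (σ π / π + (σ π / π) ^ 3) = resA A (((ZMod.val tr : ℕ) : ℤ) : Qb) := by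
        rw [← resA_add A hmem msum]; congr 1; ring
      rw [ht, htr', hsum] at this
      exact add_eq_right.mp this
    exact (resA_eq_zero_iff A (A.sub_mem mt msum)).mp hdiff

end Fermat.Agent.W.LL3.H65
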