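/-
LL3, supersingular branch of TWXLOC (helper65), part 1: LOC3-E under the hypothesis `AllInKer`.

`SSVal W A`: every nonzero point of order `3` has `1 < |x|` and `|3| |x|^4 = 1` at `A`.
* `ssVal_of_allInKer` : `Tate.T7.AllInKer W 3 A` (all of `W[3]` in the kernel of reduction at `A`)
  gives `SSVal W A` (landed `Tate.T7.H46.stmt_SSval`);
* `ssVal_of_good` : `3 ∤ Δ`, `3 ∣ b₂` gives `SSVal W A` (Newton polygon, `newton_psi3`);
* `exists_lam_of_ssVal` : the linearisation `λ : W[3] →+ k_A`, injective, with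
  `λ (σ x) = res (σ π / π) λ x` for `σ` in the inertia group of `A` (`π ^ 8 = 3`);
* `stmt_Loc3E_AIK` : the trace of `σ ∈ I_A` on `W[3]` is `ζ + ζ ^ 3` modulo `𝔪_A`, `ζ = σ π / π`.
-/
import Fermat.Agent.W.LL3.H65_Loc3E
import Fermat.Agent.Tate.T7.H46_SS

set_option autoImplicit false

namespace Fermat.Agent.W.LL3.H65

open WeierstrassCurve WeierstrassCurve.Affine
open Fermat.Agent.Tate.T5.H46 (zc wc psi lawD lawNz)

section torsion

variable (W : WeierstrassCurve ℤ) (A : ValuationSubring Qb)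

/-- Every nonzero point of order `3` has `1 < |x|` and `|3| |x| ^ 4 = 1` at `A`. -/
def SSVal : Prop :=
  ∀ (x y : Qb) (h : (EQ W).Nonsingular x y),
    ((3 : ℕ) : ℤ) • (Point.some x y h : (EQ W).Point) = 0 →
      1 < A.valuation x ∧ A.valuation 3 * A.valuation x ^ 4 = 1

theorem ssVal_of_good (hΔ : ¬ (3 : ℤ) ∣ W.Δ) (hb₂ : (3 : ℤ) ∣ W.b₂) (hA : A.LiesOverPrime 3) :
    SSVal W A := by
  intro x y h h3
  obtain ⟨c, hc⟩ := hb₂
  have heq := psi3_eq W hΔ h h3
  have hcast : ((W.b₂ : ℤ) : Qb) = 3 * (c : Qb) := by rw [hc]; push_cast; ring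
  have hb₂' : (3 : ℤ) ∣ W.b₂ := ⟨c, hc⟩
  rw [hcast] at heq
  exact newton_psi3 A.valuation (v_three_lt A hA) (v_int_le A c)
    (v_int_le A W.b₄) (v_int_le A W.b₆) (v_int_eq_one A hA (not_dvd_b₈ W hΔ hb₂')) heq

theorem ssVal_of_allInKer (hΔ : W.Δ ≠ 0) (hA : A.LiesOverPrime 3)
    (hall : Fermat.Agent.Tate.T7.AllInKer W 3 A) : SSVal W A := by
  intro x y h h3
  have h3' : (3 : ℕ) • (Point.some x y h : Fermat.Agent.Tate.EQbar W) = 0 := by
    have := h3
    rw [natCast_zsmul] at this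
    exact this
  have hx : x ∉ A := hall x y h h3'
  have hx1 : 1 < A.valuation x := by
    by_contra hcon
    exact hx ((A.valuation_le_one_iff x).mp (not_lt.mp hcon))
  refine ⟨hx1, ?_⟩
  have hval := Fermat.Agent.Tate.T7.H46.stmt_SSval W hΔ 3 (by norm_num) (by norm_num) A hA hall
    x y h h3'
  have e : ((3 : ℕ) ^ 2 - 1) / 2 = 4 := by norm_num
  rw [e, map_mul, map_pow] at hval
  have e3 : (((3 : ℕ) : Qb)) = 3 := by norm_num
  rw [e3] at hval
  rw [mul_comm]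
  exact hval

/-- The valuations of the scaled coordinates of a nonzero point of order `3`. -/
theorem v_scaled_ss (hss : SSVal W A) (hA : A.LiesOverPrime 3)
    {π : Qb} (hπ : π ^ 8 = 3) {x y : Qb} (h : (EQ W).Nonsingular x y)
    (h3 : ((3 : ℕ) : ℤ) • (Point.some x y h : (EQ W).Point) = 0) :
    A.valuation (zc (Point.some x y h : (EQ W).Point) / π) = 1 ∧
      A.valuation (wc (Point.some x y h : (EQ W).Point) / π) ≤ 1 := by
  obtain ⟨hπ8, hπ1, hπ0⟩ := v_pi A hA hπ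
  have hvπ : A.valuation π ≠ 0 := by rwa [ne_eq, Valuation.zero_iff]
  obtain ⟨hx1, h38⟩ := hss x y h h3
  have hψ := Fermat.Agent.Tate.T5.H46.psi_sq (W := EQ W) h.1
  rw [EQ_b₂, EQ_b₄, EQ_b₆] at hψ
  have hψ2 := v_psi_sq A.valuation (v_two A hA) hx1 (v_int_le A W.b₂) (v_int_le A W.b₄)
    (v_int_le A W.b₆) hψ
  obtain ⟨hz8, hw⟩ := v_z_w A.valuation hx1 h38 hψ2
  have hz : A.valuation (x / psi (EQ W) x y) = A.valuation π :=
    (pow_left_inj (by norm_num : (8 : ℕ) ≠ 0)).mp (by rw [hz8, hπ8])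
  rw [Fermat.Agent.Tate.T5.H46.zc_some, Fermat.Agent.Tate.T5.H46.wc_some]
  constructor
  · rw [map_div₀, hz, div_self hvπ]
  · rw [map_div₀, hw, hz, div_le_iff₀ (lt_of_le_of_ne zero_le (Ne.symm hvπ)), one_mul]
    calc A.valuation π ^ 3 = A.valuation π ^ 2 * A.valuation π := pow_succ _ 2
      _ ≤ 1 * A.valuation π := by
        gcongr
        exact pow_le_one₀ zero_le (le_of_lt hπ1)
      _ = A.valuation π := one_mul _

/-- The scaled coordinates of a point killed by `3` are integral. -/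
theorem v_scaled_le_ss (hss : SSVal W A) (hA : A.LiesOverPrime 3)
    {π : Qb} (hπ : π ^ 8 = 3) {P : (EQ W).Point} (h3 : ((3 : ℕ) : ℤ) • P = 0) :
    A.valuation (zc P / π) ≤ 1 ∧ A.valuation (wc P / π) ≤ 1 := by
  rcases P with _ | ⟨x, y, h⟩
  · change A.valuation (zc (0 : (EQ W).Point) / π) ≤ 1 ∧
      A.valuation (wc (0 : (EQ W).Point) / π) ≤ 1
    simp
  · obtain ⟨h1, h2⟩ := v_scaled_ss W A hss hA hπ h h3
    exact ⟨le_of_eq h1, h2⟩

/-- The scaled coordinate `z/π` of a nonzero point killed by `3` is a unit. -/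
theorem v_scaled_eq_ss (hss : SSVal W A) (hA : A.LiesOverPrime 3)
    {π : Qb} (hπ : π ^ 8 = 3) {P : (EQ W).Point} (h3 : ((3 : ℕ) : ℤ) • P = 0) (hP : P ≠ 0) :
    A.valuation (zc P / π) = 1 := by
  rcases P with _ | ⟨x, y, h⟩
  · exact absurd rfl hP
  · exact (v_scaled_ss W A hss hA hπ h h3).1

/-- Additivity of `z/π` modulo the maximal ideal. -/
theorem v_scaled_add_ss (hss : SSVal W A) (hA : A.LiesOverPrime 3)
    {π : Qb} (hπ : π ^ 8 = 3) {P Q : (EQ W).Point} (hP : ((3 : ℕ) : ℤ) • P = 0)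
    (hQ : ((3 : ℕ) : ℤ) • Q = 0) :
    A.valuation (zc (P + Q) / π - (zc P / π + zc Q / π)) < 1 := by
  obtain ⟨-, hπ1, hπ0⟩ := v_pi A hA hπ
  have hPQ : ((3 : ℕ) : ℤ) • (P + Q) = 0 := by rw [zsmul_add, hP, hQ, add_zero]
  have h2 : (2 : Qb) ≠ 0 := by norm_num
  obtain ⟨hlaw, -⟩ := Fermat.Agent.Tate.T5.H46.law_add h2 P Q (two_nsmul_of_three W hP)
    (two_nsmul_of_three W hQ) (two_nsmul_of_three W hPQ)
  rw [EQ_b₂, EQ_b₄, EQ_b₆] at hlaw
  obtain ⟨hs₁, hr₁⟩ := v_scaled_le_ss W A hss hA hπ hP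
  obtain ⟨hs₂, hr₂⟩ := v_scaled_le_ss W A hss hA hπ hQ
  have e1 : π * (zc P / π) = zc P := mul_div_cancel₀ _ hπ0
  have e2 : π * (wc P / π) = wc P := mul_div_cancel₀ _ hπ0
  have e3 : π * (zc Q / π) = zc Q := mul_div_cancel₀ _ hπ0
  have e4 : π * (wc Q / π) = wc Q := mul_div_cancel₀ _ hπ0
  exact add_estimate A.valuation hπ1 hπ0 (v_int_le A W.b₂) (v_int_le A W.b₄) (v_int_le A W.b₆)
    hs₁ hr₁ hs₂ hr₂ (z₃ := zc (P + Q)) (by rw [e1, e2, e3, e4]; exact hlaw)

end torsion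

section main

variable (W : WeierstrassCurve ℤ) (A : ValuationSubring Qb)

theorem lamFun_add_ss (hss : SSVal W A) (hA : A.LiesOverPrime 3)
    {π : Qb} (hπ : π ^ 8 = 3) (x y : Submodule.torsionBy ℤ (EQ W).Point ((3 : ℕ) : ℤ)) :
    lamFun W A π (x + y) = lamFun W A π x + lamFun W A π y := by
  unfold lamFun
  have hx := mem_tors W x
  have hy := mem_tors W y
  have hxy := mem_tors W (x + y)
  have e : ((x + y : Submodule.torsionBy ℤ (EQ W).Point ((3 : ℕ) : ℤ)) : (EQ W).Point)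
      = (x : (EQ W).Point) + (y : (EQ W).Point) := rfl
  rw [e] at hxy ⊢
  have m1 := (A.valuation_le_one_iff _).mp (v_scaled_le_ss W A hss hA hπ hx).1
  have m2 := (A.valuation_le_one_iff _).mp (v_scaled_le_ss W A hss hA hπ hy).1
  have m3 := (A.valuation_le_one_iff _).mp (v_scaled_le_ss W A hss hA hπ hxy).1
  rw [resA_eq_of_sub A m3 (A.add_mem _ _ m1 m2) (v_scaled_add_ss W A hss hA hπ hx hy),
    resA_add A m1 m2]

theorem lamFun_eq_zero_ss (hss : SSVal W A) (hA : A.LiesOverPrime 3)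
    {π : Qb} (hπ : π ^ 8 = 3) (x : Submodule.torsionBy ℤ (EQ W).Point ((3 : ℕ) : ℤ))
    (h : lamFun W A π x = 0) : x = 0 := by
  by_contra hx
  have hx' : (x : (EQ W).Point) ≠ 0 := fun h0 => hx (Subtype.ext h0)
  have h1 := v_scaled_eq_ss W A hss hA hπ (mem_tors W x) hx'
  have m := (A.valuation_le_one_iff _).mp (le_of_eq h1)
  unfold lamFun at h
  have := (resA_eq_zero_iff A m).mp h
  rw [h1] at this
  exact lt_irrefl _ this

theorem lamFun_smul_ss (hss : SSVal W A) (hA : A.LiesOverPrime 3)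
    {π : Qb} (hπ : π ^ 8 = 3) (σ : Qb ≃ₐ[ℚ] Qb) (hσ : σ ∈ A.inertiaSubgroupIn ℚ)
    (x : Submodule.torsionBy ℤ (EQ W).Point ((3 : ℕ) : ℤ)) :
    lamFun W A π (σ • x) = resA A (σ π / π) * lamFun W A π x := by
  obtain ⟨hdec, hin⟩ := (Fermat.Agent.Lib.InertiaBridge.mem_inertiaSubgroupIn_iff_forall A σ).mp hσ
  have hπ0 : π ≠ 0 := by rintro rfl; norm_num at hπ
  unfold lamFun
  have e : ((σ • x : Submodule.torsionBy ℤ (EQ W).Point ((3 : ℕ) : ℤ)) : (EQ W).Point)
      = σ • (x : (EQ W).Point) := rfl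
  rw [e, zc_smul]
  set s := zc (x : (EQ W).Point) / π with hs
  have ms : s ∈ A := (A.valuation_le_one_iff _).mp (v_scaled_le_ss W A hss hA hπ (mem_tors W x)).1
  have mσs : σ s ∈ A :=
    ((Fermat.Agent.Lib.InertiaBridge.mem_decompositionSubgroup_iff_forall A σ).mp hdec s).mpr ms
  have mζ : σ π / π ∈ A := (A.valuation_le_one_iff _).mp (le_of_eq (v_zeta A hπ σ))
  have e2 : σ (zc (x : (EQ W).Point)) / π = (σ π / π) * σ s := by
    have : zc (x : (EQ W).Point) = s * π := by rw [hs]; field_simp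
    rw [this, map_mul]
    have hσπ : σ π ≠ 0 := by
      intro h0
      apply hπ0
      have := congrArg σ.symm h0
      simpa using this
    field_simp
  rw [e2, resA_mul A mζ mσs, resA_eq_of_sub A mσs ms (hin s ms)]

/-- The linearisation of `W[3]` at a supersingular place. -/
theorem exists_lam_of_ssVal (hA : A.LiesOverPrime 3) (hss : SSVal W A) {π : Qb}
    (hπ : π ^ 8 = 3) :
    ∃ lam : Submodule.torsionBy ℤ (EQ W).Point ((3 : ℕ) : ℤ) →+ IsLocalRing.ResidueField A,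
      Function.Injective lam ∧
      ∀ σ ∈ A.inertiaSubgroupIn ℚ, ∀ x, lam (σ • x) = resA A (σ π / π) * lam x := by
  let lamAdd : Submodule.torsionBy ℤ (EQ W).Point ((3 : ℕ) : ℤ) →+ IsLocalRing.ResidueField A :=
    { toFun := lamFun W A π
      map_zero' := lamFun_zero W A π
      map_add' := lamFun_add_ss W A hss hA hπ }
  refine ⟨lamAdd, ?_, fun σ hσ x => lamFun_smul_ss W A hss hA hπ σ hσ x⟩
  rw [injective_iff_map_eq_zero]
  intro x hx
  exact lamFun_eq_zero_ss W A hss hA hπ x hx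

/-- The trace clause of LOC3-E from `SSVal`. -/
theorem trace_of_ssVal (hΔ0 : W.Δ ≠ 0) (hA : A.LiesOverPrime 3) (hss : SSVal W A)
    (σ : Qb ≃ₐ[ℚ] Qb) (hσ : σ ∈ A.inertiaSubgroupIn ℚ) (π : Qb) (hπ : π ^ 8 = 3) :
    ∃ t : ℤ,
      Point.galoisTrace ℚ (W.map (Int.castRingHom ℚ)).toAffine 3 σ = (t : ZMod 3) ∧
      A.valuation ((t : Qb) - (σ π / π + (σ π / π) ^ 3)) < 1 := by
  have hp3 : Fact (Nat.Prime 3) := ⟨by norm_num⟩
  have hchar : CharP (IsLocalRing.ResidueField A) 3 := charP_res A hA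
  let _ : Algebra (ZMod 3) (IsLocalRing.ResidueField A) := ZMod.algebra _ 3
  have hfin := Fermat.Agent.Lib.EllFinite.H46.finrank_torsionBy_int W hΔ0 3
  let lamAdd : Submodule.torsionBy ℤ (EQ W).Point ((3 : ℕ) : ℤ) →+ IsLocalRing.ResidueField A :=
    { toFun := lamFun W A π
      map_zero' := lamFun_zero W A π
      map_add' := lamFun_add_ss W A hss hA hπ }
  let lam : Submodule.torsionBy ℤ (EQ W).Point ((3 : ℕ) : ℤ) →ₗ[ZMod 3]
      IsLocalRing.ResidueField A := AddMonoidHom.toZModLinearMap 3 lamAdd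
  have hlam : ∀ x, lam x = lamFun W A π x := fun _ => rfl
  have hinj : Function.Injective lam := by
    rw [injective_iff_map_eq_zero]
    intro x hx
    exact lamFun_eq_zero_ss W A hss hA hπ x (by rw [← hlam]; exact hx)
  have hT : ∀ x, lam (Point.galoisRepModuleEnd ℚ (W.map (Int.castRingHom ℚ)).toAffine 3 σ x)
      = resA A (σ π / π) * lam x := by
    intro x
    rw [hlam, hlam, Point.galoisRepModuleEnd_apply]
    exact lamFun_smul_ss W A hss hA hπ σ hσ x
  have htr := trace_eq_of_intertwine hfin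
    (Point.galoisRepModuleEnd ℚ (W.map (Int.castRingHom ℚ)).toAffine 3 σ) lam hinj _ hT
  set tr : ZMod 3 := Point.galoisTrace ℚ (W.map (Int.castRingHom ℚ)).toAffine 3 σ with htrdef
  have htr' : algebraMap (ZMod 3) (IsLocalRing.ResidueField A) tr
      = resA A (σ π / π) + resA A (σ π / π) ^ 3 := htr
  refine ⟨((ZMod.val tr : ℕ) : ℤ), ?_, ?_⟩
  · simp
  · have mζ : σ π / π ∈ A := (A.valuation_le_one_iff _).mp (le_of_eq (v_zeta A hπ σ))
    have mt : (((ZMod.val tr : ℕ) : ℤ) : Qb) ∈ A := intCast_mem A _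
    have mζ3 : (σ π / π) ^ 3 ∈ A := pow_mem mζ 3
    have msum : σ π / π + (σ π / π) ^ 3 ∈ A := A.add_mem _ _ mζ mζ3
    have hsum : resA A (σ π / π + (σ π / π) ^ 3) = resA A (σ π / π) + resA A (σ π / π) ^ 3 := by
      rw [resA_add A mζ mζ3]
      congr 1
      rw [pow_succ, pow_two, resA_mul A (A.mul_mem _ _ mζ mζ) mζ, resA_mul A mζ mζ, pow_succ,
        pow_two]
    have ht : resA A (((ZMod.val tr : ℕ) : ℤ) : Qb)
        = algebraMap (ZMod 3) (IsLocalRing.ResidueField A) tr := by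
      rw [resA_intCast]
      have : tr = (((ZMod.val tr : ℕ) : ℤ) : ZMod 3) := by simp
      conv_rhs => rw [this]
      rw [map_intCast]
    have hdiff : resA A ((((ZMod.val tr : ℕ) : ℤ) : Qb) - (σ π / π + (σ π / π) ^ 3)) = 0 := by
      have hmem := A.sub_mem mt msum
      have : resA A ((((ZMod.val tr : ℕ) : ℤ) : Qb) - (σ π / π + (σ π / π) ^ 3))
          + resA A (σ π / π + (σ π / π) ^ 3) = resA A (((ZMod.val tr : ℕ) : ℤ) : Qb) := by
        rw [← resA_add A hmem msum]; congr 1; ring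
      rw [ht, htr', hsum] at this
      exact add_eq_right.mp this
    exact (resA_eq_zero_iff A (A.sub_mem mt msum)).mp hdiff

end main

/-- **LOC3-E under `AllInKer`** (trace form): if all of `W[3]` lies in the kernel of reduction at
`A ∣ 3`, the trace of an inertia element `σ` at `A` on `W[3]` is `ζ + ζ ^ 3` modulo the maximal
ideal, where `ζ = σ π / π`, `π ^ 8 = 3`. -/
def Stmt_Loc3E_AIK : Prop :=
  ∀ (W : WeierstrassCurve ℤ), W.Δ ≠ 0 →
    ∀ (A : ValuationSubring Qb), A.LiesOverPrime 3 → Fermat.Agent.Tate.T7.AllInKer W 3 A →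
    ∀ σ ∈ A.inertiaSubgroupIn ℚ, ∀ π : Qb, π ^ 8 = 3 →
      ∃ t : ℤ,
        Point.galoisTrace ℚ (W.map (Int.castRingHom ℚ)).toAffine 3 σ = (t : ZMod 3) ∧
        A.valuation ((t : Qb) - (σ π / π + (σ π / π) ^ 3)) < 1

theorem stmt_Loc3E_AIK : Stmt_Loc3E_AIK := fun W hΔ A hA hall σ hσ π hπ =>
  trace_of_ssVal W A hΔ hA (ssVal_of_allInKer W A hΔ hA hall) σ hσ π hπ

end Fermat.Agent.W.LL3.H65
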