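import Fermat.Agent.W.LL3.Defs
import Fermat.Prelude.Def_GaloisRep_Residual
import Fermat.Prelude.Def_GaloisRep_Flat
import Fermat.Prelude.Def_GaloisRep_ModThreeCyclotomic

/-!
# W-CHAIN, gap LL3: the package TWX (exclusion of the twist), cut into GLOBAL and LOCAL (helper4)

`Stmt_TWX3` is `Stmt_TWX` for the levels `3 * M₀`, `3 ∤ M₀` (the only levels the descent produces).

* GLOBAL `Stmt_LOC3h`: if the twisted system of `W` occurs in level `3 * M₀` (`3 ∤ M₀`), there is a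
  two-dimensional `𝔽₃`-representation `U` of `G_ℚ` with the twisted Frobenius traces which is FLAT
  at `3` (the `3`-old case: prelude shape `IsFlatAt`, from the landed S32) or has an inertia line
  with the cyclotomic character (the `3`-new case: Steinberg shape, from the landed S33 tools).
* LOCAL `Stmt_TWXLOC`: for a semistable `W` with irreducible mod-3 representation and no
  inertia-fixed 3-torsion at `3`, no such `U` exists.

`twx3_of : Stmt_LOC3h → Stmt_TWXLOC → Stmt_TWX3` and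
`ll3_of3 : Stmt_AS → Stmt_NONEIS → Stmt_TWX3 → Stmt_LL3` are proved here.
-/

set_option autoImplicit false

open WeierstrassCurve WeierstrassCurve.Affine WeierstrassCurve.Affine.Point
open scoped WeierstrassCurve.Affine
open CuspForm

namespace Fermat.Agent.W.LL3

open Fermat.Agent.W.Chain

/-- The mod-3 cyclotomic character with values in `ZMod 3`. -/
noncomputable def omega3 (σ : AlgebraicClosure ℚ ≃ₐ[ℚ] AlgebraicClosure ℚ) : ZMod 3 :=
  ((WeierstrassCurve.modThreeCyclotomicChar σ : (ZMod 3)ˣ) : ZMod 3)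

/-- `U` has the Frobenius traces of the twisted system of `W` outside a finite set of primes. -/
def TracesTwist (W : WeierstrassCurve ℤ) (U : ResidualGaloisRep (ZMod 3)) : Prop :=
  ∃ S : Finset ℕ, ∀ ℓ : ℕ, ℓ.Prime → ℓ ∉ S →
    ∀ A : ValuationSubring (AlgebraicClosure ℚ), A.LiesOverPrime ℓ →
      ∀ σ : AlgebraicClosure ℚ ≃ₐ[ℚ] AlgebraicClosure ℚ, A.IsFrobeniusAt σ ℓ →
        LinearMap.trace (ZMod 3) U.V (U.ρ σ) =
          ((EisensteinWeightOne.chiNegThree ℓ * W.apOfModel ℓ : ℤ) : ZMod 3)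

/-- `U` is the group of `ℚ̄`-points of a finite flat commutative group scheme over `ℤ₍₃₎`,
Galois-equivariantly (the shape of the prelude's `GaloisRepAdic.IsFlatAt` at one level). -/
def FlatShape (U : ResidualGaloisRep (ZMod 3)) : Prop :=
  ∃ (H : Type) (_ : CommRing H) (_ : HopfAlgebra (GaloisRep.ratLocalizedAt 3) H),
    Module.Finite (GaloisRep.ratLocalizedAt 3) H ∧
    Module.Flat (GaloisRep.ratLocalizedAt 3) H ∧
    Coalgebra.IsCocomm (GaloisRep.ratLocalizedAt 3) H ∧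
    ∃ e : WithConv (H →ₐ[GaloisRep.ratLocalizedAt 3] AlgebraicClosure ℚ) ≃ U.V,
      (∀ f g : WithConv (H →ₐ[GaloisRep.ratLocalizedAt 3] AlgebraicClosure ℚ),
        e (f * g) = e f + e g) ∧
      ∀ (σ : AlgebraicClosure ℚ ≃ₐ[ℚ] AlgebraicClosure ℚ)
        (f g : WithConv (H →ₐ[GaloisRep.ratLocalizedAt 3] AlgebraicClosure ℚ)),
        (∀ h : H, g h = σ (f h)) → e g = U.ρ σ (e f)

/-- `U` has a nonzero vector on which an inertia group at `3` acts by the cyclotomic character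
(Steinberg / ordinary shape). -/
def OrdShape (U : ResidualGaloisRep (ZMod 3)) : Prop :=
  ∃ A : ValuationSubring (AlgebraicClosure ℚ), A.LiesOverPrime 3 ∧
    ∃ x : U.V, x ≠ 0 ∧ ∀ σ ∈ A.inertiaSubgroupIn ℚ, U.ρ σ x = omega3 σ • x

/-- **TWX3**: `Stmt_TWX` for the levels `3 * M₀`, `3 ∤ M₀`. -/
def Stmt_TWX3 : Prop :=
  ∀ W : WeierstrassCurve ℤ, W.Δ ≠ 0 → W.IsSemistableModel → W.ModRepIsIrreducible 3 →
    NoFixed3 W → ∀ M₀ : ℕ, 0 < M₀ → ¬ 3 ∣ M₀ →
      ¬ ResSys (twist W.apOfModel) W.IsGoodPrimeFor (3 * M₀)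

/-- **LOC3-h** (GLOBAL half of TWX): the shape at `3` of the residual representation of an
eigenform of level `3 * M₀` carrying the twisted system. -/
def Stmt_LOC3h : Prop :=
  ∀ W : WeierstrassCurve ℤ, W.Δ ≠ 0 → W.IsSemistableModel → W.ModRepIsIrreducible 3 →
    ∀ M₀ : ℕ, 0 < M₀ → ¬ 3 ∣ M₀ →
      ResSys (twist W.apOfModel) W.IsGoodPrimeFor (3 * M₀) →
      ∃ U : ResidualGaloisRep (ZMod 3), TracesTwist W U ∧ (FlatShape U ∨ OrdShape U)

/-- **TWX-LOC** (LOCAL half of TWX). -/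
def Stmt_TWXLOC : Prop :=
  ∀ W : WeierstrassCurve ℤ, W.Δ ≠ 0 → W.IsSemistableModel → W.ModRepIsIrreducible 3 →
    NoFixed3 W → ∀ U : ResidualGaloisRep (ZMod 3), TracesTwist W U →
      (FlatShape U ∨ OrdShape U) → False

theorem twx3_of (hG : Stmt_LOC3h) (hL : Stmt_TWXLOC) : Stmt_TWX3 := by
  intro W hΔ hW h3 hfix M₀ hM₀ h3M₀ hres
  obtain ⟨U, hU, hshape⟩ := hG W hΔ hW h3 M₀ hM₀ h3M₀ hres
  exact hL W hΔ hW h3 hfix U hU hshape

/-- Iterating `Stmt_AS`, keeping track of the factor `3`: from a level divisible by `9` one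
reaches a level `3 * M₀` with `3 ∤ M₀`, `3 * M₀ ∣ M`. -/
theorem lower3_of_AS (hAS : Stmt_AS) (a : ℕ → ℤ) (G : ℕ → Prop) (hNE : NonEis3 a G) :
    ∀ M : ℕ, 0 < M → 3 ∣ M → (ResSys a G M ∨ ResSys (twist a) G M) →
      ∃ M₀ : ℕ, 0 < M₀ ∧ ¬ 3 ∣ M₀ ∧ 3 * M₀ ∣ M ∧
        (ResSys a G (3 * M₀) ∨ ResSys (twist a) G (3 * M₀)) := by
  intro M
  induction M using Nat.strong_induction_on with
  | _ M ih =>
    intro hM h3 h
    obtain ⟨K', rfl⟩ := h3
    have hK' : 0 < K' := by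
      rcases Nat.eq_zero_or_pos K' with h0 | h0
      · subst h0; simp at hM
      · exact h0
    by_cases h3K : 3 ∣ K'
    · obtain ⟨K, rfl⟩ := h3K
      have hK : 0 < K := by
        rcases Nat.eq_zero_or_pos K with h0 | h0
        · subst h0; simp at hK'
        · exact h0
      have h9K : 3 * (3 * K) = 9 * K := by ring
      rw [h9K] at h
      have hstep : ResSys a G (3 * K) ∨ ResSys (twist a) G (3 * K) := by
        rcases h with h | h
        · exact hAS a G K hK hNE h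
        · rcases hAS (twist a) G K hK (nonEis3_twist hNE) h with h' | h'
          · exact Or.inr h'
          · exact Or.inl (resSys_twist_twist h')
      obtain ⟨M₀, hM₀, hn3, hdvd, hres⟩ :=
        ih (3 * K) (by omega) (by omega) ⟨K, rfl⟩ hstep
      exact ⟨M₀, hM₀, hn3, hdvd.trans ⟨3, by ring⟩, hres⟩
    · exact ⟨K', hK', h3K, dvd_rfl, h⟩

/-- **The lowering at 3 from AS, NONEIS and TWX3.** -/
theorem ll3_of3 (hAS : Stmt_AS) (hNE : Stmt_NONEIS) (hTWX : Stmt_TWX3) : Stmt_LL3 := by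
  intro W hΔ hW h3 M hM h9 hres hcube hfix
  have h3M : 3 ∣ M := Dvd.dvd.trans ⟨3, by norm_num⟩ h9
  obtain ⟨M₀, hM₀, hn3, hdvd, hres'⟩ :=
    lower3_of_AS hAS W.apOfModel W.IsGoodPrimeFor (hNE W hΔ h3) M hM h3M (Or.inl hres)
  have hn9 : ¬ 3 ^ 2 ∣ 3 * M₀ := by
    intro h
    apply hn3
    have h' : 3 * 3 ∣ 3 * M₀ := by simpa [pow_two] using h
    exact (Nat.mul_dvd_mul_iff_left (by norm_num)).1 h'
  refine ⟨3 * M₀, by omega, ?_, hn9, fun q hq hq3 hdq => hcube q hq hq3 (hdq.trans hdvd)⟩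
  rcases hres' with h | h
  · exact h
  · exact (hTWX W hΔ hW h3 hfix M₀ hM₀ hn3 h).elim

/-- **The lowering at 3 from the four packages.** -/
theorem ll3_of4 (hAS : Stmt_AS) (hNE : Stmt_NONEIS) (hG : Stmt_LOC3h) (hL : Stmt_TWXLOC) :
    Stmt_LL3 :=
  ll3_of3 hAS hNE (twx3_of hG hL)

end Fermat.Agent.W.LL3
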