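/-
LL3, supersingular branch of TWXLOC (helper65), part 2: the inertia element and irreducibility.

* `omega3_eq_neg_one` : `σ μ = μ ^ 2` on the cube roots of unity gives `omega3 σ = -1`;
* `exists_inertia_neg` : for every place `A ∣ 3` there is `σ` in the inertia group of `A` with
  `omega3 σ = -1`, `σ s = -s` for `s ^ 2 = -3`, and `(σ π / π) ^ 4 = -1` for `π ^ 8 = 3`
  (landed `Tate.T7.H52.stmt_CYC`; `π ^ 4 / s` is a fourth root of unity, fixed by inertia);
* `irreducible_of_ssVal`, `stmt_SSIrr` : under `AllInKer W 3 A` the inertia group of `A` leaves no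
  line of `W[3]` stable (submodule and additive-subgroup forms).
-/
import Fermat.Agent.W.LL3.H65_SSLoc
import Fermat.Agent.W.LL3.TwxDefs
import Fermat.Agent.Tate.T7.H52_Cyc

set_option autoImplicit false

namespace Fermat.Agent.W.LL3.H65

open WeierstrassCurve WeierstrassCurve.Affine

theorem zmod3_cases (d : ZMod 3) : d = 0 ∨ d = 1 ∨ d = 2 := by
  revert d; decide

/-- If `σ` squares the cube roots of unity, the mod-3 cyclotomic character is `-1` at `σ`. -/
theorem omega3_eq_neg_one {σ : Qb ≃ₐ[ℚ] Qb} (h : ∀ μ : Qb, μ ^ 3 = 1 → σ μ = μ ^ 2) :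
    omega3 σ = -1 := by
  unfold omega3
  rw [WeierstrassCurve.modThreeCyclotomicChar_apply]
  have key : (-1 : ZMod 3) = modularCyclotomicCharacter Qb
      (IsAlgClosed.card_rootsOfUnity_eq Qb 3) (σ : Qb ≃+* Qb) := by
    apply modularCyclotomicCharacter.unique
    intro t ht
    have ht3 : ((t : Qbˣ) : Qb) ^ 3 = 1 := by
      have := (mem_rootsOfUnity 3 t).mp ht
      have h2 : (((t ^ 3 : Qbˣ)) : Qb) = 1 := by rw [this]; rfl
      simpa using h2
    have hval : ((-1 : ZMod 3)).val = 2 := by decide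
    rw [hval]
    exact h _ ht3
  exact key.symm

section inertia

variable (A : ValuationSubring Qb)

/-- An element of inertia at `3` on which the cyclotomic character is `-1`. -/
theorem exists_inertia_neg (hA : A.LiesOverPrime 3) :
    ∃ σ ∈ A.inertiaSubgroupIn ℚ, omega3 σ = -1 ∧ (∀ s : Qb, s ^ 2 = -3 → σ s = -s) ∧
      ∀ π : Qb, π ^ 8 = 3 → (σ π / π) ^ 4 = -1 := by
  obtain ⟨σ, hσI, hσ⟩ := Fermat.Agent.Tate.T7.H52.stmt_CYC 3 (by norm_num) A hA 2 (by norm_num)
  obtain ⟨-, hin⟩ := (Fermat.Agent.Lib.InertiaBridge.mem_inertiaSubgroupIn_iff_forall A σ).mp hσI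
  have hs : ∀ s : Qb, s ^ 2 = -3 → σ s = -s := by
    intro s hs2
    have hμ3 : ((-1 + s) / 2) ^ 3 = 1 := by
      have : (-1 + s) ^ 3 = 8 := by
        have e : (-1 + s) ^ 3 = -1 + 3 * s - 3 * s ^ 2 + s * s ^ 2 := by ring
        rw [e, hs2]; ring
      rw [div_pow, this]; norm_num
    have h1 := hσ _ hμ3
    have h2 : σ ((-1 + s) / 2) = (-1 + σ s) / 2 := by
      rw [map_div₀, map_add, map_neg, map_one, map_ofNat]
    have h3 : ((-1 + s) / 2) ^ 2 = (-1 - s) / 2 := by
      have e : (-1 + s) ^ 2 = 1 - 2 * s + s ^ 2 := by ring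
      rw [div_pow, e, hs2]; ring
    rw [h2, h3] at h1
    have h4 : (-1 + σ s) = (-1 - s) := by
      have h2ne : (2 : Qb) ≠ 0 := by norm_num
      field_simp at h1
      linear_combination h1
    linear_combination h4
  refine ⟨σ, hσI, omega3_eq_neg_one hσ, hs, fun π hπ => ?_⟩
  have hπ0 : π ≠ 0 := by rintro rfl; norm_num at hπ
  obtain ⟨s, hs2⟩ : ∃ s : Qb, s ^ 2 = -3 := IsAlgClosed.exists_pow_nat_eq (-3 : Qb) (by norm_num)
  have hs0 : s ≠ 0 := by rintro rfl; norm_num at hs2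
  have hσs := hs s hs2
  set q : Qb := π ^ 4 with hq
  have hq2 : q ^ 2 = 3 := by rw [hq, ← pow_mul]; exact hπ
  have hq0 : q ≠ 0 := pow_ne_zero 4 hπ0
  set i : Qb := q / s with hi
  have hi2 : i ^ 2 = -1 := by
    rw [hi, div_pow, hq2, hs2]; norm_num
  have hvi : A.valuation i = 1 := by
    have : A.valuation i ^ 2 = 1 ^ 2 := by rw [← map_pow, hi2, Valuation.map_neg, map_one, one_pow]
    exact (pow_left_inj (by norm_num : (2 : ℕ) ≠ 0)).mp this
  have mi : i ∈ A := (A.valuation_le_one_iff _).mp (le_of_eq hvi)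
  have hσi2 : (σ i) ^ 2 = -1 := by rw [← map_pow, hi2, map_neg, map_one]
  have hσi : σ i = i := by
    have hprod : (σ i - i) * (σ i + i) = 0 := by
      have : (σ i - i) * (σ i + i) = (σ i) ^ 2 - i ^ 2 := by ring
      rw [this, hσi2, hi2, sub_self]
    rcases mul_eq_zero.mp hprod with h | h
    · exact sub_eq_zero.mp h
    · exfalso
      have hneg : σ i = -i := eq_neg_of_add_eq_zero_left h
      have hlt := hin i mi
      rw [hneg] at hlt
      have e : -i - i = -(2 * i) := by ring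
      rw [e, Valuation.map_neg, map_mul, v_two A hA, hvi, one_mul] at hlt
      exact lt_irrefl _ hlt
  have hqi : q = i * s := by rw [hi]; field_simp
  have hσq : σ q = -q := by
    rw [hqi, map_mul, hσi, hσs]; ring
  have : (σ π / π) ^ 4 = σ q / q := by rw [div_pow, hq, map_pow]
  rw [this, hσq, neg_div, div_self hq0]

end inertia

section irreducible

variable (W : WeierstrassCurve ℤ) (A : ValuationSubring Qb)

/-- At a supersingular place the inertia group leaves no line of `W[3]` stable. -/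
theorem irreducible_of_ssVal (hΔ0 : W.Δ ≠ 0) (hA : A.LiesOverPrime 3) (hss : SSVal W A)
    (L : Submodule (ZMod 3) (Submodule.torsionBy ℤ (EQ W).Point ((3 : ℕ) : ℤ)))
    (hL : ∀ σ ∈ A.inertiaSubgroupIn ℚ, ∀ x ∈ L, σ • x ∈ L) : L = ⊥ ∨ L = ⊤ := by
  by_contra hcon
  obtain ⟨hbot, htop⟩ := not_or.mp hcon
  have hp3 : Fact (Nat.Prime 3) := ⟨by norm_num⟩
  have hchar : CharP (IsLocalRing.ResidueField A) 3 := charP_res A hA
  have hfin : Module.finrank (ZMod 3) (Submodule.torsionBy ℤ (EQ W).Point ((3 : ℕ) : ℤ)) = 2 :=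
    Fermat.Agent.Lib.EllFinite.H46.finrank_torsionBy_int W hΔ0 3
  have hfinite : Module.Finite (ZMod 3) (Submodule.torsionBy ℤ (EQ W).Point ((3 : ℕ) : ℤ)) :=
    Module.finite_of_finrank_pos (lt_of_lt_of_eq (by norm_num) hfin.symm)
  obtain ⟨π, hπ⟩ : ∃ π : Qb, π ^ 8 = 3 := IsAlgClosed.exists_pow_nat_eq (3 : Qb) (by norm_num)
  obtain ⟨lam, hinj, hlam⟩ := exists_lam_of_ssVal W A hA hss hπ
  obtain ⟨σ, hσI, -, -, hσπ⟩ := exists_inertia_neg A hA
  have hζ4 := hσπ π hπ
  have mζ : σ π / π ∈ A := (A.valuation_le_one_iff _).mp (le_of_eq (v_zeta A hπ σ))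
  -- the residue of `ζ`
  set ζ : IsLocalRing.ResidueField A := resA A (σ π / π) with hζ
  have hζ4' : ζ ^ 4 = -1 := by
    have e1 : resA A ((σ π / π) ^ 4) = ζ ^ 4 := by
      have e2 : (σ π / π) ^ 4 = ((σ π / π) * (σ π / π)) * ((σ π / π) * (σ π / π)) := by ring
      rw [e2, resA_mul A (A.mul_mem _ _ mζ mζ) (A.mul_mem _ _ mζ mζ), resA_mul A mζ mζ]
      ring
    rw [← e1, hζ4]
    have m1 : (1 : Qb) ∈ A := A.one_mem
    have e3 : resA A (-1 : Qb) + resA A (1 : Qb) = 0 := by
      rw [← resA_add A (A.neg_mem _ m1) m1]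
      simp [resA_zero]
    rw [resA_one] at e3
    exact eq_neg_of_add_eq_zero_left e3
  have h1ne : (1 : IsLocalRing.ResidueField A) ≠ -1 := by
    intro h
    have h2 : (2 : IsLocalRing.ResidueField A) = 0 := by
      have : (1 : IsLocalRing.ResidueField A) + 1 = 0 := by
        nth_rewrite 2 [h]; ring
      rw [← this]; norm_num
    have h3 : ((3 : ℕ) : IsLocalRing.ResidueField A) = 0 := CharP.cast_eq_zero _ 3
    have h3' : (3 : IsLocalRing.ResidueField A) = 0 := by exact_mod_cast h3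
    have : (1 : IsLocalRing.ResidueField A) = 0 := by
      have e : (1 : IsLocalRing.ResidueField A) = 3 - 2 := by norm_num
      rw [e, h3', h2, sub_zero]
    exact one_ne_zero this
  -- a nonzero vector of `L`
  obtain ⟨x, hxL, hx0⟩ := Submodule.exists_mem_ne_zero_of_ne_bot hbot
  have hlx : lam x ≠ 0 := fun h => hx0 (hinj (by rw [h, map_zero]))
  -- `L` is a line
  have hrank : Module.finrank (ZMod 3) L ≤ 1 := by
    have := lt_of_lt_of_eq (Submodule.finrank_lt htop) hfin
    omega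
  obtain ⟨v, hv⟩ := finrank_le_one_iff.mp hrank
  obtain ⟨c₁, hc₁⟩ := hv ⟨x, hxL⟩
  obtain ⟨c₂, hc₂⟩ := hv ⟨σ • x, hL σ hσI x hxL⟩
  have hc₁0 : c₁ ≠ 0 := by
    rintro rfl
    rw [zero_smul] at hc₁
    exact hx0 (congrArg Subtype.val hc₁).symm
  have hσx : σ • x = (c₂ * c₁⁻¹) • x := by
    have e1 : (v : Submodule.torsionBy ℤ (EQ W).Point ((3 : ℕ) : ℤ)) = c₁⁻¹ • x := by
      have := congrArg Subtype.val hc₁
      simp only [Submodule.coe_smul] at this
      rw [← this, smul_smul, inv_mul_cancel₀ hc₁0, one_smul]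
    have e2 := congrArg Subtype.val hc₂
    simp only [Submodule.coe_smul] at e2
    rw [← e2, e1, smul_smul]
  have hrel := hlam σ hσI x
  rw [← hζ] at hrel
  generalize c₂ * c₁⁻¹ = d at hσx
  rcases zmod3_cases d with rfl | rfl | rfl
  · rw [zero_smul] at hσx
    rw [hσx, map_zero] at hrel
    rcases mul_eq_zero.mp hrel.symm with h | h
    · rw [h] at hζ4'
      have : (0 : IsLocalRing.ResidueField A) ^ 4 = 0 := by norm_num
      rw [this] at hζ4'
      exact one_ne_zero (neg_eq_zero.mp hζ4'.symm)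
    · exact hlx h
  · rw [one_smul] at hσx
    rw [hσx] at hrel
    have h1 : ζ = 1 := by
      have : (ζ - 1) * lam x = 0 := by rw [sub_mul, one_mul, ← hrel, sub_self]
      rcases mul_eq_zero.mp this with h | h
      · exact sub_eq_zero.mp h
      · exact absurd h hlx
    rw [h1, one_pow] at hζ4'
    exact h1ne hζ4'
  · have e : (2 : ZMod 3) • x = x + x := by
      rw [← one_add_one_eq_two, add_smul, one_smul]
    rw [e] at hσx
    rw [hσx, map_add] at hrel
    have h1 : ζ = 2 := by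
      have : (ζ - 2) * lam x = 0 := by rw [sub_mul, ← hrel]; ring
      rcases mul_eq_zero.mp this with h | h
      · exact sub_eq_zero.mp h
      · exact absurd h hlx
    have h2 : (2 : IsLocalRing.ResidueField A) ^ 4 = 1 := by
      have h3 : ((3 : ℕ) : IsLocalRing.ResidueField A) = 0 := CharP.cast_eq_zero _ 3
      have h3' : (3 : IsLocalRing.ResidueField A) = 0 := by exact_mod_cast h3
      have : (2 : IsLocalRing.ResidueField A) ^ 4 = 1 + 3 * 5 := by norm_num
      rw [this, h3', zero_mul, add_zero]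
    rw [h1, h2] at hζ4'
    exact h1ne hζ4'

/-- **SS-IRR**: if all of `W[3]` lies in the kernel of reduction at `A ∣ 3`, the inertia group of
`A` leaves no line of `W[3]` stable. -/
def Stmt_SSIrr : Prop :=
  ∀ (W : WeierstrassCurve ℤ), W.Δ ≠ 0 →
    ∀ (A : ValuationSubring Qb), A.LiesOverPrime 3 → Fermat.Agent.Tate.T7.AllInKer W 3 A →
    ∀ L : Submodule (ZMod 3) (Submodule.torsionBy ℤ (EQ W).Point ((3 : ℕ) : ℤ)),
      (∀ σ ∈ A.inertiaSubgroupIn ℚ, ∀ x ∈ L, σ • x ∈ L) → L = ⊥ ∨ L = ⊤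

theorem stmt_SSIrr : Stmt_SSIrr := fun W hΔ A hA hall L hL =>
  irreducible_of_ssVal W A hΔ hA (ssVal_of_allInKer W A hΔ hA hall) L hL

/-- The additive-subgroup form of `stmt_SSIrr`. -/
theorem ssIrr_addSubgroup (hΔ0 : W.Δ ≠ 0) (hA : A.LiesOverPrime 3)
    (hall : Fermat.Agent.Tate.T7.AllInKer W 3 A)
    (N : AddSubgroup (Submodule.torsionBy ℤ (EQ W).Point ((3 : ℕ) : ℤ)))
    (hN : ∀ σ ∈ A.inertiaSubgroupIn ℚ, ∀ x ∈ N, σ • x ∈ N) : N = ⊥ ∨ N = ⊤ := by
  have hp3 : Fact (Nat.Prime 3) := ⟨by norm_num⟩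
  rcases stmt_SSIrr W hΔ0 A hA hall (AddSubgroup.toZModSubmodule 3 N) hN with h | h
  · left
    have := congrArg (AddSubgroup.toZModSubmodule 3).symm h
    simpa using this
  · right
    have := congrArg (AddSubgroup.toZModSubmodule 3).symm h
    simpa using this

end irreducible

end Fermat.Agent.W.LL3.H65
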