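import Mathlib

/-!
# LL3, local part, LEMMA R, sub-leaf R-VAL (helper80)

The valuation part of LEMMA R (helper59's elementary proof of Raynaud's bound for a finite flat
group scheme killed by `3` on which inertia acts irreducibly), in an abstract form that does not
mention Hopf algebras: `G` is the (finite, commutative) group of points, `F` a set of
"coordinates" (elements of the augmentation ideal), `ev x f` the value of the coordinate `f` at
the point `x`.  The two algebraic inputs (`ev_mul`, `ev_cube`) are what R-ALG provides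
(`H99.conv_apply_expand` and `H99.cube_expand_pow`).

Output (`Datum.exists_char`): a coordinate value `c = ev x₀ g₀ ≠ 0` of maximal valuation with
`v c < 1`, `v 3 ≤ v c ^ 2` (i.e. `c² ∣ 3`: additive valuation `≤ 1/2`), and an injective additive
map `ι : G → k` (`k` the residue field) on which every `σ ∈ S` acts through the scalar
`res (σ c / c)`.
-/

set_option autoImplicit false

namespace Fermat.Agent.W.LL3.H80

open IsLocalRing

variable {L : Type*} [Field L]

/-- The hypotheses of R-VAL. -/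
structure Datum (A : ValuationSubring L) (G : Type*) [CommMonoid G] (F : Type*) where
  /-- value of the coordinate `f` at the point `x` -/
  ev : G → F → L
  /-- the "inertia" automorphisms -/
  S : Set (L ≃+* L)
  /-- their action on points -/
  act : (L ≃+* L) → G → G
  ev_one : ∀ f, ev 1 f = 0
  ev_sep : ∀ x y, (∀ f, ev x f = ev y f) → x = y
  ev_mem : ∀ x f, ev x f ∈ A
  ev_mul : ∀ f, ∃ (n : ℕ) (a b : Fin n → F), ∀ x y,
    ev (x * y) f = ev x f + ev y f + ∑ i, ev x (a i) * ev y (b i)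
  ev_cube : ∀ (x : G) (f : F) (γ : A.ValueGroup), (∀ g, A.valuation (ev x g) ≤ γ) →
    ∃ c d : L, A.valuation c ≤ γ ^ 2 ∧ A.valuation d ≤ γ ^ 3 ∧
      ev (x ^ 3) f = 3 * (ev x f + c) + d
  ev_fin : ∃ gens : Finset F, ∀ x f, ∃ g ∈ gens, A.valuation (ev x f) ≤ A.valuation (ev x g)
  ev_act : ∀ σ ∈ S, ∀ x f, ev (act σ x) f = σ (ev x f)
  S_mem : ∀ σ ∈ S, ∀ a ∈ A, σ a ∈ A
  S_res : ∀ σ ∈ S, ∀ a ∈ A, A.valuation (σ a - a) < 1
  pow_three : ∀ x : G, x ^ 3 = 1
  irr : ∀ T : Submonoid G, (∀ σ ∈ S, ∀ x ∈ T, act σ x ∈ T) → T = ⊥ ∨ T = ⊤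
  big : ∃ x y : G, x ≠ 1 ∧ y ≠ 1 ∧ y ≠ x ∧ y ≠ x ^ 2
  three_lt : A.valuation (3 : L) < 1
  three_ne : (3 : L) ≠ 0

section basic

variable (A : ValuationSubring L)

/-- the residue of an element of `L` lying in `A` -/
noncomputable def res (a : L) (ha : a ∈ A) : ResidueField A := residue A ⟨a, ha⟩

theorem res_eq_zero_iff (a : L) (ha : a ∈ A) : res A a ha = 0 ↔ A.valuation a < 1 := by
  unfold res
  rw [residue_eq_zero_iff, A.valuation_lt_one_iff]

theorem res_add (a b : L) (ha : a ∈ A) (hb : b ∈ A) :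
    res A (a + b) (A.add_mem _ _ ha hb) = res A a ha + res A b hb := by
  unfold res
  rw [← map_add]; rfl

theorem res_mul (a b : L) (ha : a ∈ A) (hb : b ∈ A) :
    res A (a * b) (A.mul_mem _ _ ha hb) = res A a ha * res A b hb := by
  unfold res
  rw [← map_mul]; rfl

theorem res_congr (a b : L) (ha : a ∈ A) (hb : b ∈ A) (h : A.valuation (a - b) < 1) :
    res A a ha = res A b hb := by
  have hab : a - b ∈ A := sub_mem ha hb
  have h0 : res A (a - b) hab = 0 := (res_eq_zero_iff A _ hab).2 h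
  have h1 : res A a ha = res A (a - b + b) (A.add_mem _ _ hab hb) := by
    congr 1; ring
  rw [h1, res_add A _ _ hab hb, h0, zero_add]

theorem val_sum_le {ι : Type*} (s : Finset ι) (f : ι → L) (γ : A.ValueGroup)
    (h : ∀ i ∈ s, A.valuation (f i) ≤ γ) : A.valuation (∑ i ∈ s, f i) ≤ γ := by
  classical
  induction s using Finset.induction_on with
  | empty => simp
  | insert i s hi ih =>
    rw [Finset.sum_insert hi]
    refine (A.valuation.map_add _ _).trans (max_le (h i (Finset.mem_insert_self _ _)) ?_)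
    exact ih fun j hj => h j (Finset.mem_insert_of_mem hj)

theorem val_sum_lt {ι : Type*} (s : Finset ι) (f : ι → L) (γ : A.ValueGroup) (hγ : 0 < γ)
    (h : ∀ i ∈ s, A.valuation (f i) < γ) : A.valuation (∑ i ∈ s, f i) < γ := by
  classical
  induction s using Finset.induction_on with
  | empty => simpa using hγ
  | insert i s hi ih =>
    rw [Finset.sum_insert hi]
    refine lt_of_le_of_lt (A.valuation.map_add _ _) (max_lt (h i (Finset.mem_insert_self _ _)) ?_)
    exact ih fun j hj => h j (Finset.mem_insert_of_mem hj)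

end basic

namespace Datum

variable {A : ValuationSubring L} {G : Type*} [CommMonoid G] {F : Type*} (D : Datum A G F)

theorem val_ev_le_one (x : G) (f : F) : A.valuation (D.ev x f) ≤ 1 :=
  (A.valuation_le_one_iff _).2 (D.ev_mem x f)

theorem S_val_lt {σ : L ≃+* L} (hσ : σ ∈ D.S) {a : L} (ha : a ∈ A) (h : A.valuation a < 1) :
    A.valuation (σ a) < 1 := by
  have h1 : σ a = (σ a - a) + a := by ring
  rw [h1]
  exact lt_of_le_of_lt (A.valuation.map_add _ _) (max_lt (D.S_res σ hσ a ha) h)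

/-- the points reducing to the identity -/
def redKer : Submonoid G where
  carrier := {x | ∀ f, A.valuation (D.ev x f) < 1}
  one_mem' := fun f => by simp [D.ev_one f]
  mul_mem' := by
    intro x y hx hy f
    obtain ⟨n, a, b, h⟩ := D.ev_mul f
    rw [h x y]
    refine lt_of_le_of_lt (A.valuation.map_add _ _) (max_lt ?_ ?_)
    · exact lt_of_le_of_lt (A.valuation.map_add _ _) (max_lt (hx f) (hy f))
    · refine val_sum_lt A _ _ 1 zero_lt_one ?_
      intro i _
      rw [map_mul]
      calc A.valuation (D.ev x (a i)) * A.valuation (D.ev y (b i))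
          ≤ A.valuation (D.ev x (a i)) * 1 :=
            mul_le_mul_right (D.val_ev_le_one y (b i)) _
        _ = A.valuation (D.ev x (a i)) := mul_one _
        _ < 1 := hx (a i)

theorem mem_redKer {x : G} : x ∈ D.redKer ↔ ∀ f, A.valuation (D.ev x f) < 1 := Iff.rfl

theorem redKer_stable : ∀ σ ∈ D.S, ∀ x ∈ D.redKer, D.act σ x ∈ D.redKer := by
  intro σ hσ x hx f
  rw [D.ev_act σ hσ]
  exact D.S_val_lt hσ (D.ev_mem x f) (hx f)

theorem act_mul_sq_mem_redKer {σ : L ≃+* L} (hσ : σ ∈ D.S) (x : G) :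
    D.act σ x * x ^ 2 ∈ D.redKer := by
  intro f
  obtain ⟨n, a, b, h⟩ := D.ev_mul f
  have h1 := h (D.act σ x) (x ^ 2)
  have h2 := h x (x ^ 2)
  have h3 : x * x ^ 2 = 1 := by rw [← pow_succ', D.pow_three]
  rw [h3, D.ev_one] at h2
  have key : D.ev (D.act σ x * x ^ 2) f
      = (σ (D.ev x f) - D.ev x f)
        + ∑ i, (σ (D.ev x (a i)) - D.ev x (a i)) * D.ev (x ^ 2) (b i) := by
    have e : ∑ i, (σ (D.ev x (a i)) - D.ev x (a i)) * D.ev (x ^ 2) (b i)
        = ∑ i, D.ev (D.act σ x) (a i) * D.ev (x ^ 2) (b i)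
          - ∑ i, D.ev x (a i) * D.ev (x ^ 2) (b i) := by
      rw [← Finset.sum_sub_distrib]
      refine Finset.sum_congr rfl fun i _ => ?_
      rw [D.ev_act σ hσ]; ring
    rw [e, h1, D.ev_act σ hσ]
    linear_combination -h2
  rw [key]
  refine lt_of_le_of_lt (A.valuation.map_add _ _) (max_lt (D.S_res σ hσ _ (D.ev_mem x f)) ?_)
  refine val_sum_lt A _ _ 1 zero_lt_one ?_
  intro i _
  rw [map_mul]
  calc A.valuation (σ (D.ev x (a i)) - D.ev x (a i)) * A.valuation (D.ev (x ^ 2) (b i))
      ≤ A.valuation (σ (D.ev x (a i)) - D.ev x (a i)) * 1 :=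
        mul_le_mul_right (D.val_ev_le_one _ _) _
    _ = _ := mul_one _
    _ < 1 := D.S_res σ hσ _ (D.ev_mem x (a i))

/-- **Connectedness**: all coordinates of all points lie in the maximal ideal. -/
theorem redKer_eq_top : D.redKer = ⊤ := by
  rcases D.irr D.redKer D.redKer_stable with h | h
  · exfalso
    -- every `σ ∈ S` acts trivially
    have hfix : ∀ σ ∈ D.S, ∀ x : G, D.act σ x = x := by
      intro σ hσ x
      have h1 : D.act σ x * x ^ 2 ∈ D.redKer := D.act_mul_sq_mem_redKer hσ x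
      rw [h, Submonoid.mem_bot] at h1
      calc D.act σ x = D.act σ x * x ^ 3 := by rw [D.pow_three, mul_one]
        _ = (D.act σ x * x ^ 2) * x := by rw [pow_succ, mul_assoc]
        _ = x := by rw [h1, one_mul]
    obtain ⟨x, y, hx, hy, hyx, hyx2⟩ := D.big
    have hT := D.irr (Submonoid.powers x) (fun σ hσ z hz => by rw [hfix σ hσ z]; exact hz)
    rcases hT with hT | hT
    · have : x ∈ Submonoid.powers x := Submonoid.mem_powers x
      rw [hT, Submonoid.mem_bot] at this
      exact hx this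
    · have : y ∈ Submonoid.powers x := by rw [hT]; trivial
      obtain ⟨k, hk⟩ := this
      have hk : x ^ k = y := hk
      have hk' : x ^ (k % 3) = y := by
        rw [← hk]
        conv_rhs => rw [← Nat.div_add_mod k 3]
        rw [pow_add, pow_mul, D.pow_three, one_pow, one_mul]
      have h3 : k % 3 < 3 := Nat.mod_lt _ (by norm_num)
      interval_cases hm : k % 3
      · exact hy (by simpa using hk'.symm)
      · exact hyx (by simpa using hk'.symm)
      · exact hyx2 hk'.symm
  · exact h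

theorem val_ev_lt_one (x : G) (f : F) : A.valuation (D.ev x f) < 1 := by
  have : x ∈ D.redKer := by rw [D.redKer_eq_top]; trivial
  exact this f

variable [Finite G]

/-- a coordinate value of maximal valuation; it is nonzero. -/
theorem exists_max : ∃ (x₀ : G) (g₀ : F), D.ev x₀ g₀ ≠ 0 ∧
    ∀ x f, A.valuation (D.ev x f) ≤ A.valuation (D.ev x₀ g₀) := by
  classical
  obtain ⟨gens, hgens⟩ := D.ev_fin
  obtain ⟨x₁, -, hx₁, -, -, -⟩ := D.big
  have hf₁ : ∃ f₁, D.ev x₁ f₁ ≠ 0 := by
    by_contra hcon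
    push Not at hcon
    exact hx₁ (D.ev_sep x₁ 1 fun f => by rw [hcon f, D.ev_one f])
  obtain ⟨f₁, hf₁⟩ := hf₁
  obtain ⟨g₁, hg₁, hle₁⟩ := hgens x₁ f₁
  have : Nonempty (G × gens) := ⟨(x₁, ⟨g₁, hg₁⟩)⟩
  obtain ⟨p₀, hp₀⟩ := Finite.exists_max (fun p : G × gens => A.valuation (D.ev p.1 p.2.1))
  have hmax : ∀ x f, A.valuation (D.ev x f) ≤ A.valuation (D.ev p₀.1 p₀.2.1) := by
    intro x f
    obtain ⟨g, hg, hle⟩ := hgens x f
    exact hle.trans (hp₀ (x, ⟨g, hg⟩))
  refine ⟨p₀.1, p₀.2.1, ?_, hmax⟩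
  intro h0
  have := hmax x₁ f₁
  rw [h0, map_zero] at this
  exact hf₁ ((A.valuation.zero_iff).1 (le_antisymm this zero_le))

/-- **R-VAL**: the bound `c² ∣ 3` and the character of the inertia action. -/
theorem exists_char : ∃ (x₀ : G) (g₀ : F) (ι : G → ResidueField A),
    D.ev x₀ g₀ ≠ 0 ∧ A.valuation (D.ev x₀ g₀) < 1 ∧
    A.valuation (3 : L) ≤ A.valuation (D.ev x₀ g₀) ^ 2 ∧
    (∀ x f, A.valuation (D.ev x f) ≤ A.valuation (D.ev x₀ g₀)) ∧
    (∀ x y, ι (x * y) = ι x + ι y) ∧ Function.Injective ι ∧ ι x₀ = 1 ∧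
    ∀ σ ∈ D.S, ∃ hc : σ (D.ev x₀ g₀) / D.ev x₀ g₀ ∈ A,
      ∀ x, ι (D.act σ x) = res A _ hc * ι x := by
  classical
  obtain ⟨x₀, g₀, hc0, hmax⟩ := D.exists_max
  set c : L := D.ev x₀ g₀ with hc
  have hvc0 : A.valuation c ≠ 0 := (A.valuation.ne_zero_iff).2 hc0
  have hvcpos : 0 < A.valuation c := zero_lt_iff.2 hvc0
  have hvc1 : A.valuation c < 1 := D.val_ev_lt_one x₀ g₀
  -- membership of quotients
  have hdiv : ∀ a : L, A.valuation a ≤ A.valuation c → a / c ∈ A := by
    intro a ha
    rw [← A.valuation_le_one_iff, map_div₀]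
    exact (div_le_one₀ hvcpos).2 ha
  have hdivlt : ∀ a : L, A.valuation a < A.valuation c → A.valuation (a / c) < 1 := by
    intro a ha
    rw [map_div₀]
    exact (div_lt_one₀ hvcpos).2 ha
  have hmem : ∀ x, D.ev x g₀ / c ∈ A := fun x => hdiv _ (hmax x g₀)
  let ι : G → ResidueField A := fun x => res A (D.ev x g₀ / c) (hmem x)
  have hι : ∀ x, ι x = res A (D.ev x g₀ / c) (hmem x) := fun _ => rfl
  -- products of two coordinates are small
  have hprod : ∀ (x y : G) (a b : F), A.valuation (D.ev x a * D.ev y b) < A.valuation c := by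
    intro x y a b
    rw [map_mul]
    calc A.valuation (D.ev x a) * A.valuation (D.ev y b)
        ≤ A.valuation c * A.valuation (D.ev y b) := mul_le_mul_left (hmax x a) _
      _ < A.valuation c * 1 := by
          exact (mul_lt_mul_iff_right₀ hvcpos).2 (D.val_ev_lt_one y b)
      _ = A.valuation c := mul_one _
  -- additivity
  have hadd : ∀ x y, ι (x * y) = ι x + ι y := by
    intro x y
    obtain ⟨n, a, b, h⟩ := D.ev_mul g₀
    rw [hι, hι, hι, ← res_add A _ _ (hmem x) (hmem y)]
    refine res_congr A _ _ _ _ ?_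
    have e : D.ev (x * y) g₀ / c - (D.ev x g₀ / c + D.ev y g₀ / c)
        = (∑ i, D.ev x (a i) * D.ev y (b i)) / c := by
      rw [h x y]; field_simp; ring
    rw [e]
    refine hdivlt _ (val_sum_lt A _ _ _ hvcpos fun i _ => hprod x y (a i) (b i))
  have hone : ι 1 = 0 := by
    rw [hι, res_eq_zero_iff]
    rw [D.ev_one, zero_div, map_zero]
    exact zero_lt_one
  have hx₀ : ι x₀ = 1 := by
    rw [hι]
    have : D.ev x₀ g₀ / c = 1 := div_self hc0
    unfold res
    have h1 : (⟨D.ev x₀ g₀ / c, hmem x₀⟩ : A) = 1 := Subtype.ext this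
    rw [h1, map_one]
  -- equivariance
  have hequiv : ∀ σ ∈ D.S, ∃ hcc : σ c / c ∈ A, ∀ x, ι (D.act σ x) = res A _ hcc * ι x := by
    intro σ hσ
    have hcc : σ c / c ∈ A := by
      refine hdiv _ ?_
      rw [hc, ← D.ev_act σ hσ]
      exact hmax _ _
    refine ⟨hcc, fun x => ?_⟩
    have hσu : σ (D.ev x g₀ / c) ∈ A := D.S_mem σ hσ _ (hmem x)
    have e1 : D.ev (D.act σ x) g₀ / c = σ (D.ev x g₀ / c) * (σ c / c) := by
      rw [D.ev_act σ hσ, map_div₀]
      have hσc : σ c ≠ 0 := by
        intro h0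
        exact hc0 ((map_eq_zero_iff σ σ.injective).1 h0)
      field_simp
    rw [hι, hι]
    have e2 : res A (D.ev (D.act σ x) g₀ / c) (hmem _)
        = res A (σ (D.ev x g₀ / c) * (σ c / c)) (A.mul_mem _ _ hσu hcc) := by
      congr 1
    rw [e2, res_mul A _ _ hσu hcc, mul_comm]
    congr 1
    exact res_congr A _ _ hσu (hmem x) (D.S_res σ hσ _ (hmem x))
  -- the kernel of `ι`
  let T₀ : Submonoid G :=
    { carrier := {x | ι x = 0}
      one_mem' := hone
      mul_mem' := by
        intro x y hx hy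
        show ι (x * y) = 0
        rw [hadd, show ι x = 0 from hx, show ι y = 0 from hy, add_zero] }
  have hT₀stable : ∀ σ ∈ D.S, ∀ x ∈ T₀, D.act σ x ∈ T₀ := by
    intro σ hσ x hx
    obtain ⟨hcc, h⟩ := hequiv σ hσ
    show ι (D.act σ x) = 0
    rw [h x, show ι x = 0 from hx, mul_zero]
  have hT₀ : T₀ = ⊥ := by
    rcases D.irr T₀ hT₀stable with h | h
    · exact h
    · exfalso
      have : x₀ ∈ T₀ := by rw [h]; trivial
      have h0 : ι x₀ = 0 := this
      rw [hx₀] at h0
      exact one_ne_zero h0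
  have hthree : (3 : ResidueField A) = 0 := by
    have h3mem : (3 : L) ∈ A := (A.valuation_le_one_iff _).1 D.three_lt.le
    have : res A 3 h3mem = 0 := (res_eq_zero_iff A _ h3mem).2 D.three_lt
    unfold res at this
    have h1 : (⟨(3 : L), h3mem⟩ : A) = 3 := Subtype.ext (by push_cast; rfl)
    rw [h1, map_ofNat] at this
    exact this
  have hinj : Function.Injective ι := by
    intro x y hxy
    have h1 : ι (x * y ^ 2) = 0 := by
      rw [hadd, pow_two, hadd, hxy]
      have : ι y + (ι y + ι y) = 3 * ι y := by ring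
      rw [this, hthree, zero_mul]
    have h2 : x * y ^ 2 ∈ T₀ := h1
    rw [hT₀, Submonoid.mem_bot] at h2
    calc x = x * y ^ 3 := by rw [D.pow_three, mul_one]
      _ = (x * y ^ 2) * y := by rw [pow_succ, mul_assoc]
      _ = y := by rw [h2, one_mul]
  -- the bound
  have hbound : A.valuation (3 : L) ≤ A.valuation c ^ 2 := by
    obtain ⟨c', d, hc', hd, h⟩ := D.ev_cube x₀ g₀ (A.valuation c) (fun g => hmax x₀ g)
    rw [D.pow_three, D.ev_one] at h
    have hsq : A.valuation c ^ 2 < A.valuation c := by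
      rw [pow_two]
      calc A.valuation c * A.valuation c < A.valuation c * 1 :=
            (mul_lt_mul_iff_right₀ hvcpos).2 hvc1
        _ = A.valuation c := mul_one _
    have hsum : A.valuation (c + c') = A.valuation c :=
      Valuation.map_add_eq_of_lt_left _ (lt_of_le_of_lt hc' hsq)
    have hd' : d = -(3 * (c + c')) := by linear_combination -h
    have hvd : A.valuation d = A.valuation (3 : L) * A.valuation c := by
      rw [hd', Valuation.map_neg, map_mul, hsum]
    rw [hvd] at hd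
    have h3 : A.valuation c ^ 3 = A.valuation c ^ 2 * A.valuation c := pow_succ _ _
    rw [h3] at hd
    exact (mul_le_mul_iff_left₀ hvcpos).1 hd
  exact ⟨x₀, g₀, ι, hc0, hvc1, hbound, hmax, hadd, hinj, hx₀, hequiv⟩

end Datum

end Fermat.Agent.W.LL3.H80
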