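import Mathlib
import Fermat.Agent.W.LL3.H80_RVal

/-!
# LL3, local part: LEMMA D in abstract form, part 1 (helper80)

`Core` is the datum of `H80_RVal` without irreducibility and without the size hypothesis, so that
it is closed under restriction to an `S`-stable submonoid of points (`Core.restrict`).

* `Core.redKer` : the points reducing to the identity (`G_{>0}`), an `S`-stable submonoid;
* `Core.act_eq_self_of_redKer_eq_bot` : if `G_{>0} = 0`, every `σ ∈ S` acts trivially;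
* `Core.exists_char_of_conn` : for a connected, irreducible, nontrivial core: a coordinate value
  `c` of maximal valuation, `c² ∣ 3`, and the injective additive `ι x = res (ev x g₀ / c)` on
  which `σ ∈ S` acts through `res (σ c / c)`.
-/

set_option autoImplicit false

namespace Fermat.Agent.W.LL3.H80

open IsLocalRing

variable {L : Type*} [Field L]

/-- The hypotheses of LEMMA D: as `Datum`, without `irr` and `big`. -/
structure Core (A : ValuationSubring L) (G : Type*) [CommMonoid G] (F : Type*) where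
  /-- value of the coordinate `f` at the point `x` -/
  ev : G → F → L
  /-- the "inertia" automorphisms -/
  S : Set (L ≃+* L)
  /-- their action on points -/
  act : (L ≃+* L) → G → G
  ev_one : ∀ f, ev 1 f = 0
  ev_sep : ∀ x y, (∀ f, ev x f = ev y f) → x = y
  ev_mem : ∀ x f, ev x f ∈ A
  ev_mul : ∀ f, ∃ (n : ℕ) (a b : Fin n → F), ∀ x y,
    ev (x * y) f = ev x f + ev y f + ∑ i, ev x (a i) * ev y (b i)
  ev_cube : ∀ (x : G) (f : F) (γ : A.ValueGroup), (∀ g, A.valuation (ev x g) ≤ γ) →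
    ∃ c d : L, A.valuation c ≤ γ ^ 2 ∧ A.valuation d ≤ γ ^ 3 ∧
      ev (x ^ 3) f = 3 * (ev x f + c) + d
  ev_fin : ∃ gens : Finset F, ∀ x f, ∃ g ∈ gens, A.valuation (ev x f) ≤ A.valuation (ev x g)
  ev_act : ∀ σ ∈ S, ∀ x f, ev (act σ x) f = σ (ev x f)
  S_mem : ∀ σ ∈ S, ∀ a ∈ A, σ a ∈ A
  S_res : ∀ σ ∈ S, ∀ a ∈ A, A.valuation (σ a - a) < 1
  pow_three : ∀ x : G, x ^ 3 = 1
  three_lt : A.valuation (3 : L) < 1
  three_ne : (3 : L) ≠ 0

/-- A `Datum` is a `Core`. -/
def Datum.toCore {A : ValuationSubring L} {G : Type*} [CommMonoid G] {F : Type*}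
    (D : Datum A G F) : Core A G F where
  ev := D.ev
  S := D.S
  act := D.act
  ev_one := D.ev_one
  ev_sep := D.ev_sep
  ev_mem := D.ev_mem
  ev_mul := D.ev_mul
  ev_cube := D.ev_cube
  ev_fin := D.ev_fin
  ev_act := D.ev_act
  S_mem := D.S_mem
  S_res := D.S_res
  pow_three := D.pow_three
  three_lt := D.three_lt
  three_ne := D.three_ne

namespace Core

variable {A : ValuationSubring L} {G : Type*} [CommMonoid G] {F : Type*} (D : Core A G F)

theorem val_ev_le_one (x : G) (f : F) : A.valuation (D.ev x f) ≤ 1 :=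
  (A.valuation_le_one_iff _).2 (D.ev_mem x f)

theorem S_val_lt {σ : L ≃+* L} (hσ : σ ∈ D.S) {a : L} (ha : a ∈ A) (h : A.valuation a < 1) :
    A.valuation (σ a) < 1 := by
  have h1 : σ a = (σ a - a) + a := by ring
  rw [h1]
  exact lt_of_le_of_lt (A.valuation.map_add _ _) (max_lt (D.S_res σ hσ a ha) h)

/-- the points reducing to the identity -/
def redKer : Submonoid G where
  carrier := {x | ∀ f, A.valuation (D.ev x f) < 1}
  one_mem' := fun f => by simp [D.ev_one f]
  mul_mem' := by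
    intro x y hx hy f
    obtain ⟨n, a, b, h⟩ := D.ev_mul f
    rw [h x y]
    refine lt_of_le_of_lt (A.valuation.map_add _ _) (max_lt ?_ ?_)
    · exact lt_of_le_of_lt (A.valuation.map_add _ _) (max_lt (hx f) (hy f))
    · refine val_sum_lt A _ _ 1 zero_lt_one ?_
      intro i _
      rw [map_mul]
      calc A.valuation (D.ev x (a i)) * A.valuation (D.ev y (b i))
          ≤ A.valuation (D.ev x (a i)) * 1 :=
            mul_le_mul_right (D.val_ev_le_one y (b i)) _
        _ = A.valuation (D.ev x (a i)) := mul_one _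
        _ < 1 := hx (a i)

theorem mem_redKer {x : G} : x ∈ D.redKer ↔ ∀ f, A.valuation (D.ev x f) < 1 := Iff.rfl

theorem redKer_stable : ∀ σ ∈ D.S, ∀ x ∈ D.redKer, D.act σ x ∈ D.redKer := by
  intro σ hσ x hx f
  rw [D.ev_act σ hσ]
  exact D.S_val_lt hσ (D.ev_mem x f) (hx f)

theorem act_mul_sq_mem_redKer {σ : L ≃+* L} (hσ : σ ∈ D.S) (x : G) :
    D.act σ x * x ^ 2 ∈ D.redKer := by
  intro f
  obtain ⟨n, a, b, h⟩ := D.ev_mul f
  have h1 := h (D.act σ x) (x ^ 2)
  have h2 := h x (x ^ 2)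
  have h3 : x * x ^ 2 = 1 := by rw [← pow_succ', D.pow_three]
  rw [h3, D.ev_one] at h2
  have key : D.ev (D.act σ x * x ^ 2) f
      = (σ (D.ev x f) - D.ev x f)
        + ∑ i, (σ (D.ev x (a i)) - D.ev x (a i)) * D.ev (x ^ 2) (b i) := by
    have e : ∑ i, (σ (D.ev x (a i)) - D.ev x (a i)) * D.ev (x ^ 2) (b i)
        = ∑ i, D.ev (D.act σ x) (a i) * D.ev (x ^ 2) (b i)
          - ∑ i, D.ev x (a i) * D.ev (x ^ 2) (b i) := by
      rw [← Finset.sum_sub_distrib]
      refine Finset.sum_congr rfl fun i _ => ?_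
      rw [D.ev_act σ hσ]; ring
    rw [e, h1, D.ev_act σ hσ]
    linear_combination -h2
  rw [key]
  refine lt_of_le_of_lt (A.valuation.map_add _ _) (max_lt (D.S_res σ hσ _ (D.ev_mem x f)) ?_)
  refine val_sum_lt A _ _ 1 zero_lt_one ?_
  intro i _
  rw [map_mul]
  calc A.valuation (σ (D.ev x (a i)) - D.ev x (a i)) * A.valuation (D.ev (x ^ 2) (b i))
      ≤ A.valuation (σ (D.ev x (a i)) - D.ev x (a i)) * 1 :=
        mul_le_mul_right (D.val_ev_le_one _ _) _
    _ = _ := mul_one _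
    _ < 1 := D.S_res σ hσ _ (D.ev_mem x (a i))

/-- If no nontrivial point reduces to the identity, `S` acts trivially (étale case). -/
theorem act_eq_self_of_redKer_eq_bot (h : D.redKer = ⊥) {σ : L ≃+* L} (hσ : σ ∈ D.S) (x : G) :
    D.act σ x = x := by
  have h1 : D.act σ x * x ^ 2 ∈ D.redKer := D.act_mul_sq_mem_redKer hσ x
  rw [h, Submonoid.mem_bot] at h1
  calc D.act σ x = D.act σ x * x ^ 3 := by rw [D.pow_three, mul_one]
    _ = (D.act σ x * x ^ 2) * x := by rw [pow_succ, mul_assoc]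
    _ = x := by rw [h1, one_mul]

theorem act_one {σ : L ≃+* L} (hσ : σ ∈ D.S) : D.act σ 1 = 1 :=
  D.ev_sep _ _ fun f => by rw [D.ev_act σ hσ, D.ev_one, map_zero]

theorem act_injective {σ : L ≃+* L} (hσ : σ ∈ D.S) : Function.Injective (D.act σ) := by
  intro x y hxy
  refine D.ev_sep _ _ fun f => ?_
  have h1 : D.ev (D.act σ x) f = D.ev (D.act σ y) f := by rw [hxy]
  rw [D.ev_act σ hσ, D.ev_act σ hσ] at h1
  exact σ.injective h1

theorem act_mul {σ : L ≃+* L} (hσ : σ ∈ D.S) (x y : G) :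
    D.act σ (x * y) = D.act σ x * D.act σ y := by
  refine D.ev_sep _ _ fun f => ?_
  obtain ⟨n, a, b, h⟩ := D.ev_mul f
  rw [D.ev_act σ hσ, h x y, h (D.act σ x) (D.act σ y), map_add, map_add, map_sum,
    D.ev_act σ hσ, D.ev_act σ hσ]
  congr 1
  refine Finset.sum_congr rfl fun i _ => ?_
  rw [map_mul, D.ev_act σ hσ, D.ev_act σ hσ]

open Classical in
/-- Restriction of a core to an `S`-stable submonoid of points. -/
noncomputable def restrict (T : Submonoid G) (hT : ∀ σ ∈ D.S, ∀ x ∈ T, D.act σ x ∈ T) :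
    Core A T F where
  ev := fun x f => D.ev x.1 f
  S := D.S
  act := fun σ x => if h : D.act σ x.1 ∈ T then ⟨D.act σ x.1, h⟩ else x
  ev_one := fun f => D.ev_one f
  ev_sep := fun x y h => Subtype.ext (D.ev_sep _ _ h)
  ev_mem := fun x f => D.ev_mem _ f
  ev_mul := fun f => by
    obtain ⟨n, a, b, h⟩ := D.ev_mul f
    exact ⟨n, a, b, fun x y => h x.1 y.1⟩
  ev_cube := fun x f γ h => D.ev_cube x.1 f γ h
  ev_fin := by
    obtain ⟨gens, h⟩ := D.ev_fin
    exact ⟨gens, fun x f => h x.1 f⟩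
  ev_act := fun σ hσ x f => by
    rw [dif_pos (hT σ hσ x.1 x.2)]
    exact D.ev_act σ hσ x.1 f
  S_mem := D.S_mem
  S_res := D.S_res
  pow_three := fun x => Subtype.ext (D.pow_three x.1)
  three_lt := D.three_lt
  three_ne := D.three_ne

open Classical in
theorem restrict_act (T : Submonoid G) (hT : ∀ σ ∈ D.S, ∀ x ∈ T, D.act σ x ∈ T)
    {σ : L ≃+* L} (hσ : σ ∈ D.S) (x : T) :
    (((D.restrict T hT).act σ x : T) : G) = D.act σ x.1 := by
  show ((if h : D.act σ x.1 ∈ T then (⟨D.act σ x.1, h⟩ : T) else x : T) : G) = _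
  rw [dif_pos (hT σ hσ x.1 x.2)]

theorem restrict_S (T : Submonoid G) (hT : ∀ σ ∈ D.S, ∀ x ∈ T, D.act σ x ∈ T) :
    (D.restrict T hT).S = D.S := rfl

theorem restrict_ev (T : Submonoid G) (hT : ∀ σ ∈ D.S, ∀ x ∈ T, D.act σ x ∈ T) (x : T) (f : F) :
    (D.restrict T hT).ev x f = D.ev x.1 f := rfl

section char

variable [Finite G]

/-- a coordinate value of maximal valuation; it is nonzero. -/
theorem exists_max (nontriv : ∃ x : G, x ≠ 1) : ∃ (x₀ : G) (g₀ : F), D.ev x₀ g₀ ≠ 0 ∧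
    ∀ x f, A.valuation (D.ev x f) ≤ A.valuation (D.ev x₀ g₀) := by
  classical
  obtain ⟨gens, hgens⟩ := D.ev_fin
  obtain ⟨x₁, hx₁⟩ := nontriv
  have hf₁ : ∃ f₁, D.ev x₁ f₁ ≠ 0 := by
    by_contra hcon
    push Not at hcon
    exact hx₁ (D.ev_sep x₁ 1 fun f => by rw [hcon f, D.ev_one f])
  obtain ⟨f₁, hf₁⟩ := hf₁
  obtain ⟨g₁, hg₁, hle₁⟩ := hgens x₁ f₁
  have : Nonempty (G × gens) := ⟨(x₁, ⟨g₁, hg₁⟩)⟩
  obtain ⟨p₀, hp₀⟩ := Finite.exists_max (fun p : G × gens => A.valuation (D.ev p.1 p.2.1))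
  have hmax : ∀ x f, A.valuation (D.ev x f) ≤ A.valuation (D.ev p₀.1 p₀.2.1) := by
    intro x f
    obtain ⟨g, hg, hle⟩ := hgens x f
    exact hle.trans (hp₀ (x, ⟨g, hg⟩))
  refine ⟨p₀.1, p₀.2.1, ?_, hmax⟩
  intro h0
  have := hmax x₁ f₁
  rw [h0, map_zero] at this
  exact hf₁ ((A.valuation.zero_iff).1 (le_antisymm this zero_le))

/-- **R-VAL for a connected irreducible core** (any size): the bound `c² ∣ 3`, the linearisation
`ι x = res (ev x g₀ / c)` and the character `res (σ c / c)` of the action of `S`. -/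
theorem exists_char_of_conn (conn : ∀ x f, A.valuation (D.ev x f) < 1)
    (irr : ∀ T : Submonoid G, (∀ σ ∈ D.S, ∀ x ∈ T, D.act σ x ∈ T) → T = ⊥ ∨ T = ⊤)
    (nontriv : ∃ x : G, x ≠ 1) :
    ∃ (x₀ : G) (g₀ : F) (ι : G → ResidueField A),
      D.ev x₀ g₀ ≠ 0 ∧ A.valuation (D.ev x₀ g₀) < 1 ∧
      A.valuation (3 : L) ≤ A.valuation (D.ev x₀ g₀) ^ 2 ∧
      (∀ x f, A.valuation (D.ev x f) ≤ A.valuation (D.ev x₀ g₀)) ∧
      (∀ x y, ι (x * y) = ι x + ι y) ∧ Function.Injective ι ∧ ι x₀ = 1 ∧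
      (∀ x, ∃ h : D.ev x g₀ / D.ev x₀ g₀ ∈ A, ι x = res A _ h) ∧
      ∀ σ ∈ D.S, ∃ hc : σ (D.ev x₀ g₀) / D.ev x₀ g₀ ∈ A,
        ∀ x, ι (D.act σ x) = res A _ hc * ι x := by
  classical
  obtain ⟨x₀, g₀, hc0, hmax⟩ := D.exists_max nontriv
  set c : L := D.ev x₀ g₀ with hc
  have hvc0 : A.valuation c ≠ 0 := (A.valuation.ne_zero_iff).2 hc0
  have hvcpos : 0 < A.valuation c := zero_lt_iff.2 hvc0
  have hvc1 : A.valuation c < 1 := conn x₀ g₀
  -- membership of quotients
  have hdiv : ∀ a : L, A.valuation a ≤ A.valuation c → a / c ∈ A := by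
    intro a ha
    rw [← A.valuation_le_one_iff, map_div₀]
    exact (div_le_one₀ hvcpos).2 ha
  have hdivlt : ∀ a : L, A.valuation a < A.valuation c → A.valuation (a / c) < 1 := by
    intro a ha
    rw [map_div₀]
    exact (div_lt_one₀ hvcpos).2 ha
  have hmem : ∀ x, D.ev x g₀ / c ∈ A := fun x => hdiv _ (hmax x g₀)
  let ι : G → ResidueField A := fun x => res A (D.ev x g₀ / c) (hmem x)
  have hι : ∀ x, ι x = res A (D.ev x g₀ / c) (hmem x) := fun _ => rfl
  -- products of two coordinates are small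
  have hprod : ∀ (x y : G) (a b : F), A.valuation (D.ev x a * D.ev y b) < A.valuation c := by
    intro x y a b
    rw [map_mul]
    calc A.valuation (D.ev x a) * A.valuation (D.ev y b)
        ≤ A.valuation c * A.valuation (D.ev y b) := mul_le_mul_left (hmax x a) _
      _ < A.valuation c * 1 := by
          exact (mul_lt_mul_iff_right₀ hvcpos).2 (conn y b)
      _ = A.valuation c := mul_one _
  -- additivity
  have hadd : ∀ x y, ι (x * y) = ι x + ι y := by
    intro x y
    obtain ⟨n, a, b, h⟩ := D.ev_mul g₀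
    rw [hι, hι, hι, ← res_add A _ _ (hmem x) (hmem y)]
    refine res_congr A _ _ _ _ ?_
    have e : D.ev (x * y) g₀ / c - (D.ev x g₀ / c + D.ev y g₀ / c)
        = (∑ i, D.ev x (a i) * D.ev y (b i)) / c := by
      rw [h x y]; field_simp; ring
    rw [e]
    refine hdivlt _ (val_sum_lt A _ _ _ hvcpos fun i _ => hprod x y (a i) (b i))
  have hone : ι 1 = 0 := by
    rw [hι, res_eq_zero_iff]
    rw [D.ev_one, zero_div, map_zero]
    exact zero_lt_one
  have hx₀ : ι x₀ = 1 := by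
    rw [hι]
    have : D.ev x₀ g₀ / c = 1 := div_self hc0
    unfold res
    have h1 : (⟨D.ev x₀ g₀ / c, hmem x₀⟩ : A) = 1 := Subtype.ext this
    rw [h1, map_one]
  -- equivariance
  have hequiv : ∀ σ ∈ D.S, ∃ hcc : σ c / c ∈ A, ∀ x, ι (D.act σ x) = res A _ hcc * ι x := by
    intro σ hσ
    have hcc : σ c / c ∈ A := by
      refine hdiv _ ?_
      rw [hc, ← D.ev_act σ hσ]
      exact hmax _ _
    refine ⟨hcc, fun x => ?_⟩
    have hσu : σ (D.ev x g₀ / c) ∈ A := D.S_mem σ hσ _ (hmem x)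
    have e1 : D.ev (D.act σ x) g₀ / c = σ (D.ev x g₀ / c) * (σ c / c) := by
      rw [D.ev_act σ hσ, map_div₀]
      have hσc : σ c ≠ 0 := by
        intro h0
        exact hc0 ((map_eq_zero_iff σ σ.injective).1 h0)
      field_simp
    rw [hι, hι]
    have e2 : res A (D.ev (D.act σ x) g₀ / c) (hmem _)
        = res A (σ (D.ev x g₀ / c) * (σ c / c)) (A.mul_mem _ _ hσu hcc) := by
      congr 1
    rw [e2, res_mul A _ _ hσu hcc, mul_comm]
    congr 1
    exact res_congr A _ _ hσu (hmem x) (D.S_res σ hσ _ (hmem x))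
  -- the kernel of `ι`
  let T₀ : Submonoid G :=
    { carrier := {x | ι x = 0}
      one_mem' := hone
      mul_mem' := by
        intro x y hx hy
        show ι (x * y) = 0
        rw [hadd, show ι x = 0 from hx, show ι y = 0 from hy, add_zero] }
  have hT₀stable : ∀ σ ∈ D.S, ∀ x ∈ T₀, D.act σ x ∈ T₀ := by
    intro σ hσ x hx
    obtain ⟨hcc, h⟩ := hequiv σ hσ
    show ι (D.act σ x) = 0
    rw [h x, show ι x = 0 from hx, mul_zero]
  have hT₀ : T₀ = ⊥ := by
    rcases irr T₀ hT₀stable with h | h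
    · exact h
    · exfalso
      have : x₀ ∈ T₀ := by rw [h]; trivial
      have h0 : ι x₀ = 0 := this
      rw [hx₀] at h0
      exact one_ne_zero h0
  have hthree : (3 : ResidueField A) = 0 := by
    have h3mem : (3 : L) ∈ A := (A.valuation_le_one_iff _).1 D.three_lt.le
    have : res A 3 h3mem = 0 := (res_eq_zero_iff A _ h3mem).2 D.three_lt
    unfold res at this
    have h1 : (⟨(3 : L), h3mem⟩ : A) = 3 := Subtype.ext (by push_cast; rfl)
    rw [h1, map_ofNat] at this
    exact this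
  have hinj : Function.Injective ι := by
    intro x y hxy
    have h1 : ι (x * y ^ 2) = 0 := by
      rw [hadd, pow_two, hadd, hxy]
      have : ι y + (ι y + ι y) = 3 * ι y := by ring
      rw [this, hthree, zero_mul]
    have h2 : x * y ^ 2 ∈ T₀ := h1
    rw [hT₀, Submonoid.mem_bot] at h2
    calc x = x * y ^ 3 := by rw [D.pow_three, mul_one]
      _ = (x * y ^ 2) * y := by rw [pow_succ, mul_assoc]
      _ = y := by rw [h2, one_mul]
  -- the bound
  have hbound : A.valuation (3 : L) ≤ A.valuation c ^ 2 := by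
    obtain ⟨c', d, hc', hd, h⟩ := D.ev_cube x₀ g₀ (A.valuation c) (fun g => hmax x₀ g)
    rw [D.pow_three, D.ev_one] at h
    have hsq : A.valuation c ^ 2 < A.valuation c := by
      rw [pow_two]
      calc A.valuation c * A.valuation c < A.valuation c * 1 :=
            (mul_lt_mul_iff_right₀ hvcpos).2 hvc1
        _ = A.valuation c := mul_one _
    have hsum : A.valuation (c + c') = A.valuation c :=
      Valuation.map_add_eq_of_lt_left _ (lt_of_le_of_lt hc' hsq)
    have hd' : d = -(3 * (c + c')) := by linear_combination -h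
    have hvd : A.valuation d = A.valuation (3 : L) * A.valuation c := by
      rw [hd', Valuation.map_neg, map_mul, hsum]
    rw [hvd] at hd
    have h3 : A.valuation c ^ 3 = A.valuation c ^ 2 * A.valuation c := pow_succ _ _
    rw [h3] at hd
    exact (mul_le_mul_iff_left₀ hvcpos).1 hd
  exact ⟨x₀, g₀, ι, hc0, hvc1, hbound, hmax, hadd, hinj, hx₀, fun x => ⟨hmem x, rfl⟩, hequiv⟩

end char

section tame

variable [Finite G]

/-- **R-TAME** (norm argument).  For a connected irreducible nontrivial core with `N` points, if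
the elements of `L` fixed by `S` have valuation in `v(3)^ℤ` (`S` = inertia, fixed field
unramified), then `v(c)^(N-1) = v(3)^n` with `0 < n`, `2 n ≤ N - 1`, and `S` acts on the points
through the character `σ ↦ res (σ ϖ / ϖ) ^ n` for any `ϖ` with `ϖ^(N-1) = ± 3`. -/
theorem exists_tame (conn : ∀ x f, A.valuation (D.ev x f) < 1)
    (irr : ∀ T : Submonoid G, (∀ σ ∈ D.S, ∀ x ∈ T, D.act σ x ∈ T) → T = ⊥ ∨ T = ⊤)
    (nontriv : ∃ x : G, x ≠ 1)
    (unr : ∀ y : L, y ≠ 0 → (∀ σ ∈ D.S, σ y = y) →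
      ∃ n : ℤ, A.valuation y = A.valuation (3 : L) ^ n)
    (ϖ : L) (hϖ : ϖ ^ (Nat.card G - 1) = 3 ∨ ϖ ^ (Nat.card G - 1) = -3) :
    ∃ (n : ℕ) (ι : G → ResidueField A), 0 < n ∧ 2 * n ≤ Nat.card G - 1 ∧
      (∀ x y, ι (x * y) = ι x + ι y) ∧ Function.Injective ι ∧
      ∀ σ ∈ D.S, ∃ h : σ ϖ / ϖ ∈ A, ∀ x, ι (D.act σ x) = res A _ h ^ n * ι x := by
  classical
  obtain ⟨x₀, g₀, ι, hc0, hvc1, hbound, hmax, hadd, hinj, hx₀, hform, hequiv⟩ :=
    D.exists_char_of_conn conn irr nontriv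
  set c : L := D.ev x₀ g₀ with hc
  have hvcpos : 0 < A.valuation c := zero_lt_iff.2 ((A.valuation.ne_zero_iff).2 hc0)
  have h3pos : 0 < A.valuation (3 : L) := zero_lt_iff.2 ((A.valuation.ne_zero_iff).2 D.three_ne)
  have : Fintype G := Fintype.ofFinite G
  set N : ℕ := Nat.card G with hN
  have hN2 : 2 ≤ N := by
    obtain ⟨x, hx⟩ := nontriv
    have : Nontrivial G := ⟨⟨x, 1, hx⟩⟩
    exact Finite.one_lt_card_iff_nontrivial.2 inferInstance
  have hN1 : N - 1 ≠ 0 := by omega
  have hι1 : ι 1 = 0 := by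
    have h := hadd 1 1
    rw [mul_one] at h
    exact left_eq_add.1 h
  have hval : ∀ x : G, x ≠ 1 → A.valuation (D.ev x g₀) = A.valuation c := by
    intro x hx
    obtain ⟨h, hx'⟩ := hform x
    have hne : ι x ≠ 0 := fun h0 => hx (hinj (h0.trans hι1.symm))
    rw [hx', Ne, res_eq_zero_iff, not_lt] at hne
    have h1 : A.valuation (D.ev x g₀ / c) ≤ 1 := (A.valuation_le_one_iff _).2 h
    have h2 := le_antisymm h1 hne
    rw [map_div₀, div_eq_one_iff_eq hvcpos.ne'] at h2
    exact h2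
  set y₀ : L := ∏ x ∈ Finset.univ.erase (1 : G), D.ev x g₀ with hy₀
  have hvy : A.valuation y₀ = A.valuation c ^ (N - 1) := by
    rw [hy₀, map_prod,
      Finset.prod_congr rfl (fun x hx => hval x (Finset.ne_of_mem_erase hx)),
      Finset.prod_const, Finset.card_erase_of_mem (Finset.mem_univ _), Finset.card_univ,
      ← Nat.card_eq_fintype_card]
  have hy0 : y₀ ≠ 0 := by
    intro h0
    rw [h0, map_zero] at hvy
    exact (pow_pos hvcpos (N - 1)).ne' hvy.symm
  have hfix : ∀ σ ∈ D.S, σ y₀ = y₀ := by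
    intro σ hσ
    rw [hy₀, map_prod]
    have hbij : Function.Bijective (D.act σ) :=
      Finite.injective_iff_bijective.1 (D.act_injective hσ)
    have e1 : ∀ x ∈ Finset.univ.erase (1 : G), σ (D.ev x g₀) = D.ev (D.act σ x) g₀ :=
      fun x _ => (D.ev_act σ hσ x g₀).symm
    rw [Finset.prod_congr rfl e1]
    refine Finset.prod_bij (fun x _ => D.act σ x) ?_ ?_ ?_ ?_
    · intro x hx
      refine Finset.mem_erase.2 ⟨fun h1 => ?_, Finset.mem_univ _⟩
      rw [← D.act_one hσ] at h1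
      exact Finset.ne_of_mem_erase hx (D.act_injective hσ h1)
    · intro x _ y _ h
      exact D.act_injective hσ h
    · intro y hy
      obtain ⟨x, hx⟩ := hbij.2 y
      refine ⟨x, Finset.mem_erase.2 ⟨fun h1 => ?_, Finset.mem_univ _⟩, hx⟩
      rw [h1, D.act_one hσ] at hx
      exact Finset.ne_of_mem_erase hy hx.symm
    · intro x _
      rfl
  obtain ⟨n, hn⟩ := unr y₀ hy0 hfix
  rw [hvy] at hn
  have hnpos : 0 < n := by
    have h1 : A.valuation c ^ (N - 1) < 1 := pow_lt_one₀ hvcpos.le hvc1 hN1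
    rw [hn] at h1
    exact (zpow_lt_one_iff_right_of_lt_one₀ h3pos D.three_lt).1 h1
  have hnle : 2 * n ≤ ((N - 1 : ℕ) : ℤ) := by
    have h1 : A.valuation (3 : L) ^ (N - 1) ≤ (A.valuation c ^ 2) ^ (N - 1) :=
      pow_le_pow_left₀ h3pos.le hbound _
    have h2 : (A.valuation c ^ 2) ^ (N - 1) = A.valuation (3 : L) ^ (2 * n) := by
      rw [← pow_mul, mul_comm, pow_mul, hn, ← zpow_natCast, ← zpow_mul, mul_comm]
      rfl
    rw [h2, ← zpow_natCast] at h1
    exact (zpow_le_zpow_iff_right_of_lt_one₀ h3pos D.three_lt).1 h1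
  obtain ⟨m, rfl⟩ : ∃ m : ℕ, n = (m : ℤ) := ⟨n.toNat, (Int.toNat_of_nonneg hnpos.le).symm⟩
  have hmpos : 0 < m := by exact_mod_cast hnpos
  have hmle : 2 * m ≤ N - 1 := by exact_mod_cast hnle
  rw [zpow_natCast] at hn
  -- the uniformiser
  have hvϖ : A.valuation ϖ ^ (N - 1) = A.valuation (3 : L) := by
    rw [← map_pow]
    rcases hϖ with h | h
    · rw [h]
    · rw [h, Valuation.map_neg]
  have hϖ0 : ϖ ≠ 0 := by
    intro h0
    rw [h0, map_zero, zero_pow hN1] at hvϖ
    exact h3pos.ne' hvϖ.symm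
  have hvϖpos : 0 < A.valuation ϖ := zero_lt_iff.2 ((A.valuation.ne_zero_iff).2 hϖ0)
  set u : L := c / ϖ ^ m with hu
  have hvu : A.valuation u = 1 := by
    have h1 : A.valuation u ^ (N - 1) = 1 := by
      rw [hu, map_div₀, div_pow, hn, map_pow, ← pow_mul, mul_comm m, pow_mul, hvϖ]
      exact div_self (pow_pos h3pos m).ne'
    exact (pow_eq_one_iff_of_nonneg zero_le hN1).1 h1
  have hu0 : u ≠ 0 := by
    intro h0
    rw [h0, map_zero] at hvu
    exact zero_ne_one hvu
  have huA : u ∈ A := (A.valuation_le_one_iff _).1 hvu.le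
  have hcu : c = u * ϖ ^ m := by
    rw [hu]; field_simp
  refine ⟨m, ι, hmpos, hmle, hadd, hinj, fun σ hσ => ?_⟩
  have hσϖ0 : σ ϖ ≠ 0 := fun h0 => hϖ0 ((map_eq_zero_iff σ σ.injective).1 h0)
  have hpow1 : (σ ϖ / ϖ) ^ (N - 1) = 1 := by
    rw [div_pow, ← map_pow]
    rcases hϖ with h | h
    · rw [h, map_ofNat]
      exact div_self D.three_ne
    · rw [h, map_neg, map_ofNat]
      exact div_self (neg_ne_zero.2 D.three_ne)
  have hvσϖ : A.valuation (σ ϖ / ϖ) = 1 := by
    have h1 : A.valuation (σ ϖ / ϖ) ^ (N - 1) = 1 := by rw [← map_pow, hpow1, map_one]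
    exact (pow_eq_one_iff_of_nonneg zero_le hN1).1 h1
  have hσϖA : σ ϖ / ϖ ∈ A := (A.valuation_le_one_iff _).1 hvσϖ.le
  refine ⟨hσϖA, fun x => ?_⟩
  obtain ⟨hcc, h⟩ := hequiv σ hσ
  rw [h x]
  congr 1
  -- `σ c / c = (σ ϖ / ϖ)^m * (σ u / u)`
  have hσu0 : σ u ≠ 0 := fun h0 => hu0 ((map_eq_zero_iff σ σ.injective).1 h0)
  have hσuA : σ u ∈ A := D.S_mem σ hσ u huA
  have hquA : σ u / u ∈ A := by
    rw [← A.valuation_le_one_iff, map_div₀, hvu, div_one]
    exact (A.valuation_le_one_iff _).2 hσuA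
  have hq1 : res A (σ u / u) hquA = 1 := by
    have h1 : A.valuation (σ u / u - 1) < 1 := by
      have : σ u / u - 1 = (σ u - u) / u := by field_simp
      rw [this, map_div₀, hvu, div_one]
      exact D.S_res σ hσ u huA
    have h2 := res_congr A (σ u / u) 1 hquA A.one_mem h1
    rw [h2]
    unfold res
    have h3 : (⟨(1 : L), A.one_mem⟩ : A) = 1 := rfl
    rw [h3, map_one]
  have hpowA : (σ ϖ / ϖ) ^ m ∈ A := pow_mem hσϖA m
  have hsplit : σ c / c = (σ ϖ / ϖ) ^ m * (σ u / u) := by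
    rw [hcu, map_mul, map_pow, div_pow]
    field_simp
  have e1 : res A (σ c / c) hcc = res A ((σ ϖ / ϖ) ^ m * (σ u / u)) (A.mul_mem _ _ hpowA hquA) := by
    congr 1
  rw [e1, res_mul A _ _ hpowA hquA, hq1, mul_one]
  unfold res
  rw [← map_pow]
  rfl

end tame

end Core

section generic

variable {G : Type*} [CommMonoid G]

/-- Lagrange for submonoids of a finite commutative monoid of exponent `3` (`x⁻¹ = x²`). -/
theorem card_submonoid_dvd_of_pow_three (h3 : ∀ x : G, x ^ 3 = 1) (T : Submonoid G) :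
    Nat.card T ∣ Nat.card G := by
  classical
  let grp : Group G :=
    { (inferInstance : Monoid G) with
      inv := fun x => x ^ 2
      inv_mul_cancel := fun x => by rw [← pow_succ, h3] }
  let H : Subgroup G := { toSubmonoid := T, inv_mem' := fun {x} hx => T.pow_mem hx 2 }
  exact Subgroup.card_subgroup_dvd_card H

theorem submonoid_eq_of_le_of_card_le [Finite G] {T' T : Submonoid G} (hle : T' ≤ T)
    (hc : Nat.card T ≤ Nat.card T') : T' = T := by
  apply SetLike.coe_injective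
  refine Set.eq_of_subset_of_ncard_le hle ?_ (Set.toFinite _)
  rw [← _root_.Nat.card_coe_set_eq, ← _root_.Nat.card_coe_set_eq]
  exact hc

end generic

theorem res_eq_of_eq (A : ValuationSubring L) {a b : L} (h : a = b) (ha : a ∈ A) (hb : b ∈ A) :
    res A a ha = res A b hb := by
  subst h; rfl

theorem res_one' (A : ValuationSubring L) : res A 1 A.one_mem = 1 := by
  unfold res
  have h3 : (⟨(1 : L), A.one_mem⟩ : A) = 1 := rfl
  rw [h3, map_one]

theorem res_neg_one' (A : ValuationSubring L) : res A (-1) (A.neg_mem _ A.one_mem) = -1 := by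
  unfold res
  have h3 : (⟨(-1 : L), A.neg_mem _ A.one_mem⟩ : A) = -1 := rfl
  rw [h3, map_neg, map_one]

namespace Core

variable {A : ValuationSubring L} {G : Type*} [CommMonoid G] {F : Type*} (D : Core A G F)

section lemmaD

variable [Finite G]

/-- **LEMMA D** (abstract form).  A core with `9` points, `S` with unramified fixed field,
`s² = -3`, `ϖ⁸ = 3`.  Then one of:
(a) `S` acts trivially on the points (étale case);
(b) there is a nontrivial point `x` on which `σ ∈ S` acts by `x ↦ x ^ (σ s / s)` (an `ω`-line);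
(e) the points are connected and irreducible under `S`, and `S` acts through the character
    `σ ↦ res (σ ϖ / ϖ) ^ n`, `1 ≤ n ≤ 4`, on an injective additive image in the residue field. -/
theorem lemmaD (hcard : Nat.card G = 9)
    (unr : ∀ y : L, y ≠ 0 → (∀ σ ∈ D.S, σ y = y) →
      ∃ n : ℤ, A.valuation y = A.valuation (3 : L) ^ n)
    (s ϖ : L) (hs : s ^ 2 = -3) (hϖ : ϖ ^ 8 = 3) :
    (∀ σ ∈ D.S, ∀ x, D.act σ x = x) ∨
    (∃ x : G, x ≠ 1 ∧ ∀ σ ∈ D.S,
      (σ s = s → D.act σ x = x) ∧ (σ s = -s → D.act σ x = x ^ 2)) ∨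
    ((∀ x f, A.valuation (D.ev x f) < 1) ∧
      (∀ T : Submonoid G, (∀ σ ∈ D.S, ∀ x ∈ T, D.act σ x ∈ T) → T = ⊥ ∨ T = ⊤) ∧
      ∃ (n : ℕ) (ι : G → ResidueField A), 0 < n ∧ n ≤ 4 ∧
        (∀ x y, ι (x * y) = ι x + ι y) ∧ Function.Injective ι ∧
        ∀ σ ∈ D.S, ∃ h : σ ϖ / ϖ ∈ A, ∀ x, ι (D.act σ x) = res A _ h ^ n * ι x) := by
  classical
  by_cases hbot : D.redKer = ⊥
  · exact Or.inl fun σ hσ x => D.act_eq_self_of_redKer_eq_bot hbot hσ x
  right
  -- a minimal nontrivial stable submonoid inside `redKer`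
  let P : Set (Submonoid G) :=
    {T | (∀ σ ∈ D.S, ∀ x ∈ T, D.act σ x ∈ T) ∧ T ≠ ⊥ ∧ T ≤ D.redKer}
  have hP : P.Nonempty := ⟨D.redKer, D.redKer_stable, hbot, le_rfl⟩
  obtain ⟨T, ⟨hTst, hTne, hTle⟩, hTmin⟩ :=
    WellFounded.has_min (InvImage.wf (fun T : Submonoid G => Nat.card T) Nat.lt_wfRel.wf) P hP
  have hmin' : ∀ T' : Submonoid G, (∀ σ ∈ D.S, ∀ x ∈ T', D.act σ x ∈ T') → T' ≠ ⊥ →
      T' ≤ T → T' = T := by
    intro T' hst hne hle
    have h1 : ¬ Nat.card T' < Nat.card T := hTmin T' ⟨hst, hne, hle.trans hTle⟩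
    exact submonoid_eq_of_le_of_card_le hle (not_lt.1 h1)
  have connT : ∀ (x : T) (f : F), A.valuation ((D.restrict T hTst).ev x f) < 1 :=
    fun x f => hTle x.2 f
  have nontrivT : ∃ x : T, x ≠ 1 := by
    rcases T.bot_or_exists_ne_one with h | ⟨x, hx, hx1⟩
    · exact absurd h hTne
    · exact ⟨⟨x, hx⟩, fun h => hx1 (congrArg Subtype.val h)⟩
  have irrT : ∀ T' : Submonoid T,
      (∀ σ ∈ (D.restrict T hTst).S, ∀ x ∈ T', (D.restrict T hTst).act σ x ∈ T') →
      T' = ⊥ ∨ T' = ⊤ := by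
    intro T' hst
    by_cases hb : T' = ⊥
    · exact Or.inl hb
    right
    have hst'' : ∀ σ ∈ D.S, ∀ y ∈ T'.map T.subtype, D.act σ y ∈ T'.map T.subtype := by
      rintro σ hσ y ⟨x, hx, rfl⟩
      refine ⟨(D.restrict T hTst).act σ x, hst σ hσ x hx, ?_⟩
      exact D.restrict_act T hTst hσ x
    have hne'' : T'.map T.subtype ≠ ⊥ := by
      intro h0
      apply hb
      rw [eq_bot_iff]
      intro x hx
      have : (x : G) ∈ T'.map T.subtype := ⟨x, hx, rfl⟩
      rw [h0, Submonoid.mem_bot] at this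
      exact Submonoid.mem_bot.2 (Subtype.ext this)
    have hle'' : T'.map T.subtype ≤ T := by
      rintro y ⟨x, -, rfl⟩
      exact x.2
    have heq := hmin' _ hst'' hne'' hle''
    rw [eq_top_iff]
    intro x _
    have : (x : G) ∈ T'.map T.subtype := by rw [heq]; exact x.2
    obtain ⟨y, hy, hyx⟩ := this
    have : y = x := Subtype.ext hyx
    rw [← this]
    exact hy
  have hdvd : Nat.card T ∣ 9 := hcard ▸ card_submonoid_dvd_of_pow_three D.pow_three T
  have hT2 : 2 ≤ Nat.card T := by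
    obtain ⟨x, hx⟩ := nontrivT
    have : Nontrivial T := ⟨⟨x, 1, hx⟩⟩
    exact Finite.one_lt_card_iff_nontrivial.2 inferInstance
  have hT39 : Nat.card T = 3 ∨ Nat.card T = 9 := by
    have h9 : (9 : ℕ) = 3 ^ 2 := by norm_num
    rw [h9] at hdvd
    obtain ⟨k, hk, hk'⟩ := (Nat.dvd_prime_pow Nat.prime_three).1 hdvd
    interval_cases k
    · rw [hk'] at hT2; norm_num at hT2
    · left; rw [hk']; norm_num
    · right; rw [hk']; norm_num
  have hthree : (3 : ResidueField A) = 0 := by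
    have h3mem : (3 : L) ∈ A := (A.valuation_le_one_iff _).1 D.three_lt.le
    have : res A 3 h3mem = 0 := (res_eq_zero_iff A _ h3mem).2 D.three_lt
    unfold res at this
    have h1 : (⟨(3 : L), h3mem⟩ : A) = 3 := Subtype.ext (by push_cast; rfl)
    rw [h1, map_ofNat] at this
    exact this
  rcases hT39 with h3 | h9
  · -- an `ω`-line
    left
    have hs' : s ^ (Nat.card T - 1) = 3 ∨ s ^ (Nat.card T - 1) = -3 := by
      right; rw [h3]; exact hs
    obtain ⟨n, ι, hn0, hn2, hadd, hinj, hact⟩ :=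
      (D.restrict T hTst).exists_tame connT irrT nontrivT unr s hs'
    have hn1 : n = 1 := by rw [h3] at hn2; omega
    subst hn1
    obtain ⟨x₁, hx₁⟩ := nontrivT
    refine ⟨x₁.1, fun h => hx₁ (Subtype.ext h), fun σ hσ => ⟨fun hσs => ?_, fun hσs => ?_⟩⟩
    · obtain ⟨h, hx⟩ := hact σ hσ
      have h1 := hx x₁
      have hs0 : s ≠ 0 := by
        intro h0
        rw [h0] at hs
        have : (3 : L) = 0 := by linear_combination hs
        exact D.three_ne this
      have e : σ s / s = 1 := by rw [hσs]; exact div_self hs0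
      rw [res_eq_of_eq A e h A.one_mem, res_one', pow_one, one_mul] at h1
      have h2 := hinj h1
      rw [← D.restrict_act T hTst hσ x₁, h2]
    · obtain ⟨h, hx⟩ := hact σ hσ
      have h1 := hx x₁
      have hs0 : s ≠ 0 := by
        intro h0
        rw [h0] at hs
        have : (3 : L) = 0 := by linear_combination hs
        exact D.three_ne this
      have e : σ s / s = -1 := by rw [hσs, neg_div, div_self hs0]
      rw [res_eq_of_eq A e h (A.neg_mem _ A.one_mem), res_neg_one', pow_one] at h1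
      have h2 : ι ((D.restrict T hTst).act σ x₁) = ι (x₁ ^ 2) := by
        rw [h1, pow_two, hadd]
        have : ι x₁ + ι x₁ = 3 * ι x₁ + -1 * ι x₁ := by ring
        rw [this, hthree, zero_mul, zero_add]
      have h3' := hinj h2
      rw [← D.restrict_act T hTst hσ x₁, h3']
      rfl
  · -- the irreducible connected case
    right
    have hTtop : T = ⊤ := by
      refine submonoid_eq_of_le_of_card_le le_top ?_
      rw [h9]
      have : Nat.card (⊤ : Submonoid G) = Nat.card G :=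
        Nat.card_congr Submonoid.topEquiv.toEquiv
      rw [this, hcard]
    have conn : ∀ x f, A.valuation (D.ev x f) < 1 := by
      intro x f
      have : x ∈ T := by rw [hTtop]; trivial
      exact hTle this f
    have irr : ∀ T' : Submonoid G, (∀ σ ∈ D.S, ∀ x ∈ T', D.act σ x ∈ T') →
        T' = ⊥ ∨ T' = ⊤ := by
      intro T' hst
      by_cases hb : T' = ⊥
      · exact Or.inl hb
      · right
        rw [← hTtop]
        exact hmin' T' hst hb (by rw [hTtop]; exact le_top)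
    have nontriv : ∃ x : G, x ≠ 1 := by
      obtain ⟨x, hx⟩ := nontrivT
      exact ⟨x.1, fun h => hx (Subtype.ext h)⟩
    have hϖ' : ϖ ^ (Nat.card G - 1) = 3 ∨ ϖ ^ (Nat.card G - 1) = -3 := by
      left; rw [hcard]; exact hϖ
    obtain ⟨n, ι, hn0, hn2, hadd, hinj, hact⟩ := D.exists_tame conn irr nontriv unr ϖ hϖ'
    refine ⟨conn, irr, n, ι, hn0, ?_, hadd, hinj, hact⟩
    rw [hcard] at hn2
    omega

end lemmaD

end Core

end Fermat.Agent.W.LL3.H80
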