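import Mathlib.RingTheory.Bialgebra.Convolution
import Mathlib.Tactic.Abel
import Mathlib.Tactic.Ring
import Mathlib.Tactic.LinearCombination
import Mathlib.Algebra.Module.BigOperators
import Mathlib.Algebra.BigOperators.GroupWithZero.Action

/-!
# LL3 (item 77), LEMMA R, sub-leaf R-ALG (helper99): the Hopf-algebra expansions

`H` is a commutative bialgebra over a commutative ring `R` (the coordinate ring of a finite flat
group scheme), `I = ker (counit)` its augmentation ideal, `L` a commutative `R`-algebra and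
`x y : WithConv (H →ₐ[R] L)` points, multiplied by convolution (the prelude's `IsFlatAt` uses
exactly this group of points).

* `comul_expand` : for `ε f = 0`, `Δ f = f ⊗ 1 + 1 ⊗ f + ∑ aᵢ ⊗ bᵢ` with `ε aᵢ = ε bᵢ = 0`;
* `conv_apply_expand` : `(x * y) f = x f + y f + ∑ x aᵢ * y bᵢ`;
* `conv_mem` (step 3 of LEMMA R): if `x` and `y` map `I` into an additive subgroup `J ⊆ L` that
  is closed under products, so does `x * y`;
* `conv_sub_mem` (step 4): `(x * y) f - (x f + y f) ∈ J₂` whenever `J * J ⊆ J₂`;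
* `cube_expand` (step 5, no formal group, no cocommutativity): if `x` maps `I` into `J`,
  `J * J ⊆ J₂` and `J₂ * J ⊆ J₃`, then `(x * x * x) f = 3 • (x f + c) + d` with `c ∈ J₂`, `d ∈ J₃`.

With `J = {v ≥ v₀}`, `J₂ = {v ≥ 2 v₀}`, `J₃ = {v ≥ 3 v₀}` and a point `x` of order `3` this gives
`1 + v₀ ≥ 3 v₀`.  Mathlib only.
-/

set_option autoImplicit false

open Coalgebra TensorProduct WithConv

namespace Fermat.Agent.W.LL3.H99

variable {R : Type*} [CommRing R] {H : Type*} [CommRing H] [Bialgebra R H]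

/-- The augmented part of an element: `h - ε(h)·1`. -/
noncomputable def aug (R : Type*) [CommRing R] {H : Type*} [CommRing H] [Bialgebra R H]
    (h : H) : H :=
  h - algebraMap R H (counit (R := R) h)

theorem counit_aug (h : H) : counit (R := R) (aug R h) = 0 := by
  unfold aug
  rw [map_sub, Algebra.algebraMap_eq_smul_one, map_smul, Bialgebra.counit_one, smul_eq_mul,
    mul_one, sub_self]

/-- `Δ f = f ⊗ 1 + 1 ⊗ f + ∑ aᵢ ⊗ bᵢ` with `aᵢ, bᵢ` in the augmentation ideal, for `ε f = 0`.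
The family is the augmented part of an arbitrary representation of `Δ f`. -/
theorem comul_expand (f : H) (hf : counit (R := R) f = 0) :
    comul (R := R) f = f ⊗ₜ[R] 1 + 1 ⊗ₜ[R] f +
      ∑ p ∈ (ℛ R f).index, aug R ((ℛ R f).left p) ⊗ₜ[R] aug R ((ℛ R f).right p) := by
  set 𝓡 := ℛ R f with h𝓡
  have e1 : ∑ p ∈ 𝓡.index, 𝓡.left p ⊗ₜ[R] 𝓡.right p = comul (R := R) f := 𝓡.eq
  have e2 : ∑ p ∈ 𝓡.index,
      (algebraMap R H (counit (R := R) (𝓡.left p))) ⊗ₜ[R] 𝓡.right p = 1 ⊗ₜ[R] f := by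
    have := sum_counit_tmul_eq (R := R) 𝓡
    have h2 : ∀ p ∈ 𝓡.index,
        (algebraMap R H (counit (R := R) (𝓡.left p))) ⊗ₜ[R] 𝓡.right p
          = (1 : H) ⊗ₜ[R] (counit (R := R) (𝓡.left p) • 𝓡.right p) := by
      intro p _
      rw [Algebra.algebraMap_eq_smul_one, TensorProduct.smul_tmul]
    rw [Finset.sum_congr rfl h2, ← TensorProduct.tmul_sum, sum_counit_smul]
  have e3 : ∑ p ∈ 𝓡.index,
      𝓡.left p ⊗ₜ[R] (algebraMap R H (counit (R := R) (𝓡.right p))) = f ⊗ₜ[R] 1 := by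
    have h2 : ∀ p ∈ 𝓡.index,
        𝓡.left p ⊗ₜ[R] (algebraMap R H (counit (R := R) (𝓡.right p)))
          = (counit (R := R) (𝓡.right p) • 𝓡.left p) ⊗ₜ[R] (1 : H) := by
      intro p _
      rw [Algebra.algebraMap_eq_smul_one, TensorProduct.tmul_smul, TensorProduct.smul_tmul']
    rw [Finset.sum_congr rfl h2, ← TensorProduct.sum_tmul]
    congr 1
    simpa only [map_sum, TensorProduct.lift.tmul, LinearMap.flip_apply, LinearMap.lsmul_apply,
      one_smul]
      using congr(TensorProduct.lift (LinearMap.lsmul R H).flip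
        $(sum_tmul_counit_eq (R := R) 𝓡))
  have e4 : ∑ p ∈ 𝓡.index,
      (algebraMap R H (counit (R := R) (𝓡.left p))) ⊗ₜ[R]
        (algebraMap R H (counit (R := R) (𝓡.right p))) = 0 := by
    have h2 : ∀ p ∈ 𝓡.index,
        (algebraMap R H (counit (R := R) (𝓡.left p))) ⊗ₜ[R]
          (algebraMap R H (counit (R := R) (𝓡.right p)))
          = (counit (R := R) (𝓡.left p) * counit (R := R) (𝓡.right p)) •
              ((1 : H) ⊗ₜ[R] (1 : H)) := by
      intro p _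
      rw [Algebra.algebraMap_eq_smul_one, Algebra.algebraMap_eq_smul_one,
        TensorProduct.smul_tmul_smul]
    have h3 : ∑ p ∈ 𝓡.index, counit (R := R) (𝓡.left p) * counit (R := R) (𝓡.right p) = 0 := by
      have := congrArg (counit (R := R)) (sum_counit_smul (R := R) 𝓡)
      simpa only [map_sum, map_smul, smul_eq_mul, hf] using this
    rw [Finset.sum_congr rfl h2, ← Finset.sum_smul, h3, zero_smul]
  have key : ∑ p ∈ 𝓡.index, aug R (𝓡.left p) ⊗ₜ[R] aug R (𝓡.right p)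
      = comul (R := R) f - 1 ⊗ₜ[R] f - f ⊗ₜ[R] 1 := by
    simp only [aug, TensorProduct.sub_tmul, TensorProduct.tmul_sub, Finset.sum_sub_distrib]
    rw [e1, e2, e3, e4]
    abel
  rw [key]
  abel

variable {L : Type*} [CommRing L] [Algebra R L]

/-- `(x * y) f = x f + y f + ∑ x aᵢ * y bᵢ` for `ε f = 0`. -/
theorem conv_apply_expand (x y : WithConv (H →ₐ[R] L)) (f : H)
    (hf : counit (R := R) f = 0) :
    (x * y).ofConv f = x.ofConv f + y.ofConv f +
      ∑ p ∈ (ℛ R f).index,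
        x.ofConv (aug R ((ℛ R f).left p)) * y.ofConv (aug R ((ℛ R f).right p)) := by
  rw [AlgHom.convMul_apply, comul_expand f hf]
  simp only [map_add, map_sum, Algebra.TensorProduct.lift_tmul, map_one, mul_one, one_mul]

/-- Step 3 of LEMMA R: the points that map the augmentation ideal into `J` are closed under
convolution, for an additive subgroup `J` closed under products. -/
theorem conv_mem (J : AddSubgroup L) (hJ : ∀ a ∈ J, ∀ b ∈ J, a * b ∈ J)
    (x y : WithConv (H →ₐ[R] L))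
    (hx : ∀ g : H, counit (R := R) g = 0 → x.ofConv g ∈ J)
    (hy : ∀ g : H, counit (R := R) g = 0 → y.ofConv g ∈ J)
    (f : H) (hf : counit (R := R) f = 0) : (x * y).ofConv f ∈ J := by
  rw [conv_apply_expand x y f hf]
  refine J.add_mem (J.add_mem (hx f hf) (hy f hf)) (sum_mem fun p _ => ?_)
  exact hJ _ (hx _ (counit_aug _)) _ (hy _ (counit_aug _))

/-- Step 4 of LEMMA R: `x ↦ x f` is additive modulo `J₂ ⊇ J * J`. -/
theorem conv_sub_mem (J J₂ : AddSubgroup L) (hJ : ∀ a ∈ J, ∀ b ∈ J, a * b ∈ J₂)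
    (x y : WithConv (H →ₐ[R] L))
    (hx : ∀ g : H, counit (R := R) g = 0 → x.ofConv g ∈ J)
    (hy : ∀ g : H, counit (R := R) g = 0 → y.ofConv g ∈ J)
    (f : H) (hf : counit (R := R) f = 0) :
    (x * y).ofConv f - (x.ofConv f + y.ofConv f) ∈ J₂ := by
  rw [conv_apply_expand x y f hf, add_sub_cancel_left]
  exact sum_mem fun p _ => hJ _ (hx _ (counit_aug _)) _ (hy _ (counit_aug _))

/-- Step 5 of LEMMA R: `[3]^* f ∈ 3 (f + I²) + I³`, in pointwise form.  If the point `x` maps the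
augmentation ideal into `J`, `J * J ⊆ J₂` and `J₂ * J ⊆ J₃`, then
`(x * x * x) f = 3 • (x f + c) + d` with `c ∈ J₂` and `d ∈ J₃`. -/
theorem cube_expand (J J₂ J₃ : AddSubgroup L) (hJ : ∀ a ∈ J, ∀ b ∈ J, a * b ∈ J₂)
    (hJ₂ : ∀ a ∈ J₂, ∀ b ∈ J, a * b ∈ J₃)
    (x : WithConv (H →ₐ[R] L))
    (hx : ∀ g : H, counit (R := R) g = 0 → x.ofConv g ∈ J)
    (f : H) (hf : counit (R := R) f = 0) :
    ∃ c ∈ J₂, ∃ d ∈ J₃, (x * x * x).ofConv f = 3 • (x.ofConv f + c) + d := by
  -- the quadratic term of a point of `I`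
  set q : H → L := fun g =>
    ∑ p ∈ (ℛ R g).index,
      x.ofConv (aug R ((ℛ R g).left p)) * x.ofConv (aug R ((ℛ R g).right p)) with hq
  have hq2 : ∀ g, q g ∈ J₂ := fun g =>
    sum_mem fun p _ => hJ _ (hx _ (counit_aug _)) _ (hx _ (counit_aug _))
  have hsq : ∀ g : H, counit (R := R) g = 0 →
      (x * x).ofConv g = x.ofConv g + x.ofConv g + q g := fun g hg =>
    conv_apply_expand x x g hg
  refine ⟨q f, hq2 f,
    ∑ p ∈ (ℛ R f).index,
      q (aug R ((ℛ R f).left p)) * x.ofConv (aug R ((ℛ R f).right p)),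
    sum_mem fun p _ => hJ₂ _ (hq2 _) _ (hx _ (counit_aug _)), ?_⟩
  rw [conv_apply_expand (x * x) x f hf, hsq f hf]
  have hterm : ∀ p ∈ (ℛ R f).index,
      (x * x).ofConv (aug R ((ℛ R f).left p)) * x.ofConv (aug R ((ℛ R f).right p))
        = 2 • (x.ofConv (aug R ((ℛ R f).left p)) * x.ofConv (aug R ((ℛ R f).right p)))
          + q (aug R ((ℛ R f).left p)) * x.ofConv (aug R ((ℛ R f).right p)) := by
    intro p _
    rw [hsq _ (counit_aug _)]
    ring
  rw [Finset.sum_congr rfl hterm, Finset.sum_add_distrib, ← Finset.smul_sum]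
  have : (∑ p ∈ (ℛ R f).index,
      x.ofConv (aug R ((ℛ R f).left p)) * x.ofConv (aug R ((ℛ R f).right p))) = q f := rfl
  rw [this]
  simp only [nsmul_eq_mul, Nat.cast_ofNat]
  ring

/-- The same with the monoid power `x ^ 3`. -/
theorem cube_expand_pow (J J₂ J₃ : AddSubgroup L) (hJ : ∀ a ∈ J, ∀ b ∈ J, a * b ∈ J₂)
    (hJ₂ : ∀ a ∈ J₂, ∀ b ∈ J, a * b ∈ J₃)
    (x : WithConv (H →ₐ[R] L))
    (hx : ∀ g : H, counit (R := R) g = 0 → x.ofConv g ∈ J)
    (f : H) (hf : counit (R := R) f = 0) :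
    ∃ c ∈ J₂, ∃ d ∈ J₃, (x ^ 3).ofConv f = 3 • (x.ofConv f + c) + d := by
  have h3 : x ^ 3 = x * x * x := by rw [pow_succ, pow_two]
  rw [h3]
  exact cube_expand J J₂ J₃ hJ hJ₂ x hx f hf

/-- A point of order dividing `3`: `3 (x f + c) + d = 0` with `c ∈ J₂`, `d ∈ J₃`.  This is the
relation that bounds the valuation (`1 + v ≥ 3 v`). -/
theorem cube_relation (J J₂ J₃ : AddSubgroup L) (hJ : ∀ a ∈ J, ∀ b ∈ J, a * b ∈ J₂)
    (hJ₂ : ∀ a ∈ J₂, ∀ b ∈ J, a * b ∈ J₃)
    (x : WithConv (H →ₐ[R] L)) (hx3 : x ^ 3 = 1)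
    (hx : ∀ g : H, counit (R := R) g = 0 → x.ofConv g ∈ J)
    (f : H) (hf : counit (R := R) f = 0) :
    ∃ c ∈ J₂, ∃ d ∈ J₃, 3 • (x.ofConv f + c) + d = 0 := by
  obtain ⟨c, hc, d, hd, h⟩ := cube_expand_pow J J₂ J₃ hJ hJ₂ x hx f hf
  refine ⟨c, hc, d, hd, ?_⟩
  rw [← h, hx3, AlgHom.convOne_apply, hf, map_zero]

end Fermat.Agent.W.LL3.H99
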