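import Mathlib
import Fermat.Agent.W.LL3.H80_LemD
import Fermat.Agent.W.LL3.H99_RAlg

/-!
# LL3, local part: LEMMA D, part 2 (helper80): the core of a finite cocommutative bialgebra

`H` a commutative bialgebra over `R`, finite as a module and cocommutative, `L` a field over `R`,
`A` a valuation subring of `L` containing the image of `R`, `S` a set of automorphisms of `L`
over `R` which act trivially on the residue field of `A` ("inertia").  If the group of points
`WithConv (H →ₐ[R] L)` is killed by `3`, then (`hopfCore`) it is a `Core`, with coordinates the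
elements of the augmentation ideal.  Inputs: helper99's R-ALG (`conv_apply_expand`,
`cube_expand_pow`).
-/

set_option autoImplicit false

namespace Fermat.Agent.W.LL3.H80

open Coalgebra WithConv IsLocalRing

section hopf

variable {R : Type*} [CommRing R] {H : Type*} [CommRing H] [Bialgebra R H]
variable {L : Type*} [Field L] [Algebra R L]

/-- An element of `L` integral over `R` lies in every valuation subring containing the image of
`R`. -/
theorem mem_of_isIntegral_of_forall_mem (A : ValuationSubring L)
    (hRA : ∀ r : R, algebraMap R L r ∈ A) {x : L} (hx : IsIntegral R x) : x ∈ A := by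
  obtain ⟨p, hp, hpx⟩ := hx
  let φ : R →+* A := (algebraMap R L).codRestrict A.toSubring hRA
  have h1 : IsIntegral A x := by
    refine ⟨p.map φ, hp.map φ, ?_⟩
    rw [Polynomial.eval₂_map]
    have : (algebraMap A L).comp φ = algebraMap R L := by
      ext r; rfl
    rw [this]
    exact hpx
  have h2 := (Valuation.Integers.isIntegral_iff_v_le_one
    (Valuation.valuationSubring.integers A.valuation) (x := x)).mp
    (by rw [A.valuationSubring_valuation]; exact h1)
  exact (A.valuation_le_one_iff x).1 h2

/-- the additive subgroup `{a | v a ≤ γ}` -/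
def leSub (A : ValuationSubring L) (γ : A.ValueGroup) : AddSubgroup L where
  carrier := {a | A.valuation a ≤ γ}
  zero_mem' := by
    show A.valuation 0 ≤ γ
    rw [map_zero]; exact zero_le
  add_mem' := fun {a b} ha hb => (A.valuation.map_add a b).trans (max_le ha hb)
  neg_mem' := fun {a} ha => by
    show A.valuation (-a) ≤ γ
    rw [Valuation.map_neg]; exact ha

theorem mem_leSub (A : ValuationSubring L) (γ : A.ValueGroup) (a : L) :
    a ∈ leSub A γ ↔ A.valuation a ≤ γ := Iff.rfl

theorem point_apply_eq (x : WithConv (H →ₐ[R] L)) (h : H) :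
    x.ofConv h = x.ofConv (H99.aug R h) + algebraMap R L (counit (R := R) h) := by
  unfold H99.aug
  rw [map_sub, AlgHom.commutes, sub_add_cancel]

theorem aug_eq_self {f : H} (hf : counit (R := R) f = 0) : H99.aug R f = f := by
  unfold H99.aug
  rw [hf, map_zero, sub_zero]

theorem aug_sum_smul {ι : Type*} (s : Finset ι) (c : ι → R) (h : ι → H) :
    H99.aug R (∑ i ∈ s, c i • h i) = ∑ i ∈ s, c i • H99.aug R (h i) := by
  have key : ∀ a : H, H99.aug R a =
      ((LinearMap.id : H →ₗ[R] H) - (Algebra.linearMap R H).comp (counit (R := R) (A := H))) a :=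
    fun _ => rfl
  simp only [key, map_sum, map_smul]

open Classical in
/-- the action of an automorphism of `L` on points (the identity if it does not fix `R`). -/
noncomputable def pointAct (σ : L ≃+* L) (x : WithConv (H →ₐ[R] L)) : WithConv (H →ₐ[R] L) :=
  if h : ∀ r : R, σ (algebraMap R L r) = algebraMap R L r then
    toConv ((AlgHom.mk σ.toRingHom h : L →ₐ[R] L).comp x.ofConv) else x

theorem pointAct_apply (σ : L ≃+* L) (hσ : ∀ r : R, σ (algebraMap R L r) = algebraMap R L r)
    (x : WithConv (H →ₐ[R] L)) (h : H) : (pointAct σ x).ofConv h = σ (x.ofConv h) := by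
  unfold pointAct
  rw [dif_pos hσ]
  rfl

variable [IsCocomm R H] [Module.Finite R H]

/-- **The core of a finite cocommutative bialgebra whose points are killed by `3`.** -/
noncomputable def hopfCore (A : ValuationSubring L) (S : Set (L ≃+* L))
    (hRA : ∀ r : R, algebraMap R L r ∈ A)
    (hS_R : ∀ σ ∈ S, ∀ r : R, σ (algebraMap R L r) = algebraMap R L r)
    (hS_mem : ∀ σ ∈ S, ∀ a ∈ A, σ a ∈ A)
    (hS_res : ∀ σ ∈ S, ∀ a ∈ A, A.valuation (σ a - a) < 1)
    (h3 : ∀ x : WithConv (H →ₐ[R] L), x ^ 3 = 1)
    (three_lt : A.valuation (3 : L) < 1) (three_ne : (3 : L) ≠ 0) :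
    Core A (WithConv (H →ₐ[R] L)) {f : H // counit (R := R) f = 0} where
  ev := fun x f => x.ofConv f.1
  S := S
  act := pointAct
  ev_one := fun f => by
    show (1 : WithConv (H →ₐ[R] L)).ofConv f.1 = 0
    have h1 : (1 : WithConv (H →ₐ[R] L)).ofConv f.1 = (1 : WithConv (H →ₐ[R] L)) f.1 := rfl
    rw [h1, AlgHom.convOne_apply, f.2, map_zero]
  ev_sep := fun x y h => by
    apply WithConv.ofConv_injective
    apply AlgHom.ext
    intro a
    rw [point_apply_eq x a, point_apply_eq y a]
    congr 1
    exact h ⟨H99.aug R a, H99.counit_aug a⟩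
  ev_mem := fun x f => by
    have : Algebra.IsIntegral R H := Algebra.IsIntegral.of_finite R H
    exact mem_of_isIntegral_of_forall_mem A hRA
      ((Algebra.IsIntegral.isIntegral (R := R) f.1).map x.ofConv)
  ev_mul := fun f => by
    classical
    let s := (ℛ R f.1).index
    let e : Fin s.card ≃ s := s.equivFin.symm
    refine ⟨s.card, fun i => ⟨H99.aug R ((ℛ R f.1).left (e i)), H99.counit_aug _⟩,
      fun i => ⟨H99.aug R ((ℛ R f.1).right (e i)), H99.counit_aug _⟩, fun x y => ?_⟩
    rw [H99.conv_apply_expand x y f.1 f.2]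
    congr 1
    rw [← Finset.sum_coe_sort s]
    exact (Equiv.sum_comp e (fun p : s =>
      x.ofConv (H99.aug R ((ℛ R f.1).left p)) * y.ofConv (H99.aug R ((ℛ R f.1).right p)))).symm
  ev_cube := fun x f γ hγ => by
    have hJ : ∀ a ∈ leSub A γ, ∀ b ∈ leSub A γ, a * b ∈ leSub A (γ ^ 2) := by
      intro a ha b hb
      rw [mem_leSub] at ha hb ⊢
      rw [map_mul, pow_two]
      exact mul_le_mul' ha hb
    have hJ₂ : ∀ a ∈ leSub A (γ ^ 2), ∀ b ∈ leSub A γ, a * b ∈ leSub A (γ ^ 3) := by
      intro a ha b hb
      rw [mem_leSub] at ha hb ⊢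
      rw [map_mul, pow_succ γ 2]
      exact mul_le_mul' ha hb
    obtain ⟨c, hc, d, hd, h⟩ := H99.cube_expand_pow (leSub A γ) (leSub A (γ ^ 2))
      (leSub A (γ ^ 3)) hJ hJ₂ x (fun g hg => hγ ⟨g, hg⟩) f.1 f.2
    refine ⟨c, d, hc, hd, ?_⟩
    rw [h, nsmul_eq_mul, Nat.cast_ofNat]
  ev_fin := by
    classical
    obtain ⟨s, hs⟩ := (Module.Finite.fg_top (R := R) (M := H))
    let z : {f : H // counit (R := R) f = 0} := ⟨0, map_zero _⟩
    refine ⟨insert z (s.image fun h => ⟨H99.aug R h, H99.counit_aug h⟩), fun x f => ?_⟩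
    have hf : f.1 ∈ Submodule.span R (s : Set H) := by rw [hs]; trivial
    obtain ⟨c, -, hc⟩ := Submodule.mem_span_finset.1 hf
    have hxf : x.ofConv f.1 = ∑ h ∈ s, algebraMap R L (c h) * x.ofConv (H99.aug R h) := by
      conv_lhs => rw [← aug_eq_self f.2, ← hc, aug_sum_smul, map_sum]
      refine Finset.sum_congr rfl fun h _ => ?_
      rw [map_smul, Algebra.smul_def]
    by_cases hne : s.Nonempty
    · obtain ⟨h₀, hh₀, hmax⟩ := Finset.exists_max_image s
        (fun h => A.valuation (algebraMap R L (c h) * x.ofConv (H99.aug R h))) hne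
      refine ⟨⟨H99.aug R h₀, H99.counit_aug h₀⟩,
        Finset.mem_insert_of_mem (Finset.mem_image_of_mem _ hh₀), ?_⟩
      show A.valuation (x.ofConv f.1) ≤ A.valuation (x.ofConv (H99.aug R h₀))
      rw [hxf]
      refine (val_sum_le A s _ _ hmax).trans ?_
      rw [map_mul]
      calc A.valuation (algebraMap R L (c h₀)) * A.valuation (x.ofConv (H99.aug R h₀))
          ≤ 1 * A.valuation (x.ofConv (H99.aug R h₀)) :=
            mul_le_mul_left ((A.valuation_le_one_iff _).2 (hRA _)) _
        _ = _ := one_mul _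
    · rw [Finset.not_nonempty_iff_eq_empty] at hne
      refine ⟨z, Finset.mem_insert_self _ _, ?_⟩
      show A.valuation (x.ofConv f.1) ≤ A.valuation (x.ofConv z.1)
      rw [hxf, hne, Finset.sum_empty, map_zero]
      exact zero_le
  ev_act := fun σ hσ x f => pointAct_apply σ (hS_R σ hσ) x f.1
  S_mem := hS_mem
  S_res := hS_res
  pow_three := h3
  three_lt := three_lt
  three_ne := three_ne

end hopf

end Fermat.Agent.W.LL3.H80
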