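import Mathlib
import Fermat.Prelude.Def_GaloisRep_Flat
import Fermat.Prelude.Def_FLTPrelim_Ramification
import Fermat.Agent.Lib.InertiaBridge
import Fermat.Agent.R.H6_UnrFix
import Fermat.Agent.W.LL3.H80_LemDHopf

/-!
# LL3, local part: LEMMA D for a flat Galois module of order 9 killed by 3 (helper80)

`M` a group with `9` elements killed by `3`, with an action of `G_ℚ`, which is the group of
`ℚ̄`-points of a finite cocommutative Hopf algebra over `ℤ_(3)` (the shape of the prelude's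
`IsFlatAt`; the hypothesis is literally the body of `Fermat.Agent.R.IsFlatGaloisModule 3 M act`).
`P` a place of `ℚ̄` over `3`, `I` its inertia group, `s² = -3`, `ϖ⁸ = 3`.  Then (`lemmaD_flat`) one
of the following holds:

(a) `I` acts trivially on `M`;
(b) there is `x ≠ 0` in `M` with `σ x = ω(σ) x` for all `σ ∈ I` (`ω(σ) = σ s / s = ± 1`);
(e) `I` acts irreducibly on `M`, and through the character `σ ↦ res (σ ϖ / ϖ) ^ n`, `1 ≤ n ≤ 4`,
    on an injective additive image of `M` in the residue field of `P`.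
-/

set_option autoImplicit false

namespace Fermat.Agent.W.LL3.H80

open Coalgebra WithConv IsLocalRing

local notation "Qbar" => AlgebraicClosure ℚ

/-- the image of `ℤ_(p)` lies in every valuation subring over `p`. -/
theorem ratLocalizedAt_mem (p : ℕ) (P : ValuationSubring Qbar)
    (hP : P.LiesOverPrime p) (r : GaloisRep.ratLocalizedAt p) :
    algebraMap (GaloisRep.ratLocalizedAt p) Qbar r ∈ P := by
  have hr : (r : ℚ).den.Coprime p := r.2
  have hvp : P.valuation (p : Qbar) < 1 := hP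
  have hden : P.valuation ((r : ℚ).den : Qbar) = 1 := by
    have hle : P.valuation ((r : ℚ).den : Qbar) ≤ 1 :=
      (P.valuation_le_one_iff _).2 (natCast_mem P _)
    refine le_antisymm hle (not_lt.1 fun hlt => ?_)
    have hb : ((r : ℚ).den : ℤ) * Int.gcdA (r : ℚ).den p + (p : ℤ) * Int.gcdB (r : ℚ).den p = 1 := by
      have := Int.gcd_eq_gcd_ab ((r : ℚ).den : ℤ) (p : ℤ)
      rw [← this]
      have h1 : Int.gcd ((r : ℚ).den : ℤ) (p : ℤ) = 1 := by
        rw [Int.gcd_natCast_natCast]; exact hr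
      rw [h1]; rfl
    have hb' : (((r : ℚ).den : Qbar)) * ((Int.gcdA (r : ℚ).den p : ℤ) : Qbar)
        + (p : Qbar) * ((Int.gcdB (r : ℚ).den p : ℤ) : Qbar) = 1 := by
      exact_mod_cast congrArg (fun z : ℤ => (z : Qbar)) hb
    have h1 : P.valuation (1 : Qbar) < 1 := by
      rw [← hb']
      refine lt_of_le_of_lt (P.valuation.map_add _ _) (max_lt ?_ ?_)
      · rw [map_mul]
        calc P.valuation ((r : ℚ).den : Qbar) * P.valuation ((Int.gcdA (r : ℚ).den p : ℤ) : Qbar)
            ≤ P.valuation ((r : ℚ).den : Qbar) * 1 :=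
              mul_le_mul_right ((P.valuation_le_one_iff _).2 (intCast_mem P _)) _
          _ = _ := mul_one _
          _ < 1 := hlt
      · rw [map_mul]
        calc P.valuation (p : Qbar) * P.valuation ((Int.gcdB (r : ℚ).den p : ℤ) : Qbar)
            ≤ P.valuation (p : Qbar) * 1 :=
              mul_le_mul_right ((P.valuation_le_one_iff _).2 (intCast_mem P _)) _
          _ = _ := mul_one _
          _ < 1 := hvp
    rw [map_one] at h1
    exact lt_irrefl _ h1
  have hnum : P.valuation ((r : ℚ).num : Qbar) ≤ 1 :=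
    (P.valuation_le_one_iff _).2 (intCast_mem P _)
  have hcast : algebraMap (GaloisRep.ratLocalizedAt p) Qbar r
      = ((r : ℚ).num : Qbar) / ((r : ℚ).den : Qbar) := by
    have h1 : algebraMap (GaloisRep.ratLocalizedAt p) Qbar r = algebraMap ℚ Qbar (r : ℚ) := rfl
    rw [h1]
    conv_lhs => rw [← Rat.num_div_den (r : ℚ)]
    rw [map_div₀, map_intCast, map_natCast]
  rw [hcast, ← P.valuation_le_one_iff, map_div₀, hden, div_one]
  exact hnum

/-- **LEMMA D** for a flat Galois module with `9` elements killed by `3`. -/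
theorem lemmaD_flat (M : Type) [AddCommGroup M]
    (act : (Qbar ≃ₐ[ℚ] Qbar) → M → M)
    (hflat : ∃ (H : Type) (_ : CommRing H) (_ : HopfAlgebra (GaloisRep.ratLocalizedAt 3) H),
      Module.Finite (GaloisRep.ratLocalizedAt 3) H ∧
      Module.Flat (GaloisRep.ratLocalizedAt 3) H ∧
      Coalgebra.IsCocomm (GaloisRep.ratLocalizedAt 3) H ∧
      ∃ e : WithConv (H →ₐ[GaloisRep.ratLocalizedAt 3] Qbar) ≃ M,
        (∀ f g : WithConv (H →ₐ[GaloisRep.ratLocalizedAt 3] Qbar), e (f * g) = e f + e g) ∧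
        ∀ (σ : Qbar ≃ₐ[ℚ] Qbar) (f g : WithConv (H →ₐ[GaloisRep.ratLocalizedAt 3] Qbar)),
          (∀ h : H, g h = σ (f h)) → e g = act σ (e f))
    (hcard : Nat.card M = 9) (h3 : ∀ x : M, 3 • x = 0)
    (P : ValuationSubring Qbar) (hP : P.LiesOverPrime 3)
    (s ϖ : Qbar) (hs : s ^ 2 = -3) (hϖ : ϖ ^ 8 = 3) :
    (∀ σ ∈ P.inertiaSubgroupIn ℚ, ∀ x, act σ x = x) ∨
    (∃ x : M, x ≠ 0 ∧ ∀ σ ∈ P.inertiaSubgroupIn ℚ,
      (σ s = s → act σ x = x) ∧ (σ s = -s → act σ x = -x)) ∨
    ((∀ N : AddSubgroup M, (∀ σ ∈ P.inertiaSubgroupIn ℚ, ∀ x ∈ N, act σ x ∈ N) →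
        N = ⊥ ∨ N = ⊤) ∧
      ∃ (n : ℕ) (ι : M → ResidueField P), 0 < n ∧ n ≤ 4 ∧
        (∀ x y, ι (x + y) = ι x + ι y) ∧ Function.Injective ι ∧
        ∀ σ ∈ P.inertiaSubgroupIn ℚ, ∃ h : σ ϖ / ϖ ∈ P,
          ∀ x, ι (act σ x) = res P _ h ^ n * ι x) := by
  classical
  obtain ⟨H, _, _, hfin, -, hcocomm, e, he_add, he_act⟩ := hflat
  have hvp : P.valuation ((3 : ℕ) : Qbar) < 1 := hP
  have three_lt : P.valuation (3 : Qbar) < 1 := by
    have h : ((3 : ℕ) : Qbar) = 3 := by norm_num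
    rw [h] at hvp; exact hvp
  have three_ne : (3 : Qbar) ≠ 0 := by norm_num
  -- the inertia automorphisms
  let S : Set (Qbar ≃+* Qbar) :=
    {σ' | ∃ σ ∈ P.inertiaSubgroupIn ℚ, σ' = (σ : Qbar ≃+* Qbar)}
  have hRA : ∀ r : GaloisRep.ratLocalizedAt 3,
      algebraMap (GaloisRep.ratLocalizedAt 3) Qbar r ∈ P := ratLocalizedAt_mem 3 P hP
  have hS_R : ∀ σ' ∈ S, ∀ r : GaloisRep.ratLocalizedAt 3,
      σ' (algebraMap (GaloisRep.ratLocalizedAt 3) Qbar r)
        = algebraMap (GaloisRep.ratLocalizedAt 3) Qbar r := by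
    rintro σ' ⟨σ, -, rfl⟩ r
    exact σ.commutes (r : ℚ)
  have hS_mem : ∀ σ' ∈ S, ∀ a ∈ P, σ' a ∈ P := by
    rintro σ' ⟨σ, hσ, rfl⟩ a ha
    have h1 := ((Fermat.Agent.Lib.InertiaBridge.mem_inertiaSubgroupIn_iff_forall P σ).1 hσ).1
    exact ((Fermat.Agent.Lib.InertiaBridge.mem_decompositionSubgroup_iff_forall P σ).1 h1 a).2 ha
  have hS_res : ∀ σ' ∈ S, ∀ a ∈ P, P.valuation (σ' a - a) < 1 := by
    rintro σ' ⟨σ, hσ, rfl⟩ a ha
    exact ((Fermat.Agent.Lib.InertiaBridge.mem_inertiaSubgroupIn_iff_forall P σ).1 hσ).2 a ha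
  -- the group of points
  have he1 : e 1 = 0 := by
    have h := he_add 1 1
    rw [mul_one] at h
    exact left_eq_add.1 h
  have he_pow : ∀ (x : WithConv (H →ₐ[GaloisRep.ratLocalizedAt 3] Qbar)) (n : ℕ),
      e (x ^ n) = n • e x := by
    intro x n
    induction n with
    | zero => rw [pow_zero, zero_smul, he1]
    | succ k ih => rw [pow_succ, he_add, ih, succ_nsmul]
  have hpow3 : ∀ x : WithConv (H →ₐ[GaloisRep.ratLocalizedAt 3] Qbar), x ^ 3 = 1 := by
    intro x
    apply e.injective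
    rw [he_pow, h3, he1]
  have hcardG : Nat.card (WithConv (H →ₐ[GaloisRep.ratLocalizedAt 3] Qbar)) = 9 := by
    rw [Nat.card_congr e, hcard]
  have hfinG : Finite (WithConv (H →ₐ[GaloisRep.ratLocalizedAt 3] Qbar)) :=
    Nat.finite_of_card_ne_zero (by rw [hcardG]; norm_num)
  let D : Core P (WithConv (H →ₐ[GaloisRep.ratLocalizedAt 3] Qbar))
      {f : H // counit (R := GaloisRep.ratLocalizedAt 3) f = 0} :=
    hopfCore P S hRA hS_R hS_mem hS_res hpow3 three_lt three_ne
  have hact : ∀ σ ∈ P.inertiaSubgroupIn ℚ,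
      ∀ x : WithConv (H →ₐ[GaloisRep.ratLocalizedAt 3] Qbar),
        e (D.act (σ : Qbar ≃+* Qbar) x) = act σ (e x) := by
    intro σ hσ x
    refine he_act σ x _ fun h => ?_
    exact pointAct_apply (σ : Qbar ≃+* Qbar) (hS_R _ ⟨σ, hσ, rfl⟩) x h
  have unr : ∀ y : Qbar, y ≠ 0 → (∀ σ' ∈ D.S, σ' y = y) →
      ∃ n : ℤ, P.valuation y = P.valuation (3 : Qbar) ^ n := by
    intro y hy hfix
    obtain ⟨k, hk⟩ := Fermat.Agent.R.H6.stmt_UnrFix 3 Nat.prime_three P hP y hy
      (fun σ hσ => hfix (σ : Qbar ≃+* Qbar) ⟨σ, hσ, rfl⟩)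
    refine ⟨k, ?_⟩
    rw [hk]
    norm_num
  rcases D.lemmaD hcardG unr s ϖ hs hϖ with ha | ⟨x, hx1, hx⟩ | ⟨-, hirr, n, ι, hn0, hn4, hadd, hinj, hchar⟩
  · left
    intro σ hσ m
    obtain ⟨x, rfl⟩ := e.surjective m
    rw [← hact σ hσ x, ha _ ⟨σ, hσ, rfl⟩ x]
  · right; left
    refine ⟨e x, fun h0 => hx1 (e.injective (h0.trans he1.symm)), fun σ hσ => ?_⟩
    obtain ⟨h1, h2⟩ := hx (σ : Qbar ≃+* Qbar) ⟨σ, hσ, rfl⟩
    refine ⟨fun hσs => ?_, fun hσs => ?_⟩
    · rw [← hact σ hσ x, h1 hσs]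
    · rw [← hact σ hσ x, h2 hσs, he_pow]
      have h4 := h3 (e x)
      have : (2 : ℕ) • e x + e x = 0 := by rw [← succ_nsmul]; exact h4
      exact eq_neg_of_add_eq_zero_left this
  · right; right
    refine ⟨fun N hN => ?_, n, fun m => ι (e.symm m), hn0, hn4, fun x y => ?_, ?_,
      fun σ hσ => ?_⟩
    · let T : Submonoid (WithConv (H →ₐ[GaloisRep.ratLocalizedAt 3] Qbar)) :=
        { carrier := {x | e x ∈ N}
          one_mem' := by
            show e 1 ∈ N
            rw [he1]; exact N.zero_mem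
          mul_mem' := by
            intro x y hx hy
            show e (x * y) ∈ N
            rw [he_add]; exact N.add_mem hx hy }
      have hT : ∀ σ' ∈ D.S, ∀ x ∈ T, D.act σ' x ∈ T := by
        rintro σ' ⟨σ, hσ, rfl⟩ x hx
        show e (D.act (σ : Qbar ≃+* Qbar) x) ∈ N
        rw [hact σ hσ x]
        exact hN σ hσ _ hx
      rcases hirr T hT with h | h
      · left
        rw [eq_bot_iff]
        intro m hm
        have : e.symm m ∈ T := by
          show e (e.symm m) ∈ N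
          rw [e.apply_symm_apply]; exact hm
        rw [h, Submonoid.mem_bot] at this
        have h5 : m = e 1 := by rw [← this, e.apply_symm_apply]
        rw [h5, he1]
        exact AddSubgroup.mem_bot.2 rfl
      · right
        rw [eq_top_iff]
        intro m _
        have : e.symm m ∈ T := by rw [h]; trivial
        have h5 : e (e.symm m) ∈ N := this
        rw [e.apply_symm_apply] at h5
        exact h5
    · show ι (e.symm (x + y)) = ι (e.symm x) + ι (e.symm y)
      rw [← hadd]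
      congr 1
      apply e.injective
      rw [e.apply_symm_apply, he_add, e.apply_symm_apply, e.apply_symm_apply]
    · intro x y hxy
      exact e.symm.injective (hinj hxy)
    · obtain ⟨h, hx⟩ := hchar (σ : Qbar ≃+* Qbar) ⟨σ, hσ, rfl⟩
      refine ⟨h, fun m => ?_⟩
      have h6 : e.symm (act σ m) = D.act (σ : Qbar ≃+* Qbar) (e.symm m) := by
        apply e.injective
        rw [e.apply_symm_apply, hact σ hσ, e.apply_symm_apply]
      exact (congrArg ι h6).trans (hx (e.symm m))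

end Fermat.Agent.W.LL3.H80
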