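import Mathlib
import Fermat.Agent.W.LL3.TwxDefs
import Fermat.Agent.W.LL3.H65_Loc3EAlg
import Fermat.Agent.W.LL3.H80_LemDFlat

/-!
# LL3, local part: R-TAME in trace form (helper80)

`rtame` : for a two-dimensional `𝔽₃`-representation `U` of `G_ℚ` of flat shape at `3`
(`FlatShape U`, the prelude's `IsFlatAt` at one level) on which an inertia group `I_A` at `3` acts
irreducibly, there is `n ∈ {1, 2, 3}` such that for all `σ ∈ I_A`
`tr U(σ) ≡ ζ ^ n + ζ ^ (3 n)` modulo the maximal ideal of `A`, `ζ = σ π / π`, `π ^ 8 = 3`.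
No determinant hypothesis.  From `lemmaD_flat` (cases (a), (b) and `n = 4` contradict
irreducibility) and helper65's `trace_eq_of_intertwine`.
-/

set_option autoImplicit false

namespace Fermat.Agent.W.LL3.H80

open IsLocalRing

local notation "Qbar" => AlgebraicClosure ℚ

/-- a nonzero vector which every inertia element maps to a multiple of itself contradicts
irreducibility of a plane. -/
theorem line_contra (U : ResidualGaloisRep (ZMod 3)) (A : ValuationSubring Qbar)
    (hirr : ∀ L : Submodule (ZMod 3) U.V,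
      (∀ σ ∈ A.inertiaSubgroupIn ℚ, ∀ x ∈ L, U.ρ σ x ∈ L) → L = ⊥ ∨ L = ⊤)
    (x : U.V) (hx : x ≠ 0)
    (h : ∀ σ ∈ A.inertiaSubgroupIn ℚ, ∃ c : ZMod 3, U.ρ σ x = c • x) : False := by
  have hst : ∀ σ ∈ A.inertiaSubgroupIn ℚ, ∀ y ∈ Submodule.span (ZMod 3) {x},
      U.ρ σ y ∈ Submodule.span (ZMod 3) {x} := by
    intro σ hσ y hy
    obtain ⟨a, rfl⟩ := Submodule.mem_span_singleton.1 hy
    obtain ⟨c, hc⟩ := h σ hσ
    rw [map_smul, hc]
    exact Submodule.smul_mem _ _ (Submodule.smul_mem _ _ (Submodule.mem_span_singleton_self x))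
  rcases hirr _ hst with h0 | h1
  · exact hx ((Submodule.span_singleton_eq_bot).1 h0)
  · have h2 : Module.finrank (ZMod 3) (Submodule.span (ZMod 3) {x}) = 1 :=
      finrank_span_singleton hx
    rw [h1, finrank_top, U.finrank_eq] at h2
    norm_num at h2

theorem card_V (U : ResidualGaloisRep (ZMod 3)) : Nat.card U.V = 9 := by
  have h := Module.natCard_eq_pow_finrank (K := ZMod 3) (V := U.V)
  rw [h, U.finrank_eq, Nat.card_zmod]
  norm_num

theorem three_smul_V (U : ResidualGaloisRep (ZMod 3)) (x : U.V) : 3 • x = 0 := by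
  have h : (3 : ℕ) • x = ((3 : ℕ) : ZMod 3) • x := (Nat.cast_smul_eq_nsmul (ZMod 3) 3 x).symm
  rw [h]
  have : ((3 : ℕ) : ZMod 3) = 0 := by decide
  rw [this, zero_smul]

theorem charP_resField (A : ValuationSubring Qbar) (hA : A.LiesOverPrime 3) :
    CharP (ResidueField A) 3 := by
  have hvp : A.valuation ((3 : ℕ) : Qbar) < 1 := hA
  have h3mem : ((3 : ℕ) : Qbar) ∈ A := natCast_mem A 3
  have h0 : res A ((3 : ℕ) : Qbar) h3mem = 0 := (res_eq_zero_iff A _ h3mem).2 hvp
  unfold res at h0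
  have h1 : (⟨((3 : ℕ) : Qbar), h3mem⟩ : A) = ((3 : ℕ) : A) := Subtype.ext (by push_cast; rfl)
  rw [h1, map_natCast] at h0
  exact (CharP.charP_iff_prime_eq_zero (by norm_num : Nat.Prime 3)).mpr h0

theorem res_intCast (A : ValuationSubring Qbar) (n : ℤ) :
    res A (n : Qbar) (intCast_mem A n) = (n : ResidueField A) := by
  unfold res
  have h1 : (⟨(n : Qbar), intCast_mem A n⟩ : A) = ((n : ℤ) : A) := Subtype.ext (by push_cast; rfl)
  rw [h1, map_intCast]

theorem res_pow' (A : ValuationSubring Qbar) (a : Qbar) (ha : a ∈ A) (n : ℕ) :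
    res A (a ^ n) (pow_mem ha n) = res A a ha ^ n := by
  unfold res
  rw [← map_pow]
  rfl

/-- **R-TAME**, trace form. -/
theorem rtame (U : ResidualGaloisRep (ZMod 3)) (hU : FlatShape U)
    (A : ValuationSubring Qbar) (hA : A.LiesOverPrime 3) (π : Qbar) (hπ : π ^ 8 = 3)
    (hirr : ∀ L : Submodule (ZMod 3) U.V,
      (∀ σ ∈ A.inertiaSubgroupIn ℚ, ∀ x ∈ L, U.ρ σ x ∈ L) → L = ⊥ ∨ L = ⊤) :
    ∃ n : ℕ, (n = 1 ∨ n = 2 ∨ n = 3) ∧ ∀ σ ∈ A.inertiaSubgroupIn ℚ, ∃ t : ℤ,
      LinearMap.trace (ZMod 3) U.V (U.ρ σ) = (t : ZMod 3) ∧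
      A.valuation ((t : Qbar) - ((σ π / π) ^ n + (σ π / π) ^ (3 * n))) < 1 := by
  classical
  have hp3 : Fact (Nat.Prime 3) := ⟨by norm_num⟩
  have hchar : CharP (ResidueField A) 3 := charP_resField A hA
  obtain ⟨s, hs⟩ := IsAlgClosed.exists_pow_nat_eq (-3 : Qbar) (n := 2) (by norm_num)
  have hx0 : ∃ x : U.V, x ≠ 0 := by
    have : Nontrivial U.V :=
      Module.nontrivial_of_finrank_pos (R := ZMod 3) (by rw [U.finrank_eq]; norm_num)
    exact exists_ne 0
  have hD := lemmaD_flat U.V (fun σ x => U.ρ σ x) hU (card_V U) (three_smul_V U) A hA s π hs hπ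
  rcases hD with ha | ⟨x, hx, hb⟩ | ⟨-, n, ι, hn0, hn4, hadd, hinj, hchar'⟩
  · exfalso
    obtain ⟨x, hx⟩ := hx0
    exact line_contra U A hirr x hx fun σ hσ => ⟨1, by rw [one_smul]; exact ha σ hσ x⟩
  · exfalso
    refine line_contra U A hirr x hx fun σ hσ => ?_
    obtain ⟨h1, h2⟩ := hb σ hσ
    have hσs : σ s = s ∨ σ s = -s := by
      have h : (σ s) ^ 2 = s ^ 2 := by rw [← map_pow, hs, map_neg, map_ofNat]
      have h' : (σ s - s) * (σ s + s) = 0 := by linear_combination h
      rcases mul_eq_zero.1 h' with h | h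
      · exact Or.inl (by linear_combination h)
      · exact Or.inr (by linear_combination h)
    rcases hσs with h | h
    · exact ⟨1, by rw [one_smul]; exact h1 h⟩
    · exact ⟨-1, by rw [neg_smul, one_smul]; exact h2 h⟩
  · -- the irreducible case
    have hι0 : ι 0 = 0 := by
      have h := hadd 0 0
      rw [add_zero] at h
      exact left_eq_add.1 h
    have hιneg : ∀ x, ι (-x) = -ι x := by
      intro x
      have h := hadd x (-x)
      rw [add_neg_cancel, hι0] at h
      exact eq_neg_of_add_eq_zero_right h.symm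
    have hζ8 : ∀ σ : Qbar ≃ₐ[ℚ] Qbar, (σ π / π) ^ 8 = 1 := by
      intro σ
      rw [div_pow, ← map_pow, hπ, map_ofNat]
      exact div_self (by norm_num)
    have hn123 : n = 1 ∨ n = 2 ∨ n = 3 := by
      have hn : n = 1 ∨ n = 2 ∨ n = 3 ∨ n = 4 := by omega
      rcases hn with h | h | h | h
      · exact Or.inl h
      · exact Or.inr (Or.inl h)
      · exact Or.inr (Or.inr h)
      · exfalso
        subst h
        obtain ⟨x, hx⟩ := hx0
        refine line_contra U A hirr x hx fun σ hσ => ?_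
        obtain ⟨hm, hact⟩ := hchar' σ hσ
        have h4 : (σ π / π) ^ 4 = 1 ∨ (σ π / π) ^ 4 = -1 := by
          have h' : ((σ π / π) ^ 4 - 1) * ((σ π / π) ^ 4 + 1) = 0 := by
            linear_combination hζ8 σ
          rcases mul_eq_zero.1 h' with h | h
          · exact Or.inl (by linear_combination h)
          · exact Or.inr (by linear_combination h)
        have hpow : res A (σ π / π) hm ^ 4 = res A ((σ π / π) ^ 4) (pow_mem hm 4) :=
          (res_pow' A _ hm 4).symm
        rcases h4 with h | h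
        · refine ⟨1, ?_⟩
          rw [one_smul]
          apply hinj
          show ι (U.ρ σ x) = ι x
          rw [hact x, hpow, res_eq_of_eq A h _ A.one_mem, res_one', one_mul]
        · refine ⟨-1, ?_⟩
          rw [neg_smul, one_smul]
          apply hinj
          show ι (U.ρ σ x) = ι (-x)
          rw [hact x, hpow, res_eq_of_eq A h _ (A.neg_mem _ A.one_mem), res_neg_one', hιneg]
          ring
    refine ⟨n, hn123, fun σ hσ => ?_⟩
    obtain ⟨hm, hact⟩ := hchar' σ hσ
    let _ : Algebra (ZMod 3) (ResidueField A) := ZMod.algebra _ 3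
    let lamAdd : U.V →+ ResidueField A :=
      { toFun := ι
        map_zero' := hι0
        map_add' := hadd }
    let lam : U.V →ₗ[ZMod 3] ResidueField A := AddMonoidHom.toZModLinearMap 3 lamAdd
    have hlam : ∀ x, lam x = ι x := fun _ => rfl
    have hinj' : Function.Injective lam := hinj
    have hT : ∀ x, lam (U.ρ σ x) = res A (σ π / π) hm ^ n * lam x := fun x => hact x
    have htr := H65.trace_eq_of_intertwine U.finrank_eq (U.ρ σ) lam hinj' _ hT
    set tr : ZMod 3 := LinearMap.trace (ZMod 3) U.V (U.ρ σ) with htrdef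
    refine ⟨((ZMod.val tr : ℕ) : ℤ), by simp, ?_⟩
    have mt : (((ZMod.val tr : ℕ) : ℤ) : Qbar) ∈ A := intCast_mem A _
    have mζn : (σ π / π) ^ n ∈ A := pow_mem hm n
    have mζ3n : (σ π / π) ^ (3 * n) ∈ A := pow_mem hm (3 * n)
    have msum : (σ π / π) ^ n + (σ π / π) ^ (3 * n) ∈ A := A.add_mem _ _ mζn mζ3n
    have hsum : res A ((σ π / π) ^ n + (σ π / π) ^ (3 * n)) msum
        = res A (σ π / π) hm ^ n + (res A (σ π / π) hm ^ n) ^ 3 := by
      rw [res_add A _ _ mζn mζ3n, res_pow' A _ hm n, res_pow' A _ hm (3 * n), ← pow_mul,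
        mul_comm n 3]
    have ht : res A ((((ZMod.val tr : ℕ) : ℤ) : Qbar)) mt
        = algebraMap (ZMod 3) (ResidueField A) tr := by
      rw [res_intCast]
      have : tr = (((ZMod.val tr : ℕ) : ℤ) : ZMod 3) := by simp
      conv_rhs => rw [this]
      rw [map_intCast]
    have hmem := A.sub_mem mt msum
    have hdiff : res A ((((ZMod.val tr : ℕ) : ℤ) : Qbar)
        - ((σ π / π) ^ n + (σ π / π) ^ (3 * n))) hmem = 0 := by
      have h1 : res A ((((ZMod.val tr : ℕ) : ℤ) : Qbar)
          - ((σ π / π) ^ n + (σ π / π) ^ (3 * n))) hmem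
          + res A ((σ π / π) ^ n + (σ π / π) ^ (3 * n)) msum
          = res A ((((ZMod.val tr : ℕ) : ℤ) : Qbar)) mt := by
        rw [← res_add A _ _ hmem msum]
        exact res_eq_of_eq A (by ring) _ _
      rw [ht, htr, hsum] at h1
      exact add_eq_right.mp h1
    exact (res_eq_zero_iff A _ hmem).1 hdiff

end Fermat.Agent.W.LL3.H80
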