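import Fermat.Agent.W.LL3.TwxDefs
import Fermat.Agent.W.LL3.H38_WOrd
import Fermat.Agent.W.LL3.H41_FlatSplit
import Fermat.Agent.W.LL3.H16_OrdRes
import Fermat.Agent.W.LL3.H65_SSInertia
import Fermat.Agent.W.LL3.H80_RTame

/-!
# W-CHAIN, gap LL3, package TWX: the LOCAL wiring (helper99)

`W` a semistable integral Weierstrass curve without nonzero inertia-fixed `3`-torsion at `3`
(the clause of the frozen S50), `U` a two-dimensional representation of `G_ℚ` over `ZMod 3` which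
is the twist of `W[3]` by the mod-3 cyclotomic character `ω`:
an isomorphism `e : U.V ≃ W[3]` with `e (U.ρ σ u) = ω(σ) • (σ • e u)`.
Then `U` is neither flat at `3` (`FlatShape`) nor of ordinary shape (`OrdShape`):

* `twxloc_core : … → (FlatShape U ∨ OrdShape U) → False`  (unconditional).

Ingredients (all landed leaves of the package TWX):
* `OrdShape U`: the `ω`-vector of `U` is an inertia-fixed point of `W[3]`;
* `FlatShape U`, `W` multiplicative or good ordinary at `3` (`¬ good ∨ ¬ AllInKer`):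
  W-ORD (`H38.stmt_WORDLine`) gives the line of `W[3]`, FLAT-SPLIT (`H41.stmt_FLATSPLIT`) splits
  `U` on inertia: back to `OrdShape U`;
* `FlatShape U`, `W` good supersingular at `3` (`good ∧ AllInKer`): `W[3]`, hence `U`, is
  irreducible on inertia; R-TAME (LEMMA R in trace form, helper80) gives
  `tr U(σ) = ζ ^ n + ζ ^ (3 n)`, `n ∈ {1, 2, 3}`, `ζ = σ π / π`, `π ^ 8 = 3`, and LOC3-E
  (helper65) gives `tr W[3](σ) = ζ + ζ ^ 3`; for `σ` with `ζ ^ 4 = -1`, `ω(σ) = -1` this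
  contradicts `tr U(σ) = - tr W[3](σ)`.
-/

set_option autoImplicit false

open WeierstrassCurve WeierstrassCurve.Affine

namespace Fermat.Agent.W.LL3.H99

open Fermat.Agent.W.LL3 Fermat.Agent.S58.H99 Fermat.Agent.Tate.T7

local notation "Qb" => AlgebraicClosure ℚ
local notation "GQ" => (AlgebraicClosure ℚ ≃ₐ[ℚ] AlgebraicClosure ℚ)

/-! ### Small facts -/

theorem omega3_mul_self (σ : GQ) : omega3 σ * omega3 σ = 1 := by
  have h : ∀ u : (ZMod 3)ˣ, ((u : ZMod 3)) * (u : ZMod 3) = 1 := by decide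
  exact h _

theorem omega3_natCast_val (σ : GQ) : (((omega3 σ).val : ℕ) : ZMod 3) = omega3 σ :=
  ZMod.natCast_zmod_val _

section twist

variable {W : WeierstrassCurve ℤ} {U : ResidualGaloisRep (ZMod 3)}
  (e : U.V ≃ₗ[ZMod 3] TorsW W 3)
  (he : ∀ (σ : GQ) (u : U.V), e (U.ρ σ u) = omega3 σ • (σ • e u))

include he

theorem smul_e_eq (σ : GQ) (u : U.V) : σ • e u = omega3 σ • e (U.ρ σ u) := by
  rw [he σ u, smul_smul, omega3_mul_self, one_smul]

theorem rho_eq_conj (σ : GQ) :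
    U.ρ σ = e.symm.conj (omega3 σ • torsRho W 3 σ) := by
  apply LinearMap.ext
  intro u
  rw [LinearEquiv.conj_apply_apply, LinearEquiv.symm_symm, LinearMap.smul_apply,
    Point.galoisRepModuleEnd_apply, ← he σ u, LinearEquiv.symm_apply_apply]

theorem trace_rho_eq (σ : GQ) :
    LinearMap.trace (ZMod 3) U.V (U.ρ σ)
      = omega3 σ * Point.galoisTrace ℚ (W.map (Int.castRingHom ℚ)).toAffine 3 σ := by
  rw [rho_eq_conj e he σ, LinearMap.trace_conj', map_smul, smul_eq_mul]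
  rfl

/-- The ordinary shape of `U` contradicts the clause of the frozen S50. -/
theorem ordShape_false (hfix : NoFixed3 W) (h : OrdShape U) : False := by
  obtain ⟨A, hA, x, hx, hxω⟩ := h
  have h1 : ∀ σ ∈ A.inertiaSubgroupIn ℚ, σ • e x = e x := by
    intro σ hσ
    rw [smul_e_eq e he σ x, hxω σ hσ, map_smul, smul_smul, omega3_mul_self, one_smul]
  have h0 := hfix A hA (e x) h1
  exact hx (e.map_eq_zero_iff.mp h0)

/-- The flat shape of `U` when `W` is of ordinary type at `3`. -/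
theorem flat_ord_false (hΔ : W.Δ ≠ 0) (hss : W.IsSemistableModel) (hfix : NoFixed3 W)
    (A : ValuationSubring Qb) (hA : A.LiesOverPrime 3)
    (hcase : ¬ W.IsGoodPrimeFor 3 ∨ ¬ AllInKer W 3 A) (hflat : FlatShape U) : False := by
  obtain ⟨T, hT1, hI, -, hch⟩ := H38.stmt_WORDLine W hΔ hss hfix A hA hcase
  obtain ⟨⟨x1, hx1T⟩, hx1ne, hgen⟩ := finrank_eq_one_iff'.mp hT1
  have hx1 : x1 ≠ 0 := fun h => hx1ne (Subtype.ext h)
  have hgen' : ∀ w ∈ T, ∃ c : ZMod 3, c • x1 = w := by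
    intro w hw
    obtain ⟨c, hc⟩ := hgen ⟨w, hw⟩
    exact ⟨c, congrArg Subtype.val hc⟩
  have hσx1 : ∀ σ ∈ A.inertiaSubgroupIn ℚ, σ • x1 = omega3 σ • x1 := by
    intro σ hσ
    have := hch σ hσ (omega3 σ).val (fun μ hμ => H16.omega3_spec σ μ hμ) x1 hx1T
    rw [omega3_natCast_val] at this
    exact this
  have hx0 : e.symm x1 ≠ 0 := fun h => hx1 (e.symm.map_eq_zero_iff.mp h)
  have hxfix : ∀ σ ∈ A.inertiaSubgroupIn ℚ, U.ρ σ (e.symm x1) = e.symm x1 := by
    intro σ hσ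
    apply e.injective
    rw [he σ, LinearEquiv.apply_symm_apply, hσx1 σ hσ, smul_smul, omega3_mul_self, one_smul]
  have hquot : ∀ σ ∈ A.inertiaSubgroupIn ℚ, ∀ y : U.V, ∃ c : ZMod 3,
      U.ρ σ y - omega3 σ • y = c • e.symm x1 := by
    intro σ hσ y
    obtain ⟨c, hc⟩ := hgen' _ (hI σ hσ (e y))
    refine ⟨omega3 σ * c, ?_⟩
    apply e.injective
    rw [map_sub, he σ, map_smul, map_smul, LinearEquiv.apply_symm_apply, mul_smul, hc,
      smul_sub]
  obtain ⟨z, hz0, hz⟩ := H41.stmt_FLATSPLIT U hflat A hA (e.symm x1) hx0 hxfix hquot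
  exact ordShape_false e he hfix ⟨A, hA, z, hz0, hz⟩

/-- The flat shape of `U` when `W` is of supersingular type at `3`. -/
theorem flat_ss_false (hΔ : W.Δ ≠ 0) (A : ValuationSubring Qb) (hA : A.LiesOverPrime 3)
    (hker : AllInKer W 3 A) (hflat : FlatShape U) : False := by
  obtain ⟨π, hπ⟩ := IsAlgClosed.exists_pow_nat_eq (3 : Qb) (n := 8) (by norm_num)
  obtain ⟨σ₁, hσ₁, hω1, -, hζ⟩ := H65.exists_inertia_neg A hA
  have hζ4 : (σ₁ π / π) ^ 4 = -1 := hζ π hπ
  -- `U` is irreducible on inertia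
  have hirrU : ∀ L : Submodule (ZMod 3) U.V,
      (∀ σ ∈ A.inertiaSubgroupIn ℚ, ∀ x ∈ L, U.ρ σ x ∈ L) → L = ⊥ ∨ L = ⊤ := by
    intro L hL
    have hstab : ∀ σ ∈ A.inertiaSubgroupIn ℚ, ∀ x ∈ L.map e.toLinearMap,
        σ • x ∈ L.map e.toLinearMap := by
      rintro σ hσ _ ⟨u, hu, rfl⟩
      show σ • e u ∈ _
      rw [smul_e_eq e he σ u]
      exact Submodule.smul_mem _ _ ⟨U.ρ σ u, hL σ hσ u hu, rfl⟩
    rcases H65.stmt_SSIrr W hΔ A hA hker (L.map e.toLinearMap) hstab with h | h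
    · left
      rw [eq_bot_iff]
      intro u hu
      have h1 : e u ∈ L.map e.toLinearMap := ⟨u, hu, rfl⟩
      rw [h] at h1
      exact e.map_eq_zero_iff.mp ((Submodule.mem_bot _).mp h1)
    · right
      rw [eq_top_iff]
      intro u _
      have h1 : e u ∈ L.map e.toLinearMap := by rw [h]; trivial
      obtain ⟨u', hu', huu'⟩ := h1
      have h2 : u' = u := e.injective huu'
      rw [← h2]
      exact hu'
  obtain ⟨n, hn, hRt⟩ := H80.rtame U hflat A hA π hπ hirrU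
  obtain ⟨s, hs, hsv⟩ := hRt σ₁ hσ₁
  obtain ⟨t, ht, htv⟩ := H65.stmt_Loc3E_AIK W hΔ A hA hker σ₁ hσ₁ π hπ
  have htrU := trace_rho_eq e he σ₁
  rw [hs, ht, hω1] at htrU
  -- valuations of integers
  have hdvd_of : ∀ m : ℤ, A.valuation (m : Qb) < 1 → (3 : ℤ) ∣ m := by
    intro m hm
    by_contra h
    rw [H65.v_int_eq_one A hA h] at hm
    exact lt_irrefl _ hm
  have hv_of : ∀ m : ℤ, (3 : ℤ) ∣ m → A.valuation (m : Qb) < 1 := by
    rintro m ⟨k, rfl⟩
    have h3 : A.valuation (3 : Qb) < 1 := H65.v_three_lt A hA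
    have e1 : (((3 * k : ℤ)) : Qb) = (k : Qb) * 3 := by push_cast; ring
    rw [e1, map_mul]
    exact mul_lt_one_of_nonneg_of_lt_one_right (H65.v_int_le A k) zero_le h3
  have hz_iff : ∀ m : ℤ, ((m : ZMod 3) = 0) ↔ (3 : ℤ) ∣ m := fun m =>
    ZMod.intCast_zmod_eq_zero_iff_dvd m 3
  -- the unit `ζ + ζ ^ 3`
  set ζ : Qb := σ₁ π / π with hζdef
  have hζ1 : A.valuation ζ = 1 := H65.v_zeta A hπ σ₁
  have hζ8 : ζ ^ 8 = 1 := by
    have : ζ ^ 8 = (ζ ^ 4) ^ 2 := by ring
    rw [this, hζ4]; norm_num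
  have hv2 : A.valuation (2 : Qb) = 1 := H65.v_two A hA
  have hkey : A.valuation (2 * (ζ + ζ ^ 3)) < 1 → False := by
    intro h
    have hid : 2 * (ζ + ζ ^ 3) * (1 - ζ ^ 2) = 2 * 2 * ζ := by
      have : (ζ + ζ ^ 3) * (1 - ζ ^ 2) = ζ * (1 - ζ ^ 4) := by ring
      rw [mul_assoc, this, hζ4]; ring
    have h1 : A.valuation (2 * 2 * ζ) = 1 := by
      rw [map_mul, map_mul, hv2, hζ1, one_mul, one_mul]
    have h2 : A.valuation (1 - ζ ^ 2) ≤ 1 := by
      refine le_trans (Valuation.map_sub _ _ _) (max_le ?_ ?_)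
      · rw [map_one]
      · rw [map_pow, hζ1, one_pow]
    have h3 : A.valuation (2 * (ζ + ζ ^ 3) * (1 - ζ ^ 2)) < 1 := by
      rw [map_mul, mul_comm]
      exact mul_lt_one_of_nonneg_of_lt_one_right h2 zero_le h
    rw [hid, h1] at h3
    exact lt_irrefl _ h3
  have hsub_lt : ∀ a b : Qb, A.valuation a < 1 → A.valuation b < 1 →
      A.valuation (a - b) < 1 := fun a b ha hb =>
    lt_of_le_of_lt (Valuation.map_sub _ _ _) (max_lt ha hb)
  -- the two cases
  have hcase1 : A.valuation ((s : Qb) - (ζ + ζ ^ 3)) < 1 → False := by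
    intro hsv'
    have hst : (3 : ℤ) ∣ s + t := by
      rw [← hz_iff]
      push_cast
      rw [htrU]; ring
    have h1 := hv_of _ hst
    have e1 : 2 * (ζ + ζ ^ 3)
        = (((s + t : ℤ)) : Qb) - ((s : Qb) - (ζ + ζ ^ 3)) - ((t : Qb) - (ζ + ζ ^ 3)) := by
      push_cast; ring
    apply hkey
    rw [e1]
    exact hsub_lt _ _ (hsub_lt _ _ h1 hsv') htv
  rcases hn with rfl | rfl | rfl
  · apply hcase1
    simpa using hsv
  · -- `n = 2`: the trace of `U` vanishes
    have e0 : ζ ^ 2 + ζ ^ (3 * 2) = 0 := by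
      have : ζ ^ 2 + ζ ^ (3 * 2) = ζ ^ 2 * (1 + ζ ^ 4) := by ring
      rw [this, hζ4]; ring
    rw [e0, sub_zero] at hsv
    have hs0 : (s : ZMod 3) = 0 := (hz_iff s).mpr (hdvd_of s hsv)
    have ht0 : (t : ZMod 3) = 0 := by
      rw [hs0] at htrU
      have : (t : ZMod 3) = -(-1 * (t : ZMod 3)) := by ring
      rw [this, ← htrU, neg_zero]
    have htv0 : A.valuation (t : Qb) < 1 := hv_of t ((hz_iff t).mp ht0)
    apply hkey
    have e1 : ζ + ζ ^ 3 = (t : Qb) - ((t : Qb) - (ζ + ζ ^ 3)) := by ring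
    rw [map_mul, hv2, one_mul, e1]
    exact hsub_lt _ _ htv0 htv
  · apply hcase1
    have e3 : ζ ^ 3 + ζ ^ (3 * 3) = ζ + ζ ^ 3 := by
      have : ζ ^ (3 * 3) = ζ ^ 8 * ζ := by ring
      rw [this, hζ8]; ring
    rw [e3] at hsv
    exact hsv

/-- **TWX-LOC, core**: a twist `U` of `W[3]` by the mod-3 cyclotomic character is neither flat
nor of ordinary shape at `3`, when `W` is semistable without inertia-fixed `3`-torsion at `3`. -/
theorem twxloc_core_aux (hΔ : W.Δ ≠ 0) (hss : W.IsSemistableModel) (hfix : NoFixed3 W)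
    (hshape : FlatShape U ∨ OrdShape U) : False := by
  rcases hshape with hflat | hord
  · obtain ⟨A, hA⟩ := Fermat.Agent.Lib.FrobExists.exists_liesOverPrime 3 Nat.prime_three
    by_cases hker : AllInKer W 3 A
    · exact flat_ss_false e he hΔ A hA hker hflat
    · exact flat_ord_false e he hΔ hss hfix A hA (Or.inr hker) hflat
  · exact ordShape_false e he hfix hord

end twist

/-- **TWX-LOC, core** (statement with explicit arguments). -/
theorem twxloc_core (W : WeierstrassCurve ℤ) (hΔ : W.Δ ≠ 0) (hss : W.IsSemistableModel)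
    (hfix : NoFixed3 W) (U : ResidualGaloisRep (ZMod 3)) (e : U.V ≃ₗ[ZMod 3] TorsW W 3)
    (he : ∀ (σ : GQ) (u : U.V), e (U.ρ σ u) = omega3 σ • (σ • e u))
    (hshape : FlatShape U ∨ OrdShape U) : False :=
  twxloc_core_aux e he hΔ hss hfix hshape

/-- **GAL-ISO, trace form over `ZMod 3`** (interface; NOT needed when LOC3-h is used in its
explicit form): a representation with the twisted Frobenius traces is a twist of `W[3]`. -/
def Stmt_GALISOtr : Prop :=
  ∀ W : WeierstrassCurve ℤ, W.Δ ≠ 0 → W.ModRepIsIrreducible 3 →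
    ∀ U : ResidualGaloisRep (ZMod 3), TracesTwist W U →
      ∃ e : U.V ≃ₗ[ZMod 3] TorsW W 3,
        ∀ (σ : GQ) (u : U.V), e (U.ρ σ u) = omega3 σ • (σ • e u)

/-- `Stmt_TWXLOC` (of `TwxDefs.lean`) from the trace form of GAL-ISO. -/
theorem twxloc_of_galIso (hG : Stmt_GALISOtr) : Stmt_TWXLOC := by
  intro W hΔ hss hirr hfix U hU hshape
  obtain ⟨e, he⟩ := hG W hΔ hirr U hU
  exact twxloc_core W hΔ hss hfix U e he hshape

/-- **TWX3 from the explicit form of LOC3-h**: if every occurrence of the twisted system in a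
level `3 * M₀` produces a twist `U` of `W[3]` which is flat or of ordinary shape, the twisted
system does not occur. -/
theorem twx3_of_explicit
    (hG : ∀ W : WeierstrassCurve ℤ, W.Δ ≠ 0 → W.IsSemistableModel → W.ModRepIsIrreducible 3 →
      ∀ M₀ : ℕ, 0 < M₀ → ¬ 3 ∣ M₀ →
        ResSys (twist W.apOfModel) W.IsGoodPrimeFor (3 * M₀) →
        ∃ (U : ResidualGaloisRep (ZMod 3)) (e : U.V ≃ₗ[ZMod 3] TorsW W 3),
          (∀ (σ : GQ) (u : U.V), e (U.ρ σ u) = omega3 σ • (σ • e u)) ∧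
          (FlatShape U ∨ OrdShape U)) :
    Stmt_TWX3 := by
  intro W hΔ hss hirr hfix M₀ hM₀ h3M₀ hres
  obtain ⟨U, e, he, hshape⟩ := hG W hΔ hss hirr M₀ hM₀ h3M₀ hres
  exact twxloc_core W hΔ hss hfix U e he hshape

end Fermat.Agent.W.LL3.H99
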