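import Fermat.Agent.W.LL3.H4_LL3Pre
import Fermat.Agent.W.LL3.H28_Loc3hX
import Fermat.Agent.W.LL3.H99_TwxLoc

/-!
# W-CHAIN, gap LL3: the lowering at 3, UNCONDITIONAL (helper4, assembly)

`stmt_LL3 : Fermat.Agent.W.Chain.Stmt_LL3` — a semistable curve with irreducible mod-3
representation and no inertia-fixed `3`-torsion at `3` which is residually modular at `3` of a
level `M` with `9 ∣ M`, cube-free away from `3`, is residually modular at `3` of a level not
divisible by `9`, cube-free away from `3`.

Packages (all landed, all unconditional):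
* AS2 (`H85.stmt_AS2`): descent `9K → 3K` with the twist by `χ₋₃` kept, for even `K`
  (helper85; leaves by helper56, helper99, helper34, helper72, helper17, helper64);
* AUX2 (`H17.resSys_mul_two`, helper17), NONEIS (`H69.stmt_NONEIS`, helper69);
* TWX3: the twisted system does not occur in a level `3 * M₀`, `3 ∤ M₀`:
  global half `H28.loc3h_torsW` (helper28, with helper16's transports), local half
  `H99.twxloc_core` (helper99; inputs by helper80, helper41, helper38, helper65, helper16,
  helper69).

With `W/Chain/H59_Top.lean` this gives `Stmt_S50 → Stmt_S01` (file `W/Chain/H4_Closed.lean`).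
-/

set_option autoImplicit false

namespace Fermat.Agent.W.LL3

open Fermat.Agent.W.Chain

/-- **TWX3**, unconditional: the twisted system of a semistable curve with irreducible mod-3
representation and no inertia-fixed `3`-torsion at `3` does not occur in a level `3 * M₀`,
`3 ∤ M₀`. -/
theorem stmt_TWX3 : Stmt_TWX3 :=
  H99.twx3_of_explicit fun W hΔ hW hirr M₀ hM₀ h3M₀ hres =>
    H28.loc3h_torsW W hΔ hW hirr M₀ hM₀ h3M₀ hres

/-- **LL3**, unconditional: the lowering at `3`. -/
theorem stmt_LL3 : Stmt_LL3 := ll3_of_twx3 stmt_TWX3

/-- The frozen S50 gives the strong form (level not divisible by `9`). -/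
theorem lt9_of_s50 (h50 : Stmt_S50) : Stmt_LT9 := lt9_of_s50_of_ll3 h50 stmt_LL3

end Fermat.Agent.W.LL3
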