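import Fermat.Agent.W.LL3.TwxDefs

/-!
# W-CHAIN, gap LL3: the descent `9K → 3K` with an auxiliary prime in the level (helper4)

The boundary step of the descent (the extended class has to kill the elements of finite order of
`Γ₀(3K)`) is free when a prime `r ≡ 2 mod 3` divides the level (no elements of order `3`), see
`W/LL3/H56_Ell.lean`.  So the package AS is asked only for EVEN `K`:

* `Stmt_AS2`: `Stmt_AS` for `2 ∣ K`;
* `Stmt_AUX2`: a system that occurs in an odd level `M` occurs in level `M * 2`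
  (landed: `W/LL3/H17_AuxWire.lean`, `H17.resSys_mul_two`).

`ll3_of_AS2 : Stmt_AS2 → Stmt_AUX2 → Stmt_NONEIS → Stmt_TWX3 → Stmt_LL3` and
`ll3_of5 : Stmt_AS2 → Stmt_AUX2 → Stmt_NONEIS → Stmt_LOC3h → Stmt_TWXLOC → Stmt_LL3` are proved
here: the level is first multiplied by `2` if it is odd (this keeps it cube-free away from `3`),
then lowered at `3` through even levels.
-/

set_option autoImplicit false

open WeierstrassCurve WeierstrassCurve.Affine WeierstrassCurve.Affine.Point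
open scoped WeierstrassCurve.Affine
open CuspForm

namespace Fermat.Agent.W.LL3

open Fermat.Agent.W.Chain

/-- **AS2**: the descent from level `9K` to level `3K` (twist kept), for EVEN `K`. -/
def Stmt_AS2 : Prop :=
  ∀ (a : ℕ → ℤ) (G : ℕ → Prop) (K : ℕ), 0 < K → 2 ∣ K → NonEis3 a G →
    ResSys a G (9 * K) → ResSys a G (3 * K) ∨ ResSys (twist a) G (3 * K)

/-- **AUX2**: the prime `2` can be put into an odd level. -/
def Stmt_AUX2 : Prop :=
  ∀ (a : ℕ → ℤ) (G : ℕ → Prop) (M : ℕ), 0 < M → ¬ 2 ∣ M → ResSys a G M → ResSys a G (M * 2)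

theorem as2_of_as (h : Stmt_AS) : Stmt_AS2 := fun a G K hK _ hNE hres => h a G K hK hNE hres

/-- Iterating `Stmt_AS2` through even levels, keeping track of the factor `3`. -/
theorem lower3_of_AS2 (hAS : Stmt_AS2) (a : ℕ → ℤ) (G : ℕ → Prop) (hNE : NonEis3 a G) :
    ∀ M : ℕ, 0 < M → 2 ∣ M → 3 ∣ M → (ResSys a G M ∨ ResSys (twist a) G M) →
      ∃ M₀ : ℕ, 0 < M₀ ∧ ¬ 3 ∣ M₀ ∧ 3 * M₀ ∣ M ∧
        (ResSys a G (3 * M₀) ∨ ResSys (twist a) G (3 * M₀)) := by
  intro M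
  induction M using Nat.strong_induction_on with
  | _ M ih =>
    intro hM h2 h3 h
    obtain ⟨K', rfl⟩ := h3
    have hK' : 0 < K' := by
      rcases Nat.eq_zero_or_pos K' with h0 | h0
      · subst h0; simp at hM
      · exact h0
    by_cases h3K : 3 ∣ K'
    · obtain ⟨K, rfl⟩ := h3K
      have hK : 0 < K := by
        rcases Nat.eq_zero_or_pos K with h0 | h0
        · subst h0; simp at hK'
        · exact h0
      have h2K : 2 ∣ K := by omega
      have h9K : 3 * (3 * K) = 9 * K := by ring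
      rw [h9K] at h
      have hstep : ResSys a G (3 * K) ∨ ResSys (twist a) G (3 * K) := by
        rcases h with h | h
        · exact hAS a G K hK h2K hNE h
        · rcases hAS (twist a) G K hK h2K (nonEis3_twist hNE) h with h' | h'
          · exact Or.inr h'
          · exact Or.inl (resSys_twist_twist h')
      obtain ⟨M₀, hM₀, hn3, hdvd, hres⟩ :=
        ih (3 * K) (by omega) (by omega) (by omega) ⟨K, rfl⟩ hstep
      exact ⟨M₀, hM₀, hn3, hdvd.trans ⟨3, by ring⟩, hres⟩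
    · exact ⟨K', hK', h3K, dvd_rfl, h⟩

/-- Multiplying an odd level by `2` keeps it cube-free away from `3`. -/
theorem cubefree_mul_two {M : ℕ} (h2 : ¬ 2 ∣ M)
    (hcube : ∀ q : ℕ, q.Prime → q ≠ 3 → ¬ q ^ 3 ∣ M) :
    ∀ q : ℕ, q.Prime → q ≠ 3 → ¬ q ^ 3 ∣ M * 2 := by
  intro q hq hq3 hd
  by_cases hq2 : q = 2
  · subst hq2
    apply h2
    have h8 : 2 * 4 ∣ 2 * M := by
      have : (2 : ℕ) ^ 3 = 2 * 4 := by norm_num
      rw [this, Nat.mul_comm M 2] at hd
      exact hd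
    have h4 : 4 ∣ M := (Nat.mul_dvd_mul_iff_left (by norm_num)).1 h8
    exact Dvd.dvd.trans ⟨2, by norm_num⟩ h4
  · have hcop : Nat.Coprime (q ^ 3) 2 := by
      apply Nat.Coprime.pow_left
      exact (Nat.coprime_primes hq Nat.prime_two).2 hq2
    exact hcube q hq hq3 (hcop.dvd_of_dvd_mul_right hd)

/-- **The lowering at 3 from AS2, AUX2, NONEIS and TWX3.** -/
theorem ll3_of_AS2 (hAS : Stmt_AS2) (hAUX : Stmt_AUX2) (hNE : Stmt_NONEIS)
    (hTWX : Stmt_TWX3) : Stmt_LL3 := by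
  intro W hΔ hW h3 M hM h9 hres hcube hfix
  -- an even level `M₁`, cube-free away from `3`, divisible by `9`
  obtain ⟨M₁, hM₁, h2M₁, h9M₁, hres₁, hcube₁⟩ :
      ∃ M₁ : ℕ, 0 < M₁ ∧ 2 ∣ M₁ ∧ 3 ^ 2 ∣ M₁ ∧ ResSys W.apOfModel W.IsGoodPrimeFor M₁ ∧
        ∀ q : ℕ, q.Prime → q ≠ 3 → ¬ q ^ 3 ∣ M₁ := by
    by_cases h2 : 2 ∣ M
    · exact ⟨M, hM, h2, h9, hres, hcube⟩
    · exact ⟨M * 2, by omega, ⟨M, by ring⟩, h9.mul_right 2,
        hAUX W.apOfModel W.IsGoodPrimeFor M hM h2 hres, cubefree_mul_two h2 hcube⟩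
  have h3M : 3 ∣ M₁ := Dvd.dvd.trans ⟨3, by norm_num⟩ h9M₁
  obtain ⟨M₀, hM₀, hn3, hdvd, hres'⟩ :=
    lower3_of_AS2 hAS W.apOfModel W.IsGoodPrimeFor (hNE W hΔ h3) M₁ hM₁ h2M₁ h3M
      (Or.inl hres₁)
  have hn9 : ¬ 3 ^ 2 ∣ 3 * M₀ := by
    intro h
    apply hn3
    have h' : 3 * 3 ∣ 3 * M₀ := by simpa [pow_two] using h
    exact (Nat.mul_dvd_mul_iff_left (by norm_num)).1 h'
  refine ⟨3 * M₀, by omega, ?_, hn9, fun q hq hq3 hdq => hcube₁ q hq hq3 (hdq.trans hdvd)⟩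
  rcases hres' with h | h
  · exact h
  · exact (hTWX W hΔ hW h3 hfix M₀ hM₀ hn3 h).elim

/-- **The lowering at 3 from the five packages.** -/
theorem ll3_of5 (hAS : Stmt_AS2) (hAUX : Stmt_AUX2) (hNE : Stmt_NONEIS) (hG : Stmt_LOC3h)
    (hL : Stmt_TWXLOC) : Stmt_LL3 :=
  ll3_of_AS2 hAS hAUX hNE (twx3_of hG hL)

end Fermat.Agent.W.LL3
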