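import Fermat.Agent.W.LL3.H16_OrdRes
import Fermat.Agent.W.LL3.H16_FlatRes
import Fermat.Agent.Tate.Main
import Fermat.Agent.S59.LL.H77_BridgeRes
import Fermat.Agent.S59.Datum.H78_FlatDesc
import Fermat.Agent.S59.Asm.H71_CardKer

/-!
# W-CHAIN, gap LL3, leaf W-SHAPE (helper16): the shape at `3` of `W[3]` (W-GOOD-FLAT + W-MULT)

For a semistable integral Weierstrass curve `W` with irreducible mod-3 representation, the
representation `V = W[3]` (`residualGaloisRepOf`, over `ZMod 3`)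
* has `FlatShape` if `3` is a good prime of `W` (W-GOOD-FLAT);
* has, for EVERY place `P` over `3`, a nonzero vector on which the inertia group of `P` acts by the
  mod-3 cyclotomic character, if `3` is a bad prime of `W` (W-MULT); in particular `OrdShape V`.

Proof: the landed `Tate.stmt_Tate` (the Tate module is flat at a good `p`, strictly ordinary at a
bad `p`), `S59.LL.H77.bridgeRes` (its residual representation is `W[3] ⊗ k`),
`S59.Datum.H78.stmt_FlatDesc` (flat descent to `W[3]`) and the local transports FLAT-RES, ORD-RES.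
-/

set_option autoImplicit false

open WeierstrassCurve WeierstrassCurve.Affine IsLocalRing

namespace Fermat.Agent.W.LL3.H16

open Fermat.Agent.W.LL3

/-- **W-SHAPE**. -/
def Stmt_WShape : Prop :=
  ∀ (W : WeierstrassCurve ℤ), W.Δ ≠ 0 → W.IsSemistableModel → W.ModRepIsIrreducible 3 →
    ∀ (hcard : Nat.card (Submodule.torsionBy ℤ
        ((W.map (Int.castRingHom ℚ))⁄(AlgebraicClosure ℚ)).Point 3) = 3 ^ 2)
      (hker : GaloisFactorsThroughFiniteLevel
        (WeierstrassCurve.Affine.Point.galoisRepModuleEnd (K := AlgebraicClosure ℚ) ℚ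
          (W.map (Int.castRingHom ℚ)) 3)),
      (W.IsGoodPrimeFor 3 →
        FlatShape ((W.map (Int.castRingHom ℚ)).residualGaloisRepOf 3 hcard hker)) ∧
      (¬ W.IsGoodPrimeFor 3 →
        ∀ P : ValuationSubring (AlgebraicClosure ℚ), P.LiesOverPrime 3 →
          ∃ x : ((W.map (Int.castRingHom ℚ)).residualGaloisRepOf 3 hcard hker).V, x ≠ 0 ∧
            ∀ σ ∈ P.inertiaSubgroupIn ℚ,
              ((W.map (Int.castRingHom ℚ)).residualGaloisRepOf 3 hcard hker).ρ σ x =
                omega3 σ • x)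

theorem stmt_WShape : Stmt_WShape := by
  intro W hΔ hss hirr3 hcard hker
  obtain ⟨𝒪, i1, i2, i3, i4, i5, i6, ρ, hdet, -, -, hflat, hord, hfrob, hirr⟩ :=
    Fermat.Agent.Tate.stmt_Tate 3 (by norm_num) W hΔ hss
  obtain ⟨habs, -⟩ := hirr hirr3
  have hchar : CharP (ResidueField 𝒪) 3 :=
    (CharP.charP_iff_prime_eq_zero Nat.prime_three).2 (by
      have h := (residue_eq_zero_iff ((3 : ℕ) : 𝒪)).2 hdet.1
      rwa [map_natCast] at h)
  let j : ZMod 3 →+* ResidueField 𝒪 := ZMod.castHom (dvd_refl 3) (ResidueField 𝒪)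
  obtain ⟨e⟩ := Fermat.Agent.S59.LL.H77.bridgeRes W hΔ 3 hcard hker j ρ ∅
    (fun ℓ hℓ hℓp _ hgood A hA σ hσ => hfrob ℓ hℓ hℓp hgood A hA σ hσ) habs
  have he : ρ.residual.IsEquiv
      (((W.map (Int.castRingHom ℚ)).residualGaloisRepOf 3 hcard hker).baseChangeAlong j) :=
    ⟨e.symm⟩
  refine ⟨fun hgood => ?_, fun hbad P hP => ?_⟩
  · exact stmt_FlatRes _
      (Fermat.Agent.S59.Datum.H78.stmt_FlatDesc 3 Nat.prime_three (ZMod 3) _ 𝒪 j ρ he
        (hflat hgood))
  · exact ordRes_at 𝒪 ρ _ j he (hord hbad) P hP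

/-- **W-MULT**, in the form `OrdShape`. -/
theorem ordShape_of_bad (W : WeierstrassCurve ℤ) (hΔ : W.Δ ≠ 0) (hss : W.IsSemistableModel)
    (hirr3 : W.ModRepIsIrreducible 3)
    (hcard : Nat.card (Submodule.torsionBy ℤ
        ((W.map (Int.castRingHom ℚ))⁄(AlgebraicClosure ℚ)).Point 3) = 3 ^ 2)
    (hker : GaloisFactorsThroughFiniteLevel
        (WeierstrassCurve.Affine.Point.galoisRepModuleEnd (K := AlgebraicClosure ℚ) ℚ
          (W.map (Int.castRingHom ℚ)) 3))
    (hbad : ¬ W.IsGoodPrimeFor 3) :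
    OrdShape ((W.map (Int.castRingHom ℚ)).residualGaloisRepOf 3 hcard hker) := by
  obtain ⟨P, hP⟩ := Fermat.Agent.Lib.FrobExists.exists_liesOverPrime 3 Nat.prime_three
  obtain ⟨x, hx0, hx⟩ := (stmt_WShape W hΔ hss hirr3 hcard hker).2 hbad P hP
  exact ⟨P, hP, x, hx0, hx⟩

/-- The two standing hypotheses of `residualGaloisRepOf` at `p = 3` (landed CARD-KER). -/
theorem cardKer_three (W : WeierstrassCurve ℤ) (hΔ : W.Δ ≠ 0) :
    Nat.card (Submodule.torsionBy ℤ
      ((W.map (Int.castRingHom ℚ))⁄(AlgebraicClosure ℚ)).Point 3) = 3 ^ 2 ∧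
    GaloisFactorsThroughFiniteLevel
      (WeierstrassCurve.Affine.Point.galoisRepModuleEnd (K := AlgebraicClosure ℚ) ℚ
        (W.map (Int.castRingHom ℚ)) 3) :=
  Fermat.Agent.S59.Asm.H71.stmt_CARDKER 3 W hΔ

end Fermat.Agent.W.LL3.H16
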