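import Mathlib

/-!
# W-CHAIN, gap LL3, leaf AUX (helper17)

For a prime `q ∤ M` the normal closure of `Γ₀(Mq)` in `Γ₀(M)` is `Γ₀(M)`; hence a homomorphism
`φ : Γ₀(M) → A` into an abelian group that vanishes on `Γ₀(Mq)` is zero: restriction
`Hom(Γ₀(M), A) → Hom(Γ₀(Mq), A)` is injective.

Proof.  `φ` kills `T = (1 1; 0 1) ∈ Γ₀(Mq)`.  With `g = (q y; M w)`, `q w - y M = 1`, one has
`g⁻¹ (1 0; t 1) g = (1 - tqy, -ty²; tq², 1 + tqy) ∈ Γ₀(Mq)` for `M ∣ t`, so `φ` kills every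
`(1 0; t 1)`, `M ∣ t` (the target is abelian).  For `γ = (a b; c d) ∈ Γ₀(M)` replace `γ` by `T γ`
if `q ∣ a`; then `q ∤ a`, and there is `k` with `q ∣ c + k M a`, so `(1 0; kM 1) γ ∈ Γ₀(Mq)`.

* `hom_eq_zero_of_vanish_on_Gamma0_mul`: the statement for `φ` vanishing on the elements of
  `Γ₀(M)` that lie in `Γ₀(M * q)`;
* `auxIncl`, `auxRes`, `auxRes_injective`: the same as injectivity of the restriction map;
* `auxRes_ne_zero`: a nonzero `v` restricts to a nonzero vector.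

Mathlib only; nothing landed imports this file.
-/

set_option autoImplicit false

open CongruenceSubgroup Matrix
open scoped MatrixGroups

namespace Fermat.Agent.W.LL3.H17

/-- Membership in `Γ₀(N)` as divisibility of the lower left entry. -/
theorem aux_mem_Gamma0_iff (N : ℕ) (g : SL(2, ℤ)) : g ∈ Gamma0 N ↔ (N : ℤ) ∣ g 1 0 := by
  rw [Gamma0_mem, ZMod.intCast_zmod_eq_zero_iff_dvd]

/-- The matrix `(a b; c d)` of determinant one. -/
def auxMk (a b c d : ℤ) (h : a * d - b * c = 1) : SL(2, ℤ) :=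
  ⟨!![a, b; c, d], by rw [Matrix.det_fin_two_of]; exact h⟩

@[simp] theorem auxMk_00 (a b c d : ℤ) (h : a * d - b * c = 1) : auxMk a b c d h 0 0 = a := rfl
@[simp] theorem auxMk_01 (a b c d : ℤ) (h : a * d - b * c = 1) : auxMk a b c d h 0 1 = b := rfl
@[simp] theorem auxMk_10 (a b c d : ℤ) (h : a * d - b * c = 1) : auxMk a b c d h 1 0 = c := rfl
@[simp] theorem auxMk_11 (a b c d : ℤ) (h : a * d - b * c = 1) : auxMk a b c d h 1 1 = d := rfl

theorem aux_mul_00 (A B : SL(2, ℤ)) : (A * B) 0 0 = A 0 0 * B 0 0 + A 0 1 * B 1 0 := by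
  simp [Matrix.mul_apply, Fin.sum_univ_two]

theorem aux_mul_01 (A B : SL(2, ℤ)) : (A * B) 0 1 = A 0 0 * B 0 1 + A 0 1 * B 1 1 := by
  simp [Matrix.mul_apply, Fin.sum_univ_two]

theorem aux_mul_10 (A B : SL(2, ℤ)) : (A * B) 1 0 = A 1 0 * B 0 0 + A 1 1 * B 1 0 := by
  simp [Matrix.mul_apply, Fin.sum_univ_two]

theorem aux_mul_11 (A B : SL(2, ℤ)) : (A * B) 1 1 = A 1 0 * B 0 1 + A 1 1 * B 1 1 := by
  simp [Matrix.mul_apply, Fin.sum_univ_two]

theorem aux_ext {A B : SL(2, ℤ)} (h00 : A 0 0 = B 0 0) (h01 : A 0 1 = B 0 1)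
    (h10 : A 1 0 = B 1 0) (h11 : A 1 1 = B 1 1) : A = B := by
  ext i j
  fin_cases i <;> fin_cases j
  · exact h00
  · exact h01
  · exact h10
  · exact h11

theorem aux_det (A : SL(2, ℤ)) : A 0 0 * A 1 1 - A 0 1 * A 1 0 = 1 := by
  have := A.2
  rw [Matrix.det_fin_two] at this
  exact this

/-- The translation `T = (1 1; 0 1)`. -/
def auxT : SL(2, ℤ) := auxMk 1 1 0 1 (by norm_num)

/-- The lower unipotent `(1 0; t 1)`. -/
def auxLow (t : ℤ) : SL(2, ℤ) := auxMk 1 0 t 1 (by ring)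

theorem auxT_mem (N : ℕ) : auxT ∈ Gamma0 N := by
  rw [aux_mem_Gamma0_iff]
  show (N : ℤ) ∣ 0
  exact dvd_zero _

theorem auxLow_mem {N : ℕ} {t : ℤ} (h : (N : ℤ) ∣ t) : auxLow t ∈ Gamma0 N := by
  rw [aux_mem_Gamma0_iff]
  exact h

/-- The conjugating element `g = (q y; M w)`. -/
def auxG (q y M w : ℤ) (h : q * w - y * M = 1) : SL(2, ℤ) := auxMk q y M w h

/-- The conjugate `g⁻¹ (1 0; t 1) g = (1 - tqy, -ty²; tq², 1 + tqy)`. -/
def auxH (q y t : ℤ) : SL(2, ℤ) :=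
  auxMk (1 - t * q * y) (-(t * y ^ 2)) (t * q ^ 2) (1 + t * q * y) (by ring)

theorem auxG_mul_auxH (q y M w t : ℤ) (h : q * w - y * M = 1) :
    auxG q y M w h * auxH q y t = auxLow t * auxG q y M w h := by
  refine aux_ext ?_ ?_ ?_ ?_
  · rw [aux_mul_00, aux_mul_00]
    simp only [auxG, auxH, auxLow, auxMk_00, auxMk_01, auxMk_10]
    ring
  · rw [aux_mul_01, aux_mul_01]
    simp only [auxG, auxH, auxLow, auxMk_00, auxMk_01, auxMk_11]
    ring
  · rw [aux_mul_10, aux_mul_10]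
    simp only [auxG, auxH, auxLow, auxMk_00, auxMk_10, auxMk_11]
    linear_combination (t * q) * h
  · rw [aux_mul_11, aux_mul_11]
    simp only [auxG, auxH, auxLow, auxMk_01, auxMk_10, auxMk_11]
    linear_combination (t * y) * h

section Main

variable {M q : ℕ} {A : Type*} [AddCommGroup A]

theorem aux_isCoprime (hq : q.Prime) (hqM : ¬ q ∣ M) : IsCoprime (q : ℤ) (M : ℤ) := by
  rw [Int.isCoprime_iff_gcd_eq_one]
  have : Nat.Coprime q M := (Nat.Prime.coprime_iff_not_dvd hq).2 hqM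
  simpa [Int.gcd_natCast_natCast] using this

theorem aux_mul_dvd (hq : q.Prime) (hqM : ¬ q ∣ M) {n : ℤ} (hM : (M : ℤ) ∣ n)
    (hqn : (q : ℤ) ∣ n) : ((M * q : ℕ) : ℤ) ∣ n := by
  push_cast
  exact (aux_isCoprime hq hqM).symm.mul_dvd hM hqn

/-- `φ` vanishes on the lower unipotents `(1 0; t 1)`, `M ∣ t`. -/
theorem aux_vanish_low (hq : q.Prime) (hqM : ¬ q ∣ M) (φ : Additive (Gamma0 M) →+ A)
    (hφ : ∀ γ : Gamma0 M, (γ : SL(2, ℤ)) ∈ Gamma0 (M * q) → φ (Additive.ofMul γ) = 0)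
    {t : ℤ} (ht : (M : ℤ) ∣ t) :
    φ (Additive.ofMul (⟨auxLow t, auxLow_mem ht⟩ : Gamma0 M)) = 0 := by
  obtain ⟨u, v, huv⟩ := aux_isCoprime hq hqM
  -- `u * q + v * M = 1`: take `w = u`, `y = -v`
  have hdet : (q : ℤ) * u - (-v) * (M : ℤ) = 1 := by linear_combination huv
  have hg : auxG q (-v) M u hdet ∈ Gamma0 M := by
    rw [aux_mem_Gamma0_iff]
    exact dvd_refl _
  have hhq : auxH q (-v) t ∈ Gamma0 (M * q) := by
    rw [aux_mem_Gamma0_iff]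
    show ((M * q : ℕ) : ℤ) ∣ t * (q : ℤ) ^ 2
    refine aux_mul_dvd hq hqM (Dvd.dvd.mul_right ht _) ?_
    exact Dvd.dvd.mul_left (dvd_pow_self _ (by norm_num)) _
  have hh : auxH q (-v) t ∈ Gamma0 M := by
    rw [aux_mem_Gamma0_iff]
    show (M : ℤ) ∣ t * (q : ℤ) ^ 2
    exact Dvd.dvd.mul_right ht _
  have hmul : (⟨auxG q (-v) M u hdet, hg⟩ : Gamma0 M) * ⟨auxH q (-v) t, hh⟩
      = ⟨auxLow t, auxLow_mem ht⟩ * ⟨auxG q (-v) M u hdet, hg⟩ :=
    Subtype.ext (auxG_mul_auxH q (-v) M u t hdet)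
  have h1 := congrArg (fun x : Gamma0 M => φ (Additive.ofMul x)) hmul
  simp only [ofMul_mul, map_add] at h1
  rw [hφ ⟨auxH q (-v) t, hh⟩ hhq, add_zero] at h1
  have h2 : φ (Additive.ofMul (⟨auxLow t, auxLow_mem ht⟩ : Gamma0 M))
      + φ (Additive.ofMul (⟨auxG q (-v) M u hdet, hg⟩ : Gamma0 M))
      = 0 + φ (Additive.ofMul (⟨auxG q (-v) M u hdet, hg⟩ : Gamma0 M)) := by
    rw [zero_add]; exact h1.symm
  exact add_right_cancel h2

/-- The case `q ∤ a`. -/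
theorem aux_vanish_of_not_dvd (hq : q.Prime) (hqM : ¬ q ∣ M) (φ : Additive (Gamma0 M) →+ A)
    (hφ : ∀ γ : Gamma0 M, (γ : SL(2, ℤ)) ∈ Gamma0 (M * q) → φ (Additive.ofMul γ) = 0)
    (γ : Gamma0 M) (ha : ¬ (q : ℤ) ∣ (γ : SL(2, ℤ)) 0 0) : φ (Additive.ofMul γ) = 0 := by
  have hc : (M : ℤ) ∣ (γ : SL(2, ℤ)) 1 0 := (aux_mem_Gamma0_iff M _).1 γ.2
  have hqp : Prime (q : ℤ) := Nat.prime_iff_prime_int.mp hq
  -- `q` is coprime to `M * a`
  have hcop : IsCoprime (q : ℤ) ((M : ℤ) * (γ : SL(2, ℤ)) 0 0) :=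
    IsCoprime.mul_right (aux_isCoprime hq hqM)
      ((Prime.coprime_iff_not_dvd hqp).2 ha)
  obtain ⟨u, v, huv⟩ := hcop
  -- `k = - c * v`
  set c := (γ : SL(2, ℤ)) 1 0 with hcdef
  set a := (γ : SL(2, ℤ)) 0 0 with hadef
  let k : ℤ := -(c * v)
  have ht : (M : ℤ) ∣ k * M := Dvd.intro_left _ rfl
  let Lk : Gamma0 M := ⟨auxLow (k * M), auxLow_mem ht⟩
  have hprod : ((Lk * γ : Gamma0 M) : SL(2, ℤ)) ∈ Gamma0 (M * q) := by
    rw [aux_mem_Gamma0_iff]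
    have h10 : ((Lk * γ : Gamma0 M) : SL(2, ℤ)) 1 0 = k * M * a + c := by
      show (auxLow (k * M) * (γ : SL(2, ℤ))) 1 0 = _
      rw [aux_mul_10]
      simp only [auxLow, auxMk_10, auxMk_11, one_mul]
      rfl
    rw [h10]
    refine aux_mul_dvd hq hqM ?_ ?_
    · exact dvd_add (Dvd.dvd.mul_right ht _) hc
    · refine ⟨c * u, ?_⟩
      show -(c * v) * M * a + c = q * (c * u)
      linear_combination (-c) * huv
  have h0 := hφ (Lk * γ) hprod
  rw [ofMul_mul, map_add, aux_vanish_low hq hqM φ hφ ht, zero_add] at h0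
  exact h0

/-- **AUX**: a homomorphism `Γ₀(M) → A` that vanishes on `Γ₀(M) ∩ Γ₀(M q)`, `q ∤ M` prime,
is zero. -/
theorem hom_eq_zero_of_vanish_on_Gamma0_mul (hq : q.Prime) (hqM : ¬ q ∣ M)
    (φ : Additive (Gamma0 M) →+ A)
    (hφ : ∀ γ : Gamma0 M, (γ : SL(2, ℤ)) ∈ Gamma0 (M * q) → φ (Additive.ofMul γ) = 0) :
    φ = 0 := by
  refine AddMonoidHom.ext fun x => ?_
  obtain ⟨γ, rfl⟩ : ∃ g : Gamma0 M, Additive.ofMul g = x := ⟨Additive.toMul x, rfl⟩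
  show φ (Additive.ofMul γ) = 0
  by_cases ha : (q : ℤ) ∣ (γ : SL(2, ℤ)) 0 0
  · -- replace `γ` by `T γ`
    have hqp : Prime (q : ℤ) := Nat.prime_iff_prime_int.mp hq
    have hc : ¬ (q : ℤ) ∣ (γ : SL(2, ℤ)) 1 0 := by
      intro hc
      have hdet := aux_det (γ : SL(2, ℤ))
      have h1 : (q : ℤ) ∣ 1 := by
        rw [← hdet]
        exact dvd_sub (Dvd.dvd.mul_right ha _) (Dvd.dvd.mul_left hc _)
      exact hqp.not_dvd_one h1
    let Tm : Gamma0 M := ⟨auxT, auxT_mem M⟩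
    have hT : φ (Additive.ofMul Tm) = 0 := hφ Tm (auxT_mem (M * q))
    have ha' : ¬ (q : ℤ) ∣ ((Tm * γ : Gamma0 M) : SL(2, ℤ)) 0 0 := by
      have h00 : ((Tm * γ : Gamma0 M) : SL(2, ℤ)) 0 0
          = (γ : SL(2, ℤ)) 0 0 + (γ : SL(2, ℤ)) 1 0 := by
        show (auxT * (γ : SL(2, ℤ))) 0 0 = _
        rw [aux_mul_00]
        simp only [auxT, auxMk_00, auxMk_01, one_mul]
      rw [h00]
      intro h
      exact hc ((dvd_add_right ha).1 h)
    have h0 := aux_vanish_of_not_dvd hq hqM φ hφ (Tm * γ) ha'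
    rw [ofMul_mul, map_add, hT, zero_add] at h0
    exact h0
  · exact aux_vanish_of_not_dvd hq hqM φ hφ γ ha

end Main

/-! ### Restriction form -/

section Restriction

variable (M q : ℕ)

theorem auxGamma0_le : Gamma0 (M * q) ≤ Gamma0 M := fun g hg => by
  rw [aux_mem_Gamma0_iff] at hg ⊢
  exact Dvd.dvd.trans ⟨(q : ℤ), by push_cast; ring⟩ hg

/-- The inclusion `Γ₀(M q) →* Γ₀(M)`. -/
def auxIncl : Gamma0 (M * q) →* Gamma0 M := Subgroup.inclusion (auxGamma0_le M q)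

@[simp] theorem coe_auxIncl (γ : Gamma0 (M * q)) :
    ((auxIncl M q γ : Gamma0 M) : SL(2, ℤ)) = (γ : SL(2, ℤ)) := rfl

/-- Restriction `Hom(Γ₀(M), A) → Hom(Γ₀(M q), A)`. -/
def auxRes (A : Type*) [AddCommGroup A] :
    (Additive (Gamma0 M) →+ A) →+ (Additive (Gamma0 (M * q)) →+ A) where
  toFun φ := φ.comp (MonoidHom.toAdditive (auxIncl M q))
  map_zero' := rfl
  map_add' _ _ := rfl

@[simp] theorem auxRes_apply {A : Type*} [AddCommGroup A] (φ : Additive (Gamma0 M) →+ A)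
    (γ : Gamma0 (M * q)) :
    auxRes M q A φ (Additive.ofMul γ) = φ (Additive.ofMul (auxIncl M q γ)) := rfl

variable {M q}

/-- **AUX**, restriction form: for `q ∤ M` prime, restriction from `Γ₀(M)` to `Γ₀(M q)` is
injective on homomorphisms into an abelian group. -/
theorem auxRes_injective (hq : q.Prime) (hqM : ¬ q ∣ M) (A : Type*) [AddCommGroup A] :
    Function.Injective (auxRes M q A) := by
  rw [injective_iff_map_eq_zero]
  intro φ h
  refine hom_eq_zero_of_vanish_on_Gamma0_mul hq hqM φ fun γ hγ => ?_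
  have h1 : auxRes M q A φ (Additive.ofMul (⟨(γ : SL(2, ℤ)), hγ⟩ : Gamma0 (M * q))) = 0 := by
    rw [h]; rfl
  rw [auxRes_apply] at h1
  have h2 : auxIncl M q ⟨(γ : SL(2, ℤ)), hγ⟩ = γ := Subtype.ext rfl
  rw [h2] at h1
  exact h1

theorem auxRes_ne_zero (hq : q.Prime) (hqM : ¬ q ∣ M) {A : Type*} [AddCommGroup A]
    {v : Additive (Gamma0 M) →+ A} (hv : v ≠ 0) : auxRes M q A v ≠ 0 := fun h =>
  hv (auxRes_injective hq hqM A (by rw [h, map_zero]))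

/-- The case `q = 2`, `M` odd. -/
theorem auxRes_two_injective (hM : ¬ 2 ∣ M) (A : Type*) [AddCommGroup A] :
    Function.Injective (auxRes M 2 A) :=
  auxRes_injective Nat.prime_two hM A

end Restriction

end Fermat.Agent.W.LL3.H17
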