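import Fermat.Agent.Betti.Defs

/-!
# W-CHAIN, gap LL3, leaf RES (helper34): restriction commutes with the Betti Hecke operators

For `Γ₀(N') ≤ Γ₀(N)` (e.g. `N ∣ N'`) and a prime `p ∤ N'`, `p ∤ N`, the Betti Hecke operator
`T_p` on `Hom(Γ₀(N), A)` and on `Hom(Γ₀(N'), A)` are computed with the SAME representatives
(`Betti.repT p`), so restriction of homomorphisms along `Γ₀(N') → Γ₀(N)` commutes with `T_p`:

* `kap_inc`, `perm_inc` : the cocycle `κ_x(γ)` and the permutation of the representatives of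
  level `N` at an element of `Γ₀(N')` are those of level `N'`;
* `res` : the restriction `Hom(Γ₀(N), A) → Hom(Γ₀(N'), A)` (additive);
* `res_TB` : `res (TB N p φ) = TB N' p (res φ)`;
* `res_TB_of_dvd` : the same for `N ∣ N'`, where `p ∤ N'` alone is needed;
* `res_TB_eigen` : an eigenvector of `T_p` restricts to an eigenvector with the same eigenvalue;
* `res_TB_nine` : the case `Γ₀(9K) ≤ Γ₀(3K)`, `ℓ ∤ 3K` prime (hence `ℓ ∤ 9K`).

Mathlib + the landed Betti package only.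
-/

set_option autoImplicit false

namespace Fermat.Agent.W.LL3.H34

open CongruenceSubgroup Matrix.SpecialLinearGroup
open scoped MatrixGroups
open Fermat.Agent.Betti

variable {N N' : ℕ}

/-- The inclusion `Γ₀(N') → Γ₀(N)`. -/
def inc (h : Gamma0 N' ≤ Gamma0 N) : Gamma0 N' →* Gamma0 N := Subgroup.inclusion h

@[simp] theorem inc_coe (h : Gamma0 N' ≤ Gamma0 N) (γ : Gamma0 N') :
    ((inc h γ : Gamma0 N) : SL(2, ℤ)) = (γ : SL(2, ℤ)) := rfl

theorem inc_injective (h : Gamma0 N' ≤ Gamma0 N) : Function.Injective (inc h) :=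
  Subgroup.inclusion_injective h

theorem incl_inc (h : Gamma0 N' ≤ Gamma0 N) (γ : Gamma0 N') :
    incl N (inc h γ) = incl N' γ := rfl

/-- `Γ₀(N') ≤ Γ₀(N)` for `N ∣ N'`. -/
theorem Gamma0_le_of_dvd (hd : N ∣ N') : Gamma0 N' ≤ Gamma0 N := by
  intro g hg
  exact mem_Gamma0_of_dvd ((Int.natCast_dvd_natCast.mpr hd).trans (dvd_of_mem_Gamma0 hg))

section Cocycle

variable {p : ℕ} [Fact p.Prime] (h : Gamma0 N' ≤ Gamma0 N) (hpN : ¬ p ∣ N) (hpN' : ¬ p ∣ N')

/-- The representatives of `T_p` are permuted in the same way at level `N` and at level `N'`,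
and the cocycle of level `N` at an element of `Γ₀(N')` is the cocycle of level `N'`. -/
theorem perm_kap_inc (γ : Gamma0 N') (x : OnePoint (ZMod p)) :
    (isHeckeFamily_T N' hpN').perm γ x = (isHeckeFamily_T N hpN).perm (inc h γ) x ∧
      inc h ((isHeckeFamily_T N' hpN').kap γ x) = (isHeckeFamily_T N hpN).kap (inc h γ) x := by
  have h1 := (isHeckeFamily_T N' hpN').rep_mul γ x
  rw [← incl_inc h γ, ← incl_inc h ((isHeckeFamily_T N' hpN').kap γ x)] at h1
  exact (isHeckeFamily_T N hpN).unique (incl_injective N) h1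

theorem perm_inc (γ : Gamma0 N') (x : OnePoint (ZMod p)) :
    (isHeckeFamily_T N hpN).perm (inc h γ) x = (isHeckeFamily_T N' hpN').perm γ x :=
  (perm_kap_inc h hpN hpN' γ x).1.symm

theorem kap_inc (γ : Gamma0 N') (x : OnePoint (ZMod p)) :
    (isHeckeFamily_T N hpN).kap (inc h γ) x = inc h ((isHeckeFamily_T N' hpN').kap γ x) :=
  (perm_kap_inc h hpN hpN' γ x).2.symm

end Cocycle

section Res

variable (A : Type*) [AddCommGroup A]

/-- Restriction of homomorphisms `Hom(Γ₀(N), A) → Hom(Γ₀(N'), A)`. -/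
def res (h : Gamma0 N' ≤ Gamma0 N) :
    (Additive (Gamma0 N) →+ A) →+ (Additive (Gamma0 N') →+ A) where
  toFun φ := φ.comp (MonoidHom.toAdditive (inc h))
  map_zero' := rfl
  map_add' _ _ := rfl

variable {A}

@[simp] theorem res_apply (h : Gamma0 N' ≤ Gamma0 N) (φ : Additive (Gamma0 N) →+ A)
    (γ : Gamma0 N') :
    res A h φ (Additive.ofMul γ) = φ (Additive.ofMul (inc h γ)) := rfl

theorem res_eq_comp (h : Gamma0 N' ≤ Gamma0 N) (φ : Additive (Gamma0 N) →+ A) :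
    res A h φ = φ.comp (MonoidHom.toAdditive (inc h)) := rfl

/-- Restriction commutes with post-composition. -/
theorem res_comp (h : Gamma0 N' ≤ Gamma0 N) {B : Type*} [AddCommGroup B] (u : A →+ B)
    (φ : Additive (Gamma0 N) →+ A) : res B h (u.comp φ) = u.comp (res A h φ) := rfl

/-- **RES**: restriction commutes with the Betti Hecke operator `T_p`, `p ∤ N`, `p ∤ N'`. -/
theorem res_TB (h : Gamma0 N' ≤ Gamma0 N) {p : ℕ} (hp : p.Prime) (hpN : ¬ p ∣ N)
    (hpN' : ¬ p ∣ N') (φ : Additive (Gamma0 N) →+ A) :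
    res A h (TB N A hp hpN φ) = TB N' A hp hpN' (res A h φ) := by
  have : Fact p.Prime := ⟨hp⟩
  refine AddMonoidHom.ext fun γ => ?_
  obtain ⟨γ, rfl⟩ : ∃ g : Gamma0 N', Additive.ofMul g = γ := ⟨Additive.toMul γ, rfl⟩
  rw [res_apply, TB_apply_apply, TB_apply_apply]
  refine Finset.sum_congr rfl fun x _ => ?_
  rw [res_apply, kap_inc h hpN hpN' γ x]

/-- **RES** for `N ∣ N'`: only `p ∤ N'` is needed. -/
theorem res_TB_of_dvd (hd : N ∣ N') {p : ℕ} (hp : p.Prime) (hpN' : ¬ p ∣ N')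
    (φ : Additive (Gamma0 N) →+ A) :
    res A (Gamma0_le_of_dvd hd) (TB N A hp (fun hh => hpN' (hh.trans hd)) φ)
      = TB N' A hp hpN' (res A (Gamma0_le_of_dvd hd) φ) :=
  res_TB (Gamma0_le_of_dvd hd) hp _ hpN' φ

/-- An eigenvector of `T_p` at level `N` restricts to an eigenvector (possibly zero) at level
`N'`, with the same eigenvalue (integer multiples). -/
theorem res_TB_eigen (h : Gamma0 N' ≤ Gamma0 N) {p : ℕ} (hp : p.Prime) (hpN : ¬ p ∣ N)
    (hpN' : ¬ p ∣ N') {R : Type*} [Semiring R] [Module R A] (c : R)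
    (φ : Additive (Gamma0 N) →+ A) (hφ : TB N A hp hpN φ = c • φ) :
    TB N' A hp hpN' (res A h φ) = c • res A h φ := by
  rw [← res_TB h hp hpN hpN', hφ]
  rfl

end Res

section Nine

variable (K : ℕ) {A : Type*} [AddCommGroup A]

theorem Gamma0_nine_le_three : Gamma0 (9 * K) ≤ Gamma0 (3 * K) :=
  Gamma0_le_of_dvd ⟨3, by ring⟩

theorem not_dvd_nine_of_not_dvd_three {ℓ : ℕ} (hℓ : ℓ.Prime) (h : ¬ ℓ ∣ 3 * K) :
    ¬ ℓ ∣ 9 * K := by
  intro h9
  have h9' : ℓ ∣ 3 * (3 * K) := by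
    have : 9 * K = 3 * (3 * K) := by ring
    rwa [this] at h9
  rcases (Nat.Prime.dvd_mul hℓ).1 h9' with h3 | h3
  · exact h (Dvd.dvd.mul_right h3 K)
  · exact h h3

/-- **RES**, the case used by AS: `Γ' = Γ₀(9K) ≤ Γ = Γ₀(3K)`, `ℓ ∤ 3K` prime. -/
theorem res_TB_nine {ℓ : ℕ} (hℓ : ℓ.Prime) (hℓK : ¬ ℓ ∣ 3 * K)
    (φ : Additive (Gamma0 (3 * K)) →+ A) :
    res A (Gamma0_nine_le_three K) (TB (3 * K) A hℓ hℓK φ)
      = TB (9 * K) A hℓ (not_dvd_nine_of_not_dvd_three K hℓ hℓK)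
          (res A (Gamma0_nine_le_three K) φ) :=
  res_TB (Gamma0_nine_le_three K) hℓ hℓK _ φ

end Nine

end Fermat.Agent.W.LL3.H34
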