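import Fermat.Agent.S41.H98_Supp
import Fermat.Agent.W.LL3.Defs

/-!
# W-CHAIN, gap LL3, leaf RED (helper99): from eigenforms to Betti classes modulo 3

* `BettiSys a G M` : the system `a` (only the primes `ℓ` with `G ℓ`, `ℓ ∤ M`, `ℓ ≠ 3` matter)
  occurs in `Hom(Γ₀(M), ZMod 3)`, in a nonzero class killing every element with `trace² ≤ 4`
  (parabolic, elliptic, `±1`) — the hypothesis of `Fermat.Agent.S16.Stmt_TorsLift`.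
* `stmt_RED3 : Stmt_RED3` : `ResSys a G M → BettiSys a G M` for `0 < M`.

All the work is in the landed S41 package SUPP (helper98): universal parabolic basis, faithful
integral matrix representation of the Hecke algebra, eigen-character of the eigenform, reduction
of the eigensystem modulo `𝔪` (`exists_eigenvector_mod`), `xOf`.
-/

set_option autoImplicit false

open scoped MatrixGroups
open CongruenceSubgroup Matrix

namespace Fermat.Agent.W.LL3.H99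

open Fermat.Agent.Betti Fermat.Agent.S41 Fermat.Agent.S41.H98 Fermat.Agent.W.LL3 CuspForm

/-- The system `a` occurs in `Hom(Γ₀(M), ZMod 3)`, in a nonzero class which kills the elements
of `trace² ≤ 4`. -/
def BettiSys (a : ℕ → ℤ) (G : ℕ → Prop) (M : ℕ) : Prop :=
  ∃ v : Additive (Gamma0 M) →+ ZMod 3, v ≠ 0 ∧
    (∀ γ : Gamma0 M, ((γ : SL(2, ℤ)) : Matrix (Fin 2) (Fin 2) ℤ).trace ^ 2 ≤ 4 →
      v (Additive.ofMul γ) = 0) ∧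
    ∀ (ℓ : ℕ) (hℓ : ℓ.Prime) (hℓM : ¬ ℓ ∣ M), G ℓ → ℓ ≠ 3 →
      TB M (ZMod 3) hℓ hℓM v = ((a ℓ : ℤ) : ZMod 3) • v

/-- **RED**: a system that occurs in the eigenforms of level `M` modulo a prime over `3` occurs
in the Betti cohomology modulo `3`. -/
def Stmt_RED3 : Prop :=
  ∀ (a : ℕ → ℤ) (G : ℕ → Prop) (M : ℕ), 0 < M → ResSys a G M → BettiSys a G M

/-- **LIFT** (the converse; statement only): a Betti class modulo `3` with the system `a` comes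
from an eigenform. -/
def Stmt_LIFT3 : Prop :=
  ∀ (a : ℕ → ℤ) (G : ℕ → Prop) (M : ℕ), 0 < M → BettiSys a G M → ResSys a G M

theorem stmt_RED3 : Stmt_RED3 := by
  intro a G N hN h
  obtain ⟨f, 𝔪, hf, h𝔪, h3𝔪, hcong⟩ := h
  have : NeZero N := ⟨hN.ne'⟩
  have : Fact (3 : ℕ).Prime := ⟨Nat.prime_three⟩
  obtain ⟨r, b, hb⟩ := Fermat.Agent.Betti.stmt_basis N
  obtain ⟨M, hMinj, hMT, -⟩ := Fermat.Agent.Betti.H76.stmt_matrixRep N (∅ : Set ℕ) r b hb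
  set χ : heckeAlgebra N 2 (∅ : Set ℕ) →+* integralClosure ℤ ℂ :=
    Fermat.Agent.R.H99.eigenChar (∅ : Set ℕ) hf with hχ
  have hχT : ∀ (ℓ : ℕ) (hℓ : ℓ.Prime) (hℓN : ¬ ℓ ∣ N),
      ((χ (heckeAlgebra.T hℓ hℓN (Set.notMem_empty ℓ)) : integralClosure ℤ ℂ) : ℂ)
        = ModularFormClass.qCoeff f ℓ := fun ℓ hℓ hℓN =>
    Fermat.Agent.R.H99.eigenCharC_T (∅ : Set ℕ) hf hℓ hℓN (Set.notMem_empty ℓ)
  obtain ⟨v, hv0, hv⟩ := Fermat.Agent.Betti.H76.stmt_algEig (heckeAlgebra N 2 (∅ : Set ℕ)) r M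
    hMinj ℂ ((algebraMap (integralClosure ℤ ℂ) ℂ).comp χ)
  have hv' : ∀ t, ((M t).map (Int.cast : ℤ → ℂ)).mulVec v
      = ((χ t : integralClosure ℤ ℂ) : ℂ) • v := fun t => hv t
  let ι := {ℓ : ℕ // ℓ.Prime ∧ ¬ ℓ ∣ N ∧ G ℓ ∧ ℓ ≠ 3}
  let t : ι → heckeAlgebra N 2 (∅ : Set ℕ) := fun ℓ =>
    heckeAlgebra.T ℓ.2.1 ℓ.2.2.1 (Set.notMem_empty ℓ.1)
  let c : ι → ℤ := fun ℓ => a ℓ.1
  have hc : ∀ j, χ (t j) - ((c j : ℤ) : integralClosure ℤ ℂ) ∈ 𝔪 := by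
    intro ℓ
    show χ (heckeAlgebra.T ℓ.2.1 ℓ.2.2.1 (Set.notMem_empty ℓ.1))
      - (((a ℓ.1 : ℤ)) : integralClosure ℤ ℂ) ∈ 𝔪
    obtain ⟨a', ha', ha'm⟩ := hcong ℓ.1 ℓ.2.1 ℓ.2.2.2.1 ℓ.2.2.1 ℓ.2.2.2.2
    have : χ (heckeAlgebra.T ℓ.2.1 ℓ.2.2.1 (Set.notMem_empty ℓ.1)) = a' :=
      Subtype.ext (by rw [hχT ℓ.1 ℓ.2.1 ℓ.2.2.1, ha'])
    rw [this]
    exact ha'm
  obtain ⟨w, hw0, hw⟩ := exists_eigenvector_mod M χ v hv0 hv' 𝔪 h𝔪.ne_top h3𝔪 t c hc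
  refine ⟨xOf b w, xOf_ne_zero hb hw0, xOf_cuspidal hb w, ?_⟩
  intro ℓ hℓ hℓN hG hℓ3
  rw [TB_xOf hℓ hℓN (M (heckeAlgebra.T hℓ hℓN (Set.notMem_empty ℓ)))
    (hMT ℓ hℓ hℓN (Set.notMem_empty ℓ)) w]
  have := hw ⟨ℓ, hℓ, hℓN, hG, hℓ3⟩
  rw [show ((M (heckeAlgebra.T hℓ hℓN (Set.notMem_empty ℓ))).map (Int.cast : ℤ → ZMod 3)).mulVec w
    = ((a ℓ : ℤ) : ZMod 3) • w from this, xOf_smul]

end Fermat.Agent.W.LL3.H99
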