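import Fermat.Agent.S41.H20_NewLift
import Fermat.Agent.GTor.H77_TorsLift
import Fermat.Agent.W.LL3.H99_Red

/-!
# W-CHAIN, gap LL3, leaf LIFT (helper99): from Betti classes modulo 3 to eigenforms

* `stmt_LIFT3 : Stmt_LIFT3` : `BettiSys a G M → ResSys a G M` for `0 < M`:
  a nonzero class `v : Γ₀(M) → ZMod 3` killing the elements of `trace² ≤ 4`, with
  `T_ℓ v = a ℓ • v` for the primes `ℓ` with `G ℓ`, `ℓ ∤ M`, `ℓ ≠ 3`, gives a normalized eigenform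
  `f` of level `M` and a maximal ideal `𝔪 ∋ 3` with `a_ℓ(f) ≡ a ℓ mod 𝔪` at these primes.
* `resSys_iff_bettiSys` : the two notions agree.

Route (the one of the landed S41 package NEWLIFT, helper20): TORSLIFT (helper77, helper21,
helper41) lifts `v` to the parabolic lattice `Λ = Hom_par(Γ₀(M), ℤ)`; the Hecke algebra acts
faithfully on `Λ` (`Betti.H76.heckeRho`) and on `S₂(Γ₀(M))`; the Deligne-Serre lifting lemma in the
form `S41.H37.char_exists` gives the eigenvector.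
-/

set_option autoImplicit false

open scoped MatrixGroups
open CongruenceSubgroup ModularCurve.Period CuspForm ModularFormClass

namespace Fermat.Agent.W.LL3.H99

open Fermat.Agent.S41 Fermat.Agent.Betti Fermat.Agent.Betti.H76 Fermat.Agent.S41.H20
open Fermat.Agent.W.LL3

/-- **LIFT**. -/
theorem stmt_LIFT3 : Stmt_LIFT3 := by
  intro a G N hN h
  obtain ⟨y, hy0, hycusp, hyeig⟩ := h
  have hM : NeZero N := ⟨hN.ne'⟩
  obtain ⟨y₁, hy₁par, hy₁red⟩ := Fermat.Agent.GTor.H77.stmt_TorsLift_S16 N 3 y hycusp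
  have hfd : FiniteDimensional ℂ (CuspForm (Gamma0 N) 2) :=
    Fermat.Agent.R.H99.finiteDimensional_cuspForm N
  have hfin : Module.Finite ℤ (ParZ N) := parZ_finite N
  -- the two faithful actions
  let φ : heckeAlgebra N 2 ∅ →+* Module.End ℂ (CuspForm (Gamma0 N) 2) :=
    (heckeAlgebra N 2 ∅).val.toRingHom
  have hφ : Function.Injective φ := Subtype.val_injective
  let ρ := heckeRho N ∅
  have hρ : Function.Injective ρ := heckeRho_injective N ∅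
  -- the class
  let c : ParZ N := ⟨y₁, mem_parabolicHoms_iff.mpr hy₁par⟩
  have hred : (Int.castAddHom (ZMod 3)).comp y₁ = y :=
    AddMonoidHom.ext fun γ => hy₁red (Additive.toMul γ)
  have hc : ∀ d : ParZ N, c ≠ ((3 : ℕ) : ℤ) • d := by
    intro d hcd
    apply hy0
    refine AddMonoidHom.ext fun γ => ?_
    rw [← hred]
    have h1 : y₁ γ = ((3 : ℕ) : ℤ) * (d : Additive (Gamma0 N) →+ ℤ) γ := by
      have := congrArg (fun z : ParZ N => (z : Additive (Gamma0 N) →+ ℤ) γ) hcd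
      simpa using this
    show ((y₁ γ : ℤ) : ZMod 3) = 0
    rw [h1]
    push_cast
    have h3 : ((3 : ℕ) : ZMod 3) = 0 := ZMod.natCast_self 3
    simp only [Nat.cast_ofNat] at h3
    rw [h3, zero_mul]
  have hu : ρ ((1 : heckeAlgebra N 2 ∅) ^ 2 - 1) c = 0 := by
    rw [one_pow, sub_self, map_zero, LinearMap.zero_apply]
  -- the `T_ℓ`
  let ι : Type := {ℓ : ℕ // ℓ.Prime ∧ G ℓ ∧ ¬ ℓ ∣ N ∧ ℓ ≠ 3}
  let t : ι → heckeAlgebra N 2 ∅ := fun i =>
    heckeAlgebra.T i.2.1 i.2.2.2.1 (Set.notMem_empty i.1)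
  let b : ι → ℤ := fun i => a i.1
  have ht : ∀ i, ∃ d : ParZ N, ρ (t i) c - b i • c = ((3 : ℕ) : ℤ) • d := by
    intro i
    apply exists_eq_smul_of_forall_dvd (by norm_num : (3 : ℕ) ≠ 0)
    intro γ
    have h1 : ((ρ (t i) c - b i • c : ParZ N) : Additive (Gamma0 N) →+ ℤ)
        = TB N ℤ i.2.1 i.2.2.2.1 y₁ - b i • y₁ := by
      show ((ρ (t i) c : ParZ N) : Additive (Gamma0 N) →+ ℤ) - b i • y₁ = _
      rw [heckeRho_T N ∅ i.2.1 i.2.2.2.1 (Set.notMem_empty i.1) c]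
    rw [h1, ← ZMod.intCast_zmod_eq_zero_iff_dvd]
    have h2 : (Int.castAddHom (ZMod 3)).comp (TB N ℤ i.2.1 i.2.2.2.1 y₁)
        = ((a i.1 : ℤ) : ZMod 3) • y := by
      rw [castAddHom_comp_TB, hred]
      exact hyeig i.1 i.2.1 i.2.2.2.1 i.2.2.1 i.2.2.2.2
    have h3 := congrArg (fun z : Additive (Gamma0 N) →+ ZMod 3 => z γ) h2
    simp only [AddMonoidHom.comp_apply, Int.coe_castAddHom, AddMonoidHom.smul_apply] at h3
    show (((TB N ℤ i.2.1 i.2.2.2.1 y₁ - b i • y₁) γ : ℤ) : ZMod 3) = 0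
    rw [AddMonoidHom.sub_apply, AddMonoidHom.smul_apply, Int.cast_sub, h3, smul_eq_mul]
    show ((a i.1 : ℤ) : ZMod 3) * y γ - (((a i.1 * y₁ γ : ℤ)) : ZMod 3) = 0
    rw [Int.cast_mul, ← hred]
    show ((a i.1 : ℤ) : ZMod 3) * ((y₁ γ : ℤ) : ZMod 3) - _ = 0
    rw [sub_self]
  obtain ⟨χ, v, 𝔪, hv0, hv, -, hmax, hp𝔪, hcong⟩ :=
    Fermat.Agent.S41.H37.char_exists parZ_torsionFree φ hφ ρ hρ c hc 1 hu t b ht
  have hv' : ∀ T : heckeAlgebra N 2 ∅,
      (T : Module.End ℂ (CuspForm (Gamma0 N) 2)) v = χ T • v := fun T => hv T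
  obtain ⟨hb1, hg⟩ := Fermat.Agent.R.H99.isNormalizedEigenform_of_eigenvector χ v hv0 hv'
  refine ⟨(qCoeff ⇑v 1)⁻¹ • v, 𝔪, hg, hmax, hp𝔪, ?_⟩
  intro ℓ hℓ hG hℓN hℓ3
  obtain ⟨α, hα, hα𝔪⟩ := hcong ⟨ℓ, hℓ, hG, hℓN, hℓ3⟩
  refine ⟨α, ?_, hα𝔪⟩
  rw [hα, qCoeff_normalized_eigenvector χ v hv' hb1 hℓ,
    Fermat.Agent.S49.eigenvalueAt_of_not_dvd χ hℓ hℓN]

/-- The two notions agree: a system occurs in the eigenforms of level `M` modulo a prime over
`3` if and only if it occurs in `Hom(Γ₀(M), ZMod 3)` (cuspidal classes). -/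
theorem resSys_iff_bettiSys (a : ℕ → ℤ) (G : ℕ → Prop) {M : ℕ} (hM : 0 < M) :
    ResSys a G M ↔ BettiSys a G M :=
  ⟨stmt_RED3 a G M hM, stmt_LIFT3 a G M hM⟩

end Fermat.Agent.W.LL3.H99
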