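import Fermat.Agent.W.LL3.H17_Aux
import Fermat.Agent.W.LL3.H34_Res
import Fermat.Agent.W.LL3.H99_Lift

/-!
# W-CHAIN, gap LL3: raising the level by an auxiliary prime (helper17)

Wiring of AUX (`H17_Aux`), RES (`H34_Res`), RED and LIFT (`H99_Red`, `H99_Lift`):

* `res_injective_of_prime`: for a prime `q ∤ M` the restriction `H34.res` from `Γ₀(M)` to
  `Γ₀(M q)` is injective;
* `bettiSys_mul_prime : BettiSys a G M → BettiSys a G (M * q)`;
* `resSys_mul_prime : ResSys a G M → ResSys a G (M * q)` (`0 < M`, `q ∤ M` prime);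
* `resSys_mul_two`: the case `q = 2`, `M` odd;
* `resSys_mul_of_prime_dvd`: the form with an arbitrary level `N = M * q`.

This is route (ii) of BDRY-ELL in `NOTES/plan/W_LL3.md`: an auxiliary prime can be put into the
level before the descent.  Nothing landed imports this file.
-/

set_option autoImplicit false

open CongruenceSubgroup Matrix
open scoped MatrixGroups

namespace Fermat.Agent.W.LL3.H17

open Fermat.Agent.Betti Fermat.Agent.W.LL3

/-- For a prime `q ∤ M`, the restriction of homomorphisms from `Γ₀(M)` to `Γ₀(M q)` (in the form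
of `H34.res`) is injective. -/
theorem res_injective_of_prime {M q : ℕ} (hq : q.Prime) (hqM : ¬ q ∣ M) (A : Type*)
    [AddCommGroup A] (h : Gamma0 (M * q) ≤ Gamma0 M) :
    Function.Injective (H34.res A h) := by
  rw [injective_iff_map_eq_zero]
  intro φ hφ
  refine hom_eq_zero_of_vanish_on_Gamma0_mul hq hqM φ fun γ hγ => ?_
  have h1 : H34.res A h φ (Additive.ofMul (⟨(γ : SL(2, ℤ)), hγ⟩ : Gamma0 (M * q))) = 0 := by
    rw [hφ]; rfl
  rw [H34.res_apply] at h1
  have h2 : H34.inc h ⟨(γ : SL(2, ℤ)), hγ⟩ = γ := Subtype.ext rfl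
  rw [h2] at h1
  exact h1

/-- A Betti class with the system `a` at level `M` restricts to one at level `M q`. -/
theorem bettiSys_mul_prime {a : ℕ → ℤ} {G : ℕ → Prop} {M q : ℕ} (hq : q.Prime)
    (hqM : ¬ q ∣ M) (h : H99.BettiSys a G M) : H99.BettiSys a G (M * q) := by
  obtain ⟨v, hv0, hvc, hve⟩ := h
  have hle : Gamma0 (M * q) ≤ Gamma0 M := H34.Gamma0_le_of_dvd (Dvd.intro q rfl)
  refine ⟨H34.res (ZMod 3) hle v, ?_, ?_, ?_⟩
  · intro h0
    exact hv0 (res_injective_of_prime hq hqM (ZMod 3) hle (by rw [h0, map_zero]))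
  · intro γ hγ
    rw [H34.res_apply]
    exact hvc (H34.inc hle γ) hγ
  · intro ℓ hℓ hℓMq hG hℓ3
    have hℓM : ¬ ℓ ∣ M := fun hh => hℓMq (Dvd.dvd.mul_right hh q)
    exact H34.res_TB_eigen hle hℓ hℓM hℓMq (((a ℓ : ℤ) : ZMod 3)) v (hve ℓ hℓ hℓM hG hℓ3)

/-- **Raising the level by an auxiliary prime**: a system that occurs in level `M` occurs in
level `M q` for every prime `q ∤ M`. -/
theorem resSys_mul_prime {a : ℕ → ℤ} {G : ℕ → Prop} {M q : ℕ} (hM : 0 < M) (hq : q.Prime)
    (hqM : ¬ q ∣ M) (h : ResSys a G M) : ResSys a G (M * q) :=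
  H99.stmt_LIFT3 a G (M * q) (Nat.mul_pos hM hq.pos)
    (bettiSys_mul_prime hq hqM (H99.stmt_RED3 a G M hM h))

/-- The case `q = 2`, `M` odd. -/
theorem resSys_mul_two {a : ℕ → ℤ} {G : ℕ → Prop} {M : ℕ} (hM : 0 < M) (h2 : ¬ 2 ∣ M)
    (h : ResSys a G M) : ResSys a G (M * 2) :=
  resSys_mul_prime hM Nat.prime_two h2 h

/-- The same with the prime on the left. -/
theorem resSys_prime_mul {a : ℕ → ℤ} {G : ℕ → Prop} {M q : ℕ} (hM : 0 < M) (hq : q.Prime)
    (hqM : ¬ q ∣ M) (h : ResSys a G M) : ResSys a G (q * M) := by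
  rw [Nat.mul_comm]
  exact resSys_mul_prime hM hq hqM h

/-- Raising the level by a finite product of distinct primes not dividing the level. -/
theorem resSys_mul_primes {a : ℕ → ℤ} {G : ℕ → Prop} :
    ∀ (L : List ℕ) {M : ℕ}, 0 < M → (∀ q ∈ L, q.Prime) → L.Nodup → (∀ q ∈ L, ¬ q ∣ M) →
      ResSys a G M → ResSys a G (M * L.prod)
  | [], M, _, _, _, _, h => by simpa using h
  | q :: L, M, hM, hp, hnd, hnot, h => by
    have hq : q.Prime := hp q (List.mem_cons_self)
    have hqM : ¬ q ∣ M := hnot q (List.mem_cons_self)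
    have h1 : ResSys a G (M * q) := resSys_mul_prime hM hq hqM h
    have hnd' := List.nodup_cons.1 hnd
    have h2 := resSys_mul_primes L (M := M * q) (Nat.mul_pos hM hq.pos)
      (fun r hr => hp r (List.mem_cons_of_mem _ hr)) hnd'.2
      (fun r hr hdvd => by
        have hr' : r.Prime := hp r (List.mem_cons_of_mem _ hr)
        rcases (Nat.Prime.dvd_mul hr').1 hdvd with h' | h'
        · exact hnot r (List.mem_cons_of_mem _ hr) h'
        · have : r = q := (Nat.prime_dvd_prime_iff_eq hr' hq).1 h'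
          exact hnd'.1 (this ▸ hr)) h1
    have : M * (q :: L).prod = M * q * L.prod := by
      rw [List.prod_cons, Nat.mul_assoc]
    rw [this]
    exact h2

end Fermat.Agent.W.LL3.H17
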