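import Fermat.Agent.Betti.Defs

/-!
# W-CHAIN, gap LL3, leaf RES (helper17)

For `M ∣ N` the group `Γ₀(N)` is a subgroup of `Γ₀(M)`; restriction of homomorphisms
`res : Hom(Γ₀(M), A) → Hom(Γ₀(N), A)` commutes with the Betti Hecke operators `TB · p` for every
prime `p ∤ N` (the same coset representatives `repT p` serve both levels), and with `UB · p` for
every `p ∣ M`.

* `inclLevel h : Γ₀(N) →* Γ₀(M)` and `res h A`;
* `kapT_inclLevel`, `permT_inclLevel`: the cocycle `κ` and the permutation of `T_p` at level `N`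
  are the restrictions of those at level `M`;
* `res_TB : res (TB M p φ) = TB N p (res φ)`;
* `res_UB : res (UB M p φ) = UB N p (res φ)`;
* `res_TB_9K_3K`: the instance `M = 3K`, `N = 9K` used in `Stmt_AS`.

Imports the landed Betti package only; nothing landed imports this file.
-/

set_option autoImplicit false

namespace Fermat.Agent.W.LL3.H17

open CongruenceSubgroup Matrix.SpecialLinearGroup
open scoped MatrixGroups
open Fermat.Agent.Betti

/-- `Γ₀(N) ≤ Γ₀(M)` when `M ∣ N`. -/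
theorem Gamma0_le_of_dvd {M N : ℕ} (h : M ∣ N) : Gamma0 N ≤ Gamma0 M := fun _ hg =>
  mem_Gamma0_of_dvd ((Int.natCast_dvd_natCast.mpr h).trans (dvd_of_mem_Gamma0 hg))

/-- The inclusion `Γ₀(N) →* Γ₀(M)` for `M ∣ N`. -/
def inclLevel {M N : ℕ} (h : M ∣ N) : Gamma0 N →* Gamma0 M :=
  Subgroup.inclusion (Gamma0_le_of_dvd h)

@[simp] theorem coe_inclLevel {M N : ℕ} (h : M ∣ N) (γ : Gamma0 N) :
    ((inclLevel h γ : Gamma0 M) : SL(2, ℤ)) = (γ : SL(2, ℤ)) := rfl

theorem inclLevel_injective {M N : ℕ} (h : M ∣ N) : Function.Injective (inclLevel h) :=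
  Subgroup.inclusion_injective _

@[simp] theorem incl_inclLevel {M N : ℕ} (h : M ∣ N) (γ : Gamma0 N) :
    incl M (inclLevel h γ) = incl N γ := rfl

/-- Restriction of homomorphisms from `Γ₀(M)` to `Γ₀(N)`, `M ∣ N`. -/
def res {M N : ℕ} (h : M ∣ N) (A : Type*) [AddCommGroup A] :
    (Additive (Gamma0 M) →+ A) →+ (Additive (Gamma0 N) →+ A) where
  toFun φ := φ.comp (MonoidHom.toAdditive (inclLevel h))
  map_zero' := rfl
  map_add' _ _ := rfl

@[simp] theorem res_apply {M N : ℕ} (h : M ∣ N) {A : Type*} [AddCommGroup A]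
    (φ : Additive (Gamma0 M) →+ A) (γ : Gamma0 N) :
    res h A φ (Additive.ofMul γ) = φ (Additive.ofMul (inclLevel h γ)) := rfl

/-- Restriction commutes with post-composition. -/
theorem res_comp {M N : ℕ} (h : M ∣ N) {A B : Type*} [AddCommGroup A] [AddCommGroup B]
    (u : A →+ B) (φ : Additive (Gamma0 M) →+ A) :
    res h B (u.comp φ) = u.comp (res h A φ) := rfl

/-- Restriction is transitive. -/
theorem res_res {L M N : ℕ} (h₁ : L ∣ M) (h₂ : M ∣ N) {A : Type*} [AddCommGroup A]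
    (φ : Additive (Gamma0 L) →+ A) :
    res h₂ A (res h₁ A φ) = res (h₁.trans h₂) A φ := rfl

/-! ### Abstract form: two groups with the same family of representatives -/

section Abstract

variable {Γ Γ' G : Type*} [Group Γ] [Group Γ'] [Group G] {e : Γ →* G} {e' : Γ' →* G}
  {ι : Type*} {rep : ι → G}

/-- If `j : Γ' →* Γ` is compatible with the embeddings into `G` and `rep` is a Hecke family for
both groups, then the permutations agree and the cocycle of `Γ` restricts to that of `Γ'`. -/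
theorem perm_kap_of_compat (H : IsHeckeFamily e rep) (H' : IsHeckeFamily e' rep)
    (he : Function.Injective e) (j : Γ' →* Γ) (hj : ∀ γ, e (j γ) = e' γ) (γ : Γ') (i : ι) :
    H'.perm γ i = H.perm (j γ) i ∧ j (H'.kap γ i) = H.kap (j γ) i := by
  have h := H'.rep_mul γ i
  rw [← hj, ← hj] at h
  exact H.unique he h

theorem heckeOp_comp_of_compat [Fintype ι] {A : Type*} [AddCommGroup A]
    (H : IsHeckeFamily e rep) (H' : IsHeckeFamily e' rep)
    (he : Function.Injective e) (he' : Function.Injective e') (j : Γ' →* Γ)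
    (hj : ∀ γ, e (j γ) = e' γ) (φ : Additive Γ →+ A) :
    (H.heckeOp he φ).comp (MonoidHom.toAdditive j)
      = H'.heckeOp he' (φ.comp (MonoidHom.toAdditive j)) := by
  refine AddMonoidHom.ext fun γ => ?_
  obtain ⟨γ, rfl⟩ : ∃ g : Γ', Additive.ofMul g = γ := ⟨Additive.toMul γ, rfl⟩
  show ∑ i, φ (Additive.ofMul (H.kap (j γ) i)) = ∑ i, φ (Additive.ofMul (j (H'.kap γ i)))
  refine Finset.sum_congr rfl fun i _ => ?_
  rw [(perm_kap_of_compat H H' he j hj γ i).2]

end Abstract

/-! ### The operators `T_p`, `p ∤ N` -/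

section T

variable {M N : ℕ} (h : M ∣ N) {p : ℕ}

include h in
theorem not_dvd_of_dvd (hpN : ¬ p ∣ N) : ¬ p ∣ M := fun hpM => hpN (hpM.trans h)

/-- The permutation of the cosets of `T_p` is the same at both levels. -/
theorem permT_inclLevel [Fact p.Prime] (hpN : ¬ p ∣ N) (γ : Gamma0 N) (x : OnePoint (ZMod p)) :
    (isHeckeFamily_T N hpN).perm γ x
      = (isHeckeFamily_T M (not_dvd_of_dvd h hpN)).perm (inclLevel h γ) x :=
  (perm_kap_of_compat (isHeckeFamily_T M (not_dvd_of_dvd h hpN)) (isHeckeFamily_T N hpN)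
    (incl_injective M) (inclLevel h) (incl_inclLevel h) γ x).1

/-- The cocycle of `T_p` at level `N` is the restriction of the cocycle at level `M`. -/
theorem kapT_inclLevel [Fact p.Prime] (hpN : ¬ p ∣ N) (γ : Gamma0 N) (x : OnePoint (ZMod p)) :
    inclLevel h ((isHeckeFamily_T N hpN).kap γ x)
      = (isHeckeFamily_T M (not_dvd_of_dvd h hpN)).kap (inclLevel h γ) x :=
  (perm_kap_of_compat (isHeckeFamily_T M (not_dvd_of_dvd h hpN)) (isHeckeFamily_T N hpN)
    (incl_injective M) (inclLevel h) (incl_inclLevel h) γ x).2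

/-- **RES**: restriction from level `M` to level `N` (`M ∣ N`) commutes with `T_p`, `p ∤ N`. -/
theorem res_TB {A : Type*} [AddCommGroup A] (hp : p.Prime) (hpN : ¬ p ∣ N)
    (φ : Additive (Gamma0 M) →+ A) :
    res h A (TB M A hp (not_dvd_of_dvd h hpN) φ) = TB N A hp hpN (res h A φ) := by
  have : Fact p.Prime := ⟨hp⟩
  exact heckeOp_comp_of_compat (isHeckeFamily_T M (not_dvd_of_dvd h hpN)) (isHeckeFamily_T N hpN)
    (incl_injective M) (incl_injective N) (inclLevel h) (incl_inclLevel h) φ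

/-- The same with an arbitrary proof of `p ∤ M`. -/
theorem res_TB' {A : Type*} [AddCommGroup A] (hp : p.Prime) (hpM : ¬ p ∣ M) (hpN : ¬ p ∣ N)
    (φ : Additive (Gamma0 M) →+ A) :
    res h A (TB M A hp hpM φ) = TB N A hp hpN (res h A φ) :=
  res_TB h hp hpN φ

/-- Pointwise form. -/
theorem TB_apply_inclLevel {A : Type*} [AddCommGroup A] (hp : p.Prime) (hpM : ¬ p ∣ M)
    (hpN : ¬ p ∣ N) (φ : Additive (Gamma0 M) →+ A) (γ : Gamma0 N) :
    TB M A hp hpM φ (Additive.ofMul (inclLevel h γ))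
      = TB N A hp hpN (res h A φ) (Additive.ofMul γ) := by
  rw [← res_TB' h hp hpM hpN φ]
  rfl

/-- An eigenvector restricts to an eigenvector with the same eigenvalue. -/
theorem res_eigen {R : Type*} [Ring R] {A : Type*} [AddCommGroup A] [Module R A]
    (hp : p.Prime) (hpM : ¬ p ∣ M) (hpN : ¬ p ∣ N) (φ : Additive (Gamma0 M) →+ A) (c : R)
    (hφ : TB M A hp hpM φ = c • φ) :
    TB N A hp hpN (res h A φ) = c • res h A φ := by
  rw [← res_TB' h hp hpM hpN φ, hφ]
  rfl

end T

/-! ### The operators `U_p`, `p ∣ M` -/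

section U

variable {M N : ℕ} (h : M ∣ N) {p : ℕ}

/-- Restriction from level `M` to level `N` (`M ∣ N`) commutes with `U_p`, `p ∣ M`. -/
theorem res_UB [NeZero M] [NeZero N] {A : Type*} [AddCommGroup A] (hpM : p ∣ M)
    (φ : Additive (Gamma0 M) →+ A) :
    res h A (UB M A hpM φ) = UB N A (hpM.trans h) (res h A φ) := by
  have : NeZero p := neZero_of_dvd hpM
  exact heckeOp_comp_of_compat (isHeckeFamily_U M hpM) (isHeckeFamily_U N (hpM.trans h))
    (incl_injective M) (incl_injective N) (inclLevel h) (incl_inclLevel h) φ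

end U

/-! ### The instance of `Stmt_AS`: levels `3K` and `9K` -/

section NineK

variable (K : ℕ)

theorem three_mul_dvd_nine_mul : 3 * K ∣ 9 * K := ⟨3, by ring⟩

/-- The inclusion `Γ₀(9K) →* Γ₀(3K)`. -/
def incl93 : Gamma0 (9 * K) →* Gamma0 (3 * K) := inclLevel (three_mul_dvd_nine_mul K)

/-- Restriction `Hom(Γ₀(3K), A) → Hom(Γ₀(9K), A)`. -/
def res93 (A : Type*) [AddCommGroup A] :
    (Additive (Gamma0 (3 * K)) →+ A) →+ (Additive (Gamma0 (9 * K)) →+ A) :=
  res (three_mul_dvd_nine_mul K) A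

theorem not_dvd_nine_mul_iff {p : ℕ} (hp : p.Prime) : ¬ p ∣ 9 * K ↔ ¬ p ∣ 3 * K := by
  constructor
  · exact not_dvd_of_dvd (three_mul_dvd_nine_mul K)
  · intro h3 h9
    have h9' : p ∣ 3 * (3 * K) := by
      have : 3 * (3 * K) = 9 * K := by ring
      rw [this]; exact h9
    rcases (Nat.Prime.dvd_mul hp).1 h9' with h | h
    · exact h3 (Dvd.dvd.mul_right h K)
    · exact h3 h

/-- **RES** for `Stmt_AS`: `res ∘ TB (3K) ℓ = TB (9K) ℓ ∘ res` for every prime `ℓ ∤ 3K`. -/
theorem res_TB_9K_3K {A : Type*} [AddCommGroup A] {ℓ : ℕ} (hℓ : ℓ.Prime) (h3 : ¬ ℓ ∣ 3 * K)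
    (φ : Additive (Gamma0 (3 * K)) →+ A) :
    res93 K A (TB (3 * K) A hℓ h3 φ)
      = TB (9 * K) A hℓ ((not_dvd_nine_mul_iff K hℓ).2 h3) (res93 K A φ) :=
  res_TB' (three_mul_dvd_nine_mul K) hℓ h3 _ φ

end NineK

end Fermat.Agent.W.LL3.H17
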