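import Fermat.Agent.W.LL3.TwxDefs
import Fermat.Agent.S59.Asm.Cond
import Fermat.Agent.S59.LL.H77_BridgeRes
import Fermat.Agent.S58.H99_Odd
import Fermat.Agent.R.H33_TatePiece
import Fermat.Agent.R.H2_PDVRStmt
import Fermat.Agent.R.H99_EigenChar
import Fermat.Agent.R.H86_Defs4
import Fermat.Agent.S33.New.H36_StrictFinal
import Fermat.Agent.S59.NonMin.H7_CondOrdFinal
import Fermat.Agent.S59.Datum.H78_FlatDesc
import Fermat.Agent.S59.Datum.H57_ResEq

/-!
# W-CHAIN, gap LL3, leaf LOC3-h: the GLOBAL wiring (helper28)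

`loc3h_of : Stmt_ORDRES → Stmt_FLATRES → Stmt_LOC3h`.

`W` with irreducible mod-3 representation, `(f, 𝔪)` of level `M = 3 * M₀` (`3 ∤ M₀`) carrying the
TWISTED system `ℓ ↦ χ₋₃(ℓ) a_ℓ(W)`.

* `U := detTwist (W[3])`: the representation `σ ↦ det(ρ₀ σ) • ρ₀ σ` on `W[3]` (`det ρ₀ = ω`, but
  this file never needs that: over `ZMod 3` the determinant twist has the same determinant,
  `d³ = d`, and trace `d · t`; at a Frobenius at `ℓ` this is `ℓ · a_ℓ = χ₋₃(ℓ) a_ℓ`).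
* front end as in `S39/H71_OldNewP.lean` (helper71): eigen-character, `p`-adic DVR (`stmt_PDVR`),
  `ρ` over `𝒪''` (S30), Frobenius density and Carayol over a field give
  `ρ.residual ≅ U ⊗ k`, absolutely irreducible.
* `3`-old (`OccursAtLevel χ M₀`): `stmt_FlatPoint` (S32 over a DVR) + `stmt_FlatDesc` + FLAT-RES.
* `3`-new: `stmt_OrdNewStrict` (S33, strict form) + ORD-RES.

ORD-RES and FLAT-RES are the two local transports (helper16, `W/LL3/H16_*.lean`); they enter as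
hypotheses, so this file does not depend on them.
-/

set_option autoImplicit false
set_option linter.unusedSectionVars false
set_option linter.unusedVariables false
set_option linter.style.haveILetI false
set_option maxHeartbeats 1000000
set_option synthInstance.maxHeartbeats 400000

open Polynomial IsLocalRing CuspForm
open WeierstrassCurve WeierstrassCurve.Affine
open scoped TensorProduct WeierstrassCurve.Affine

namespace Fermat.Agent.W.LL3.H28

open Fermat.Agent.W.LL3 Fermat.Agent.R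

/-- The absolute Galois group of `ℚ`. -/
abbrev GQ28 : Type := AlgebraicClosure ℚ ≃ₐ[ℚ] AlgebraicClosure ℚ

/-! ### The determinant twist -/

section DetTwist

variable {k : Type} [Field k]

/-- The twist of a residual representation by its determinant character. -/
noncomputable def detTwist (r : ResidualGaloisRep k) : ResidualGaloisRep k where
  V := r.V
  finrank_eq := r.finrank_eq
  ρ :=
    { toFun := fun σ => LinearMap.det (r.ρ σ) • r.ρ σ
      map_one' := by rw [map_one, map_one, one_smul]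
      map_mul' := fun σ τ => by
        rw [map_mul, map_mul, smul_mul_smul_comm] }
  factorsThroughFiniteLevel := by
    obtain ⟨L, hL, h1⟩ := r.factorsThroughFiniteLevel
    refine ⟨L, hL, fun σ hσ => ?_⟩
    show LinearMap.det (r.ρ σ) • r.ρ σ = 1
    rw [h1 σ hσ, map_one, one_smul]

theorem trace_smul_end {V : Type} [AddCommGroup V] [Module k V] (c : k) (T : Module.End k V) :
    LinearMap.trace k V (c • T) = c * LinearMap.trace k V T :=
  (map_smul (LinearMap.trace k V) c T).trans (smul_eq_mul _ _)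

theorem det_smul_end {V : Type} [AddCommGroup V] [Module k V] (hV : Module.finrank k V = 2)
    (c : k) (T : Module.End k V) :
    LinearMap.det (c • T) = c ^ 2 * LinearMap.det T := by
  have h := LinearMap.det_smul c T
  rw [hV] at h
  exact h

theorem trace_detTwist (r : ResidualGaloisRep k) (σ : GQ28) :
    LinearMap.trace k (detTwist r).V ((detTwist r).ρ σ) =
      LinearMap.det (r.ρ σ) * LinearMap.trace k r.V (r.ρ σ) :=
  trace_smul_end (V := r.V) (LinearMap.det (r.ρ σ)) (r.ρ σ)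

theorem det_detTwist (r : ResidualGaloisRep k) (σ : GQ28) :
    LinearMap.det ((detTwist r).ρ σ) = LinearMap.det (r.ρ σ) ^ 3 := by
  have h := det_smul_end (V := r.V) r.finrank_eq (LinearMap.det (r.ρ σ)) (r.ρ σ)
  have h' : LinearMap.det (r.ρ σ) ^ 2 * LinearMap.det (r.ρ σ) = LinearMap.det (r.ρ σ) ^ 3 := by
    ring
  exact h.trans h'

theorem det_ne_zero (r : ResidualGaloisRep k) (σ : GQ28) : LinearMap.det (r.ρ σ) ≠ 0 := by
  intro h
  have h1 : LinearMap.det (r.ρ σ) * LinearMap.det (r.ρ σ⁻¹) = 1 := by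
    rw [← map_mul, ← map_mul, mul_inv_cancel, map_one, map_one]
  rw [h, zero_mul] at h1
  exact zero_ne_one h1

/-- The image of the determinant twist spans what the image of `r` spans. -/
theorem span_detTwist (r : ResidualGaloisRep k)
    (h : Submodule.span k (Set.range r.ρ) = ⊤) :
    Submodule.span k (Set.range (detTwist r).ρ) = ⊤ := by
  have hle : Submodule.span k (Set.range r.ρ) ≤
      (Submodule.span k (Set.range (detTwist r).ρ) : Submodule k (Module.End k r.V)) := by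
    rw [Submodule.span_le]
    rintro _ ⟨σ, rfl⟩
    have h1 : r.ρ σ = (LinearMap.det (r.ρ σ))⁻¹ • (LinearMap.det (r.ρ σ) • r.ρ σ) := by
      rw [smul_smul, inv_mul_cancel₀ (det_ne_zero r σ), one_smul]
    rw [SetLike.mem_coe, h1]
    exact Submodule.smul_mem _ _ (Submodule.subset_span ⟨σ, rfl⟩)
  rw [h] at hle
  exact top_le_iff.1 hle

end DetTwist

/-! ### Arithmetic in `ZMod 3` -/

theorem chiNegThree_cast (n : ℕ) :
    ((EisensteinWeightOne.chiNegThree n : ℤ) : ZMod 3) = (n : ZMod 3) := by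
  have h3 : ((n % 3 : ℕ) : ZMod 3) = (n : ZMod 3) := ZMod.natCast_mod n 3
  have hlt : n % 3 < 3 := Nat.mod_lt n (by norm_num)
  rw [← h3]
  unfold EisensteinWeightOne.chiNegThree
  interval_cases hn : n % 3
  · simp
  · simp
  · simp
    decide

theorem zmod3_pow_three (d : ZMod 3) : d ^ 3 = d := by
  revert d
  decide

/-! ### The two local transports, as hypotheses -/

/-- **ORD-RES** (helper16): a strictly ordinary representation whose residual representation is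
`U ⊗ k` gives the ordinary shape of `U`. -/
def Stmt_ORDRES : Prop :=
  ∀ (A : Type) [CommRing A] [IsLocalRing A] (ρ : GaloisRepAdic A)
    (U : ResidualGaloisRep (ZMod 3)) (φ : ZMod 3 →+* ResidueField A),
    ρ.residual.IsEquiv (U.baseChangeAlong φ) → ρ.IsStrictOrdinaryAt 3 → OrdShape U

/-- **FLAT-RES** (helper16): flatness of `U` (as a representation over the field `ZMod 3`) gives
the flat shape. -/
def Stmt_FLATRES : Prop :=
  ∀ U : ResidualGaloisRep (ZMod 3),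
    (GaloisRepAdic.ofResidualGaloisRep U).IsFlatAt 3 → FlatShape U

/-! ### The global wiring -/

/-- **LOC3-h** from the two local transports. -/
theorem loc3h_of (hO : Stmt_ORDRES) (hF : Stmt_FLATRES) : Stmt_LOC3h := by
  intro W hΔ hW hirr M₀ hM₀ h3M₀ hmod
  classical
  have hp : (3 : ℕ).Prime := Nat.prime_three
  have hp2 : (3 : ℕ) ≠ 2 := by norm_num
  haveI : Fact (3 : ℕ).Prime := ⟨hp⟩
  have hM : 0 < 3 * M₀ := by omega
  haveI : NeZero (3 * M₀) := ⟨hM.ne'⟩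
  haveI : NeZero M₀ := ⟨hM₀.ne'⟩
  obtain ⟨f, 𝔪, hf, h𝔪, hp𝔪, hcong⟩ := hmod
  -- the set `S`
  set S : Finset ℕ := (3 * M₀).primeFactors with hS
  have hNS : ∀ q : ℕ, q.Prime → q ∣ 3 * M₀ → q ∈ S := fun q hq hqM =>
    Nat.mem_primeFactors.mpr ⟨hq, hqM, hM.ne'⟩
  have hpS : 3 ∈ S := hNS 3 hp (Dvd.intro M₀ rfl)
  have hNS₀ : ∀ q : ℕ, q.Prime → q ∣ M₀ → q ∈ S := fun q hq hqM =>
    hNS q hq (Dvd.dvd.mul_left hqM 3)
  have hSM : ∀ ℓ : ℕ, ℓ.Prime → ¬ ℓ ∣ 3 * M₀ → ℓ ∉ (↑S : Set ℕ) := fun ℓ hℓ hℓM h =>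
    hℓM (Nat.dvd_of_mem_primeFactors (Finset.mem_coe.1 h))
  -- the eigen-character
  obtain ⟨χg, hχg⟩ := Fermat.Agent.R.H99.stmt_eigenChar (3 * M₀) (↑S : Set ℕ) f hf
  let R : Subring (integralClosure ℤ ℂ) := χg.range
  haveI hfinT : Module.Finite ℤ (CuspForm.heckeAlgebra (3 * M₀) 2 (↑S : Set ℕ)) :=
    Fermat.Agent.S22.result (3 * M₀) 2 _
  haveI hfinR : Module.Finite ℤ R :=
    Module.Finite.of_surjective (χg.rangeRestrict.toIntAlgHom.toLinearMap)
      χg.rangeRestrict_surjective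
  let P : Ideal R := 𝔪.comap R.subtype
  have hsubint : R.subtype.IsIntegral := by
    intro x
    have hx : IsIntegral ℤ x := Algebra.IsIntegral.isIntegral x
    obtain ⟨q, hq, hqx⟩ := hx
    refine ⟨q.map (Int.castRingHom R), hq.map _, ?_⟩
    rw [Polynomial.eval₂_map]
    have : R.subtype.comp (Int.castRingHom R) = algebraMap ℤ (integralClosure ℤ ℂ) :=
      RingHom.ext_int _ _
    rw [this]
    exact hqx
  haveI := h𝔪
  haveI hPmax : P.IsMaximal :=
    Ideal.isMaximal_comap_of_isIntegral_of_isMaximal' R.subtype hsubint 𝔪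
  obtain ⟨𝒪', iCR, iD, iDVR, iAC, iFin, iCZ, ι, hιinj, hιcomap⟩ :=
    Fermat.Agent.R.H2.stmt_PDVR R P
  have hPmem : ∀ r : R, r ∈ P → ι r ∈ maximalIdeal 𝒪' := by
    intro r hr
    have : r ∈ (maximalIdeal 𝒪').comap ι := hιcomap ▸ hr
    exact this
  have hp𝒪' : ((3 : ℕ) : 𝒪') ∈ maximalIdeal 𝒪' := by
    have hpP : ((3 : ℕ) : R) ∈ P := by
      show R.subtype ((3 : ℕ) : R) ∈ 𝔪
      rw [map_natCast]; exact hp𝔪
    have := hPmem _ hpP
    rwa [map_natCast] at this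
  let χ : CuspForm.heckeAlgebra (3 * M₀) 2 (↑S : Set ℕ) →+* 𝒪' := ι.comp χg.rangeRestrict
  -- the Galois representation
  obtain ⟨𝒪'', iCR'', iD'', iDVR'', iAC'', iFin'', iCZ'', iAlg, iMF, iLH, hinj'', ρ, hchar, hunr⟩ :=
    Fermat.Agent.R.H33.stmt_S30 3 (3 * M₀) S hpS hNS 𝒪' hp𝒪' χ
  have hloc : ∀ x : 𝒪', x ∈ maximalIdeal 𝒪' → algebraMap 𝒪' 𝒪'' x ∈ maximalIdeal 𝒪'' := by
    intro x hx
    rw [mem_maximalIdeal, mem_nonunits_iff] at hx ⊢
    exact fun hu => hx (isUnit_of_map_unit (algebraMap 𝒪' 𝒪'') _ hu)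
  have hp𝒪'' : ((3 : ℕ) : 𝒪'') ∈ maximalIdeal 𝒪'' := by
    have := hloc _ hp𝒪'
    rwa [map_natCast] at this
  let χ'' : CuspForm.heckeAlgebra (3 * M₀) 2 (↑S : Set ℕ) →+* 𝒪'' := (algebraMap 𝒪' 𝒪'').comp χ
  have hρ : HasFrobCharpoly χ'' ρ := fun ℓ hℓ hℓN hℓS B hB σ hσ =>
    hchar ℓ hℓ hℓN hℓS B hB σ hσ
  -- the congruence (twisted system)
  have hχW : ∀ (ℓ : ℕ) (hℓ : ℓ.Prime) (hℓM : ¬ ℓ ∣ 3 * M₀) (hℓS : ℓ ∉ (↑S : Set ℕ)),
      W.IsGoodPrimeFor ℓ →
        χ'' (heckeAlgebra.T hℓ hℓM hℓS) -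
          ((EisensteinWeightOne.chiNegThree ℓ * W.apOfModel ℓ : ℤ) : 𝒪'') ∈
            maximalIdeal 𝒪'' := by
    intro ℓ hℓ hℓM hℓS hgood
    have hℓp : ℓ ≠ 3 := fun h => hℓS (Finset.mem_coe.2 (h ▸ hpS))
    obtain ⟨a, ha, ham⟩ := hcong ℓ hℓ hgood hℓM hℓp
    have hae : a = χg (heckeAlgebra.T hℓ hℓM hℓS) :=
      Subtype.ext (ha.trans (hχg ℓ hℓ hℓM hℓS).symm)
    have h1 : χg.rangeRestrict (heckeAlgebra.T hℓ hℓM hℓS) -
        ((EisensteinWeightOne.chiNegThree ℓ * W.apOfModel ℓ : ℤ) : R) ∈ P := by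
      show R.subtype (χg.rangeRestrict (heckeAlgebra.T hℓ hℓM hℓS) -
        ((EisensteinWeightOne.chiNegThree ℓ * W.apOfModel ℓ : ℤ) : R)) ∈ 𝔪
      rw [map_sub, map_intCast]
      rw [hae] at ham
      exact ham
    have h2 := hloc _ (hPmem _ h1)
    rwa [map_sub, map_intCast, map_sub, map_intCast] at h2
  -- the residue field
  have hchar' : CharP (ResidueField 𝒪'') 3 :=
    Fermat.Agent.S58.H99.charP_residueField hp hp𝒪''
  let j : ZMod 3 →+* ResidueField 𝒪'' := ZMod.castHom (dvd_refl 3) (ResidueField 𝒪'')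
  letI : Algebra (ZMod 3) (ResidueField 𝒪'') := j.toAlgebra
  -- `E[3]` and its twist
  have hker := Fermat.Agent.S58.H99.torsW_finiteLevel W hΔ 3
  have hfr := Fermat.Agent.S58.H99.finrank_torsW W hΔ 3
  have hcard₁ : Nat.card (Submodule.torsionBy ℤ
      ((W.map (Int.castRingHom ℚ))⁄(AlgebraicClosure ℚ)).Point 3) = 3 ^ 2 := by
    have : Module.Finite (ZMod 3) (Fermat.Agent.S58.H99.TorsW W 3) :=
      Module.finite_of_finrank_eq_succ hfr
    have h := Module.natCard_eq_pow_finrank (K := ZMod 3)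
      (V := Fermat.Agent.S58.H99.TorsW W 3)
    rw [hfr, Nat.card_zmod] at h
    exact h
  let ρ₀ : ResidualGaloisRep (ZMod 3) := Fermat.Agent.S59.LL.H77.torsRep W 3 hcard₁ hker
  let U : ResidualGaloisRep (ZMod 3) := detTwist ρ₀
  let ρ₁ : ResidualGaloisRep (ResidueField 𝒪'') := U.baseChangeAlong j
  -- trace and determinant of `U` at the Frobenius elements
  have hUfrob : ∀ ℓ : ℕ, ℓ.Prime → ℓ ≠ 3 → W.IsGoodPrimeFor ℓ →
      ∀ B : ValuationSubring (AlgebraicClosure ℚ), B.LiesOverPrime ℓ →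
        ∀ σ : GQ28, B.IsFrobeniusAt σ ℓ →
          LinearMap.trace (ZMod 3) U.V (U.ρ σ) =
            ((EisensteinWeightOne.chiNegThree ℓ * W.apOfModel ℓ : ℤ) : ZMod 3) ∧
          LinearMap.det (U.ρ σ) = (ℓ : ZMod 3) := by
    intro ℓ hℓ hℓ3 hgood B hB σ hσ
    obtain ⟨-, htr, hdet⟩ :=
      Fermat.Agent.Lib.EllFinite.stmt_main W 3 ℓ hℓ hℓ3.symm hgood B hB σ hσ
    have h1 : LinearMap.trace (ZMod 3) ρ₀.V (ρ₀.ρ σ) = ((W.apOfModel ℓ : ℤ) : ZMod 3) := htr
    have h2 : LinearMap.det (ρ₀.ρ σ) = (ℓ : ZMod 3) := hdet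
    refine ⟨?_, ?_⟩
    · rw [trace_detTwist ρ₀ σ, h1, h2, Int.cast_mul, chiNegThree_cast]
    · rw [det_detTwist ρ₀ σ, h2, zmod3_pow_three]
  -- `TracesTwist`
  have hTT : TracesTwist W U := by
    refine ⟨S ∪ W.Δ.natAbs.primeFactors, fun ℓ hℓ hℓS' B hB σ hσ => ?_⟩
    have hℓS : ℓ ∉ S := fun h => hℓS' (Finset.mem_union_left _ h)
    have hℓp : ℓ ≠ 3 := fun h => hℓS (h ▸ hpS)
    have hgood : W.IsGoodPrimeFor ℓ := by
      intro hdvd
      refine hℓS' (Finset.mem_union_right _ (Nat.mem_primeFactors.2 ⟨hℓ, ?_, ?_⟩))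
      · exact Int.natCast_dvd.1 hdvd
      · exact Int.natAbs_ne_zero.2 hΔ
    exact (hUfrob ℓ hℓ hℓp hgood B hB σ hσ).1
  -- equal Frobenius characteristic polynomials
  have hfrob : ∀ ℓ : ℕ, ℓ.Prime → ℓ ∉ S ∪ W.Δ.natAbs.primeFactors →
      ∀ B : ValuationSubring (AlgebraicClosure ℚ), B.LiesOverPrime ℓ →
        ∀ σ : GQ28, B.IsFrobeniusAt σ ℓ →
          LinearMap.charpoly (ρ.residual.ρ σ) = LinearMap.charpoly (ρ₁.ρ σ) := by
    intro ℓ hℓ hℓS' B hB σ hσ
    have hℓS : ℓ ∉ (↑S : Set ℕ) := fun h => hℓS' (Finset.mem_union_left _ (Finset.mem_coe.1 h))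
    have hℓM : ¬ ℓ ∣ 3 * M₀ := fun h => hℓS (Finset.mem_coe.2 (hNS ℓ hℓ h))
    have hℓp : ℓ ≠ 3 := fun h => hℓS (Finset.mem_coe.2 (h ▸ hpS))
    have hgood : W.IsGoodPrimeFor ℓ := by
      intro hdvd
      refine hℓS' (Finset.mem_union_right _ (Nat.mem_primeFactors.2 ⟨hℓ, ?_, ?_⟩))
      · exact Int.natCast_dvd.1 hdvd
      · exact Int.natAbs_ne_zero.2 hΔ
    have hres : residue 𝒪'' (χ'' (heckeAlgebra.T hℓ hℓM hℓS)) =
        j (((EisensteinWeightOne.chiNegThree ℓ * W.apOfModel ℓ : ℤ) : ZMod 3)) := by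
      have h1 := (residue_eq_zero_iff _).2 (hχW ℓ hℓ hℓM hℓS hgood)
      rw [map_sub, sub_eq_zero, map_intCast] at h1
      rw [h1, map_intCast]
    obtain ⟨hUt, hUd⟩ := hUfrob ℓ hℓ hℓp hgood B hB σ hσ
    rw [Fermat.Agent.S59.Asm.charpoly_resid, hρ ℓ hℓ hℓM hℓS B hB σ hσ,
      Fermat.Agent.S59.Asm.charpoly_bcAlong_resid,
      Fermat.Agent.R.H91.charpoly_eq_of_finrank_two U.finrank_eq (U.ρ σ), hUt, hUd]
    simp only [Polynomial.map_add, Polynomial.map_sub, Polynomial.map_mul, Polynomial.map_pow,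
      Polynomial.map_X, Polynomial.map_C, hres, map_natCast, Polynomial.map_natCast]
  have hcp : ∀ g : GQ28, LinearMap.charpoly (ρ.residual.ρ g) = LinearMap.charpoly (ρ₁.ρ g) :=
    Fermat.Agent.S59.Datum.H57.charpoly_eq_of_frob ρ.residual ρ₁ _ hfrob
  have htd : ∀ g : GQ28,
      LinearMap.trace (ResidueField 𝒪'') ρ.residual.V (ρ.residual.ρ g) =
        j (LinearMap.trace (ZMod 3) U.V (U.ρ g)) := by
    intro g
    obtain ⟨h1, -⟩ := Fermat.Agent.R.trace_det_eq_of_charpoly_eq ρ.residual.finrank_eq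
      ρ₁.finrank_eq _ _ (hcp g)
    exact h1.trans (LinearMap.trace_baseChange (U.ρ g) (ResidueField 𝒪''))
  -- absolute irreducibility
  have hspan₀ : Submodule.span (ZMod 3) (Set.range ρ₀.ρ) = ⊤ :=
    Fermat.Agent.S58.H99.span_torsRho W hΔ 3 hp2 hirr
  obtain ⟨g, hg⟩ := Fermat.Agent.S58.H99.exists_gram_ne_zero_of_span U.finrank_eq
    U.ρ (span_detTwist ρ₀ hspan₀)
  have habs : ρ.residual.IsAbsolutelyIrreducible := by
    apply Fermat.Agent.S58.H99.isAbsolutelyIrreducible_of_gram ρ.residual g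
    have hmap : (Matrix.of fun a b =>
          LinearMap.trace (ResidueField 𝒪'') ρ.residual.V (ρ.residual.ρ (g a * g b))) =
        (Matrix.of fun a b =>
          LinearMap.trace (ZMod 3) U.V (U.ρ (g a * g b))).map j := by
      ext a b
      simp only [Matrix.of_apply, Matrix.map_apply]
      exact htd (g a * g b)
    rw [hmap, ← RingHom.mapMatrix_apply, ← RingHom.map_det]
    exact fun h0 => hg ((map_eq_zero _).mp h0)
  -- the equivalence `ρ.residual ≅ U ⊗ k`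
  have hequiv : ρ.residual.IsEquiv (U.baseChangeAlong j) := by
    obtain ⟨E⟩ := Fermat.Agent.S59.Datum.H57.isEquiv_of_charpoly_eq ρ₁ ρ.residual habs
      (fun σ => (hcp σ).symm)
    exact ⟨E.symm⟩
  refine ⟨U, hTT, ?_⟩
  by_cases hocc : OccursAtLevel χ'' M₀
  · -- the `3`-old case: flat
    left
    obtain ⟨χ₀, hχ₀⟩ := hocc
    have hρ₀ : HasFrobCharpoly χ₀ ρ := by
      intro ℓ hℓ hℓM₀ hℓS B hB σ hσ
      have hℓM : ¬ ℓ ∣ 3 * M₀ := fun h => hℓS (Finset.mem_coe.2 (hNS ℓ hℓ h))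
      rw [hχ₀ ℓ hℓ hℓM hℓM₀ hℓS]
      exact hρ ℓ hℓ hℓM hℓS B hB σ hσ
    have hflat : ρ.IsFlatAt 3 :=
      Fermat.Agent.S59.NonMin.H7.stmt_FlatPoint 3 M₀ S 𝒪'' hp hp2 hp𝒪'' h3M₀ hpS hNS₀ χ₀ ρ hρ₀
        habs
    exact hF U (Fermat.Agent.S59.Datum.H78.stmt_FlatDesc 3 hp (ZMod 3) U 𝒪'' j ρ hequiv hflat)
  · -- the `3`-new case: strictly ordinary
    right
    have hMM' : 3 * M₀ = M₀ * 3 := Nat.mul_comm 3 M₀
    have hso : ρ.IsStrictOrdinaryAt 3 :=
      Fermat.Agent.S33.New.H36.stmt_OrdNewStrict 3 (3 * M₀) M₀ S 𝒪'' hp hp2 hp𝒪'' hMM' h3M₀ hNS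
        χ'' ρ hρ habs hocc
    exact hO 𝒪'' ρ U j hequiv hso

end Fermat.Agent.W.LL3.H28
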