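import Fermat.Agent.W.LL3.H28_Loc3h
import Fermat.Agent.W.LL3.H16_OrdRes
import Fermat.Agent.W.LL3.H16_FlatRes

/-!
# W-CHAIN, gap LL3, leaf LOC3-h: CLOSED (helper28 global wiring + helper16 local transports)

`stmt_LOC3h : Stmt_LOC3h`, unconditional: if the twisted system of `W` occurs in level `3 * M₀`
(`3 ∤ M₀`), then `U = W[3] ⊗ det` has the twisted Frobenius traces and is flat at `3` or has an
inertia line with the cyclotomic character.
-/

set_option autoImplicit false

namespace Fermat.Agent.W.LL3.H28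

open Fermat.Agent.W.LL3

/-- **LOC3-h**, unconditional. -/
theorem stmt_LOC3h : Stmt_LOC3h :=
  loc3h_of Fermat.Agent.W.LL3.H16.stmt_OrdRes Fermat.Agent.W.LL3.H16.stmt_FlatRes

end Fermat.Agent.W.LL3.H28
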