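import Fermat.Agent.W.LL3.Defs
import Fermat.Agent.S41.H61_ChebFinal

/-!
# W-CHAIN, gap LL3, leaf NONEIS (helper69)

`stmt_NONEIS : Stmt_NONEIS`, unconditional: for a curve `W` over `ℤ` with `Δ ≠ 0` and irreducible
mod-3 representation, and every modulus `N > 0`, there is a good prime `ℓ ≡ 1 mod N` with
`a_ℓ(W) ≢ ℓ + 1 mod 3`.

Proof: the landed auxiliary-prime statement of the level-raising row,
`S41.H61.stmt_IhD` (Kummer theory + two-sided Frobenius density + the group lemma D-GRP), with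
`p = 3`, `q = 2`, `M = 3 N`, `S = ∅`, gives a good prime `ℓ ≡ 1 mod 3 N` with `a_ℓ ≠ 2` in
`ZMod 3`; as `ℓ + 1 = 2` in `ZMod 3`, this is the claim.

Also the two variants that the boundary leaves (BDRY) use:
* `exists_prime_modEq_one_apOfModel_ne` : the same prime with the side conditions spelled out
  (`ℓ ∉ S`, `ℓ ≡ 1 mod 3 N`, `(a_ℓ : ZMod 3) ≠ 2`);
* `nonEis3_twist_of_irreducible` : `NonEis3` for the twisted system.
-/

set_option autoImplicit false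

open WeierstrassCurve WeierstrassCurve.Affine WeierstrassCurve.Affine.Point

namespace Fermat.Agent.W.LL3.H69

open Fermat.Agent.W.LL3

/-- The curve over `ℚ` of an integral model with `Δ ≠ 0` is elliptic. -/
theorem isElliptic_map_of_disc_ne_zero (W : WeierstrassCurve ℤ) (hΔ : W.Δ ≠ 0) :
    (W.map (Int.castRingHom ℚ)).IsElliptic := by
  refine ⟨?_⟩
  rw [WeierstrassCurve.map_Δ]
  exact isUnit_iff_ne_zero.mpr (by simpa using hΔ)

/-- **Auxiliary primes, explicit form**: for every modulus `N > 0` and every finite set `S` there is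
a good prime `ℓ ∉ S`, `ℓ ≡ 1 mod 3 N`, with `a_ℓ(W) ≠ 2` in `ZMod 3`. -/
theorem exists_prime_modEq_one_apOfModel_ne (W : WeierstrassCurve ℤ) (hΔ : W.Δ ≠ 0)
    (hirr : W.ModRepIsIrreducible 3) (N : ℕ) (hN : 0 < N) (S : Finset ℕ) :
    ∃ ℓ : ℕ, ℓ.Prime ∧ ℓ ∉ S ∧ W.IsGoodPrimeFor ℓ ∧ ℓ ≡ 1 [MOD 3 * N] ∧
      ((W.apOfModel ℓ : ℤ) : ZMod 3) ≠ 2 := by
  have : (W.map (Int.castRingHom ℚ)).IsElliptic := isElliptic_map_of_disc_ne_zero W hΔ
  obtain ⟨ℓ, hℓ, hS, hgood, hmod, -, ha⟩ :=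
    Fermat.Agent.S41.H61.stmt_IhD (W.map (Int.castRingHom ℚ)) W ⟨1, one_smul _ _⟩ 3 2
      Nat.prime_three (by norm_num) Nat.prime_two (by norm_num) hirr (3 * N)
      (Nat.mul_pos (by norm_num) hN) (dvd_mul_right 3 N) S
  exact ⟨ℓ, hℓ, hS, hgood, hmod, ha⟩

/-- **NONEIS**, unconditional. -/
theorem stmt_NONEIS : Stmt_NONEIS := by
  intro W hΔ hirr N hN
  obtain ⟨ℓ, hℓ, -, hgood, hmod, ha⟩ :=
    exists_prime_modEq_one_apOfModel_ne W hΔ hirr N hN ∅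
  refine ⟨ℓ, hℓ, hgood, hmod.of_mul_left 3, ?_⟩
  intro hdvd
  apply ha
  have h3 : ℓ ≡ 1 [MOD 3] := hmod.of_mul_right N
  have hℓ3 : ((ℓ : ℕ) : ZMod 3) = 1 := by
    have := (ZMod.natCast_eq_natCast_iff ℓ 1 3).mpr h3
    simpa using this
  have h0 : (((W.apOfModel ℓ - ((ℓ : ℤ) + 1) : ℤ)) : ZMod 3) = 0 :=
    (ZMod.intCast_zmod_eq_zero_iff_dvd _ 3).mpr (by exact_mod_cast hdvd)
  have h1 : ((W.apOfModel ℓ : ℤ) : ZMod 3) = ((ℓ : ℕ) : ZMod 3) + 1 := by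
    have h2 : ((W.apOfModel ℓ : ℤ) : ZMod 3) - (((ℓ : ℕ) : ZMod 3) + 1) = 0 := by
      rw [← h0]; push_cast; ring
    exact sub_eq_zero.mp h2
  rw [h1, hℓ3]
  norm_num

/-- `NonEis3` for the system of the curve (the form used by `ll3_of`). -/
theorem nonEis3_of_irreducible (W : WeierstrassCurve ℤ) (hΔ : W.Δ ≠ 0)
    (hirr : W.ModRepIsIrreducible 3) : NonEis3 W.apOfModel W.IsGoodPrimeFor :=
  stmt_NONEIS W hΔ hirr

/-- `NonEis3` for the twisted system. -/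
theorem nonEis3_twist_of_irreducible (W : WeierstrassCurve ℤ) (hΔ : W.Δ ≠ 0)
    (hirr : W.ModRepIsIrreducible 3) : NonEis3 (twist W.apOfModel) W.IsGoodPrimeFor :=
  nonEis3_twist (stmt_NONEIS W hΔ hirr)

end Fermat.Agent.W.LL3.H69
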