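import Fermat.Agent.W.LL3.H56_Ell

/-!
# W-CHAIN, gap LL3, leaf BDRY / ELL in trace form (helper56)

The elliptic half of the condition "kills every element with `trace² ≤ 4`" of `H99.BettiSys`:

* `isOfFinOrder_of_trace_sq_lt_four` : `γ ∈ SL₂(ℤ)` with `trace² < 4` has finite order
  (`γ ^ 12 = 1`);
* `map_eq_zero_of_trace_sq_lt_four` : if a prime `r ≡ 2 mod 3` divides `N` and `3 • A = 0`, every
  homomorphism `Γ₀(N) → A` kills the elements with `trace² < 4`;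
* `map_eq_zero_of_trace_sq_le_four` : hence it kills the elements with `trace² ≤ 4` as soon as it
  kills those with `trace² = 4`.
-/

set_option autoImplicit false

namespace Fermat.Agent.W.LL3.H56

open CongruenceSubgroup Matrix.SpecialLinearGroup ModularForm Fermat.Agent.Betti
open scoped MatrixGroups

/-- An element of `SL₂(ℤ)` with `trace² < 4` has `γ ^ 12 = 1`. -/
theorem pow_twelve_eq_one_of_trace_sq_lt_four (γ : SL(2, ℤ))
    (h : ((γ : Matrix (Fin 2) (Fin 2) ℤ).trace) ^ 2 < 4) : γ ^ 12 = 1 := by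
  have hsq := Fermat.Agent.GTor.H96.sq_eq_trace_mul_sub_one (γ : Matrix (Fin 2) (Fin 2) ℤ) γ.2
  have hcube := cube_eq_of_det_one (γ : Matrix (Fin 2) (Fin 2) ℤ) γ.2
  have hcases : (γ : Matrix (Fin 2) (Fin 2) ℤ).trace = 0 ∨
      (γ : Matrix (Fin 2) (Fin 2) ℤ).trace = 1 ∨ (γ : Matrix (Fin 2) (Fin 2) ℤ).trace = -1 := by
    have h1 : (γ : Matrix (Fin 2) (Fin 2) ℤ).trace < 2 := by nlinarith
    have h2 : -2 < (γ : Matrix (Fin 2) (Fin 2) ℤ).trace := by nlinarith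
    omega
  rcases hcases with h0 | h1 | h1
  · have h4 : γ ^ 4 = 1 := by
      apply Subtype.ext
      rw [Matrix.SpecialLinearGroup.coe_pow, Matrix.SpecialLinearGroup.coe_one]
      have h4 : (γ : Matrix (Fin 2) (Fin 2) ℤ) ^ 4
          = ((γ : Matrix (Fin 2) (Fin 2) ℤ) * γ) * ((γ : Matrix (Fin 2) (Fin 2) ℤ) * γ) := by
        rw [← pow_two, ← pow_two, ← pow_mul]
      rw [h4, hsq, h0]
      simp
    have : γ ^ 12 = (γ ^ 4) ^ 3 := by rw [← pow_mul]
    rw [this, h4, one_pow]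
  · have h3 : γ ^ 3 = -1 := by
      apply Subtype.ext
      rw [Matrix.SpecialLinearGroup.coe_pow, Matrix.SpecialLinearGroup.coe_neg,
        Matrix.SpecialLinearGroup.coe_one, hcube, h1]
      simp
    have : γ ^ 12 = ((γ ^ 3) ^ 2) ^ 2 := by rw [← pow_mul, ← pow_mul]
    rw [this, h3, neg_one_sq, one_pow]
  · have h3 : γ ^ 3 = 1 := by
      apply Subtype.ext
      rw [Matrix.SpecialLinearGroup.coe_pow, Matrix.SpecialLinearGroup.coe_one, hcube, h1]
      simp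
    have : γ ^ 12 = (γ ^ 3) ^ 4 := by rw [← pow_mul]
    rw [this, h3, one_pow]

/-- An element of `SL₂(ℤ)` with `trace² < 4` has finite order. -/
theorem isOfFinOrder_of_trace_sq_lt_four (γ : SL(2, ℤ))
    (h : ((γ : Matrix (Fin 2) (Fin 2) ℤ).trace) ^ 2 < 4) : IsOfFinOrder γ :=
  isOfFinOrder_iff_pow_eq_one.mpr ⟨12, by norm_num, pow_twelve_eq_one_of_trace_sq_lt_four γ h⟩

section

variable {N : ℕ} {A : Type*} [AddCommGroup A]

/-- **ELL in trace form**: if a prime `r ≡ 2 mod 3` divides `N` and `3 • A = 0`, every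
homomorphism `Γ₀(N) → A` kills the elements with `trace² < 4`. -/
theorem map_eq_zero_of_trace_sq_lt_four (h3 : ∀ a : A, 3 • a = 0) {r : ℕ} (hr : r.Prime)
    (hr3 : r % 3 = 2) (hrN : r ∣ N) (φ : Additive (Gamma0 N) →+ A) (g : Gamma0 N)
    (h : (((g : SL(2, ℤ)) : Matrix (Fin 2) (Fin 2) ℤ).trace) ^ 2 < 4) :
    φ (Additive.ofMul g) = 0 := by
  refine map_eq_zero_of_finOrder_of_prime_dvd h3 hr hr3 hrN φ g ?_
  refine isOfFinOrder_iff_pow_eq_one.mpr ⟨12, by norm_num, ?_⟩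
  apply Subtype.ext
  rw [Subgroup.coe_pow, pow_twelve_eq_one_of_trace_sq_lt_four _ h, Subgroup.coe_one]

/-- If a prime `r ≡ 2 mod 3` divides `N` and `3 • A = 0`, a homomorphism `Γ₀(N) → A` which kills
the elements with `trace² = 4` kills the elements with `trace² ≤ 4`. -/
theorem map_eq_zero_of_trace_sq_le_four (h3 : ∀ a : A, 3 • a = 0) {r : ℕ} (hr : r.Prime)
    (hr3 : r % 3 = 2) (hrN : r ∣ N) (φ : Additive (Gamma0 N) →+ A)
    (hpar : ∀ g : Gamma0 N, (((g : SL(2, ℤ)) : Matrix (Fin 2) (Fin 2) ℤ).trace) ^ 2 = 4 →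
      φ (Additive.ofMul g) = 0)
    (g : Gamma0 N) (h : (((g : SL(2, ℤ)) : Matrix (Fin 2) (Fin 2) ℤ).trace) ^ 2 ≤ 4) :
    φ (Additive.ofMul g) = 0 := by
  rcases h.lt_or_eq with h' | h'
  · exact map_eq_zero_of_trace_sq_lt_four h3 hr hr3 hrN φ g h'
  · exact hpar g h'

/-- The same for coefficients `ZMod 3`. -/
theorem zmod_three_map_eq_zero_of_trace_sq_le_four {r : ℕ} (hr : r.Prime)
    (hr3 : r % 3 = 2) (hrN : r ∣ N) (φ : Additive (Gamma0 N) →+ ZMod 3)
    (hpar : ∀ g : Gamma0 N, (((g : SL(2, ℤ)) : Matrix (Fin 2) (Fin 2) ℤ).trace) ^ 2 = 4 →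
      φ (Additive.ofMul g) = 0)
    (g : Gamma0 N) (h : (((g : SL(2, ℤ)) : Matrix (Fin 2) (Fin 2) ℤ).trace) ^ 2 ≤ 4) :
    φ (Additive.ofMul g) = 0 :=
  map_eq_zero_of_trace_sq_le_four (fun a => by
    have : (3 : ZMod 3) = 0 := by decide
    rw [nsmul_eq_mul]
    push_cast
    rw [this, zero_mul]) hr hr3 hrN φ hpar g h

end

end Fermat.Agent.W.LL3.H56
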