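import Mathlib
import Fermat.Agent.Betti.Family

/-!
# LL3 (item 77, lowering at `3`), leaf BDRY, abstract part (helper64)

Pure group theory in the `IsHeckeFamily` formalism of `Fermat/Agent/Betti/Family.lean`.

If, for every index `i`, the representative `rep i` conjugates `γ ^ n` into a `Γ`-conjugate of
`γ ^ (m i)`, then `n • (T φ)(γ) = (∑ i, m i) • φ(γ)` for every homomorphism `φ : Γ → A`.
This is the mechanism behind "`T_ℓ` acts on the boundary by `1 + ℓ`".
-/

set_option autoImplicit false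

namespace Fermat.Agent.W.LL3.H64

open Fermat.Agent.Betti

variable {Γ G : Type*} [Group Γ] [Group G] {e : Γ →* G} {ι : Type*} {rep : ι → G}
  {A : Type*} [AddCommGroup A]

/-- The value of `φ` on `κ_i(γ')` when `rep i` conjugates `γ'` into `δ γ^m δ⁻¹`. -/
theorem map_kap_of_conj (H : IsHeckeFamily e rep) (he : Function.Injective e)
    (φ : Additive Γ →+ A) {γ γ' δ : Γ} {i : ι} {m : ℕ}
    (h : rep i * e γ' = e (δ * γ ^ m * δ⁻¹) * rep i) :
    φ (Additive.ofMul (H.kap γ' i)) = m • φ (Additive.ofMul γ) := by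
  have h2 := (H.unique he h).2
  rw [← h2]
  simp only [ofMul_mul, ofMul_inv, ofMul_pow, map_add, map_neg, map_nsmul]
  abel

/-- **Boundary mechanism.** -/
theorem nsmul_heckeOp_of_conj [Fintype ι] (H : IsHeckeFamily e rep) (he : Function.Injective e)
    (φ : Additive Γ →+ A) (γ : Γ) (n : ℕ) (m : ι → ℕ)
    (h : ∀ i, ∃ δ : Γ, rep i * e (γ ^ n) = e (δ * γ ^ (m i) * δ⁻¹) * rep i) :
    n • H.heckeOp he φ (Additive.ofMul γ) = (∑ i, m i) • φ (Additive.ofMul γ) := by
  rw [H.heckeOp_apply, ← H.sum_kap_pow he φ γ n, Finset.sum_smul]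
  refine Finset.sum_congr rfl fun i _ => ?_
  obtain ⟨δ, hδ⟩ := h i
  exact map_kap_of_conj H he φ hδ

end Fermat.Agent.W.LL3.H64
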