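import Mathlib
import Fermat.Agent.Betti.Defs
import Fermat.Agent.GTor.H96_SL2
import Fermat.Agent.W.LL3.H64_BdryAbs

/-!
# LL3 (item 77, lowering at `3`), leaf BDRY-PAR (helper64)

For a prime `ℓ ≡ 1 mod N` the Betti Hecke operator `T_ℓ` on `Hom(Γ₀(N), A)` acts on the values at
the elements of trace `±2` by `ℓ + 1`:

  `TB_apply_of_trace_sq` : `(T_ℓ φ)(γ) = (ℓ + 1) • φ(γ)`  for every homomorphism `φ`, every `γ` with
  `tr(γ)² = 4`, provided multiplication by `ℓ` is injective on `A` (e.g. `A = ZMod 3`, `ℓ ≠ 3`).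

Hence (`isParabolicHom_of_TB_eq`) an eigenvector of one such `T_ℓ` with eigenvalue `≠ ℓ + 1` is
parabolic, and (`TB_sub_mem_parabolic`) `T_ℓ - (ℓ + 1)` maps `Hom(Γ₀(N), A)` into the parabolic
homomorphisms.

Proof: `γ = ± σ T^j σ⁻¹` with `σ ∈ SL₂(ℤ)`; `rep x * σ = g' * rep z` (level one), and
`δ = g' T^k σ⁻¹` (resp. `g' σ⁻¹`) lies in `Γ₀(N)` because `rep ≡ (1 *; 0 1)` and
`T^(-k) rep z ≡ 1 mod (ℓ - 1)`; then `rep x * γ^ℓ = (δ γ^m δ⁻¹) * rep x` with `m = 1` for the `ℓ`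
indices with `z ≠ ∞` and `m = ℓ²` for the index with `z = ∞`.
-/

set_option autoImplicit false

namespace Fermat.Agent.W.LL3.H64

open CongruenceSubgroup Matrix.SpecialLinearGroup ModularForm
open scoped MatrixGroups
open P2MW.S_ModularForm_heckeT_slash_eq_self_of_mem_Gamma0.ModularForm.HeckeSlashInvariance
open Fermat.Agent.Betti

/-- The real matrix of `mapGL ℝ (T ^ n)`. -/
theorem mapGL_T_zpow_val (n : ℤ) :
    ((mapGL ℝ (ModularGroup.T ^ n) : GL (Fin 2) ℝ) : Matrix (Fin 2) (Fin 2) ℝ)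
      = !![1, (n : ℝ); 0, 1] := by
  ext a b
  have h := mapGL_apply (ModularGroup.T ^ n) a b
  rw [show ((mapGL ℝ (ModularGroup.T ^ n) : GL (Fin 2) ℝ) : Matrix (Fin 2) (Fin 2) ℝ) a b
    = (mapGL ℝ (ModularGroup.T ^ n) : GL (Fin 2) ℝ) a b from rfl, h]
  have h2 : ((ModularGroup.T ^ n : SL(2, ℤ)) : Matrix (Fin 2) (Fin 2) ℤ) = !![1, n; 0, 1] :=
    ModularGroup.coe_T_zpow n
  rw [show (ModularGroup.T ^ n : SL(2, ℤ)) a b
    = ((ModularGroup.T ^ n : SL(2, ℤ)) : Matrix (Fin 2) (Fin 2) ℤ) a b from rfl, h2]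
  fin_cases a <;> fin_cases b <;> simp

/-- `(1 k; 0 ℓ) T^(jℓ) = T^j (1 k; 0 ℓ)`. -/
theorem heckeMatrix_mul_T {ℓ : ℕ} (hℓ : ℓ ≠ 0) (k : ℕ) (j : ℤ) :
    heckeMatrix ℓ k * mapGL ℝ (ModularGroup.T ^ (j * ℓ)) =
      mapGL ℝ (ModularGroup.T ^ j) * heckeMatrix ℓ k := by
  apply Units.ext
  rw [Units.val_mul, Units.val_mul, mapGL_T_zpow_val, mapGL_T_zpow_val, val_heckeMatrix hℓ]
  ext a b
  fin_cases a <;> fin_cases b <;>
    simp [Matrix.mul_apply, Fin.sum_univ_two]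
  ring

/-- `(ℓ 0; 0 1) T^(jℓ) = T^(jℓ²) (ℓ 0; 0 1)`. -/
theorem heckeDiagMatrix_mul_T {ℓ : ℕ} (hℓ : ℓ ≠ 0) (j : ℤ) :
    heckeDiagMatrix ℓ * mapGL ℝ (ModularGroup.T ^ (j * ℓ)) =
      mapGL ℝ (ModularGroup.T ^ (j * (ℓ ^ 2 : ℕ))) * heckeDiagMatrix ℓ := by
  apply Units.ext
  rw [Units.val_mul, Units.val_mul, mapGL_T_zpow_val, mapGL_T_zpow_val, val_heckeDiagMatrix hℓ]
  ext a b
  fin_cases a <;> fin_cases b <;>
    simp [Matrix.mul_apply, Fin.sum_univ_two]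
  ring

/-- group-theoretic core of the conjugation relation. -/
theorem conj_rel {G : Type*} [Group G] {R S G' Z Ta Tb : G}
    (h1 : R * S = G' * Z) (h2 : Z * Ta = Tb * Z) :
    R * (S * Ta * S⁻¹) = (G' * Tb * G'⁻¹) * R := by
  have hZ : Z = G'⁻¹ * R * S := by rw [mul_assoc, h1]; group
  rw [hZ] at h2
  calc R * (S * Ta * S⁻¹) = G' * (G'⁻¹ * R * S * Ta) * S⁻¹ := by group
    _ = G' * (Tb * (G'⁻¹ * R * S)) * S⁻¹ := by rw [h2]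
    _ = (G' * Tb * G'⁻¹) * R := by group

/-- The integer matrix of a representative. -/
def repMat (ℓ : ℕ) (x : OnePoint (ZMod ℓ)) : Matrix (Fin 2) (Fin 2) ℤ :=
  x.elim !![(ℓ : ℤ), 0; 0, 1] (fun k => !![1, (k.val : ℤ); 0, (ℓ : ℤ)])

theorem repMat_one_zero (ℓ : ℕ) (x : OnePoint (ZMod ℓ)) : repMat ℓ x 1 0 = 0 := by
  induction x using OnePoint.rec with
  | infty => simp [repMat]
  | coe k => simp [repMat]

theorem heckeRep_val {ℓ : ℕ} (hℓ : ℓ ≠ 0) (x : OnePoint (ZMod ℓ)) :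
    ((heckeRep ℓ x : GL (Fin 2) ℝ) : Matrix (Fin 2) (Fin 2) ℝ)
      = (repMat ℓ x).map (Int.cast : ℤ → ℝ) := by
  induction x using OnePoint.rec with
  | infty =>
    rw [heckeRep_infty, val_heckeDiagMatrix hℓ]
    ext a b
    fin_cases a <;> fin_cases b <;> simp [repMat]
  | coe k =>
    rw [heckeRep_coe, val_heckeMatrix hℓ]
    ext a b
    fin_cases a <;> fin_cases b <;> simp [repMat]

theorem mapGL_val (g : SL(2, ℤ)) :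
    ((mapGL ℝ g : GL (Fin 2) ℝ) : Matrix (Fin 2) (Fin 2) ℝ)
      = (g : Matrix (Fin 2) (Fin 2) ℤ).map (Int.cast : ℤ → ℝ) := by
  ext a b
  exact mapGL_apply g a b

/-- A relation in `GL₂(ℝ)` between representatives and integral matrices is a relation of
integer matrices. -/
theorem int_rel_of_real {ℓ : ℕ} (hℓ : ℓ ≠ 0) {x z : OnePoint (ZMod ℓ)} {σ g' : SL(2, ℤ)}
    (h : heckeRep ℓ x * mapGL ℝ σ = mapGL ℝ g' * heckeRep ℓ z) :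
    repMat ℓ x * (σ : Matrix (Fin 2) (Fin 2) ℤ) = (g' : Matrix (Fin 2) (Fin 2) ℤ) * repMat ℓ z := by
  have h' := congrArg (fun M : GL (Fin 2) ℝ => (M : Matrix (Fin 2) (Fin 2) ℝ)) h
  simp only [Units.val_mul, heckeRep_val hℓ, mapGL_val] at h'
  have hinj : Function.Injective (fun M : Matrix (Fin 2) (Fin 2) ℤ => M.map (Int.cast : ℤ → ℝ)) :=
    Matrix.map_injective Int.cast_injective
  apply hinj
  show (repMat ℓ x * (σ : Matrix (Fin 2) (Fin 2) ℤ)).map (Int.cast : ℤ → ℝ)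
    = ((g' : Matrix (Fin 2) (Fin 2) ℤ) * repMat ℓ z).map (Int.cast : ℤ → ℝ)
  rw [Matrix.map_mul_intCast, Matrix.map_mul_intCast]
  exact h'

/-- Divisibility of the lower left entry. -/
theorem dvd_lower_left (D S : SL(2, ℤ)) (R B E : Matrix (Fin 2) (Fin 2) ℤ) (c : ℤ)
    (hB : B = 1 + c • E) (hR : R 1 0 = 0)
    (h : (D : Matrix (Fin 2) (Fin 2) ℤ) * (S : Matrix (Fin 2) (Fin 2) ℤ) * B
      = R * (S : Matrix (Fin 2) (Fin 2) ℤ)) :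
    c ∣ (D : Matrix (Fin 2) (Fin 2) ℤ) 1 0 := by
  have hS : (S : Matrix (Fin 2) (Fin 2) ℤ) * ((S⁻¹ : SL(2, ℤ)) : Matrix (Fin 2) (Fin 2) ℤ) = 1 := by
    rw [← Matrix.SpecialLinearGroup.coe_mul, mul_inv_cancel, Matrix.SpecialLinearGroup.coe_one]
  have h2 := congrArg (fun M => M * ((S⁻¹ : SL(2, ℤ)) : Matrix (Fin 2) (Fin 2) ℤ)) h
  simp only [hB, Matrix.mul_add, Matrix.mul_one, Matrix.add_mul, Matrix.mul_assoc, hS,
    Matrix.mul_smul, Matrix.smul_mul] at h2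
  have h3 := congrFun (congrFun h2 1) 0
  simp only [Matrix.add_apply, Matrix.smul_apply, smul_eq_mul, hR] at h3
  exact ⟨-(((D : Matrix (Fin 2) (Fin 2) ℤ) * ((S : Matrix (Fin 2) (Fin 2) ℤ) *
    (E * ((S⁻¹ : SL(2, ℤ)) : Matrix (Fin 2) (Fin 2) ℤ)))) 1 0), by linarith⟩

/-! ### The two cases -/

section Cases

variable {N : ℕ} {ℓ : ℕ}

/-- finite case: `δ₀ = g' T^k σ⁻¹` lies in `Γ₀(N)` when `N ∣ ℓ - 1`. -/
theorem delta_fin_mem (hℓ : ℓ ≠ 0) (h1 : (N : ℤ) ∣ (ℓ : ℤ) - 1) {x : OnePoint (ZMod ℓ)}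
    {k : ZMod ℓ} {σ g' : SL(2, ℤ)}
    (h : heckeRep ℓ x * mapGL ℝ σ = mapGL ℝ g' * heckeRep ℓ (k : OnePoint (ZMod ℓ))) :
    g' * ModularGroup.T ^ (k.val : ℤ) * σ⁻¹ ∈ Gamma0 N := by
  apply mem_Gamma0_of_dvd
  refine h1.trans ?_
  have hint := int_rel_of_real hℓ h
  refine dvd_lower_left (g' * ModularGroup.T ^ (k.val : ℤ) * σ⁻¹) σ (repMat ℓ x)
    !![1, (k.val : ℤ) - k.val * ℓ; 0, (ℓ : ℤ)] !![0, -(k.val : ℤ); 0, 1] ((ℓ : ℤ) - 1) ?_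
    (repMat_one_zero ℓ x) ?_
  · ext a b
    fin_cases a <;> fin_cases b <;> simp <;> ring
  · have hσ : ((σ⁻¹ : SL(2, ℤ)) : Matrix (Fin 2) (Fin 2) ℤ) * (σ : Matrix (Fin 2) (Fin 2) ℤ) = 1 := by
      rw [← Matrix.SpecialLinearGroup.coe_mul, inv_mul_cancel, Matrix.SpecialLinearGroup.coe_one]
    have hT : ((ModularGroup.T ^ (k.val : ℤ) : SL(2, ℤ)) : Matrix (Fin 2) (Fin 2) ℤ)
        * !![1, (k.val : ℤ) - k.val * ℓ; 0, (ℓ : ℤ)] = repMat ℓ (k : OnePoint (ZMod ℓ)) := by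
      rw [ModularGroup.coe_T_zpow]
      ext a b
      fin_cases a <;> fin_cases b <;> simp [repMat, Matrix.mul_apply, Fin.sum_univ_two]
    rw [hint, ← hT]
    simp only [Matrix.SpecialLinearGroup.coe_mul, Matrix.mul_assoc]
    rw [← Matrix.mul_assoc ((σ⁻¹ : SL(2, ℤ)) : Matrix (Fin 2) (Fin 2) ℤ), hσ, Matrix.one_mul]

/-- infinite case: `δ₀ = g' σ⁻¹` lies in `Γ₀(N)` when `N ∣ ℓ - 1`. -/
theorem delta_inf_mem (hℓ : ℓ ≠ 0) (h1 : (N : ℤ) ∣ (ℓ : ℤ) - 1) {x : OnePoint (ZMod ℓ)}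
    {σ g' : SL(2, ℤ)}
    (h : heckeRep ℓ x * mapGL ℝ σ = mapGL ℝ g' * heckeRep ℓ (OnePoint.infty : OnePoint (ZMod ℓ))) :
    g' * σ⁻¹ ∈ Gamma0 N := by
  apply mem_Gamma0_of_dvd
  refine h1.trans ?_
  have hint := int_rel_of_real hℓ h
  refine dvd_lower_left (g' * σ⁻¹) σ (repMat ℓ x)
    !![(ℓ : ℤ), 0; 0, 1] !![1, 0; 0, 0] ((ℓ : ℤ) - 1) ?_
    (repMat_one_zero ℓ x) ?_
  · ext a b
    fin_cases a <;> fin_cases b <;> simp
  · have hσ : ((σ⁻¹ : SL(2, ℤ)) : Matrix (Fin 2) (Fin 2) ℤ) * (σ : Matrix (Fin 2) (Fin 2) ℤ) = 1 := by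
      rw [← Matrix.SpecialLinearGroup.coe_mul, inv_mul_cancel, Matrix.SpecialLinearGroup.coe_one]
    have hZ : repMat ℓ (OnePoint.infty : OnePoint (ZMod ℓ)) = !![(ℓ : ℤ), 0; 0, 1] := rfl
    rw [hint, hZ]
    simp only [Matrix.SpecialLinearGroup.coe_mul, Matrix.mul_assoc]
    rw [← Matrix.mul_assoc ((σ⁻¹ : SL(2, ℤ)) : Matrix (Fin 2) (Fin 2) ℤ), hσ, Matrix.one_mul]

end Cases


/-! ### The conjugation relation for a unipotent element -/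

theorem conj_zpow_pow {G : Type*} [Group G] (s t : G) (j : ℤ) (n : ℕ) :
    (s * t ^ j * s⁻¹) ^ n = s * t ^ (j * n) * s⁻¹ := by
  rw [conj_pow, ← zpow_natCast, ← zpow_mul]

theorem conj_fin {G : Type*} [Group G] (g s t : G) (j k : ℤ) :
    (g * t ^ k * s⁻¹) * (s * t ^ j * s⁻¹) ^ 1 * (g * t ^ k * s⁻¹)⁻¹ = g * t ^ j * g⁻¹ := by
  rw [pow_one]
  group

theorem conj_inf {G : Type*} [Group G] (g s t : G) (j : ℤ) (n : ℕ) :
    (g * s⁻¹) * (s * t ^ j * s⁻¹) ^ n * (g * s⁻¹)⁻¹ = g * t ^ (j * n) * g⁻¹ := by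
  rw [conj_zpow_pow]
  group

section Main

variable {N : ℕ} {ℓ : ℕ} [Fact ℓ.Prime]

/-- The exponent at the index `x`. -/
noncomputable def mExp (ℓ : ℕ) [Fact ℓ.Prime] (σ : SL(2, ℤ)) (x : OnePoint (ZMod ℓ)) : ℕ :=
  (redMatrix ℓ σ • x).elim (ℓ ^ 2) (fun _ => 1)

theorem sum_mExp (σ : SL(2, ℤ)) : ∑ x : OnePoint (ZMod ℓ), mExp ℓ σ x = ℓ + ℓ ^ 2 := by
  have h1 : ∑ x : OnePoint (ZMod ℓ), mExp ℓ σ x
      = ∑ z : OnePoint (ZMod ℓ), z.elim (ℓ ^ 2) (fun _ => 1) :=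
    Equiv.sum_comp (MulAction.toPerm (redMatrix ℓ σ))
      (fun z : OnePoint (ZMod ℓ) => z.elim (ℓ ^ 2) (fun _ => 1))
  rw [h1]
  have h2 : ∑ z : OnePoint (ZMod ℓ), z.elim (ℓ ^ 2) (fun _ => 1)
      = (Option.none : Option (ZMod ℓ)).elim (ℓ ^ 2) (fun _ => 1)
        + ∑ k : ZMod ℓ, (Option.some k : Option (ZMod ℓ)).elim (ℓ ^ 2) (fun _ => 1) :=
    Fintype.sum_option (fun z : Option (ZMod ℓ) => z.elim (ℓ ^ 2) (fun _ => 1))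
  rw [h2]
  simp only [Option.elim_none, Option.elim_some, Finset.sum_const, Finset.card_univ, ZMod.card,
    smul_eq_mul, mul_one]
  ring

/-- **The conjugation relation**: the representative `rep x` conjugates `w ^ ℓ` into a
`Γ₀(N)`-conjugate of `w ^ m`, `m = mExp ℓ σ x`. -/
theorem exists_conj_rep (h1 : (N : ℤ) ∣ (ℓ : ℤ) - 1) (w : Gamma0 N) (σ : SL(2, ℤ)) (j : ℤ)
    (hw : (w : SL(2, ℤ)) = σ * ModularGroup.T ^ j * σ⁻¹) (x : OnePoint (ZMod ℓ)) :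
    ∃ δ : Gamma0 N, heckeRep ℓ x * incl N (w ^ ℓ)
      = incl N (δ * w ^ (mExp ℓ σ x) * δ⁻¹) * heckeRep ℓ x := by
  have hℓ0 : ℓ ≠ 0 := (Fact.out : ℓ.Prime).ne_zero
  obtain ⟨g', -, hg'⟩ := heckeRep_mul (p := ℓ) (N := 1)
    (Nat.Prime.not_dvd_one (Fact.out : ℓ.Prime)) σ (one_dvd _) x
  have hwl : incl N (w ^ ℓ)
      = mapGL ℝ σ * mapGL ℝ (ModularGroup.T ^ (j * ℓ)) * (mapGL ℝ σ)⁻¹ := by
    rw [incl_apply, Subgroup.coe_pow, hw, conj_zpow_pow, map_mul, map_mul, map_inv]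
  rcases hz : redMatrix ℓ σ • x with _ | k
  · -- `z = ∞`
    have hzi : redMatrix ℓ σ • x = (OnePoint.infty : OnePoint (ZMod ℓ)) := hz
    rw [hzi] at hg'
    refine ⟨⟨g' * σ⁻¹, delta_inf_mem hℓ0 h1 hg'⟩, ?_⟩
    have hm : mExp ℓ σ x = ℓ ^ 2 := by rw [mExp, hzi]; rfl
    have hr : incl N (⟨g' * σ⁻¹, delta_inf_mem hℓ0 h1 hg'⟩ * w ^ (mExp ℓ σ x)
        * (⟨g' * σ⁻¹, delta_inf_mem hℓ0 h1 hg'⟩ : Gamma0 N)⁻¹)
        = mapGL ℝ g' * mapGL ℝ (ModularGroup.T ^ (j * (ℓ ^ 2 : ℕ))) * (mapGL ℝ g')⁻¹ := by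
      rw [incl_apply, hm]
      simp only [Subgroup.coe_mul, Subgroup.coe_inv, Subgroup.coe_pow]
      rw [hw, conj_inf, map_mul, map_mul, map_inv]
    rw [hwl, hr]
    exact conj_rel hg' (heckeDiagMatrix_mul_T hℓ0 j)
  · -- `z = k`
    have hzk : redMatrix ℓ σ • x = ((k : ZMod ℓ) : OnePoint (ZMod ℓ)) := hz
    rw [hzk] at hg'
    refine ⟨⟨g' * ModularGroup.T ^ (k.val : ℤ) * σ⁻¹, delta_fin_mem hℓ0 h1 hg'⟩, ?_⟩
    have hm : mExp ℓ σ x = 1 := by rw [mExp, hzk]; rfl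
    have hr : incl N (⟨g' * ModularGroup.T ^ (k.val : ℤ) * σ⁻¹, delta_fin_mem hℓ0 h1 hg'⟩
        * w ^ (mExp ℓ σ x)
        * (⟨g' * ModularGroup.T ^ (k.val : ℤ) * σ⁻¹, delta_fin_mem hℓ0 h1 hg'⟩ : Gamma0 N)⁻¹)
        = mapGL ℝ g' * mapGL ℝ (ModularGroup.T ^ j) * (mapGL ℝ g')⁻¹ := by
      rw [incl_apply, hm]
      simp only [Subgroup.coe_mul, Subgroup.coe_inv, Subgroup.coe_pow]
      rw [hw, conj_fin, map_mul, map_mul, map_inv]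
    rw [hwl, hr]
    exact conj_rel hg' (heckeMatrix_mul_T hℓ0 k.val j)

end Main

/-! ### The theorem -/

section Final

variable {N : ℕ} {ℓ : ℕ} {A : Type*} [AddCommGroup A]

/-- Unipotent elements, after multiplication by `ℓ`. -/
theorem nsmul_TB_unipotent (hℓ : ℓ.Prime) (hℓN : ¬ ℓ ∣ N) (h1 : (N : ℤ) ∣ (ℓ : ℤ) - 1)
    (φ : Additive (Gamma0 N) →+ A) (w : Gamma0 N) (σ : SL(2, ℤ)) (j : ℤ)
    (hw : (w : SL(2, ℤ)) = σ * ModularGroup.T ^ j * σ⁻¹) :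
    ℓ • TB N A hℓ hℓN φ (Additive.ofMul w) = (ℓ + ℓ ^ 2) • φ (Additive.ofMul w) := by
  haveI : Fact ℓ.Prime := ⟨hℓ⟩
  have h := nsmul_heckeOp_of_conj (isHeckeFamily_T N hℓN) (incl_injective N) φ w ℓ (mExp ℓ σ)
    (fun x => exists_conj_rep h1 w σ j hw x)
  rw [sum_mExp] at h
  exact h

theorem neg_one_mem_Gamma0 (N : ℕ) : (-1 : SL(2, ℤ)) ∈ Gamma0 N := by
  apply mem_Gamma0_of_dvd
  simp

theorem mapGL_neg_one_mul (M : GL (Fin 2) ℝ) :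
    M * mapGL ℝ (-1 : SL(2, ℤ)) = mapGL ℝ (-1 : SL(2, ℤ)) * M := by
  apply Units.ext
  rw [Units.val_mul, Units.val_mul, mapGL_val]
  have h : ((-1 : SL(2, ℤ)) : Matrix (Fin 2) (Fin 2) ℤ).map (Int.cast : ℤ → ℝ)
      = -(1 : Matrix (Fin 2) (Fin 2) ℝ) := by
    ext a b
    fin_cases a <;> fin_cases b <;> simp
  rw [h]
  simp

/-- The central element `-1`. -/
theorem TB_neg_one (hℓ : ℓ.Prime) (hℓN : ¬ ℓ ∣ N) (φ : Additive (Gamma0 N) →+ A)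
    (z : Gamma0 N) (hz : (z : SL(2, ℤ)) = -1) :
    TB N A hℓ hℓN φ (Additive.ofMul z) = (ℓ + 1) • φ (Additive.ofMul z) := by
  haveI : Fact ℓ.Prime := ⟨hℓ⟩
  have h := nsmul_heckeOp_of_conj (isHeckeFamily_T N hℓN) (incl_injective N) φ z 1 (fun _ => 1)
    (fun x => ⟨1, by
      rw [one_mul, inv_one, mul_one, pow_one, incl_apply, hz]
      exact mapGL_neg_one_mul _⟩)
  rw [one_smul] at h
  have hc : ∑ _x : OnePoint (ZMod ℓ), (1 : ℕ) = ℓ + 1 := by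
    rw [Finset.sum_const, Finset.card_univ, smul_eq_mul, mul_one]
    exact (Fintype.card_option (α := ZMod ℓ)).trans (by rw [ZMod.card])
  rw [hc] at h
  exact h

/-- **BDRY-PAR.** For a prime `ℓ ≡ 1 mod N` the operator `T_ℓ` multiplies the value of every
homomorphism `φ : Γ₀(N) → A` at every element of trace `± 2` by `ℓ + 1`, provided that
multiplication by `ℓ` is injective on `A`. -/
theorem TB_apply_of_trace_sq (hℓ : ℓ.Prime) (hℓN : ¬ ℓ ∣ N) (h1 : (N : ℤ) ∣ (ℓ : ℤ) - 1)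
    (hA : ∀ a : A, ℓ • a = 0 → a = 0)
    (φ : Additive (Gamma0 N) →+ A) (γ : Gamma0 N)
    (ht : ((γ : SL(2, ℤ)) : Matrix (Fin 2) (Fin 2) ℤ).trace ^ 2 = 4) :
    TB N A hℓ hℓN φ (Additive.ofMul γ) = (ℓ + 1) • φ (Additive.ofMul γ) := by
  have key : ∀ (w : Gamma0 N) (σ : SL(2, ℤ)) (j : ℤ),
      (w : SL(2, ℤ)) = σ * ModularGroup.T ^ j * σ⁻¹ →
      TB N A hℓ hℓN φ (Additive.ofMul w) = (ℓ + 1) • φ (Additive.ofMul w) := by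
    intro w σ j hw
    have h2 := nsmul_TB_unipotent hℓ hℓN h1 φ w σ j hw
    apply sub_eq_zero.mp
    apply hA
    rw [smul_sub, h2, smul_smul, sub_eq_zero]
    congr 1
    ring
  obtain ⟨σ, j, h | h⟩ := Fermat.Agent.GTor.H96.trace_sq_eq_four_cases (γ : SL(2, ℤ)) ht
  · exact key γ σ j h
  · set z : Gamma0 N := ⟨-1, neg_one_mem_Gamma0 N⟩ with hz
    have hzz : z * z = 1 := by
      apply Subtype.ext
      simp [hz]
    have hw : ((z * γ : Gamma0 N) : SL(2, ℤ)) = σ * ModularGroup.T ^ j * σ⁻¹ := by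
      rw [Subgroup.coe_mul, h]
      simp [hz]
    have hγ : γ = z * (z * γ) := by rw [← mul_assoc, hzz, one_mul]
    have e1 := key (z * γ) σ j hw
    have e2 := TB_neg_one hℓ hℓN φ z rfl
    calc TB N A hℓ hℓN φ (Additive.ofMul γ)
        = TB N A hℓ hℓN φ (Additive.ofMul z) + TB N A hℓ hℓN φ (Additive.ofMul (z * γ)) := by
          conv_lhs => rw [hγ]
          rw [ofMul_mul, map_add]
      _ = (ℓ + 1) • φ (Additive.ofMul z) + (ℓ + 1) • φ (Additive.ofMul (z * γ)) := by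
          rw [e1, e2]
      _ = (ℓ + 1) • φ (Additive.ofMul γ) := by
          conv_rhs => rw [hγ]
          rw [ofMul_mul z (z * γ), map_add, smul_add]

/-- The same with the congruence written in `ℕ`. -/
theorem TB_apply_of_trace_sq' (hℓ : ℓ.Prime) (hℓN : ¬ ℓ ∣ N) (h1 : ℓ ≡ 1 [MOD N])
    (hA : ∀ a : A, ℓ • a = 0 → a = 0)
    (φ : Additive (Gamma0 N) →+ A) (γ : Gamma0 N)
    (ht : ((γ : SL(2, ℤ)) : Matrix (Fin 2) (Fin 2) ℤ).trace ^ 2 = 4) :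
    TB N A hℓ hℓN φ (Additive.ofMul γ) = (ℓ + 1) • φ (Additive.ofMul γ) := by
  refine TB_apply_of_trace_sq hℓ hℓN ?_ hA φ γ ht
  have h2 : (N : ℤ) ∣ ((1 : ℕ) : ℤ) - (ℓ : ℤ) := (Nat.modEq_iff_dvd.mp h1)
  have h3 : (ℓ : ℤ) - 1 = -(((1 : ℕ) : ℤ) - (ℓ : ℤ)) := by push_cast; ring
  rw [h3]
  exact (dvd_neg).mpr h2

/-- A prime `ℓ ≡ 1 mod N` does not divide `N`. -/
theorem not_dvd_of_modEq_one (hℓ : ℓ.Prime) (h1 : ℓ ≡ 1 [MOD N]) : ¬ ℓ ∣ N := by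
  intro hd
  have h2 : ℓ ≡ 1 [MOD ℓ] := h1.of_dvd hd
  have h3 : ℓ % ℓ = 1 % ℓ := h2
  rw [Nat.mod_self, Nat.mod_eq_of_lt hℓ.one_lt] at h3
  exact absurd h3 (by norm_num)

end Final

/-! ### Coefficients `ZMod 3` -/

section ModThree

variable {N : ℕ} {ℓ : ℕ}

theorem zmod_three_nsmul_cancel (hℓ : ℓ.Prime) (h3 : ℓ ≠ 3) (a : ZMod 3) (h : ℓ • a = 0) :
    a = 0 := by
  haveI : Fact (Nat.Prime 3) := ⟨Nat.prime_three⟩
  rw [nsmul_eq_mul] at h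
  rcases mul_eq_zero.mp h with h | h
  · exfalso
    have hd : 3 ∣ ℓ := (ZMod.natCast_eq_zero_iff ℓ 3).mp h
    rcases (Nat.dvd_prime hℓ).mp hd with h' | h'
    · omega
    · exact h3 h'.symm
  · exact h

/-- **BDRY-PAR modulo 3.** -/
theorem TB_zmod_three_apply_of_trace_sq (hℓ : ℓ.Prime) (hℓN : ¬ ℓ ∣ N) (h1 : ℓ ≡ 1 [MOD N])
    (h3 : ℓ ≠ 3) (φ : Additive (Gamma0 N) →+ ZMod 3) (γ : Gamma0 N)
    (ht : ((γ : SL(2, ℤ)) : Matrix (Fin 2) (Fin 2) ℤ).trace ^ 2 = 4) :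
    TB N (ZMod 3) hℓ hℓN φ (Additive.ofMul γ) = ((ℓ : ZMod 3) + 1) * φ (Additive.ofMul γ) := by
  rw [TB_apply_of_trace_sq' hℓ hℓN h1 (zmod_three_nsmul_cancel hℓ h3) φ γ ht, nsmul_eq_mul]
  push_cast
  rfl

/-- An eigenvector of `T_ℓ` (`ℓ ≡ 1 mod N`, `ℓ ≠ 3`) with eigenvalue `c ≠ ℓ + 1` in `ZMod 3`
vanishes on the elements of trace `± 2`. -/
theorem eq_zero_of_TB_eq (hℓ : ℓ.Prime) (hℓN : ¬ ℓ ∣ N) (h1 : ℓ ≡ 1 [MOD N])
    (h3 : ℓ ≠ 3) (φ : Additive (Gamma0 N) →+ ZMod 3) (c : ZMod 3) (hc : c ≠ (ℓ : ZMod 3) + 1)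
    (hφ : TB N (ZMod 3) hℓ hℓN φ = c • φ) (γ : Gamma0 N)
    (ht : ((γ : SL(2, ℤ)) : Matrix (Fin 2) (Fin 2) ℤ).trace ^ 2 = 4) :
    φ (Additive.ofMul γ) = 0 := by
  haveI : Fact (Nat.Prime 3) := ⟨Nat.prime_three⟩
  have h := TB_zmod_three_apply_of_trace_sq hℓ hℓN h1 h3 φ γ ht
  rw [hφ, AddMonoidHom.smul_apply, smul_eq_mul] at h
  have h2 : (c - ((ℓ : ZMod 3) + 1)) * φ (Additive.ofMul γ) = 0 := by
    rw [sub_mul, h, sub_self]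
  rcases mul_eq_zero.mp h2 with h4 | h4
  · exact absurd (sub_eq_zero.mp h4) hc
  · exact h4

/-- `T_ℓ - (ℓ + 1)` maps every homomorphism to one which vanishes on the elements of trace
`± 2`. -/
theorem TB_sub_apply_of_trace_sq (hℓ : ℓ.Prime) (hℓN : ¬ ℓ ∣ N) (h1 : ℓ ≡ 1 [MOD N])
    (h3 : ℓ ≠ 3) (φ : Additive (Gamma0 N) →+ ZMod 3) (γ : Gamma0 N)
    (ht : ((γ : SL(2, ℤ)) : Matrix (Fin 2) (Fin 2) ℤ).trace ^ 2 = 4) :
    (TB N (ZMod 3) hℓ hℓN φ - ((ℓ : ZMod 3) + 1) • φ) (Additive.ofMul γ) = 0 := by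
  rw [AddMonoidHom.sub_apply, AddMonoidHom.smul_apply, smul_eq_mul,
    TB_zmod_three_apply_of_trace_sq hℓ hℓN h1 h3 φ γ ht, sub_self]

end ModThree

end Fermat.Agent.W.LL3.H64
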