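import Mathlib
import Fermat.Agent.S59.NonMin.Geom.H98_CommT
import Fermat.Agent.W.Chain.LL3.H56_Ext
import Fermat.Agent.W.LL3.H34_Res
import Fermat.Agent.W.LL3.H64_BdryPar

/-!
# LL3 (item 77, lowering at `3`), piece AS-CORR of AS-WIRE (helper64)

`Γ' = Γ₀(9K) ◁ Γ = Γ₀(3K)`, `lam : Γ → ZMod 3` with kernel `Γ'` (helper56), coefficients `ZMod 3`.

* `lamAdd K` : `lam` as an additive homomorphism; `eq_smul_lamAdd` : a homomorphism of `Γ` which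
  vanishes on `Γ'` is a multiple of `lamAdd`;
* `TB_lamAdd` : `T_ℓ lam = (ℓ + 1) lam` for a prime `ℓ ≡ 1 mod 3K`, `ℓ ≠ 3`;
* `corr_abstract` : the correction argument (commuting operators, kernel of the restriction
  spanned by an eigenvector with a different eigenvalue at one index);
* `exists_corr` : if `φ : Γ → ZMod 3` restricts to `ψ` on `Γ'` and `ψ` is an eigenvector of all
  `T_ℓ` (`G ℓ`, `ℓ ∤ 9K`) with eigenvalues `b ℓ`, and `b ℓ₀ ≠ ℓ₀ + 1` for one prime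
  `ℓ₀ ≡ 1 mod 9K` with `G ℓ₀`, then some `φ' = φ + t • lam` is an eigenvector of all `T_ℓ`
  (`G ℓ`, `ℓ ∤ 3K`) at level `3K` with the same eigenvalues, restricts to `ψ`, and vanishes on
  the elements of trace `± 2`.
-/

set_option autoImplicit false

namespace Fermat.Agent.W.LL3.H64

open CongruenceSubgroup Matrix.SpecialLinearGroup ModularForm
open scoped MatrixGroups
open Fermat.Agent.Betti Fermat.Agent.W.Chain.LL3.H56 Fermat.Agent.W.LL3.H34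

/-! ### The abstract correction -/

section Abstract

variable {V V' : Type*} [AddCommGroup V] [Module (ZMod 3) V] [AddCommGroup V']
  [Module (ZMod 3) V'] {ι : Type*}

/-- **Correction.** Commuting operators `T i` on `V`, compatible with operators `T' i` on `V'`
under `r : V → V'`, whose kernel consists of multiples of `lam`; if `r φ` is an eigenvector with
eigenvalues `b i`, and `lam` is an eigenvector of `T i₀` with eigenvalue `e₀ ≠ b i₀`, then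
`φ + t • lam` is an eigenvector with eigenvalues `b i`, for some `t`. -/
theorem corr_abstract (T : ι → V →+ V) (T' : ι → V' →+ V') (r : V →+ V')
    (hcomm : ∀ i j v, T i (T j v) = T j (T i v))
    (hr : ∀ i v, r (T i v) = T' i (r v))
    (lam : V) (hker : ∀ v, r v = 0 → ∃ c : ZMod 3, v = c • lam) (hlam : r lam = 0)
    (b : ι → ZMod 3) (φ : V) (hφ : ∀ i, T' i (r φ) = b i • r φ)
    (i₀ : ι) (e₀ : ZMod 3) (hlam₀ : T i₀ lam = e₀ • lam) (hne : b i₀ ≠ e₀) :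
    ∃ t : ZMod 3, ∀ i, T i (φ + t • lam) = b i • (φ + t • lam) := by
  haveI : Fact (Nat.Prime 3) := ⟨Nat.prime_three⟩
  have hsm : ∀ (f : V →+ V) (c : ZMod 3) (v : V), f (c • v) = c • f v :=
    fun f c v => ZMod.map_smul f c v
  have hsm' : ∀ (c : ZMod 3) (v : V), r (c • v) = c • r v :=
    fun c v => ZMod.map_smul r c v
  -- the defect of a vector whose restriction is `r φ`
  have hdef : ∀ (w : V), r w = r φ → ∀ i, ∃ c : ZMod 3, T i w - b i • w = c • lam := by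
    intro w hw i
    apply hker
    rw [map_sub, hr, hsm', hw, hφ, sub_self]
  obtain ⟨c₀, hc₀⟩ := hdef φ rfl i₀
  have hd : b i₀ - e₀ ≠ 0 := sub_ne_zero.mpr hne
  refine ⟨c₀ / (b i₀ - e₀), ?_⟩
  set t : ZMod 3 := c₀ / (b i₀ - e₀) with ht
  have ht' : t * (b i₀ - e₀) = c₀ := by rw [ht]; field_simp
  set w : V := φ + t • lam with hw
  have hrw : r w = r φ := by rw [hw, map_add, hsm', hlam, smul_zero, add_zero]
  -- the defect at `i₀` vanishes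
  have h₀ : T i₀ w - b i₀ • w = 0 := by
    have e1 : T i₀ w - b i₀ • w = (T i₀ φ - b i₀ • φ) + t • (T i₀ lam - b i₀ • lam) := by
      rw [hw, map_add, hsm, smul_add, smul_sub, smul_smul, smul_smul, mul_comm (b i₀) t]
      abel
    rw [e1, hc₀, hlam₀, ← sub_smul, smul_smul, ← add_smul]
    have : c₀ + t * (e₀ - b i₀) = 0 := by
      rw [← ht']; ring
    rw [this, zero_smul]
  intro i
  obtain ⟨c, hc⟩ := hdef w hrw i
  -- apply `T i₀ - b i₀` to the defect at `i`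
  have h1 : T i₀ (T i w - b i • w) - b i₀ • (T i w - b i • w) = 0 := by
    have e2 : T i₀ (T i w - b i • w) - b i₀ • (T i w - b i • w)
        = T i (T i₀ w - b i₀ • w) - b i • (T i₀ w - b i₀ • w) := by
      rw [map_sub, map_sub, hsm, hsm, hcomm i₀ i w, smul_sub, smul_sub, smul_smul, smul_smul,
        mul_comm (b i₀) (b i)]
      abel
    rw [e2, h₀, map_zero, smul_zero, sub_zero]
  rw [hc, hsm, hlam₀, smul_smul, smul_smul, ← sub_smul] at h1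
  have h2 : c • lam = 0 := by
    have e3 : c * e₀ - b i₀ * c = -(b i₀ - e₀) * c := by ring
    rw [e3, mul_smul] at h1
    exact (smul_eq_zero.mp h1).resolve_left (neg_ne_zero.mpr hd)
  rw [h2] at hc
  exact sub_eq_zero.mp hc

end Abstract

/-! ### `lam` as an additive homomorphism -/

section Lam

variable (K : ℕ) [NeZero K]

/-- `lam` as an additive homomorphism to `ZMod 3`. -/
noncomputable def lamAdd : Additive (Gamma0 (3 * K)) →+ ZMod 3 where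
  toFun g := Multiplicative.toAdd (lam K (Additive.toMul g))
  map_zero' := by simp
  map_add' x y := by simp

theorem lamAdd_apply (γ : Gamma0 (3 * K)) : lamAdd K (Additive.ofMul γ) = lamVal K γ.1 := rfl

theorem lamAdd_gamma0 : lamAdd K (Additive.ofMul (gamma0 K)) = 1 := lamVal_gamma0 K

theorem lamAdd_nine (x : Gamma0 (9 * K)) :
    lamAdd K (Additive.ofMul (Subgroup.inclusion (Gamma0_nine_le K) x)) = 0 :=
  (lamVal_eq_zero_iff K (Gamma0_nine_le K x.2)).2 x.2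

/-- A homomorphism of `Γ₀(3K)` which vanishes on `Γ₀(9K)` is a multiple of `lam`. -/
theorem eq_smul_lamAdd (φ : Additive (Gamma0 (3 * K)) →+ ZMod 3)
    (h : ∀ x : Gamma0 (9 * K),
      φ (Additive.ofMul (Subgroup.inclusion (Gamma0_nine_le K) x)) = 0) :
    φ = φ (Additive.ofMul (gamma0 K)) • lamAdd K := by
  refine extension_unique K φ _ (fun x => ?_) ?_
  · rw [h x, AddMonoidHom.smul_apply, lamAdd_nine, smul_zero]
  · rw [AddMonoidHom.smul_apply, lamAdd_gamma0, smul_eq_mul, mul_one]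

theorem res_lamAdd : res (ZMod 3) (Gamma0_nine_le_three K) (lamAdd K) = 0 := by
  refine AddMonoidHom.ext fun a => ?_
  obtain ⟨x, rfl⟩ : ∃ g : Gamma0 (9 * K), Additive.ofMul g = a := ⟨Additive.toMul a, rfl⟩
  exact lamAdd_nine K x

theorem eq_smul_lamAdd_of_res (φ : Additive (Gamma0 (3 * K)) →+ ZMod 3)
    (h : res (ZMod 3) (Gamma0_nine_le_three K) φ = 0) :
    ∃ c : ZMod 3, φ = c • lamAdd K :=
  ⟨_, eq_smul_lamAdd K φ fun x => by
    have := congrArg (fun f : Additive (Gamma0 (9 * K)) →+ ZMod 3 => f (Additive.ofMul x)) h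
    exact this⟩

omit [NeZero K] in
theorem trace_gamma0 : (((gamma0 K : Gamma0 (3 * K)) : SL(2, ℤ)) :
    Matrix (Fin 2) (Fin 2) ℤ).trace ^ 2 = 4 := by
  show ((gamma0Mat K : SL(2, ℤ)) : Matrix (Fin 2) (Fin 2) ℤ).trace ^ 2 = 4
  simp [gamma0Mat, Matrix.trace_fin_two]

/-- **`T_ℓ lam = (ℓ + 1) lam`** for a prime `ℓ ≡ 1 mod 3K`, `ℓ ≠ 3`. -/
theorem TB_lamAdd {ℓ : ℕ} (hℓ : ℓ.Prime) (hℓN : ¬ ℓ ∣ 3 * K) (h1 : ℓ ≡ 1 [MOD 3 * K])
    (h3 : ℓ ≠ 3) :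
    TB (3 * K) (ZMod 3) hℓ hℓN (lamAdd K) = ((ℓ : ZMod 3) + 1) • lamAdd K := by
  have hres : res (ZMod 3) (Gamma0_nine_le_three K) (TB (3 * K) (ZMod 3) hℓ hℓN (lamAdd K)) = 0 := by
    rw [res_TB_nine K hℓ hℓN, res_lamAdd, map_zero]
  have h := eq_smul_lamAdd K (TB (3 * K) (ZMod 3) hℓ hℓN (lamAdd K)) (fun x => by
    have := congrArg (fun f : Additive (Gamma0 (9 * K)) →+ ZMod 3 => f (Additive.ofMul x)) hres
    exact this)
  rw [TB_zmod_three_apply_of_trace_sq hℓ hℓN h1 h3 (lamAdd K) (gamma0 K) (trace_gamma0 K),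
    lamAdd_gamma0, mul_one] at h
  exact h

end Lam

/-! ### The correction at level `3K` -/

section Corr

variable (K : ℕ) [NeZero K]

omit [NeZero K] in
theorem not_dvd_three_of_modEq_one {ℓ : ℕ} (hℓ : ℓ.Prime) (h1 : ℓ ≡ 1 [MOD 9 * K]) :
    ℓ ≡ 1 [MOD 3 * K] ∧ ¬ ℓ ∣ 3 * K ∧ ¬ ℓ ∣ 9 * K ∧ ℓ ≠ 3 := by
  have h3K : ℓ ≡ 1 [MOD 3 * K] := h1.of_dvd ⟨3, by ring⟩
  have h3 : ℓ ≡ 1 [MOD 3] := h1.of_dvd ⟨3 * K, by ring⟩
  refine ⟨h3K, not_dvd_of_modEq_one hℓ h3K, not_dvd_of_modEq_one hℓ h1, ?_⟩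
  rintro rfl
  exact absurd h3 (by decide)

/-- **AS-CORR.** -/
theorem exists_corr (b : ℕ → ZMod 3) (G : ℕ → Prop)
    (ψ : Additive (Gamma0 (9 * K)) →+ ZMod 3)
    (hψ : ∀ (ℓ : ℕ) (hℓ : ℓ.Prime) (hℓM : ¬ ℓ ∣ 9 * K), G ℓ → ℓ ≠ 3 →
      TB (9 * K) (ZMod 3) hℓ hℓM ψ = b ℓ • ψ)
    (φ : Additive (Gamma0 (3 * K)) →+ ZMod 3)
    (hφ : res (ZMod 3) (Gamma0_nine_le_three K) φ = ψ)
    {ℓ₀ : ℕ} (hℓ₀ : ℓ₀.Prime) (hG₀ : G ℓ₀) (h1 : ℓ₀ ≡ 1 [MOD 9 * K])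
    (hne : b ℓ₀ ≠ (ℓ₀ : ZMod 3) + 1) :
    ∃ φ' : Additive (Gamma0 (3 * K)) →+ ZMod 3,
      res (ZMod 3) (Gamma0_nine_le_three K) φ' = ψ ∧
      (∀ (ℓ : ℕ) (hℓ : ℓ.Prime) (hℓM : ¬ ℓ ∣ 3 * K), G ℓ →
        TB (3 * K) (ZMod 3) hℓ hℓM φ' = b ℓ • φ') ∧
      (∀ γ : Gamma0 (3 * K),
        ((γ : SL(2, ℤ)) : Matrix (Fin 2) (Fin 2) ℤ).trace ^ 2 = 4 →
          φ' (Additive.ofMul γ) = 0) := by
  obtain ⟨h3K, hn3K, hn9K, hne3⟩ := not_dvd_three_of_modEq_one K hℓ₀ h1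
  -- the index set
  let ι : Type := {ℓ : ℕ // ℓ.Prime ∧ ¬ ℓ ∣ 3 * K ∧ G ℓ}
  let T : ι → (Additive (Gamma0 (3 * K)) →+ ZMod 3) →+ (Additive (Gamma0 (3 * K)) →+ ZMod 3) :=
    fun i => TB (3 * K) (ZMod 3) i.2.1 i.2.2.1
  let T' : ι → (Additive (Gamma0 (9 * K)) →+ ZMod 3) →+ (Additive (Gamma0 (9 * K)) →+ ZMod 3) :=
    fun i => TB (9 * K) (ZMod 3) i.2.1 (not_dvd_nine_of_not_dvd_three K i.2.1 i.2.2.1)
  have hne3' : ∀ i : ι, i.1 ≠ 3 := by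
    rintro ⟨ℓ, hℓ, hℓK, -⟩ rfl
    exact hℓK (Dvd.intro K rfl)
  obtain ⟨t, ht⟩ := corr_abstract T T' (res (ZMod 3) (Gamma0_nine_le_three K))
    (fun i j v => Fermat.Agent.S59.NonMin.Geom.H98.TB_comm_TB i.2.1 i.2.2.1 j.2.1 j.2.2.1 v)
    (fun i v => res_TB_nine K i.2.1 i.2.2.1 v)
    (lamAdd K) (fun v hv => eq_smul_lamAdd_of_res K v hv) (res_lamAdd K)
    (fun i => b i.1) φ
    (fun i => by
      rw [hφ]
      exact hψ i.1 i.2.1 _ i.2.2.2 (hne3' i))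
    ⟨ℓ₀, hℓ₀, hn3K, hG₀⟩ ((ℓ₀ : ZMod 3) + 1) (TB_lamAdd K hℓ₀ hn3K h3K hne3) hne
  have hE : ∀ (ℓ : ℕ) (hℓ : ℓ.Prime) (hℓM : ¬ ℓ ∣ 3 * K), G ℓ →
      TB (3 * K) (ZMod 3) hℓ hℓM (φ + t • lamAdd K) = b ℓ • (φ + t • lamAdd K) :=
    fun ℓ hℓ hℓM hG => ht ⟨ℓ, hℓ, hℓM, hG⟩
  refine ⟨φ + t • lamAdd K, ?_, hE, ?_⟩
  · haveI : Fact (Nat.Prime 3) := ⟨Nat.prime_three⟩
    rw [map_add, ZMod.map_smul, res_lamAdd, smul_zero, add_zero, hφ]
  · intro γ hγ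
    exact eq_zero_of_TB_eq hℓ₀ hn3K h3K hne3 _ (b ℓ₀) hne (hE ℓ₀ hℓ₀ hn3K hG₀) γ hγ

end Corr

end Fermat.Agent.W.LL3.H64
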