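import Mathlib
import Fermat.Agent.W.Chain.LL3.H56_Inv
import Fermat.Agent.W.LL3.H56_EllTrace
import Fermat.Agent.W.LL3.H64_Corr

/-!
# LL3 (item 77, lowering at `3`), the Betti descent `9K → 3K` for an invariant class (helper64)

`exists_betti_three` : EXT (helper56) + AS-CORR + BDRY-PAR (helper64) + ELL (helper56) in one
statement, in the shape of `H99.BettiSys` (unfolded, eigenvalues `b : ℕ → ZMod 3`):

a nonzero class `ψ : Γ₀(9K) → ZMod 3` which kills the elements of trace `± 2`, is invariant under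
conjugation by `γ₀ = (1 0; 3K 1)`, and is an eigenvector of all `T_ℓ` (`G ℓ`, `ℓ ∤ 9K`, `ℓ ≠ 3`) with
eigenvalues `b ℓ`, where `b ℓ₀ ≠ ℓ₀ + 1` for one prime `ℓ₀ ≡ 1 mod 9K` with `G ℓ₀`, gives for even
`K` a nonzero class `v : Γ₀(3K) → ZMod 3` which kills the elements with `trace² ≤ 4` and is an
eigenvector of all `T_ℓ` (`G ℓ`, `ℓ ∤ 3K`) with the same eigenvalues.
-/

set_option autoImplicit false

namespace Fermat.Agent.W.LL3.H64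

open CongruenceSubgroup Matrix.SpecialLinearGroup ModularForm
open scoped MatrixGroups
open Fermat.Agent.Betti Fermat.Agent.W.Chain.LL3.H56 Fermat.Agent.W.LL3.H34

section Desc

variable (K : ℕ) [NeZero K]

/-- `exists_corr` with the restriction written with `Subgroup.inclusion`. -/
theorem exists_corr' (b : ℕ → ZMod 3) (G : ℕ → Prop)
    (ψ : Additive (Gamma0 (9 * K)) →+ ZMod 3)
    (hψ : ∀ (ℓ : ℕ) (hℓ : ℓ.Prime) (hℓM : ¬ ℓ ∣ 9 * K), G ℓ → ℓ ≠ 3 →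
      TB (9 * K) (ZMod 3) hℓ hℓM ψ = b ℓ • ψ)
    (φ : Additive (Gamma0 (3 * K)) →+ ZMod 3)
    (hφ : ∀ x : Gamma0 (9 * K),
      φ (Additive.ofMul (Subgroup.inclusion (Gamma0_nine_le K) x)) = ψ (Additive.ofMul x))
    {ℓ₀ : ℕ} (hℓ₀ : ℓ₀.Prime) (hG₀ : G ℓ₀) (h1 : ℓ₀ ≡ 1 [MOD 9 * K])
    (hne : b ℓ₀ ≠ (ℓ₀ : ZMod 3) + 1) :
    ∃ φ' : Additive (Gamma0 (3 * K)) →+ ZMod 3,
      (∀ x : Gamma0 (9 * K),
        φ' (Additive.ofMul (Subgroup.inclusion (Gamma0_nine_le K) x)) = ψ (Additive.ofMul x)) ∧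
      (∀ (ℓ : ℕ) (hℓ : ℓ.Prime) (hℓM : ¬ ℓ ∣ 3 * K), G ℓ →
        TB (3 * K) (ZMod 3) hℓ hℓM φ' = b ℓ • φ') ∧
      (∀ γ : Gamma0 (3 * K),
        ((γ : SL(2, ℤ)) : Matrix (Fin 2) (Fin 2) ℤ).trace ^ 2 = 4 →
          φ' (Additive.ofMul γ) = 0) := by
  have hres : res (ZMod 3) (Gamma0_nine_le_three K) φ = ψ := by
    refine AddMonoidHom.ext fun a => ?_
    obtain ⟨x, rfl⟩ : ∃ g : Gamma0 (9 * K), Additive.ofMul g = a := ⟨Additive.toMul a, rfl⟩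
    exact hφ x
  obtain ⟨φ', h1', h2', h3'⟩ := exists_corr K b G ψ hψ φ hres hℓ₀ hG₀ h1 hne
  refine ⟨φ', fun x => ?_, h2', h3'⟩
  have := congrArg (fun f : Additive (Gamma0 (9 * K)) →+ ZMod 3 => f (Additive.ofMul x)) h1'
  exact this

/-- **The Betti descent `9K → 3K`** for a `γ₀`-invariant parabolic eigenclass, `K` even. -/
theorem exists_betti_three (h2 : 2 ∣ K) (b : ℕ → ZMod 3) (G : ℕ → Prop)
    (ψ : Additive (Gamma0 (9 * K)) →+ ZMod 3) (hψ0 : ψ ≠ 0)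
    (hpar : ∀ γ : Gamma0 (9 * K),
      ((γ : SL(2, ℤ)) : Matrix (Fin 2) (Fin 2) ℤ).trace ^ 2 = 4 → ψ (Additive.ofMul γ) = 0)
    (hinv : ∀ x y : Gamma0 (9 * K), (y : SL(2, ℤ)) = gamma0Mat K * x * (gamma0Mat K)⁻¹ →
      ψ (Additive.ofMul y) = ψ (Additive.ofMul x))
    (hψ : ∀ (ℓ : ℕ) (hℓ : ℓ.Prime) (hℓM : ¬ ℓ ∣ 9 * K), G ℓ → ℓ ≠ 3 →
      TB (9 * K) (ZMod 3) hℓ hℓM ψ = b ℓ • ψ)
    {ℓ₀ : ℕ} (hℓ₀ : ℓ₀.Prime) (hG₀ : G ℓ₀) (h1 : ℓ₀ ≡ 1 [MOD 9 * K])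
    (hne : b ℓ₀ ≠ (ℓ₀ : ZMod 3) + 1) :
    ∃ v : Additive (Gamma0 (3 * K)) →+ ZMod 3, v ≠ 0 ∧
      (∀ γ : Gamma0 (3 * K),
        ((γ : SL(2, ℤ)) : Matrix (Fin 2) (Fin 2) ℤ).trace ^ 2 ≤ 4 → v (Additive.ofMul γ) = 0) ∧
      ∀ (ℓ : ℕ) (hℓ : ℓ.Prime) (hℓM : ¬ ℓ ∣ 3 * K), G ℓ → ℓ ≠ 3 →
        TB (3 * K) (ZMod 3) hℓ hℓM v = b ℓ • v := by
  obtain ⟨φ, hφ, -⟩ := exists_extension_of_parabolic K ψ hpar hinv
  obtain ⟨v, hv1, hv2, hv3⟩ := exists_corr' K b G ψ hψ φ hφ hℓ₀ hG₀ h1 hne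
  refine ⟨v, ?_, ?_, fun ℓ hℓ hℓM hG _ => hv2 ℓ hℓ hℓM hG⟩
  · intro h0
    apply hψ0
    refine AddMonoidHom.ext fun a => ?_
    obtain ⟨x, rfl⟩ : ∃ g : Gamma0 (9 * K), Additive.ofMul g = a := ⟨Additive.toMul a, rfl⟩
    rw [← hv1 x, h0]
    rfl
  · intro γ hγ
    exact Fermat.Agent.W.LL3.H56.zmod_three_map_eq_zero_of_trace_sq_le_four Nat.prime_two
      (by norm_num) (Dvd.dvd.mul_left h2 3) v hv3 γ hγ

end Desc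

end Fermat.Agent.W.LL3.H64
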