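import Mathlib.Algebra.CharP.Lemmas
import Mathlib.Algebra.Module.LinearMap.Basic
import Mathlib.Algebra.Field.Defs
import Mathlib.Tactic.Abel
import Mathlib.Tactic.Module
import Mathlib.Tactic.LinearCombination

/-!
# LL3 (item 77, lowering at `3`), leaf TWIST-ALG (helper99)

The linear algebra behind the Ash-Stevens descent `Γ₀(9K) → Γ₀(3K)` (helper85's test, point 2).

`X` is a vector space over a field `k` of characteristic `3` (think of
`Hom_par(Γ₀(9K), k)`), `w` an operator of order dividing `3` (conjugation by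
`γ₀ = (1 0; 3K 1)`), `T ℓ` operators (Hecke operators at the primes `ℓ` in a set `P`) with

* `T ℓ ∘ w = w ∘ T ℓ`      when `ℓ ≡ 1 mod 3`,
* `w ∘ T ℓ ∘ w = T ℓ`      when `ℓ ≡ 2 mod 3`   (that is `T ℓ ∘ w = w⁻¹ ∘ T ℓ`).

If `v ≠ 0` is an eigenvector of all `T ℓ` (`ℓ ∈ P`) with eigenvalues `a ℓ`, then there is a nonzero
`w`-FIXED vector `u` which is an eigenvector of all `T ℓ`, with eigenvalues EITHER `a ℓ` OR
`χ₋₃(ℓ) * a ℓ` (the twist by `ω`).  The twisted case really occurs, so this is the sharp form.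

Nothing here depends on the rest of the library (Mathlib only).
-/

set_option autoImplicit false

namespace Fermat.Agent.W.LL3.H99

/-- The sign `χ₋₃(ℓ)` with values in `k`: `1` if `ℓ ≡ 1 mod 3`, `-1` otherwise (used only at
`ℓ ≡ 1, 2 mod 3`). -/
def chi3 (k : Type*) [Field k] (ℓ : ℕ) : k := if ℓ % 3 = 1 then 1 else -1

theorem chi3_of_one (k : Type*) [Field k] {ℓ : ℕ} (h : ℓ % 3 = 1) : chi3 k ℓ = 1 := by
  simp [chi3, h]

theorem chi3_of_two (k : Type*) [Field k] {ℓ : ℕ} (h : ℓ % 3 = 2) : chi3 k ℓ = -1 := by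
  simp [chi3, h]

section

variable {k : Type*} [Field k] {X : Type*} [AddCommGroup X] [Module k X]

/-- The commutation rule of the Hecke operator `T` with the deck transformation `w`, at a prime
`ℓ`: commute if `ℓ ≡ 1 mod 3`, `w T w = T` if `ℓ ≡ 2 mod 3`. -/
def CommRule (w T : X →ₗ[k] X) (ℓ : ℕ) : Prop :=
  (ℓ % 3 = 1 ∧ ∀ x, T (w x) = w (T x)) ∨ (ℓ % 3 = 2 ∧ ∀ x, w (T (w x)) = T x)

/-- In the anti-commuting case `T (w x) = w (w (T x))`. -/
theorem T_w_of_two {w T : X →ₗ[k] X} (hw : ∀ x, w (w (w x)) = x)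
    (h : ∀ x, w (T (w x)) = T x) (x : X) : T (w x) = w (w (T x)) := by
  have := h x
  calc T (w x) = w (w (w (T (w x)))) := (hw _).symm
    _ = w (w (T x)) := by rw [this]

/-- In the anti-commuting case `T (w (w x)) = w (T x)`. -/
theorem T_w_w_of_two {w T : X →ₗ[k] X} (hw : ∀ x, w (w (w x)) = x)
    (h : ∀ x, w (T (w x)) = T x) (x : X) : T (w (w x)) = w (T x) := by
  rw [T_w_of_two hw h (w x), T_w_of_two hw h x, hw]

/-- The norm vector `v + w v + w² v` is `w`-fixed. -/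
theorem w_norm {w : X →ₗ[k] X} (hw : ∀ x, w (w (w x)) = x) (v : X) :
    w (w (w v) + w v + v) = w (w v) + w v + v := by
  rw [map_add, map_add, hw]; abel

/-- The norm vector of an eigenvector is an eigenvector with the SAME eigenvalue. -/
theorem T_norm {w T : X →ₗ[k] X} (hw : ∀ x, w (w (w x)) = x) {ℓ : ℕ}
    (h : CommRule w T ℓ) {a : k} {v : X} (hv : T v = a • v) :
    T (w (w v) + w v + v) = a • (w (w v) + w v + v) := by
  rcases h with ⟨-, h⟩ | ⟨-, h⟩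
  · simp only [map_add, h, hv, map_smul, smul_add]
  · rw [map_add, map_add, T_w_w_of_two hw h, T_w_of_two hw h, hv]
    simp only [map_smul, smul_add]
    abel

/-- If the norm vector vanishes (characteristic `3`), `w v - v` is `w`-fixed. -/
theorem w_diff [CharP k 3] {w : X →ₗ[k] X} {v : X} (h0 : w (w v) + w v + v = 0) :
    w (w v - v) = w v - v := by
  have h3 : (3 : k) = 0 := by exact_mod_cast CharP.cast_eq_zero k 3
  have h3v : (3 : k) • w v = 0 := by rw [h3, zero_smul]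
  have e : w (w v) = -(w v) - v := by
    have := h0
    rw [add_assoc, add_eq_zero_iff_eq_neg] at this
    rw [this]; abel
  rw [map_sub, e]
  have : -(w v) - v - w v - (w v - v) = -((3 : k) • w v) := by module
  have h := sub_eq_zero.mp (this.trans (by rw [h3v, neg_zero]))
  exact h

/-- If the norm vector vanishes (characteristic `3`), `w v - v` is an eigenvector with the
TWISTED eigenvalue `χ₋₃(ℓ) a`. -/
theorem T_diff [CharP k 3] {w T : X →ₗ[k] X} (hw : ∀ x, w (w (w x)) = x) {ℓ : ℕ}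
    (h : CommRule w T ℓ) {a : k} {v : X} (hv : T v = a • v)
    (h0 : w (w v) + w v + v = 0) :
    T (w v - v) = (chi3 k ℓ * a) • (w v - v) := by
  have h3 : (3 : k) = 0 := by exact_mod_cast CharP.cast_eq_zero k 3
  rcases h with ⟨h1, h⟩ | ⟨h2, h⟩
  · rw [chi3_of_one k h1, one_mul, map_sub, h, hv, map_smul, smul_sub]
  · have e : w (w v) = -(w v) - v := by
      have := h0
      rw [add_assoc, add_eq_zero_iff_eq_neg] at this
      rw [this]; abel
    rw [chi3_of_two k h2, map_sub, T_w_of_two hw h, hv, map_smul, map_smul, e]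
    have h3v : (3 : k) • (a • v) = 0 := by rw [h3, zero_smul]
    have : a • (-(w v) - v) - a • v - (-1 * a) • (w v - v) = -((3 : k) • (a • v)) := by module
    exact sub_eq_zero.mp (this.trans (by rw [h3v, neg_zero]))

/-- **TWIST-ALG.**  Characteristic `3`, `w³ = 1`, Hecke operators `T ℓ` (`ℓ ∈ P`) obeying the
commutation rule with `w`.  A nonzero simultaneous eigenvector `v` with eigenvalues `a ℓ` yields a
nonzero `w`-fixed simultaneous eigenvector `u`, with eigenvalues `a ℓ` for all `ℓ ∈ P`, or with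
eigenvalues `χ₋₃(ℓ) a ℓ` for all `ℓ ∈ P`. -/
theorem twist_alg [CharP k 3] (w : X →ₗ[k] X) (hw : ∀ x, w (w (w x)) = x)
    (P : ℕ → Prop) (T : ℕ → X →ₗ[k] X) (hT : ∀ ℓ, P ℓ → CommRule w (T ℓ) ℓ)
    (a : ℕ → k) (v : X) (hv : v ≠ 0) (hav : ∀ ℓ, P ℓ → T ℓ v = a ℓ • v) :
    ∃ u : X, u ≠ 0 ∧ w u = u ∧
      ((∀ ℓ, P ℓ → T ℓ u = a ℓ • u) ∨ (∀ ℓ, P ℓ → T ℓ u = (chi3 k ℓ * a ℓ) • u)) := by
  by_cases hN : w (w v) + w v + v = 0
  · by_cases hD : w v - v = 0
    · refine ⟨v, hv, sub_eq_zero.mp hD, Or.inl hav⟩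
    · exact ⟨w v - v, hD, w_diff hN,
        Or.inr fun ℓ hℓ => T_diff hw (hT ℓ hℓ) (hav ℓ hℓ) hN⟩
  · exact ⟨w (w v) + w v + v, hN, w_norm hw v,
      Or.inl fun ℓ hℓ => T_norm hw (hT ℓ hℓ) (hav ℓ hℓ)⟩

/-- Variant that also records WHERE the fixed vector lives: in any `w`-stable submodule
containing `v`. -/
theorem twist_alg_mem [CharP k 3] (w : X →ₗ[k] X) (hw : ∀ x, w (w (w x)) = x)
    (P : ℕ → Prop) (T : ℕ → X →ₗ[k] X) (hT : ∀ ℓ, P ℓ → CommRule w (T ℓ) ℓ)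
    (a : ℕ → k) (v : X) (hv : v ≠ 0) (hav : ∀ ℓ, P ℓ → T ℓ v = a ℓ • v)
    (Y : Submodule k X) (hY : ∀ x ∈ Y, w x ∈ Y) (hvY : v ∈ Y) :
    ∃ u : X, u ∈ Y ∧ u ≠ 0 ∧ w u = u ∧
      ((∀ ℓ, P ℓ → T ℓ u = a ℓ • u) ∨ (∀ ℓ, P ℓ → T ℓ u = (chi3 k ℓ * a ℓ) • u)) := by
  have hwv : w v ∈ Y := hY v hvY
  have hwwv : w (w v) ∈ Y := hY _ hwv
  by_cases hN : w (w v) + w v + v = 0
  · by_cases hD : w v - v = 0
    · refine ⟨v, hvY, hv, sub_eq_zero.mp hD, Or.inl hav⟩
    · exact ⟨w v - v, Y.sub_mem hwv hvY, hD, w_diff hN,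
        Or.inr fun ℓ hℓ => T_diff hw (hT ℓ hℓ) (hav ℓ hℓ) hN⟩
  · exact ⟨w (w v) + w v + v, Y.add_mem (Y.add_mem hwwv hwv) hvY, hN, w_norm hw v,
      Or.inl fun ℓ hℓ => T_norm hw (hT ℓ hℓ) (hav ℓ hℓ)⟩

end

end Fermat.Agent.W.LL3.H99
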