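import Fermat.Agent.Betti.Defs
import Fermat.Agent.W.Chain.LL3.H56_Inv
import Fermat.Agent.W.LL3.H99_TwistAlg

/-!
# LL3 (item 77, lowering at `3`), leaf CONJ (helper85)

`Γ' = Γ₀(9K)` is normal in `Γ = Γ₀(3K)`; `γ₀ = (1 0; 3K 1)`; `w` is the operator
`φ ↦ φ ∘ (x ↦ γ₀ x γ₀⁻¹)` on `Hom(Γ', A)` and `T_ℓ = TB (9K) ℓ` the Betti Hecke operator at a
prime `ℓ ∤ 9K`.  Then

* `w³ = 1` (`wConj_cube`: conjugation by `γ₀³ ∈ Γ'` is inner);
* `T_ℓ w = w T_ℓ`      if `ℓ ≡ 1 mod 3` (`TB_wConj_of_one`);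
* `w T_ℓ w = T_ℓ`      if `ℓ ≡ 2 mod 3` (`wConj_TB_wConj_of_two`),

because `γ₀ α γ₀^{∓1} ∈ Γ' α'` for the representatives `α` of `T_ℓ`, with the sign `-` exactly
when `ℓ ≡ 1 mod 3` and `+` exactly when `ℓ ≡ 2 mod 3`.

The last part packages this in the form `H99.CommRule` used by `H99.twist_alg`.
-/

set_option autoImplicit false
set_option maxHeartbeats 400000

namespace Fermat.Agent.W.LL3.H85

open Fermat.Agent.Betti Finset

section abstract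

variable {Γ G : Type*} [Group Γ] [Group G] {e : Γ →* G} {ι : Type*} [Fintype ι] {rep : ι → G}
  {A : Type*} [AddCommGroup A]

/-- Two-sided twist of a Hecke family: if `θ₀ = ` conjugation by `g₀`, `θ₁ = ` conjugation by
`g₁⁻¹` on `Γ` and `g₀ * rep i * g₁ = e (ε i) * rep (σ i)` for a bijection `σ`, then
`T (φ ∘ θ₀) = (T φ) ∘ θ₁`. -/
theorem heckeOp_twist_equiv (H : IsHeckeFamily e rep) (he : Function.Injective e)
    (g0 g1 : G) (θ0 θ1 : Γ →* Γ)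
    (h0 : ∀ γ, e (θ0 γ) = g0 * e γ * g0⁻¹)
    (h1 : ∀ γ, e (θ1 γ) = g1⁻¹ * e γ * g1)
    (σ : ι ≃ ι) (ε : ι → Γ)
    (hrep : ∀ i, g0 * rep i * g1 = e (ε i) * rep (σ i))
    (φ : Additive Γ →+ A) :
    H.heckeOp he (φ.comp (MonoidHom.toAdditive θ0))
      = (H.heckeOp he φ).comp (MonoidHom.toAdditive θ1) := by
  refine AddMonoidHom.ext fun γ => ?_
  obtain ⟨γ, rfl⟩ : ∃ g : Γ, Additive.ofMul g = γ := ⟨Additive.toMul γ, rfl⟩
  show ∑ i, φ (Additive.ofMul (θ0 (H.kap γ i))) = ∑ j, φ (Additive.ofMul (H.kap (θ1 γ) j))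
  have key : ∀ i, σ (H.perm γ i) = H.perm (θ1 γ) (σ i) ∧
      (ε i)⁻¹ * θ0 (H.kap γ i) * ε (H.perm γ i) = H.kap (θ1 γ) (σ i) := by
    intro i
    have hσ : rep (σ i) = (e (ε i))⁻¹ * (g0 * rep i * g1) := by
      rw [hrep i, inv_mul_cancel_left]
    have h2 : rep (σ i) * e (θ1 γ)
        = e ((ε i)⁻¹ * θ0 (H.kap γ i) * ε (H.perm γ i)) * rep (σ (H.perm γ i)) := by
      have h3 : rep (σ i) * e (θ1 γ)
          = (e (ε i))⁻¹ * (g0 * e (H.kap γ i) * g0⁻¹) * (g0 * rep (H.perm γ i) * g1) := by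
        rw [hσ, h1]
        have hr := H.rep_mul γ i
        have hg : (e (ε i))⁻¹ * (g0 * rep i * g1) * (g1⁻¹ * e γ * g1)
            = (e (ε i))⁻¹ * g0 * (rep i * e γ) * g1 := by group
        rw [hg, hr]
        group
      rw [h3, ← h0, hrep (H.perm γ i), map_mul, map_mul, map_inv]
      simp only [mul_assoc]
    exact ⟨(H.unique he h2).1, (H.unique he h2).2⟩
  rw [← Equiv.sum_comp σ (fun j => φ (Additive.ofMul (H.kap (θ1 γ) j)))]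
  have hterm : ∀ i, φ (Additive.ofMul (H.kap (θ1 γ) (σ i)))
      = φ (Additive.ofMul (θ0 (H.kap γ i))) - φ (Additive.ofMul (ε i))
        + φ (Additive.ofMul (ε (H.perm γ i))) := by
    intro i
    rw [← (key i).2]
    simp only [ofMul_mul, ofMul_inv, map_add, map_neg]
    abel
  simp only [hterm, sum_add_distrib, sum_sub_distrib]
  have hperm : ∑ i, φ (Additive.ofMul (ε (H.perm γ i))) = ∑ i, φ (Additive.ofMul (ε i)) :=
    Equiv.sum_comp (H.permEquiv he γ) (fun i => φ (Additive.ofMul (ε i)))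
  rw [hperm]
  abel

/-- The same with `σ` only a function: it is automatically bijective when `θ₀` is surjective. -/
theorem heckeOp_twist_fun (H : IsHeckeFamily e rep) (he : Function.Injective e)
    (g0 g1 : G) (θ0 θ1 : Γ →* Γ)
    (h0 : ∀ γ, e (θ0 γ) = g0 * e γ * g0⁻¹)
    (h1 : ∀ γ, e (θ1 γ) = g1⁻¹ * e γ * g1)
    (hθ0 : Function.Surjective θ0)
    (hrep : ∀ i, ∃ (δ : Γ) (j : ι), g0 * rep i * g1 = e δ * rep j)
    (φ : Additive Γ →+ A) :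
    H.heckeOp he (φ.comp (MonoidHom.toAdditive θ0))
      = (H.heckeOp he φ).comp (MonoidHom.toAdditive θ1) := by
  choose ε σ hεσ using hrep
  have hinj : Function.Injective σ := by
    intro i j hij
    have hi := hεσ i
    have hj := hεσ j
    rw [hij] at hi
    obtain ⟨δ, hδ⟩ := hθ0 (ε i * (ε j)⁻¹)
    have hδ' : e δ = g0⁻¹ * (e (ε i) * (e (ε j))⁻¹) * g0 := by
      have := h0 δ
      rw [hδ, map_mul, map_inv] at this
      rw [this]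
      group
    refine H.inj i j δ ?_
    have hrj : rep (σ j) = (e (ε j))⁻¹ * (g0 * rep j * g1) := by
      rw [hj, inv_mul_cancel_left]
    have hri : rep i = g0⁻¹ * (e (ε i) * rep (σ j)) * g1⁻¹ := by
      rw [← hi]
      group
    rw [hri, hrj, hδ']
    group
  have hbij : Function.Bijective σ := Finite.injective_iff_bijective.1 hinj
  exact heckeOp_twist_equiv H he g0 g1 θ0 θ1 h0 h1 (Equiv.ofBijective σ hbij) ε
    (fun i => by simpa using hεσ i) φ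

end abstract

section concrete

open CongruenceSubgroup Matrix Matrix.SpecialLinearGroup ModularForm
open scoped MatrixGroups
open P2MW.S_ModularForm_heckeT_slash_eq_self_of_mem_Gamma0.ModularForm.HeckeSlashInvariance
open Fermat.Agent.W.Chain.LL3.H56

variable (K : ℕ)

section entries

theorem heckeRep_entries_infty {ℓ : ℕ} (hℓ0 : ℓ ≠ 0) :
    ((heckeRep ℓ (OnePoint.infty) : GL (Fin 2) ℝ) : Matrix (Fin 2) (Fin 2) ℝ)
        = !![(((ℓ : ℤ)) : ℝ), ((0 : ℤ) : ℝ); 0, ((1 : ℤ) : ℝ)] := by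
  rw [heckeRep_infty, val_heckeDiagMatrix hℓ0]
  simp only [Int.cast_natCast, Int.cast_zero, Int.cast_one]

theorem heckeRep_entries_coe {ℓ : ℕ} (hℓ0 : ℓ ≠ 0) (j : ZMod ℓ) :
    ((heckeRep ℓ (j : OnePoint (ZMod ℓ)) : GL (Fin 2) ℝ) : Matrix (Fin 2) (Fin 2) ℝ)
        = !![(((1 : ℤ)) : ℝ), (((j.val : ℕ) : ℤ) : ℝ); 0, ((ℓ : ℤ) : ℝ)] := by
  rw [heckeRep_coe, val_heckeMatrix hℓ0]
  simp only [Int.cast_natCast, Int.cast_one]

/-- The entries of the representatives of `T_ℓ`. -/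
theorem heckeRep_entries {ℓ : ℕ} (hℓ0 : ℓ ≠ 0) (x : OnePoint (ZMod ℓ)) :
    ∃ a b d : ℤ, ((heckeRep ℓ x : GL (Fin 2) ℝ) : Matrix (Fin 2) (Fin 2) ℝ)
        = !![(a : ℝ), (b : ℝ); 0, (d : ℝ)] ∧ ((a = 1 ∧ d = (ℓ : ℤ)) ∨ (a = (ℓ : ℤ) ∧ d = 1)) := by
  rcases x with _ | j
  · exact ⟨(ℓ : ℤ), 0, 1, heckeRep_entries_infty hℓ0, Or.inr ⟨rfl, rfl⟩⟩
  · exact ⟨1, ((j.val : ℕ) : ℤ), (ℓ : ℤ), heckeRep_entries_coe hℓ0 j, Or.inl ⟨rfl, rfl⟩⟩

/-- **The coset computation.**  If `rep x * g = g' * rep y` with `g = (1 *; 3Ks *)`, `s = ±1` and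
`3 ∣ 1 + s ℓ`, then `γ₀ g' ∈ Γ₀(9K)`. -/
theorem gamma0_mul_mem {ℓ : ℕ} (hℓ : ℓ.Prime) (hℓN : ¬ ℓ ∣ 9 * K) (s : ℤ) (hs2 : s * s = 1)
    (hs : (3 : ℤ) ∣ 1 + s * ℓ) (g g' : SL(2, ℤ)) (hg00 : g 0 0 = 1)
    (hg10 : g 1 0 = ((3 * K : ℕ) : ℤ) * s) (x y : OnePoint (ZMod ℓ))
    (h : heckeRep ℓ x * mapGL ℝ g = mapGL ℝ g' * heckeRep ℓ y) :
    gamma0Mat K * g' ∈ Gamma0 (9 * K) := by
  obtain ⟨a, b, d, hx, had⟩ := heckeRep_entries hℓ.ne_zero x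
  obtain ⟨a', b', d', hy, had'⟩ := heckeRep_entries hℓ.ne_zero y
  have h00 := congrArg (fun M : GL (Fin 2) ℝ => (M : Matrix (Fin 2) (Fin 2) ℝ) 0 0) h
  have h10 := congrArg (fun M : GL (Fin 2) ℝ => (M : Matrix (Fin 2) (Fin 2) ℝ) 1 0) h
  simp only [Matrix.GeneralLinearGroup.coe_mul, hx, hy, Matrix.mul_apply, Fin.sum_univ_two]
    at h00 h10
  simp [hg00, hg10] at h00 h10
  have e00 : a + b * (((3 * K : ℕ) : ℤ) * s) = g' 0 0 * a' := by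
    have : ((a + b * (((3 * K : ℕ) : ℤ) * s) : ℤ) : ℝ) = ((g' 0 0 * a' : ℤ) : ℝ) := by
      push_cast
      linarith
    exact_mod_cast this
  have e10 : d * (((3 * K : ℕ) : ℤ) * s) = g' 1 0 * a' := by
    have : ((d * (((3 * K : ℕ) : ℤ) * s) : ℤ) : ℝ) = ((g' 1 0 * a' : ℤ) : ℝ) := by
      push_cast
      linarith
    exact_mod_cast this
  -- the lower left entry of `γ₀ g'`
  have hentry : (gamma0Mat K * g') 1 0 = ((3 * K : ℕ) : ℤ) * g' 0 0 + g' 1 0 := by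
    have := (Matrix.two_mul_expl (gamma0Mat K).1 g'.1).2.2.1
    simpa [gamma0Mat] using this
  apply mem_Gamma0_of_dvd
  rw [hentry]
  -- `3 ∣ a + s d`
  have h3 : (3 : ℤ) ∣ a + s * d := by
    rcases had with ⟨ha, hd⟩ | ⟨ha, hd⟩
    · rw [ha, hd]; exact hs
    · rw [ha, hd]
      have : (ℓ : ℤ) + s * 1 = s * (1 + s * ℓ) := by
        have : s * (1 + s * ℓ) = s + (s * s) * ℓ := by ring
        rw [this, hs2]; ring
      rw [this]
      exact Dvd.dvd.mul_left hs s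
  obtain ⟨t, ht⟩ := h3
  have hmul : ((9 * K : ℕ) : ℤ) ∣ a' * (((3 * K : ℕ) : ℤ) * g' 0 0 + g' 1 0) := by
    refine ⟨t + K * s * b, ?_⟩
    have e1 : a' * (((3 * K : ℕ) : ℤ) * g' 0 0 + g' 1 0)
        = ((3 * K : ℕ) : ℤ) * (g' 0 0 * a') + g' 1 0 * a' := by ring
    rw [e1, ← e00, ← e10]
    have e2 : ((3 * K : ℕ) : ℤ) * (a + b * (((3 * K : ℕ) : ℤ) * s))
          + d * (((3 * K : ℕ) : ℤ) * s)
        = ((3 * K : ℕ) : ℤ) * (a + s * d) + ((3 * K : ℕ) : ℤ) * ((3 * K : ℕ) : ℤ) * (s * b) := by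
      ring
    rw [e2, ht]
    push_cast
    ring
  -- `a'` is prime to `9K`
  have hcop : IsCoprime ((9 * K : ℕ) : ℤ) a' := by
    rcases had' with ⟨ha, -⟩ | ⟨ha, -⟩
    · rw [ha]; exact isCoprime_one_right
    · rw [ha]
      have : Nat.Coprime (9 * K) ℓ := (Nat.Coprime.symm ((Nat.Prime.coprime_iff_not_dvd hℓ).2 hℓN))
      exact Nat.isCoprime_iff_coprime.2 this
  exact hcop.dvd_of_dvd_mul_left hmul

/-- Existence of the twisted coset relation: `γ₀ * rep x * g = δ * rep y` with `δ ∈ Γ₀(9K)`. -/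
theorem exists_coset {ℓ : ℕ} (hℓ : ℓ.Prime) (hℓN : ¬ ℓ ∣ 9 * K) (s : ℤ) (hs2 : s * s = 1)
    (hs : (3 : ℤ) ∣ 1 + s * ℓ) (g : SL(2, ℤ)) (hg00 : g 0 0 = 1)
    (hg10 : g 1 0 = ((3 * K : ℕ) : ℤ) * s) (x : OnePoint (ZMod ℓ)) :
    ∃ (δ : Gamma0 (9 * K)) (y : OnePoint (ZMod ℓ)),
      mapGL ℝ (gamma0Mat K) * repT ℓ x * mapGL ℝ g = incl (9 * K) δ * repT ℓ y := by
  have : Fact ℓ.Prime := ⟨hℓ⟩
  have hℓ3 : ¬ ℓ ∣ 3 * K := fun h => hℓN (h.trans ⟨3, by ring⟩)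
  have hg : (((3 * K : ℕ)) : ℤ) ∣ g 1 0 := ⟨s, hg10⟩
  obtain ⟨g', -, h⟩ := heckeRep_mul hℓ3 g hg x
  have hmem := gamma0_mul_mem K hℓ hℓN s hs2 hs g g' hg00 hg10 x _ h
  refine ⟨⟨gamma0Mat K * g', hmem⟩, redMatrix ℓ g • x, ?_⟩
  show mapGL ℝ (gamma0Mat K) * heckeRep ℓ x * mapGL ℝ g
    = mapGL ℝ (gamma0Mat K * g') * heckeRep ℓ (redMatrix ℓ g • x)
  rw [mul_assoc, h, map_mul, mul_assoc]

theorem gamma0Mat_inv_val :
    (((gamma0Mat K)⁻¹ : SL(2, ℤ)) : Matrix (Fin 2) (Fin 2) ℤ)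
      = !![1, 0; -((3 * K : ℕ) : ℤ), 1] := by
  rw [Matrix.SpecialLinearGroup.coe_inv, Matrix.adjugate_fin_two]
  simp [gamma0Mat]

theorem three_dvd_of_mod_one {ℓ : ℕ} (h1 : ℓ % 3 = 1) : (3 : ℤ) ∣ 1 + (-1) * (ℓ : ℤ) := by
  omega

theorem three_dvd_of_mod_two {ℓ : ℕ} (h2 : ℓ % 3 = 2) : (3 : ℤ) ∣ 1 + 1 * (ℓ : ℤ) := by
  omega

end entries

variable [NeZero K]

/-- Conjugation by `g ∈ Γ₀(3K)` as an endomorphism of `Γ₀(9K)`. -/
def conjHom (g : Gamma0 (3 * K)) : Gamma0 (9 * K) →* Gamma0 (9 * K) where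
  toFun x := ⟨(g : SL(2, ℤ)) * x * (g : SL(2, ℤ))⁻¹, conj_mem_Gamma0_nine K g.2 x.2⟩
  map_one' := Subtype.ext (by simp)
  map_mul' x y := Subtype.ext (by
    show (g : SL(2, ℤ)) * ((x : SL(2, ℤ)) * y) * (g : SL(2, ℤ))⁻¹
      = ((g : SL(2, ℤ)) * x * (g : SL(2, ℤ))⁻¹) * ((g : SL(2, ℤ)) * y * (g : SL(2, ℤ))⁻¹)
    group)

theorem conjHom_coe (g : Gamma0 (3 * K)) (x : Gamma0 (9 * K)) :
    ((conjHom K g x : Gamma0 (9 * K)) : SL(2, ℤ)) = (g : SL(2, ℤ)) * x * (g : SL(2, ℤ))⁻¹ := rfl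

theorem conjHom_mul (g h : Gamma0 (3 * K)) (x : Gamma0 (9 * K)) :
    conjHom K (g * h) x = conjHom K g (conjHom K h x) := by
  apply Subtype.ext
  show ((g : SL(2, ℤ)) * h) * x * ((g : SL(2, ℤ)) * h)⁻¹
    = (g : SL(2, ℤ)) * ((h : SL(2, ℤ)) * x * (h : SL(2, ℤ))⁻¹) * (g : SL(2, ℤ))⁻¹
  group

theorem conjHom_one (x : Gamma0 (9 * K)) : conjHom K 1 x = x := by
  apply Subtype.ext
  show (1 : SL(2, ℤ)) * x * (1 : SL(2, ℤ))⁻¹ = x
  group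

theorem conjHom_inv_conjHom (g : Gamma0 (3 * K)) (x : Gamma0 (9 * K)) :
    conjHom K g⁻¹ (conjHom K g x) = x := by
  rw [← conjHom_mul, inv_mul_cancel, conjHom_one]

theorem conjHom_conjHom_inv (g : Gamma0 (3 * K)) (x : Gamma0 (9 * K)) :
    conjHom K g (conjHom K g⁻¹ x) = x := by
  rw [← conjHom_mul, mul_inv_cancel, conjHom_one]

theorem conjHom_surjective (g : Gamma0 (3 * K)) : Function.Surjective (conjHom K g) :=
  fun y => ⟨conjHom K g⁻¹ y, conjHom_conjHom_inv K g y⟩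

theorem incl_conjHom (g : Gamma0 (3 * K)) (x : Gamma0 (9 * K)) :
    incl (9 * K) (conjHom K g x)
      = mapGL ℝ (g : SL(2, ℤ)) * incl (9 * K) x * (mapGL ℝ (g : SL(2, ℤ)))⁻¹ := by
  rw [incl_apply, conjHom_coe, map_mul, map_mul, map_inv, incl_apply]

variable (A : Type*) [AddCommGroup A]

/-- The operator `w : φ ↦ φ ∘ (x ↦ γ₀ x γ₀⁻¹)` on `Hom(Γ₀(9K), A)`. -/
def wConj : (Additive (Gamma0 (9 * K)) →+ A) →+ (Additive (Gamma0 (9 * K)) →+ A) where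
  toFun φ := φ.comp (MonoidHom.toAdditive (conjHom K (gamma0 K)))
  map_zero' := AddMonoidHom.zero_comp _
  map_add' φ ψ := AddMonoidHom.add_comp φ ψ _

variable {A}

theorem wConj_apply (φ : Additive (Gamma0 (9 * K)) →+ A) (x : Gamma0 (9 * K)) :
    wConj K A φ (Additive.ofMul x) = φ (Additive.ofMul (conjHom K (gamma0 K) x)) := rfl

theorem wConj_eq (φ : Additive (Gamma0 (9 * K)) →+ A) :
    wConj K A φ = φ.comp (MonoidHom.toAdditive (conjHom K (gamma0 K))) := rfl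

/-- `γ₀³` as an element of `Γ₀(9K)`. -/
def gammaCube : Gamma0 (9 * K) := ⟨((gamma0 K) ^ 3 : Gamma0 (3 * K)), gamma0_pow_three_mem K⟩

theorem gammaCube_coe :
    ((gammaCube K : Gamma0 (9 * K)) : SL(2, ℤ)) = gamma0Mat K * gamma0Mat K * gamma0Mat K := by
  show (((gamma0 K) ^ 3 : Gamma0 (3 * K)) : SL(2, ℤ)) = _
  rw [Subgroup.coe_pow]
  show (gamma0Mat K) ^ 3 = _
  rw [pow_succ, pow_two]

theorem conjHom_cube (x : Gamma0 (9 * K)) :
    conjHom K (gamma0 K) (conjHom K (gamma0 K) (conjHom K (gamma0 K) x))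
      = gammaCube K * x * (gammaCube K)⁻¹ := by
  apply Subtype.ext
  rw [conjHom_coe, conjHom_coe, conjHom_coe, Subgroup.coe_mul, Subgroup.coe_mul,
    Subgroup.coe_inv, gammaCube_coe]
  show gamma0Mat K * (gamma0Mat K * (gamma0Mat K * x * (gamma0Mat K)⁻¹) * (gamma0Mat K)⁻¹)
      * (gamma0Mat K)⁻¹ = _
  group

/-- `w³ = 1`: conjugation by `γ₀³ ∈ Γ₀(9K)` is inner. -/
theorem wConj_cube (φ : Additive (Gamma0 (9 * K)) →+ A) :
    wConj K A (wConj K A (wConj K A φ)) = φ := by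
  refine AddMonoidHom.ext fun x => ?_
  obtain ⟨x, rfl⟩ : ∃ g : Gamma0 (9 * K), Additive.ofMul g = x := ⟨Additive.toMul x, rfl⟩
  rw [wConj_apply, wConj_apply, wConj_apply, conjHom_cube, ofMul_mul, ofMul_mul, map_add,
    map_add, ofMul_inv, map_neg]
  abel

/-- **CONJ, case `ℓ ≡ 1 mod 3`**: `T_ℓ w = w T_ℓ`. -/
theorem TB_wConj_of_one {ℓ : ℕ} (hℓ : ℓ.Prime) (hℓN : ¬ ℓ ∣ 9 * K) (h1 : ℓ % 3 = 1)
    (φ : Additive (Gamma0 (9 * K)) →+ A) :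
    TB (9 * K) A hℓ hℓN (wConj K A φ) = wConj K A (TB (9 * K) A hℓ hℓN φ) := by
  have : Fact ℓ.Prime := ⟨hℓ⟩
  rw [TB_apply, TB_apply, wConj_eq, wConj_eq]
  refine heckeOp_twist_fun (isHeckeFamily_T (9 * K) hℓN) (incl_injective (9 * K))
    (mapGL ℝ (gamma0Mat K)) (mapGL ℝ (gamma0Mat K)⁻¹)
    (conjHom K (gamma0 K)) (conjHom K (gamma0 K)) (fun γ => incl_conjHom K (gamma0 K) γ)
    (fun γ => ?_) (conjHom_surjective K (gamma0 K)) (fun x => ?_) φ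
  · rw [incl_conjHom, map_inv, inv_inv]
    rfl
  · refine exists_coset K hℓ hℓN (-1) (by norm_num) (three_dvd_of_mod_one h1) _ ?_ ?_ x
    · have := congrFun (congrFun (gamma0Mat_inv_val K) 0) 0
      simpa using this
    · have := congrFun (congrFun (gamma0Mat_inv_val K) 1) 0
      simpa using this

/-- **CONJ, case `ℓ ≡ 2 mod 3`**: `w T_ℓ w = T_ℓ`. -/
theorem wConj_TB_wConj_of_two {ℓ : ℕ} (hℓ : ℓ.Prime) (hℓN : ¬ ℓ ∣ 9 * K) (h2 : ℓ % 3 = 2)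
    (φ : Additive (Gamma0 (9 * K)) →+ A) :
    wConj K A (TB (9 * K) A hℓ hℓN (wConj K A φ)) = TB (9 * K) A hℓ hℓN φ := by
  have : Fact ℓ.Prime := ⟨hℓ⟩
  have key : TB (9 * K) A hℓ hℓN (wConj K A φ)
      = (TB (9 * K) A hℓ hℓN φ).comp (MonoidHom.toAdditive (conjHom K (gamma0 K)⁻¹)) := by
    rw [TB_apply, TB_apply, wConj_eq]
    refine heckeOp_twist_fun (isHeckeFamily_T (9 * K) hℓN) (incl_injective (9 * K))
      (mapGL ℝ (gamma0Mat K)) (mapGL ℝ (gamma0Mat K))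
      (conjHom K (gamma0 K)) (conjHom K (gamma0 K)⁻¹) (fun γ => incl_conjHom K (gamma0 K) γ)
      (fun γ => ?_) (conjHom_surjective K (gamma0 K)) (fun x => ?_) φ
    · rw [incl_conjHom, Subgroup.coe_inv, map_inv, inv_inv]
      rfl
    · refine exists_coset K hℓ hℓN 1 (by norm_num) (three_dvd_of_mod_two h2) _ ?_ ?_ x
      · simp [gamma0Mat]
      · simp [gamma0Mat]
  rw [key]
  refine AddMonoidHom.ext fun x => ?_
  obtain ⟨x, rfl⟩ : ∃ g : Gamma0 (9 * K), Additive.ofMul g = x := ⟨Additive.toMul x, rfl⟩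
  rw [wConj_apply]
  show (TB (9 * K) A hℓ hℓN φ)
      (Additive.ofMul (conjHom K (gamma0 K)⁻¹ (conjHom K (gamma0 K) x))) = _
  rw [conjHom_inv_conjHom]

/-- A `w`-fixed homomorphism is invariant under conjugation by `γ₀` (the input of
`H56.exists_extension_of_parabolic`). -/
theorem invariant_of_wConj_eq (φ : Additive (Gamma0 (9 * K)) →+ A) (h : wConj K A φ = φ) :
    ∀ x y : Gamma0 (9 * K), (y : SL(2, ℤ)) = gamma0Mat K * x * (gamma0Mat K)⁻¹ →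
      φ (Additive.ofMul y) = φ (Additive.ofMul x) := by
  intro x y hxy
  have hy : y = conjHom K (gamma0 K) x := Subtype.ext hxy
  rw [hy, ← wConj_apply, h]

/-- `w` preserves parabolic homomorphisms. -/
theorem wConj_isParabolicHom (φ : Additive (Gamma0 (9 * K)) →+ A)
    (h : ModularCurve.Period.IsParabolicHom (Gamma0 (9 * K)) φ) :
    ModularCurve.Period.IsParabolicHom (Gamma0 (9 * K)) (wConj K A φ) := by
  intro x hx
  rw [wConj_apply]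
  refine h _ ?_
  rw [conjHom_coe]
  have htr : (((gamma0 K : SL(2, ℤ)) * x * (gamma0 K : SL(2, ℤ))⁻¹ : SL(2, ℤ)) :
      Matrix (Fin 2) (Fin 2) ℤ).trace = ((x : SL(2, ℤ)) : Matrix (Fin 2) (Fin 2) ℤ).trace := by
    rw [Matrix.SpecialLinearGroup.coe_mul, Matrix.SpecialLinearGroup.coe_mul,
      Matrix.trace_mul_comm, ← Matrix.mul_assoc, ← Matrix.SpecialLinearGroup.coe_mul,
      inv_mul_cancel, Matrix.SpecialLinearGroup.coe_one, Matrix.one_mul]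
  rw [htr]
  exact hx

end concrete

section linear

open CongruenceSubgroup
open scoped MatrixGroups
open Fermat.Agent.W.Chain.LL3.H56

variable (N : ℕ) (K : ℕ) (k : Type*) [Field k] (A : Type*) [AddCommGroup A]
  [Module k A]

/-- The Betti Hecke operator `T_ℓ` of level `N` as a `k`-linear map (`0` unless `ℓ` is a prime
not dividing `N`). -/
noncomputable def TBLin (ℓ : ℕ) :
    (Additive (Gamma0 N) →+ A) →ₗ[k] (Additive (Gamma0 N) →+ A) :=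
  if h : ℓ.Prime ∧ ¬ ℓ ∣ N then
    haveI : Fact ℓ.Prime := ⟨h.1⟩
    (isHeckeFamily_T N h.2).heckeOpLin (incl_injective N) k
  else 0

theorem TBLin_apply {ℓ : ℕ} (hℓ : ℓ.Prime) (hℓN : ¬ ℓ ∣ N) (φ : Additive (Gamma0 N) →+ A) :
    TBLin N k A ℓ φ = TB N A hℓ hℓN φ := by
  unfold TBLin
  rw [dif_pos ⟨hℓ, hℓN⟩]
  rfl

theorem mod_three_of_prime {ℓ : ℕ} (hℓ : ℓ.Prime) (hℓN : ¬ ℓ ∣ 9 * K) :
    ℓ % 3 = 1 ∨ ℓ % 3 = 2 := by
  have h0 : ℓ % 3 ≠ 0 := by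
    intro h
    have hd : 3 ∣ ℓ := Nat.dvd_of_mod_eq_zero h
    rcases (Nat.dvd_prime hℓ).1 hd with h | h
    · omega
    · exact hℓN ⟨3 * K, by rw [← h]; ring⟩
  omega

variable [NeZero K]

/-- `w` as a `k`-linear map. -/
def wLin : (Additive (Gamma0 (9 * K)) →+ A) →ₗ[k] (Additive (Gamma0 (9 * K)) →+ A) where
  toFun := wConj K A
  map_add' := map_add _
  map_smul' _ _ := rfl

theorem wLin_apply (φ : Additive (Gamma0 (9 * K)) →+ A) : wLin K k A φ = wConj K A φ := rfl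

theorem wLin_cube (φ : Additive (Gamma0 (9 * K)) →+ A) :
    wLin K k A (wLin K k A (wLin K k A φ)) = φ :=
  wConj_cube K φ

/-- **CONJ**: the commutation rule of `H99.twist_alg` for `w` = conjugation by `γ₀` and the Betti
Hecke operators of level `9K`. -/
theorem commRule (ℓ : ℕ) (hℓ : ℓ.Prime) (hℓN : ¬ ℓ ∣ 9 * K) :
    H99.CommRule (wLin K k A) (TBLin (9 * K) k A ℓ) ℓ := by
  rcases mod_three_of_prime K hℓ hℓN with h | h
  · refine Or.inl ⟨h, fun φ => ?_⟩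
    rw [wLin_apply, wLin_apply, TBLin_apply _ _ _ hℓ hℓN, TBLin_apply _ _ _ hℓ hℓN]
    exact TB_wConj_of_one K hℓ hℓN h φ
  · refine Or.inr ⟨h, fun φ => ?_⟩
    rw [wLin_apply, wLin_apply, TBLin_apply _ _ _ hℓ hℓN, TBLin_apply _ _ _ hℓ hℓN]
    exact wConj_TB_wConj_of_two K hℓ hℓN h φ

end linear

end Fermat.Agent.W.LL3.H85
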