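import Fermat.Agent.W.LL3.Defs2
import Fermat.Agent.W.LL3.H99_Lift
import Fermat.Agent.W.LL3.H64_Desc
import Fermat.Agent.W.LL3.H85_Conj

/-!
# LL3 (item 77, lowering at `3`), package AS: the assembly (helper85)

`stmt_AS2 : Stmt_AS2` — the descent from level `9K` to level `3K` for even `K`, with the twist by
`χ₋₃` kept:

    ResSys a G (9K)  ⟹  ResSys a G (3K) ∨ ResSys (twist a) G (3K)     (NonEis3 a G, 2 ∣ K).

Route (all leaves landed):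
* RED (`H99.stmt_RED3`): the system occurs in `Hom(Γ₀(9K), ZMod 3)`, in a class killing `tr² ≤ 4`;
* CONJ + TWIST-ALG (`H85.commRule`, `H99.twist_alg_mem`): a nonzero parabolic class fixed by the
  conjugation by `γ₀ = (1 0; 3K 1)`, with the system `a` or `χ₋₃ a`;
* EXT + CORR + PAR + ELL (`H64.exists_betti_three`): a class of level `3K` with the same system,
  killing `tr² ≤ 4`;
* LIFT (`H99.stmt_LIFT3`): back to eigenforms.
-/

set_option autoImplicit false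
set_option maxHeartbeats 400000

open scoped MatrixGroups
open CongruenceSubgroup Matrix

namespace Fermat.Agent.W.LL3.H85

open Fermat.Agent.Betti Fermat.Agent.W.LL3 Fermat.Agent.W.Chain.LL3.H56

/-- `chi3` in `ZMod 3` is the reduction of `chiNegThree` away from `3`. -/
theorem chi3_eq_chiNegThree {ℓ : ℕ} (h : ℓ % 3 = 1 ∨ ℓ % 3 = 2) :
    H99.chi3 (ZMod 3) ℓ = ((EisensteinWeightOne.chiNegThree ℓ : ℤ) : ZMod 3) := by
  rcases h with h | h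
  · simp [H99.chi3, EisensteinWeightOne.chiNegThree, h]
  · simp [H99.chi3, EisensteinWeightOne.chiNegThree, h]

theorem ne_of_not_dvd {a : ℤ} {ℓ : ℕ} (h : ¬ (3 : ℤ) ∣ a - ((ℓ : ℤ) + 1)) :
    ((a : ℤ) : ZMod 3) ≠ (ℓ : ZMod 3) + 1 := by
  intro he
  apply h
  have : (((a - ((ℓ : ℤ) + 1) : ℤ)) : ZMod 3) = 0 := by
    push_cast
    rw [he]
    ring
  exact (ZMod.intCast_zmod_eq_zero_iff_dvd _ 3).1 this

/-- **The Betti descent**: `BettiSys a G (9K) ⟹ BettiSys a G (3K) ∨ BettiSys (twist a) G (3K)`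
for even `K` and a non-Eisenstein system. -/
theorem bettiSys_three (a : ℕ → ℤ) (G : ℕ → Prop) (K : ℕ) (hK : 0 < K) (h2 : 2 ∣ K)
    (hNE : NonEis3 a G) (h : H99.BettiSys a G (9 * K)) :
    H99.BettiSys a G (3 * K) ∨ H99.BettiSys (twist a) G (3 * K) := by
  have : NeZero K := ⟨hK.ne'⟩
  have : Fact (Nat.Prime 3) := ⟨Nat.prime_three⟩
  obtain ⟨v, hv0, hvcusp, hveig⟩ := h
  -- the non-Eisenstein prime
  obtain ⟨ℓ₀, hℓ₀, hG₀, h1, hnd⟩ := hNE (9 * K) (by omega)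
  have h1' : ℓ₀ ≡ 1 [MOD 3 * (3 * K)] := by
    have e : 3 * (3 * K) = 9 * K := by ring
    rw [e]; exact h1
  -- the twisting algebra
  let P : ℕ → Prop := fun ℓ => ℓ.Prime ∧ ¬ ℓ ∣ 9 * K ∧ G ℓ
  have hP3 : ∀ ℓ, P ℓ → ℓ ≠ 3 := by
    intro ℓ hℓ h3
    exact hℓ.2.1 ⟨3 * K, by rw [h3]; ring⟩
  obtain ⟨u, huY, hu0, hwu, hu⟩ := H99.twist_alg_mem (wLin K (ZMod 3) (ZMod 3))
    (wLin_cube K (ZMod 3) (ZMod 3)) P (TBLin (9 * K) (ZMod 3) (ZMod 3))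
    (fun ℓ hℓ => commRule K (ZMod 3) (ZMod 3) ℓ hℓ.1 hℓ.2.1)
    (fun ℓ => ((a ℓ : ℤ) : ZMod 3)) v hv0
    (fun ℓ hℓ => by
      rw [TBLin_apply _ _ _ hℓ.1 hℓ.2.1]
      exact hveig ℓ hℓ.1 hℓ.2.1 hℓ.2.2 (hP3 ℓ hℓ))
    (ModularCurve.Period.parabolicHoms (ZMod 3) (Gamma0 (9 * K)) (ZMod 3))
    (fun x hx => wConj_isParabolicHom K x hx)
    (fun γ hγ => hvcusp γ (le_of_eq hγ))
  have hinv := invariant_of_wConj_eq K u hwu
  have hpar : ∀ γ : Gamma0 (9 * K),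
      ((γ : SL(2, ℤ)) : Matrix (Fin 2) (Fin 2) ℤ).trace ^ 2 = 4 → u (Additive.ofMul γ) = 0 :=
    huY
  rcases hu with hu | hu
  · -- the system `a`
    left
    obtain ⟨v3, hv30, hv3cusp, hv3eig⟩ := H64.exists_betti_three K h2
      (fun ℓ => ((a ℓ : ℤ) : ZMod 3)) G u hu0 hpar hinv
      (fun ℓ hℓ hℓM hG _ => by
        have := hu ℓ ⟨hℓ, hℓM, hG⟩
        rwa [TBLin_apply _ _ _ hℓ hℓM] at this)
      hℓ₀ hG₀ h1 (ne_of_not_dvd hnd)
    exact ⟨v3, hv30, hv3cusp, hv3eig⟩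
  · -- the twisted system
    right
    have hb : ∀ ℓ : ℕ, ℓ.Prime → ¬ ℓ ∣ 9 * K →
        H99.chi3 (ZMod 3) ℓ * ((a ℓ : ℤ) : ZMod 3) = ((twist a ℓ : ℤ) : ZMod 3) := by
      intro ℓ hℓ hℓM
      rw [chi3_eq_chiNegThree (mod_three_of_prime K hℓ hℓM)]
      show _ = (((EisensteinWeightOne.chiNegThree ℓ * a ℓ : ℤ)) : ZMod 3)
      push_cast
      rfl
    have hne : ((twist a ℓ₀ : ℤ) : ZMod 3) ≠ (ℓ₀ : ZMod 3) + 1 := by
      have e : twist a ℓ₀ = a ℓ₀ := by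
        show EisensteinWeightOne.chiNegThree ℓ₀ * a ℓ₀ = a ℓ₀
        rw [chiNegThree_of_modEq_one h1', one_mul]
      rw [e]
      exact ne_of_not_dvd hnd
    obtain ⟨v3, hv30, hv3cusp, hv3eig⟩ := H64.exists_betti_three K h2
      (fun ℓ => ((twist a ℓ : ℤ) : ZMod 3)) G u hu0 hpar hinv
      (fun ℓ hℓ hℓM hG _ => by
        have := hu ℓ ⟨hℓ, hℓM, hG⟩
        rw [TBLin_apply _ _ _ hℓ hℓM, hb ℓ hℓ hℓM] at this
        exact this)
      hℓ₀ hG₀ h1 hne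
    exact ⟨v3, hv30, hv3cusp, hv3eig⟩

/-- **AS2**: the descent from level `9K` to level `3K` (twist kept), for even `K`. -/
theorem stmt_AS2 : Stmt_AS2 := by
  intro a G K hK h2 hNE hres
  have h9 : H99.BettiSys a G (9 * K) := H99.stmt_RED3 a G (9 * K) (by omega) hres
  rcases bettiSys_three a G K hK h2 hNE h9 with h | h
  · exact Or.inl (H99.stmt_LIFT3 a G (3 * K) (by omega) h)
  · exact Or.inr (H99.stmt_LIFT3 (twist a) G (3 * K) (by omega) h)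

end Fermat.Agent.W.LL3.H85
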