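import Fermat.Agent.W.LL3.Defs2
import Fermat.Agent.W.LL3.H85_AS2
import Fermat.Agent.W.LL3.H17_AuxWire
import Fermat.Agent.W.LL3.H69_NonEis

/-!
# W-CHAIN, gap LL3: the lowering at 3 from the exclusion of the twist alone (helper4)

The packages AS2 (`H85.stmt_AS2`, helper85 with helper56, helper64, helper99, helper34, helper17),
AUX2 (`H17.resSys_mul_two`, helper17) and NONEIS (`H69.stmt_NONEIS`, helper69) are landed and
unconditional.  Hence `Stmt_LL3` follows from `Stmt_TWX3` (the exclusion of the twisted system in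
the levels `3 * M₀`, `3 ∤ M₀`) alone.
-/

set_option autoImplicit false

namespace Fermat.Agent.W.LL3

open Fermat.Agent.W.Chain

/-- **AUX2**, unconditional (helper17). -/
theorem stmt_AUX2 : Stmt_AUX2 := fun _ _ _ hM h2 h => H17.resSys_mul_two hM h2 h

/-- **The lowering at 3 from the exclusion of the twist.** -/
theorem ll3_of_twx3 (hTWX : Stmt_TWX3) : Stmt_LL3 :=
  ll3_of_AS2 H85.stmt_AS2 stmt_AUX2 H69.stmt_NONEIS hTWX

end Fermat.Agent.W.LL3
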