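import Fermat.Agent.Betti.Family

/-!
# W-CHAIN, gap LL3, leaf BDRY / ORBIT (helper56)

Orbit form of the Betti Hecke operator of a Hecke family (`Fermat.Agent.Betti.IsHeckeFamily`):
for `σ = perm γ` one has `rep x * γ = κ_x(γ) * rep (σ x)` and `(T φ)(γ) = ∑ x, φ (κ_x(γ))`.

* `kap_pow_sum` : `φ (κ_x(γ ^ n)) = ∑ k < n, φ (κ_{σ^k x}(γ))`;
* `map_kap_of_perm_eq` : if `σ x = x` then `e (κ_x(γ)) = rep x * e γ * (rep x)⁻¹`;
* `sum_eq_sum_orbit_reps` : a sum over `ι` is the sum over a system of orbit segments;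
* `heckeOp_eq_sum_orbit_reps` : `(T φ)(γ) = ∑ s ∈ S, φ (κ_s(γ ^ n s))` for a system `S` of
  representatives of the orbits of `σ`, `n s` the length of the orbit of `s`;
* `sum_eq_zero_of_three_cycles` : if `σ³ = 1` has no fixed point and `F x + F (σ x) + F (σ² x) = 0`
  for all `x` then `∑ x, F x = 0` (no division by `3`);
* `heckeOp_eq_zero_of_cube` : if `σ³ = 1` has no fixed point and `φ (κ_x(γ ^ 3)) = 0` for all `x`,
  then `(T φ)(γ) = 0`.
-/

set_option autoImplicit false

namespace Fermat.Agent.W.LL3.H56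

open Finset Fermat.Agent.Betti

section Abstract

variable {Γ G : Type*} [Group Γ] [Group G] {e : Γ →* G} {ι : Type*} {rep : ι → G}
  (H : IsHeckeFamily e rep)

include H in
/-- `κ_x(γ ^ n)` is the product of the `κ_y(γ)` along the orbit segment of `x`. -/
theorem kap_pow_sum (he : Function.Injective e) {A : Type*} [AddCommGroup A]
    (φ : Additive Γ →+ A) (γ : Γ) (n : ℕ) (x : ι) :
    φ (Additive.ofMul (H.kap (γ ^ n) x))
      = ∑ k ∈ range n, φ (Additive.ofMul (H.kap γ ((H.perm γ)^[k] x))) := by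
  induction n with
  | zero => simp [H.kap_one he]
  | succ n ih =>
    rw [pow_succ, H.kap_mul he, ofMul_mul, map_add, ih, sum_range_succ, H.perm_pow he]

include H in
/-- At a fixed point of `perm γ` the element `κ_x(γ)` is the conjugate of `γ` by `rep x`. -/
theorem map_kap_of_perm_eq (γ : Γ) (x : ι) (h : H.perm γ x = x) :
    e (H.kap γ x) = rep x * e γ * (rep x)⁻¹ := by
  have h1 := H.rep_mul γ x
  rw [h] at h1
  rw [h1, mul_inv_cancel_right]

include H in
/-- If `rep x * e γ * (rep x)⁻¹` lies in the image of `Γ` then `x` is a fixed point of `perm γ`. -/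
theorem perm_eq_of_conj (he : Function.Injective e) (γ κ : Γ) (x : ι)
    (h : rep x * e γ = e κ * rep x) : H.perm γ x = x ∧ H.kap γ x = κ := by
  obtain ⟨h1, h2⟩ := H.unique he h
  exact ⟨h1.symm, h2.symm⟩

end Abstract

section Combinatorics

variable {ι A : Type*} [Fintype ι] [AddCommMonoid A]

/-- A sum over `ι` is the sum over a system of orbit segments of a map `σ`. -/
theorem sum_eq_sum_orbit_reps (σ : ι → ι) (S : Finset ι) (n : ι → ℕ)
    (hcover : ∀ x : ι, ∃ s ∈ S, ∃ k < n s, σ^[k] s = x)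
    (hinj : ∀ s ∈ S, ∀ s' ∈ S, ∀ k < n s, ∀ k' < n s', σ^[k] s = σ^[k'] s' → s = s' ∧ k = k')
    (F : ι → A) : ∑ x, F x = ∑ s ∈ S, ∑ k ∈ range (n s), F (σ^[k] s) := by
  classical
  rw [Finset.sum_sigma' S (fun s => range (n s)) (fun s k => F (σ^[k] s))]
  symm
  refine Finset.sum_bij (fun (a : (_ : ι) × ℕ) _ => σ^[a.2] a.1) (fun _ _ => mem_univ _) ?_ ?_
    (fun _ _ => rfl)
  · rintro ⟨s, k⟩ hs ⟨s', k'⟩ hs' hEq
    rw [mem_sigma, mem_range] at hs hs'
    obtain ⟨h1, h2⟩ := hinj s hs.1 s' hs'.1 k hs.2 k' hs'.2 hEq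
    subst h1
    subst h2
    rfl
  · intro x _
    obtain ⟨s, hs, k, hk, hx⟩ := hcover x
    exact ⟨⟨s, k⟩, by simp [hs, hk], hx⟩

/-- If `σ³ = 1` has no fixed point and `F x + F (σ x) + F (σ (σ x)) = 0` for every `x`, then
`∑ x, F x = 0`. -/
theorem sum_eq_zero_of_three_cycles (σ : ι → ι) (h3 : ∀ x, σ (σ (σ x)) = x) (hfix : ∀ x, σ x ≠ x)
    (F : ι → A) (hF : ∀ x, F x + F (σ x) + F (σ (σ x)) = 0) : ∑ x, F x = 0 := by
  classical
  -- the orbit relation
  let r : Setoid ι :=
    { r := fun x y => y = x ∨ y = σ x ∨ y = σ (σ x)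
      iseqv :=
        { refl := fun x => Or.inl rfl
          symm := by
            rintro x y (h | h | h)
            · exact Or.inl h.symm
            · exact Or.inr (Or.inr (by rw [h, h3]))
            · exact Or.inr (Or.inl (by rw [h, h3]))
          trans := by
            rintro x y z (h | h | h) (h' | h' | h')
            · exact Or.inl (by rw [h', h])
            · exact Or.inr (Or.inl (by rw [h', h]))
            · exact Or.inr (Or.inr (by rw [h', h]))
            · exact Or.inr (Or.inl (by rw [h', h]))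
            · exact Or.inr (Or.inr (by rw [h', h]))
            · exact Or.inl (by rw [h', h, h3])
            · exact Or.inr (Or.inr (by rw [h', h]))
            · exact Or.inl (by rw [h', h, h3])
            · exact Or.inr (Or.inl (by rw [h', h, h3])) } }
  rw [← Finset.sum_fiberwise (s := univ) (g := fun x => (Quotient.mk r x)) (f := F)]
  refine Finset.sum_eq_zero fun q _ => ?_
  induction q using Quotient.inductionOn with
  | _ x₀ =>
    have hset : (univ.filter fun x => Quotient.mk r x = Quotient.mk r x₀)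
        = {x₀, σ x₀, σ (σ x₀)} := by
      ext x
      simp only [mem_filter, mem_univ, true_and, mem_insert, mem_singleton]
      rw [Quotient.eq]
      constructor
      · intro h
        exact r.symm h
      · intro h
        exact r.symm h
    have h1 : x₀ ∉ ({σ x₀, σ (σ x₀)} : Finset ι) := by
      simp only [mem_insert, mem_singleton, not_or]
      refine ⟨fun h => hfix x₀ h.symm, fun h => ?_⟩
      have := congrArg σ h
      rw [h3] at this
      exact hfix x₀ this
    have h2 : σ x₀ ∉ ({σ (σ x₀)} : Finset ι) := by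
      simp only [mem_singleton]
      exact fun h => hfix (σ x₀) h.symm
    rw [hset, sum_insert h1, sum_insert h2, sum_singleton, ← add_assoc]
    exact hF x₀

end Combinatorics

section Operator

variable {Γ G : Type*} [Group Γ] [Group G] {e : Γ →* G} {ι : Type*} {rep : ι → G}
  (H : IsHeckeFamily e rep) [Fintype ι] {A : Type*} [AddCommGroup A]

/-- **ORBIT**: the Betti Hecke operator as a sum over a system of representatives of the orbits
of `perm γ`. -/
theorem heckeOp_eq_sum_orbit_reps (he : Function.Injective e) (φ : Additive Γ →+ A) (γ : Γ)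
    (S : Finset ι) (n : ι → ℕ)
    (hcover : ∀ x : ι, ∃ s ∈ S, ∃ k < n s, (H.perm γ)^[k] s = x)
    (hinj : ∀ s ∈ S, ∀ s' ∈ S, ∀ k < n s, ∀ k' < n s',
      (H.perm γ)^[k] s = (H.perm γ)^[k'] s' → s = s' ∧ k = k') :
    H.heckeOp he φ (Additive.ofMul γ) = ∑ s ∈ S, φ (Additive.ofMul (H.kap (γ ^ n s) s)) := by
  rw [IsHeckeFamily.heckeOp_apply,
    sum_eq_sum_orbit_reps (H.perm γ) S n hcover hinj
      (fun x => φ (Additive.ofMul (H.kap γ x)))]
  refine Finset.sum_congr rfl fun s _ => ?_
  rw [kap_pow_sum H he]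

/-- If `perm γ` has order `3` without fixed point and `φ (κ_x(γ ^ 3)) = 0` for every `x`, then
`(T φ)(γ) = 0`. -/
theorem heckeOp_eq_zero_of_cube (he : Function.Injective e) (φ : Additive Γ →+ A) (γ : Γ)
    (h3 : ∀ x, H.perm (γ ^ 3) x = x) (hfix : ∀ x, H.perm γ x ≠ x)
    (hφ : ∀ x, φ (Additive.ofMul (H.kap (γ ^ 3) x)) = 0) :
    H.heckeOp he φ (Additive.ofMul γ) = 0 := by
  rw [IsHeckeFamily.heckeOp_apply]
  refine sum_eq_zero_of_three_cycles (H.perm γ) (fun x => ?_) hfix _ (fun x => ?_)
  · have := h3 x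
    rw [H.perm_pow he] at this
    simpa [Function.iterate_succ_apply'] using this
  · have := hφ x
    rw [kap_pow_sum H he, sum_range_succ, sum_range_succ, sum_range_one] at this
    simpa using this

end Operator

end Fermat.Agent.W.LL3.H56
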