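import Fermat.Agent.Betti.Defs
import Fermat.Agent.GTor.H96_SL2
import Fermat.Agent.W.LL3.H56_Orbit

/-!
# W-CHAIN, gap LL3, leaf BDRY / ELL (helper56)

Elements of finite order of `Γ₀(N)` and homomorphisms `φ : Γ₀(N) → A` with `3 • A = 0`.

* `finOrder_trichotomy` : `γ ∈ SL₂(ℤ)` of finite order has `γ⁴ = 1`, or trace `1` and `γ³ = -1`,
  or trace `-1` and `γ³ = 1`;
* `not_dvd_sq_add_add_one`, `not_dvd_sq_sub_add_one` : `X² ± X + 1` has no root modulo a prime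
  `ℓ ≡ 2 mod 3`;
* `map_eq_zero_of_pow_four` : `γ⁴ = 1` and `3 • A = 0` give `φ γ = 0`;
* **route AUX** `pow_four_eq_one_of_prime_dvd`, `map_eq_zero_of_finOrder_of_prime_dvd` : if a prime
  `r ≡ 2 mod 3` divides `N`, then every element of finite order of `Γ₀(N)` has `γ⁴ = 1`, hence
  every `φ` kills the elements of finite order;
* **route N1** `TB_apply_eq_zero_of_finOrder` : for a prime `ℓ ≡ 2 mod 3`, `ℓ ∤ N`, and `g` of
  finite order with `g⁴ ≠ 1`, `(T_ℓ φ)(g) = 0` as soon as `φ (-1) = 0` (the permutation of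
  `P¹(𝔽_ℓ)` induced by `g` has order `3` and no fixed point);
  `map_eq_zero_of_finOrder_of_eigen` : hence an eigenvector of `T_ℓ` with eigenvalue prime to `3`
  kills the elements of finite order.
-/

set_option autoImplicit false

namespace Fermat.Agent.W.LL3.H56

open CongruenceSubgroup Matrix.SpecialLinearGroup ModularForm Fermat.Agent.Betti
open scoped MatrixGroups
open P2MW.S_ModularForm_heckeT_slash_eq_self_of_mem_Gamma0.ModularForm.HeckeSlashInvariance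

/-! ### Elements of finite order of `SL₂(ℤ)` -/

/-- The cube of an integer matrix of determinant one. -/
theorem cube_eq_of_det_one (M : Matrix (Fin 2) (Fin 2) ℤ) (hdet : M.det = 1) :
    M ^ 3 = (M.trace * M.trace - 1) • M - M.trace • (1 : Matrix (Fin 2) (Fin 2) ℤ) := by
  have hsq := Fermat.Agent.GTor.H96.sq_eq_trace_mul_sub_one M hdet
  have h3 : M ^ 3 = M * M * M := by rw [pow_succ, pow_two]
  rw [h3, hsq, sub_mul, Matrix.smul_mul, one_mul, hsq]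
  module

/-- An element of finite order of `SL(2, ℤ)` has `γ⁴ = 1`, or trace `1` and `γ³ = -1`, or
trace `-1` and `γ³ = 1`. -/
theorem finOrder_trichotomy (γ : SL(2, ℤ)) (h : IsOfFinOrder γ) :
    γ ^ 4 = 1 ∨ ((γ : Matrix (Fin 2) (Fin 2) ℤ).trace = 1 ∧ γ ^ 3 = -1) ∨
      ((γ : Matrix (Fin 2) (Fin 2) ℤ).trace = -1 ∧ γ ^ 3 = 1) := by
  by_cases ht : 2 ≤ |(γ : Matrix (Fin 2) (Fin 2) ℤ).trace|
  · obtain ⟨m, hm, hpow⟩ := isOfFinOrder_iff_pow_eq_one.mp h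
    rcases Fermat.Agent.GTor.H96.eq_one_or_neg_one_of_pow_eq_one γ ht hm hpow with h1 | h1
    · left; rw [h1, one_pow]
    · left
      rw [h1]
      have : (-1 : SL(2, ℤ)) ^ 4 = ((-1) ^ 2) ^ 2 := by rw [← pow_mul]
      rw [this, neg_one_sq, one_pow]
  · have ht' : |(γ : Matrix (Fin 2) (Fin 2) ℤ).trace| ≤ 1 := by omega
    rw [abs_le] at ht'
    have hsq := Fermat.Agent.GTor.H96.sq_eq_trace_mul_sub_one (γ : Matrix (Fin 2) (Fin 2) ℤ) γ.2
    have hcube := cube_eq_of_det_one (γ : Matrix (Fin 2) (Fin 2) ℤ) γ.2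
    have hcases : (γ : Matrix (Fin 2) (Fin 2) ℤ).trace = 0 ∨
        (γ : Matrix (Fin 2) (Fin 2) ℤ).trace = 1 ∨ (γ : Matrix (Fin 2) (Fin 2) ℤ).trace = -1 := by
      omega
    rcases hcases with h0 | h1 | h1
    · left
      apply Subtype.ext
      rw [Matrix.SpecialLinearGroup.coe_pow, Matrix.SpecialLinearGroup.coe_one]
      have h4 : (γ : Matrix (Fin 2) (Fin 2) ℤ) ^ 4
          = ((γ : Matrix (Fin 2) (Fin 2) ℤ) * γ) * ((γ : Matrix (Fin 2) (Fin 2) ℤ) * γ) := by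
        rw [← pow_two, ← pow_two, ← pow_mul]
      rw [h4, hsq, h0]
      simp
    · right; left
      refine ⟨h1, ?_⟩
      apply Subtype.ext
      rw [Matrix.SpecialLinearGroup.coe_pow, Matrix.SpecialLinearGroup.coe_neg,
        Matrix.SpecialLinearGroup.coe_one, hcube, h1]
      simp
    · right; right
      refine ⟨h1, ?_⟩
      apply Subtype.ext
      rw [Matrix.SpecialLinearGroup.coe_pow, Matrix.SpecialLinearGroup.coe_one, hcube, h1]
      simp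

/-! ### `X² ± X + 1` modulo a prime `ℓ ≡ 2 mod 3` -/

/-- `X² + X + 1` has no root modulo a prime `ℓ ≡ 2 mod 3`. -/
theorem not_dvd_sq_add_add_one {ℓ : ℕ} (hℓ : ℓ.Prime) (h2 : ℓ % 3 = 2) (α : ℤ) :
    ¬ (ℓ : ℤ) ∣ α ^ 2 + α + 1 := by
  intro h
  have : Fact ℓ.Prime := ⟨hℓ⟩
  have hz : ((α : ZMod ℓ)) ^ 2 + (α : ZMod ℓ) + 1 = 0 := by
    have := (ZMod.intCast_zmod_eq_zero_iff_dvd _ _).mpr h
    push_cast at this
    exact this
  set β : ZMod ℓ := (α : ZMod ℓ) with hβ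
  have hβ3 : β ^ 3 = 1 := by linear_combination (β - 1) * hz
  have hβ1 : β ≠ 1 := by
    intro h1
    rw [h1] at hz
    have h3 : ((3 : ℕ) : ZMod ℓ) = 0 := by
      push_cast
      linear_combination hz
    have hd : ℓ ∣ 3 := (ZMod.natCast_eq_zero_iff _ _).mp h3
    have : ℓ = 3 := (Nat.prime_dvd_prime_iff_eq hℓ Nat.prime_three).mp hd
    omega
  have hβ0 : β ≠ 0 := by
    intro h0
    rw [h0] at hβ3
    simp at hβ3
  have hord : orderOf β = 3 := orderOf_eq_prime hβ3 hβ1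
  have hpow : β ^ (ℓ - 1) = 1 := ZMod.pow_card_sub_one_eq_one hβ0
  have hdvd : 3 ∣ ℓ - 1 := by
    rw [← hord]
    exact orderOf_dvd_of_pow_eq_one hpow
  have := hℓ.two_le
  omega

/-- `X² - X + 1` has no root modulo a prime `ℓ ≡ 2 mod 3`. -/
theorem not_dvd_sq_sub_add_one {ℓ : ℕ} (hℓ : ℓ.Prime) (h2 : ℓ % 3 = 2) (α : ℤ) :
    ¬ (ℓ : ℤ) ∣ α ^ 2 - α + 1 := by
  have := not_dvd_sq_add_add_one hℓ h2 (-α)
  intro h
  apply this
  have e : (-α) ^ 2 + (-α) + 1 = α ^ 2 - α + 1 := by ring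
  rw [e]
  exact h

/-! ### Homomorphisms into a group killed by `3` -/

section Hom

variable {A : Type*} [AddCommGroup A]

/-- A homomorphism into a group killed by `3` kills the elements with `g⁴ = 1`. -/
theorem map_eq_zero_of_pow_four {Γ : Type*} [Group Γ] (h3 : ∀ a : A, 3 • a = 0)
    (φ : Additive Γ →+ A) (g : Γ) (hg : g ^ 4 = 1) : φ (Additive.ofMul g) = 0 := by
  have h4 : 4 • φ (Additive.ofMul g) = 0 := by
    rw [← map_nsmul, ← ofMul_pow, hg, ofMul_one, map_zero]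
  have e : 4 • φ (Additive.ofMul g) = 3 • φ (Additive.ofMul g) + φ (Additive.ofMul g) :=
    succ_nsmul _ 3
  rw [e, h3, zero_add] at h4
  exact h4

/-- In a group killed by `3`, an element killed by an integer prime to `3` is zero. -/
theorem eq_zero_of_zsmul_eq_zero (h3 : ∀ a : A, 3 • a = 0) {c : ℤ} (hc : ¬ (3 : ℤ) ∣ c) {a : A}
    (h : c • a = 0) : a = 0 := by
  have h3' : (3 : ℤ) • a = 0 := by
    have := h3 a
    rwa [← natCast_zsmul] at this
  have hcases : (∃ q : ℤ, c = 1 + q * 3) ∨ ∃ q : ℤ, c = 2 + q * 3 := by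
    have h12 : c % 3 = 1 ∨ c % 3 = 2 := by omega
    rcases h12 with h1 | h1
    · exact Or.inl ⟨c / 3, by omega⟩
    · exact Or.inr ⟨c / 3, by omega⟩
  rcases hcases with ⟨q, rfl⟩ | ⟨q, rfl⟩
  · rw [add_smul, one_smul, mul_smul, h3', smul_zero, add_zero] at h
    exact h
  · rw [add_smul, mul_smul, h3', smul_zero, add_zero] at h
    have e2 : a = (3 : ℤ) • a - (2 : ℤ) • a := by
      rw [← sub_smul]
      norm_num
    rw [e2, h3', h, sub_zero]

end Hom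

/-! ### Route AUX: a prime `r ≡ 2 mod 3` in the level -/

section Aux

variable {N : ℕ}

theorem isOfFinOrder_coe_Gamma0 (g : Gamma0 N) (hg : IsOfFinOrder g) :
    IsOfFinOrder (g : SL(2, ℤ)) := by
  obtain ⟨m, hm, hpow⟩ := isOfFinOrder_iff_pow_eq_one.mp hg
  refine isOfFinOrder_iff_pow_eq_one.mpr ⟨m, hm, ?_⟩
  rw [← Subgroup.coe_pow, hpow, Subgroup.coe_one]

/-- If a prime `r ≡ 2 mod 3` divides `N`, every element of finite order of `Γ₀(N)` has
`g⁴ = 1` (there is no element of order `3`). -/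
theorem pow_four_eq_one_of_prime_dvd {r : ℕ} (hr : r.Prime) (hr3 : r % 3 = 2) (hrN : r ∣ N)
    (g : Gamma0 N) (hg : IsOfFinOrder g) : g ^ 4 = 1 := by
  have hc : (r : ℤ) ∣ (g : SL(2, ℤ)) 1 0 :=
    (Int.natCast_dvd_natCast.mpr hrN).trans (dvd_of_mem_Gamma0 g.2)
  have hd := det_eq (g : SL(2, ℤ))
  obtain ⟨k, hk⟩ := hc
  rcases finOrder_trichotomy _ (isOfFinOrder_coe_Gamma0 g hg) with h | ⟨ht, -⟩ | ⟨ht, -⟩
  · apply Subtype.ext
    rw [Subgroup.coe_pow, h, Subgroup.coe_one]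
  · exfalso
    rw [Matrix.trace_fin_two] at ht
    apply not_dvd_sq_sub_add_one hr hr3 ((g : SL(2, ℤ)) 0 0)
    refine ⟨-((g : SL(2, ℤ)) 0 1 * k), ?_⟩
    linear_combination (-1 : ℤ) * hd - ((g : SL(2, ℤ)) 0 1 : ℤ) * hk
      + ((g : SL(2, ℤ)) 0 0 : ℤ) * ht
  · exfalso
    rw [Matrix.trace_fin_two] at ht
    apply not_dvd_sq_add_add_one hr hr3 ((g : SL(2, ℤ)) 0 0)
    refine ⟨-((g : SL(2, ℤ)) 0 1 * k), ?_⟩
    linear_combination (-1 : ℤ) * hd - ((g : SL(2, ℤ)) 0 1 : ℤ) * hk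
      + ((g : SL(2, ℤ)) 0 0 : ℤ) * ht

/-- **ELL, route AUX**: if a prime `r ≡ 2 mod 3` divides `N` and `3 • A = 0`, every homomorphism
`Γ₀(N) → A` kills the elements of finite order. -/
theorem map_eq_zero_of_finOrder_of_prime_dvd {A : Type*} [AddCommGroup A]
    (h3 : ∀ a : A, 3 • a = 0) {r : ℕ} (hr : r.Prime) (hr3 : r % 3 = 2) (hrN : r ∣ N)
    (φ : Additive (Gamma0 N) →+ A) (g : Gamma0 N) (hg : IsOfFinOrder g) :
    φ (Additive.ofMul g) = 0 :=
  map_eq_zero_of_pow_four h3 φ g (pow_four_eq_one_of_prime_dvd hr hr3 hrN g hg)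

end Aux

/-! ### Route N1: a Hecke operator `T_ℓ`, `ℓ ≡ 2 mod 3` -/

/-- A fixed coset of `g` gives a root of the characteristic polynomial of `g` modulo `ℓ`. -/
theorem exists_root_of_fixed {ℓ : ℕ} (hℓ : ℓ ≠ 0) (g κ : SL(2, ℤ)) (x : OnePoint (ZMod ℓ))
    (h : repT ℓ x * mapGL ℝ g = mapGL ℝ κ * repT ℓ x) :
    ∃ α : ℤ, (ℓ : ℤ) ∣ α ^ 2 - (g : Matrix (Fin 2) (Fin 2) ℤ).trace * α + 1 := by
  have h00 := congrArg (fun M : GL (Fin 2) ℝ => (M : Matrix (Fin 2) (Fin 2) ℝ) 0 0) h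
  have h01 := congrArg (fun M : GL (Fin 2) ℝ => (M : Matrix (Fin 2) (Fin 2) ℝ) 0 1) h
  have h10 := congrArg (fun M : GL (Fin 2) ℝ => (M : Matrix (Fin 2) (Fin 2) ℝ) 1 0) h
  have h11 := congrArg (fun M : GL (Fin 2) ℝ => (M : Matrix (Fin 2) (Fin 2) ℝ) 1 1) h
  have hdg := det_eq g
  have hdκ := det_eq κ
  have hℓ' : (ℓ : ℤ) ≠ 0 := by exact_mod_cast hℓ
  rw [Matrix.trace_fin_two]
  induction x using OnePoint.rec with
  | infty =>
    simp [hℓ, Matrix.mul_apply, Fin.sum_univ_two] at h00 h01 h10 h11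
    have h10' : (g 1 0 : ℤ) = κ 1 0 * ℓ := by exact_mod_cast h10
    refine ⟨g 0 0, -(g 0 1 * κ 1 0), ?_⟩
    linear_combination (-1 : ℤ) * hdg - (g 0 1 : ℤ) * h10'
  | coe j =>
    simp [hℓ, Matrix.mul_apply, Fin.sum_univ_two] at h00 h01 h10 h11
    have h00' : (g 0 0 : ℤ) + (j.val : ℤ) * g 1 0 = κ 0 0 := by exact_mod_cast h00
    have h10' : (ℓ : ℤ) * g 1 0 = κ 1 0 := by exact_mod_cast h10
    have h11' : (ℓ : ℤ) * g 1 1 = κ 1 0 * (j.val : ℤ) + κ 1 1 * ℓ := by exact_mod_cast h11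
    have hκ11 : (g 1 1 : ℤ) = g 1 0 * (j.val : ℤ) + κ 1 1 := by
      apply mul_left_cancel₀ hℓ'
      rw [h11', ← h10']
      ring
    refine ⟨κ 0 0, -(κ 0 1 * g 1 0), ?_⟩
    rw [hκ11]
    have e : (g 0 0 : ℤ) = κ 0 0 - (j.val : ℤ) * g 1 0 := by linarith
    rw [e]
    linear_combination (-1 : ℤ) * hdκ + (κ 0 1 : ℤ) * h10'

/-- `-1` as an element of `Γ₀(N)`. -/
def negOne (N : ℕ) : Gamma0 N := ⟨-1, by
  rw [Gamma0_mem]
  simp⟩

@[simp] theorem coe_negOne (N : ℕ) : ((negOne N : Gamma0 N) : SL(2, ℤ)) = -1 := rfl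

theorem negOne_pow_four (N : ℕ) : negOne N ^ 4 = 1 := by
  apply Subtype.ext
  rw [Subgroup.coe_pow, coe_negOne, Subgroup.coe_one]
  have : (-1 : SL(2, ℤ)) ^ 4 = ((-1) ^ 2) ^ 2 := by rw [← pow_mul]
  rw [this, neg_one_sq, one_pow]

theorem mapGL_neg_one_val :
    ((mapGL ℝ (-1 : SL(2, ℤ)) : GL (Fin 2) ℝ) : Matrix (Fin 2) (Fin 2) ℝ) = -1 := by
  ext i j
  fin_cases i <;> fin_cases j <;> simp

/-- The image of `-1` is central in `GL₂(ℝ)`. -/
theorem incl_negOne_comm (N : ℕ) (R : GL (Fin 2) ℝ) :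
    R * incl N (negOne N) = incl N (negOne N) * R := by
  rw [incl_apply, coe_negOne]
  apply Units.ext
  rw [Units.val_mul, Units.val_mul, mapGL_neg_one_val, mul_neg, neg_mul, mul_one, one_mul]

section N1

variable {N : ℕ} {A : Type*} [AddCommGroup A]

/-- **ELL, route N1, the operator**: for a prime `ℓ ≡ 2 mod 3` not dividing `N`, a homomorphism
`φ` with `φ (-1) = 0` and `g ∈ Γ₀(N)` of finite order with `g⁴ ≠ 1`: `(T_ℓ φ)(g) = 0`. -/
theorem TB_apply_eq_zero_of_finOrder {ℓ : ℕ} (hℓ : ℓ.Prime) (hℓN : ¬ ℓ ∣ N) (hℓ3 : ℓ % 3 = 2)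
    (φ : Additive (Gamma0 N) →+ A) (hneg : φ (Additive.ofMul (negOne N)) = 0)
    (g : Gamma0 N) (hg : IsOfFinOrder g) (hg4 : g ^ 4 ≠ 1) :
    TB N A hℓ hℓN φ (Additive.ofMul g) = 0 := by
  have hF : Fact ℓ.Prime := ⟨hℓ⟩
  show (isHeckeFamily_T N hℓN).heckeOp (incl_injective N) φ (Additive.ofMul g) = 0
  set H := isHeckeFamily_T N hℓN with hH
  -- the cube of `g` is central and killed by `φ`, and the characteristic polynomial has no root
  have key : ∃ ε : Gamma0 N, g ^ 3 = ε ∧ φ (Additive.ofMul ε) = 0 ∧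
      (∀ R : GL (Fin 2) ℝ, R * incl N ε = incl N ε * R) ∧
      ∀ α : ℤ, ¬ (ℓ : ℤ) ∣
        α ^ 2 - ((g : SL(2, ℤ)) : Matrix (Fin 2) (Fin 2) ℤ).trace * α + 1 := by
    rcases finOrder_trichotomy _ (isOfFinOrder_coe_Gamma0 g hg) with h | ⟨ht, h⟩ | ⟨ht, h⟩
    · exfalso
      apply hg4
      apply Subtype.ext
      rw [Subgroup.coe_pow, h, Subgroup.coe_one]
    · refine ⟨negOne N, ?_, hneg, incl_negOne_comm N, fun α hα => ?_⟩
      · apply Subtype.ext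
        rw [Subgroup.coe_pow, h, coe_negOne]
      · rw [ht, one_mul] at hα
        exact not_dvd_sq_sub_add_one hℓ hℓ3 α hα
    · refine ⟨1, ?_, ?_, fun R => ?_, fun α hα => ?_⟩
      · apply Subtype.ext
        rw [Subgroup.coe_pow, h, Subgroup.coe_one]
      · rw [ofMul_one, map_zero]
      · rw [map_one, mul_one, one_mul]
      · rw [ht] at hα
        have e : α ^ 2 - -1 * α + 1 = α ^ 2 + α + 1 := by ring
        rw [e] at hα
        exact not_dvd_sq_add_add_one hℓ hℓ3 α hα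
  obtain ⟨ε, hε, hφε, hcomm, hroot⟩ := key
  have hconj : ∀ x, H.perm (g ^ 3) x = x ∧ H.kap (g ^ 3) x = ε := fun x =>
    perm_eq_of_conj H (incl_injective N) (g ^ 3) ε x (by rw [hε]; exact hcomm _)
  refine heckeOp_eq_zero_of_cube H (incl_injective N) φ g (fun x => (hconj x).1) (fun x hx => ?_)
    (fun x => by rw [(hconj x).2]; exact hφε)
  have h1 := H.rep_mul g x
  rw [hx] at h1
  obtain ⟨α, hα⟩ := exists_root_of_fixed hℓ.ne_zero (g : SL(2, ℤ)) (H.kap g x : SL(2, ℤ)) x h1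
  exact hroot α hα

/-- **ELL, route N1**: if `3 • A = 0` and `φ` is an eigenvector of `T_ℓ`, `ℓ ≡ 2 mod 3` prime not
dividing `N`, with an eigenvalue prime to `3`, then `φ` kills the elements of finite order. -/
theorem map_eq_zero_of_finOrder_of_eigen (h3 : ∀ a : A, 3 • a = 0) {ℓ : ℕ} (hℓ : ℓ.Prime)
    (hℓN : ¬ ℓ ∣ N) (hℓ3 : ℓ % 3 = 2) (φ : Additive (Gamma0 N) →+ A) {c : ℤ}
    (hc : ¬ (3 : ℤ) ∣ c) (heig : TB N A hℓ hℓN φ = c • φ) (g : Gamma0 N) (hg : IsOfFinOrder g) :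
    φ (Additive.ofMul g) = 0 := by
  by_cases hg4 : g ^ 4 = 1
  · exact map_eq_zero_of_pow_four h3 φ g hg4
  · have hneg : φ (Additive.ofMul (negOne N)) = 0 :=
      map_eq_zero_of_pow_four h3 φ _ (negOne_pow_four N)
    have h0 := TB_apply_eq_zero_of_finOrder hℓ hℓN hℓ3 φ hneg g hg hg4
    rw [heig] at h0
    exact eq_zero_of_zsmul_eq_zero h3 hc h0

end N1

end Fermat.Agent.W.LL3.H56
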