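import Fermat.Agent.W.LL3.TwxDefs
import Fermat.Agent.Tate.H46_T1
import Fermat.Agent.Tate.T5.H4_T5

/-!
# W-CHAIN, gap LL3, package TWX, leaf W-GOOD-FLAT (helper69)

For an integral Weierstrass curve `W` with `Δ ≠ 0` and good reduction at `3`, the `3`-torsion
representation `W[3]` (the prelude's `residualGaloisRepOf`, `= S59.LL.H77.torsRep W 3`) has the
`FlatShape` of `W/LL3/TwxDefs.lean`: it is, Galois-equivariantly, the group of `ℚ̄`-points of a
finite flat cocommutative Hopf algebra over `ℤ₍₃₎`.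

Proof: the landed Tate package gives a `TateData W 3` (`Tate.H46.stmt_T1`) which is flat at `3`
(`Tate.T5.H4.stmt_T5odd`); the clause of `IsFlatAt` at the ideal `(3)` is a Hopf algebra whose
points are `V / 3 V` with the level action, and `lev 1 : V / 3 V → E[3]` is an equivariant
additive bijection (`levBar`, `levBar_injective`, `levBar_equiv`, `lev_surj`).

* `flatShape_pow_of_good` : the same for every odd prime `p` and every level `p ^ k`, for the
  torsion group itself (no `ResidualGaloisRep` packaging);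
* `flatShape_of_good` : `FlatShape (W[3])`;
* `Stmt_WGoodFlat`, `stmt_WGoodFlat`.
-/

set_option autoImplicit false

open WeierstrassCurve WeierstrassCurve.Affine WeierstrassCurve.Affine.Point

namespace Fermat.Agent.W.LL3.H69

open Fermat.Agent.W.LL3 Fermat.Agent.Tate Fermat.Agent.Tate.T5.H4

/-- `ℤ_p / (p ^ k)` is finite. -/
theorem finite_padicInt_quot_span_pow (p : ℕ) [Fact p.Prime] (k : ℕ) :
    Finite (ℤ_[p] ⧸ Ideal.span {((p : ℕ) : ℤ_[p]) ^ k}) := by
  rw [← PadicInt.ker_toZModPow]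
  exact Finite.of_injective _ (RingHom.kerLift_injective (PadicInt.toZModPow (p := p) k))

/-- The `p ^ k`-torsion of `W(ℚ̄)`, for a curve with good reduction at the odd prime `p`, is the
group of points of a finite flat cocommutative Hopf algebra over `ℤ₍ₚ₎`, Galois-equivariantly. -/
theorem flatShape_pow_of_good (W : WeierstrassCurve ℤ) (hΔ : W.Δ ≠ 0) (p : ℕ) [Fact p.Prime]
    (hp2 : p ≠ 2) (hgood : W.IsGoodPrimeFor p) (k : ℕ) :
    ∃ (H : Type) (_ : CommRing H) (_ : HopfAlgebra (GaloisRep.ratLocalizedAt p) H),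
      Module.Finite (GaloisRep.ratLocalizedAt p) H ∧
      Module.Flat (GaloisRep.ratLocalizedAt p) H ∧
      Coalgebra.IsCocomm (GaloisRep.ratLocalizedAt p) H ∧
      ∃ e : WithConv (H →ₐ[GaloisRep.ratLocalizedAt p] AlgebraicClosure ℚ) ≃
          Submodule.torsionBy ℤ (EQbar W) ((p ^ k : ℕ) : ℤ),
        (∀ f g : WithConv (H →ₐ[GaloisRep.ratLocalizedAt p] AlgebraicClosure ℚ),
          e (f * g) = e f + e g) ∧
        ∀ (σ : AlgebraicClosure ℚ ≃ₐ[ℚ] AlgebraicClosure ℚ)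
          (f g : WithConv (H →ₐ[GaloisRep.ratLocalizedAt p] AlgebraicClosure ℚ)),
          (∀ h : H, g h = σ (f h)) → e g = σ • e f := by
  obtain ⟨D⟩ := Fermat.Agent.Tate.H46.stmt_T1 W hΔ p
  obtain ⟨-, hfl⟩ := Fermat.Agent.Tate.T5.H4.stmt_T5odd W hΔ p hp2 D hgood
  obtain ⟨H, i1, i2, hfin, hflat, hco, e, hadd, heq⟩ :=
    hfl (Ideal.span {((p : ℕ) : ℤ_[p]) ^ k}) (finite_padicInt_quot_span_pow p k)
  -- the map to the torsion
  have hmem : ∀ x : D.ρ.V ⧸ pkV D k,
      levBar D k x ∈ Submodule.torsionBy ℤ (EQbar W) ((p ^ k : ℕ) : ℤ) := by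
    intro x
    rw [Submodule.mem_torsionBy_iff, Nat.cast_smul_eq_nsmul]
    exact levBar_tors D k x
  let ψ : (D.ρ.V ⧸ pkV D k) → Submodule.torsionBy ℤ (EQbar W) ((p ^ k : ℕ) : ℤ) :=
    fun x => ⟨levBar D k x, hmem x⟩
  have hψinj : Function.Injective ψ := by
    intro x y hxy
    exact levBar_injective D k (congrArg Subtype.val hxy)
  have hψsurj : Function.Surjective ψ := by
    rintro ⟨y, hy⟩
    rw [Submodule.mem_torsionBy_iff, Nat.cast_smul_eq_nsmul] at hy
    obtain ⟨v, hv⟩ := D.lev_surj k y hy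
    exact ⟨Submodule.Quotient.mk v, Subtype.ext hv⟩
  refine ⟨H, i1, i2, hfin, hflat, hco, e.trans (Equiv.ofBijective ψ ⟨hψinj, hψsurj⟩), ?_, ?_⟩
  · intro f g
    apply Subtype.ext
    show levBar D k (e (f * g)) = levBar D k (e f) + levBar D k (e g)
    rw [hadd f g, map_add]
  · intro σ f g hfg
    apply Subtype.ext
    show levBar D k (e g) = σ • levBar D k (e f)
    rw [heq σ f g hfg]
    exact levBar_equiv D k σ (e f)

/-- **W-GOOD-FLAT**: `W[3]` is flat at `3` when `W` has good reduction at `3`. -/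
theorem flatShape_of_good (W : WeierstrassCurve ℤ) (hΔ : W.Δ ≠ 0) (hgood : W.IsGoodPrimeFor 3)
    (hcard : Nat.card (Submodule.torsionBy ℤ
      ((W.map (Int.castRingHom ℚ))⁄(AlgebraicClosure ℚ)).Point (3 : ℕ)) = 3 ^ 2)
    (hker : GaloisFactorsThroughFiniteLevel
      (WeierstrassCurve.Affine.Point.galoisRepModuleEnd (K := AlgebraicClosure ℚ) ℚ
        (W.map (Int.castRingHom ℚ)) 3)) :
    FlatShape ((W.map (Int.castRingHom ℚ)).residualGaloisRepOf 3 hcard hker) := by
  obtain ⟨H, i1, i2, hfin, hflat, hco, e, hadd, heq⟩ :=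
    flatShape_pow_of_good W hΔ 3 (by norm_num) hgood 1
  have h31 : ((3 ^ 1 : ℕ) : ℤ) = ((3 : ℕ) : ℤ) := by norm_num
  refine ⟨H, i1, i2, hfin, hflat, hco,
    e.trans (Equiv.subtypeEquivProp (by rw [h31])), ?_, ?_⟩
  · intro f g
    apply Subtype.ext
    show ((e (f * g) : Submodule.torsionBy ℤ (EQbar W) ((3 ^ 1 : ℕ) : ℤ)) : EQbar W) =
      ((e f : Submodule.torsionBy ℤ (EQbar W) ((3 ^ 1 : ℕ) : ℤ)) : EQbar W) +
        ((e g : Submodule.torsionBy ℤ (EQbar W) ((3 ^ 1 : ℕ) : ℤ)) : EQbar W)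
    rw [hadd f g]
    rfl
  · intro σ f g hfg
    apply Subtype.ext
    show ((e g : Submodule.torsionBy ℤ (EQbar W) ((3 ^ 1 : ℕ) : ℤ)) : EQbar W) =
      σ • ((e f : Submodule.torsionBy ℤ (EQbar W) ((3 ^ 1 : ℕ) : ℤ)) : EQbar W)
    rw [heq σ f g hfg]
    rfl

/-- The statement of the leaf. -/
def Stmt_WGoodFlat : Prop :=
  ∀ W : WeierstrassCurve ℤ, W.Δ ≠ 0 → W.IsGoodPrimeFor 3 →
    ∀ (hcard : Nat.card (Submodule.torsionBy ℤ
        ((W.map (Int.castRingHom ℚ))⁄(AlgebraicClosure ℚ)).Point (3 : ℕ)) = 3 ^ 2)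
      (hker : GaloisFactorsThroughFiniteLevel
        (WeierstrassCurve.Affine.Point.galoisRepModuleEnd (K := AlgebraicClosure ℚ) ℚ
          (W.map (Int.castRingHom ℚ)) 3)),
      FlatShape ((W.map (Int.castRingHom ℚ)).residualGaloisRepOf 3 hcard hker)

theorem stmt_WGoodFlat : Stmt_WGoodFlat :=
  fun W hΔ hgood hcard hker => flatShape_of_good W hΔ hgood hcard hker

end Fermat.Agent.W.LL3.H69
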