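import Mathlib
import Fermat.Agent.Betti.Defs

/-!
# W-CHAIN, gap LL3, leaf RES (helper72)

Restriction of characters from `Γ₀(M)` to a smaller group `Γ₀(M') ≤ Γ₀(M)` commutes with the
Betti Hecke operators `TB ℓ` (`ℓ ∤ M`, `ℓ ∤ M'`) and `UB ℓ` (`ℓ ∣ M`, `ℓ ∣ M'`): the two operators
are defined with the SAME coset representatives, and the decomposition
`rep x * γ = κ * rep y` is unique in the big group.

* `heckeOp_res` : the abstract statement for two Hecke families with the same representatives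
  for `Γ' → Γ → G`;
* `resHom h φ` : the restriction of `φ : Γ₀(M) → A` along `h : Γ₀(M') ≤ Γ₀(M)`;
* `TB_res`, `UB_res` : `res (TB_M φ) = TB_M' (res φ)`, `res (UB_M φ) = UB_M' (res φ)`;
* `TB_res_nine` : the case `Γ₀(9K) ≤ Γ₀(3K)` of the plan (`NOTES/plan/W_LL3.md`, leaf RES),
  for any proof of the inclusion.
-/

set_option autoImplicit false

namespace Fermat.Agent.W.LL3.H72

open CongruenceSubgroup Fermat.Agent.Betti
open scoped MatrixGroups

section abstract

variable {Γ Γ' G : Type*} [Group Γ] [Group Γ'] [Group G] {e : Γ →* G} {e' : Γ' →* G}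
  {ι : Type*} {rep : ι → G}

/-- Two Hecke families with the same representatives for `Γ' → Γ → G`: the permutations and the
elements `κ` agree. -/
theorem perm_kap_res (i : Γ' →* Γ) (hi : ∀ γ, e' γ = e (i γ))
    (H : IsHeckeFamily e rep) (H' : IsHeckeFamily e' rep) (he : Function.Injective e)
    (γ : Γ') (x : ι) :
    H'.perm γ x = H.perm (i γ) x ∧ i (H'.kap γ x) = H.kap (i γ) x := by
  have h1 := H'.rep_mul γ x
  rw [hi, hi] at h1
  exact H.unique he h1

variable [Fintype ι] {A : Type*} [AddCommGroup A]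

/-- **RES (abstract)**: restriction commutes with the Hecke operators of two Hecke families
with the same representatives. -/
theorem heckeOp_res (i : Γ' →* Γ) (hi : ∀ γ, e' γ = e (i γ))
    (H : IsHeckeFamily e rep) (H' : IsHeckeFamily e' rep) (he : Function.Injective e)
    (he' : Function.Injective e') (φ : Additive Γ →+ A) :
    (H.heckeOp he φ).comp (MonoidHom.toAdditive i)
      = H'.heckeOp he' (φ.comp (MonoidHom.toAdditive i)) := by
  refine AddMonoidHom.ext fun γ => ?_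
  obtain ⟨γ, rfl⟩ : ∃ g : Γ', Additive.ofMul g = γ := ⟨Additive.toMul γ, rfl⟩
  show ∑ x, φ (Additive.ofMul (H.kap (i γ) x)) = ∑ x, φ (Additive.ofMul (i (H'.kap γ x)))
  refine Finset.sum_congr rfl fun x _ => ?_
  rw [(perm_kap_res i hi H H' he γ x).2]

end abstract

section gamma

variable {M M' : ℕ} {A : Type*} [AddCommGroup A]

/-- Restriction of a character of `Γ₀(M)` to `Γ₀(M') ≤ Γ₀(M)`. -/
def resHom (h : Gamma0 M' ≤ Gamma0 M) (φ : Additive (Gamma0 M) →+ A) :
    Additive (Gamma0 M') →+ A :=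
  φ.comp (MonoidHom.toAdditive (Subgroup.inclusion h))

@[simp] theorem resHom_apply (h : Gamma0 M' ≤ Gamma0 M) (φ : Additive (Gamma0 M) →+ A)
    (x : Gamma0 M') :
    resHom h φ (Additive.ofMul x) = φ (Additive.ofMul (Subgroup.inclusion h x)) := rfl

theorem resHom_add (h : Gamma0 M' ≤ Gamma0 M) (φ ψ : Additive (Gamma0 M) →+ A) :
    resHom h (φ + ψ) = resHom h φ + resHom h ψ := rfl

theorem resHom_zero (h : Gamma0 M' ≤ Gamma0 M) :
    resHom h (0 : Additive (Gamma0 M) →+ A) = 0 := rfl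

theorem resHom_smul {R : Type*} [Semiring R] [Module R A] (h : Gamma0 M' ≤ Gamma0 M) (c : R)
    (φ : Additive (Gamma0 M) →+ A) :
    resHom h (c • φ) = c • resHom h φ := rfl

theorem incl_inclusion (h : Gamma0 M' ≤ Gamma0 M) (γ : Gamma0 M') :
    incl M' γ = incl M (Subgroup.inclusion h γ) := rfl

/-- **RES** for `T_ℓ`: restriction from `Γ₀(M)` to `Γ₀(M')` commutes with `TB ℓ`, `ℓ ∤ M`,
`ℓ ∤ M'`. -/
theorem TB_res (h : Gamma0 M' ≤ Gamma0 M) {p : ℕ} (hp : p.Prime) (hpM : ¬ p ∣ M)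
    (hpM' : ¬ p ∣ M') (φ : Additive (Gamma0 M) →+ A) :
    resHom h (TB M A hp hpM φ) = TB M' A hp hpM' (resHom h φ) := by
  have : Fact p.Prime := ⟨hp⟩
  exact heckeOp_res (Subgroup.inclusion h) (incl_inclusion h) (isHeckeFamily_T M hpM)
    (isHeckeFamily_T M' hpM') (incl_injective M) (incl_injective M') φ

/-- **RES** for `T_ℓ`, pointwise. -/
theorem TB_res_apply (h : Gamma0 M' ≤ Gamma0 M) {p : ℕ} (hp : p.Prime) (hpM : ¬ p ∣ M)
    (hpM' : ¬ p ∣ M') (φ : Additive (Gamma0 M) →+ A) (x : Gamma0 M') :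
    TB M A hp hpM φ (Additive.ofMul (Subgroup.inclusion h x))
      = TB M' A hp hpM' (resHom h φ) (Additive.ofMul x) := by
  rw [← TB_res h hp hpM hpM' φ]
  rfl

/-- **RES** for `U_ℓ`: restriction from `Γ₀(M)` to `Γ₀(M')` commutes with `UB ℓ`, `ℓ ∣ M`,
`ℓ ∣ M'`. -/
theorem UB_res [NeZero M] [NeZero M'] (h : Gamma0 M' ≤ Gamma0 M) {p : ℕ} (hpM : p ∣ M)
    (hpM' : p ∣ M') (φ : Additive (Gamma0 M) →+ A) :
    resHom h (UB M A hpM φ) = UB M' A hpM' (resHom h φ) := by
  have : NeZero p := neZero_of_dvd hpM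
  exact heckeOp_res (Subgroup.inclusion h) (incl_inclusion h) (isHeckeFamily_U M hpM)
    (isHeckeFamily_U M' hpM') (incl_injective M) (incl_injective M') φ

/-- `Γ₀(M') ≤ Γ₀(M)` for `M ∣ M'`. -/
theorem Gamma0_le_of_dvd' (h : M ∣ M') : Gamma0 M' ≤ Gamma0 M := by
  intro g hg
  exact mem_Gamma0_of_dvd ((Int.natCast_dvd_natCast.mpr h).trans (dvd_of_mem_Gamma0 hg))

/-- A prime `ℓ` divides `9K` iff it divides `3K`. -/
theorem prime_dvd_nine_mul_iff {ℓ : ℕ} (hℓ : ℓ.Prime) (K : ℕ) : ℓ ∣ 9 * K ↔ ℓ ∣ 3 * K := by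
  constructor
  · intro h
    rcases (Nat.Prime.dvd_mul hℓ).1 h with h9 | hK
    · have h3 : ℓ ∣ 3 := by
        have : ℓ ∣ 3 ^ 2 := by norm_num; exact h9
        exact hℓ.dvd_of_dvd_pow this
      exact h3.trans (Dvd.intro K rfl)
    · exact hK.trans (Dvd.intro_left 3 rfl)
  · intro h
    exact h.trans ⟨3, by ring⟩

/-- **RES** in the form of the plan: `Γ' = Γ₀(9K) ≤ Γ = Γ₀(3K)`, `ℓ ∤ 3K` prime, any proof `h` of
the inclusion. -/
theorem TB_res_nine (K : ℕ) (h : Gamma0 (9 * K) ≤ Gamma0 (3 * K)) {ℓ : ℕ} (hℓ : ℓ.Prime)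
    (hℓK : ¬ ℓ ∣ 3 * K) (φ : Additive (Gamma0 (3 * K)) →+ A) :
    resHom h (TB (3 * K) A hℓ hℓK φ)
      = TB (9 * K) A hℓ (fun h9 => hℓK ((prime_dvd_nine_mul_iff hℓ K).1 h9)) (resHom h φ) :=
  TB_res h hℓ hℓK _ φ

/-- Restriction is injective on characters that vanish on a set of coset representatives:
in particular `resHom h φ = 0` and `φ = 0` on representatives of `Γ₀(M)/Γ₀(M')` give `φ = 0`. -/
theorem eq_zero_of_resHom_eq_zero (h : Gamma0 M' ≤ Gamma0 M) (φ : Additive (Gamma0 M) →+ A)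
    (hres : resHom h φ = 0) (S : Set (Gamma0 M))
    (hS : ∀ γ : Gamma0 M, ∃ s ∈ S, ∃ x : Gamma0 M', γ = s * Subgroup.inclusion h x)
    (h0 : ∀ s ∈ S, φ (Additive.ofMul s) = 0) : φ = 0 := by
  refine AddMonoidHom.ext fun a => ?_
  obtain ⟨s, hs, x, hx⟩ := hS (Additive.toMul a)
  have ha : a = Additive.ofMul s + Additive.ofMul (Subgroup.inclusion h x) := by
    show Additive.ofMul (Additive.toMul a) = _
    rw [hx, ofMul_mul]
  have hx0 : φ (Additive.ofMul (Subgroup.inclusion h x)) = 0 := by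
    have := congrArg (fun ψ : Additive (Gamma0 M') →+ A => ψ (Additive.ofMul x)) hres
    simpa using this
  rw [ha, map_add, h0 s hs, hx0, add_zero]
  rfl

end gamma

end Fermat.Agent.W.LL3.H72
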