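import Fermat.Agent.W.LL3.H88_GalIso
import Fermat.Agent.W.LL3.TwxDefs
import Fermat.Agent.Lib.FrobDensity.H47_Bridge2

/-!
# W-CHAIN, gap LL3, package TWX, leaf GAL-ISO over `ZMod 3` (helper88)

The form of GAL-ISO consumed by the TWX-LOC wiring: for a two-dimensional `𝔽₃`-representation `U`
of `G_ℚ` with the Frobenius traces AND determinants of the twisted system of `W` (`W[3]`
irreducible) there is a linear equivalence `e : U.V ≃ W[3]` with
`e (U.ρ σ u) = omega3 σ • (σ • e u)`.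

* `FrobTwist W U` : `TracesTwist W U` together with `det (U.ρ Frob_ℓ) = ℓ`.
* `stmt_GALISO3 : Stmt_GALISO3`.
* `frobTwist_torsTw` : `W[3] ⊗ ω` itself has the twisted traces and determinants
  (so it may be used as the `U` of `Stmt_LOC3h`).

The determinant is NEEDED with the existence form of Frobenius density (`σ ^ j = g` on a finite
level): traces at `σ` alone do not give traces at `σ ^ j`.
-/

set_option autoImplicit false
set_option linter.unusedSectionVars false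
set_option linter.unusedVariables false

open Polynomial WeierstrassCurve WeierstrassCurve.Affine

namespace Fermat.Agent.W.LL3.H88

open Fermat.Agent.W.LL3

local notation "GQ" => (AlgebraicClosure ℚ ≃ₐ[ℚ] AlgebraicClosure ℚ)

/-- `U` has the Frobenius traces and determinants of the twisted system of `W` outside a finite
set of primes. -/
def FrobTwist (W : WeierstrassCurve ℤ) (U : ResidualGaloisRep (ZMod 3)) : Prop :=
  ∃ S : Finset ℕ, ∀ ℓ : ℕ, ℓ.Prime → ℓ ∉ S →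
    ∀ A : ValuationSubring (AlgebraicClosure ℚ), A.LiesOverPrime ℓ →
      ∀ σ : GQ, A.IsFrobeniusAt σ ℓ →
        LinearMap.trace (ZMod 3) U.V (U.ρ σ) =
            ((EisensteinWeightOne.chiNegThree ℓ * W.apOfModel ℓ : ℤ) : ZMod 3) ∧
          LinearMap.det (U.ρ σ) = (ℓ : ZMod 3)

theorem FrobTwist.tracesTwist {W : WeierstrassCurve ℤ} {U : ResidualGaloisRep (ZMod 3)}
    (h : FrobTwist W U) : TracesTwist W U := by
  obtain ⟨S, hS⟩ := h
  exact ⟨S, fun ℓ hℓ hℓS A hA σ hσ => (hS ℓ hℓ hℓS A hA σ hσ).1⟩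

/-- The two forms of the mod-3 cyclotomic character agree. -/
theorem omega3_eq (σ : GQ) :
    ((omega3 σ : (ZMod 3)ˣ) : ZMod 3) = Fermat.Agent.W.LL3.omega3 σ :=
  rfl

/-- **GAL-ISO over `ZMod 3`.** -/
def Stmt_GALISO3 : Prop :=
  ∀ (W : WeierstrassCurve ℤ), W.Δ ≠ 0 → W.ModRepIsIrreducible 3 →
    ∀ U : ResidualGaloisRep (ZMod 3), FrobTwist W U →
      ∃ e : U.V ≃ₗ[ZMod 3] Submodule.torsionBy ℤ
          ((W.map (Int.castRingHom ℚ))⁄(AlgebraicClosure ℚ)).Point (3 : ℕ),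
        ∀ (σ : GQ) (u : U.V), e (U.ρ σ u) = Fermat.Agent.W.LL3.omega3 σ • (σ • e u)

/-- `W[3] ⊗ ω` has the twisted Frobenius traces and determinants. -/
theorem frobTwist_torsTw (W : WeierstrassCurve ℤ) (hΔ : W.Δ ≠ 0) :
    FrobTwist W (torsTw W hΔ) := by
  classical
  refine ⟨insert 3 W.Δ.natAbs.primeFactors, fun ℓ hℓ hℓS A hA σ hσ => ?_⟩
  have hℓ3 : ℓ ≠ 3 := fun h => hℓS (h ▸ Finset.mem_insert_self _ _)
  have hgood : W.IsGoodPrimeFor ℓ := by
    intro hdvd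
    refine hℓS (Finset.mem_insert_of_mem (Nat.mem_primeFactors.2 ⟨hℓ, ?_, ?_⟩))
    · exact Int.natCast_dvd.1 hdvd
    · exact Int.natAbs_ne_zero.2 hΔ
  have hcp := charpoly_torsTw W hΔ ℓ hℓ hℓ3 hgood A hA σ hσ
  rw [Fermat.Agent.R.H91.charpoly_eq_of_finrank_two (torsTw W hΔ).finrank_eq] at hcp
  -- compare coefficients
  have h1 := congrArg (fun p : (ZMod 3)[X] => p.coeff 1) hcp
  have h0 := congrArg (fun p : (ZMod 3)[X] => p.coeff 0) hcp
  simp only [coeff_add, coeff_sub, coeff_X_pow, coeff_C_mul, coeff_X, coeff_C] at h1 h0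
  norm_num at h1 h0
  exact ⟨h1, h0⟩

theorem stmt_GALISO3 : Stmt_GALISO3 := by
  intro W hΔ h3 U hU
  classical
  obtain ⟨S, hS⟩ := hU
  have hequiv : U.IsEquiv (torsTw W hΔ) := by
    refine Fermat.Agent.S59.Datum.H57.stmt_ResEq (ZMod 3) U _
      (S ∪ insert 3 W.Δ.natAbs.primeFactors) (absIrr_torsTw W hΔ h3) ?_
    intro ℓ hℓ hℓS B hB σ hσ
    have hℓS' : ℓ ∉ S := fun h => hℓS (Finset.mem_union_left _ h)
    have hℓ3 : ℓ ≠ 3 := fun h =>
      hℓS (Finset.mem_union_right _ (h ▸ Finset.mem_insert_self _ _))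
    have hgood : W.IsGoodPrimeFor ℓ := by
      intro hdvd
      refine hℓS (Finset.mem_union_right _ (Finset.mem_insert_of_mem
        (Nat.mem_primeFactors.2 ⟨hℓ, ?_, ?_⟩)))
      · exact Int.natCast_dvd.1 hdvd
      · exact Int.natAbs_ne_zero.2 hΔ
    obtain ⟨htr, hdet⟩ := hS ℓ hℓ hℓS' B hB σ hσ
    rw [charpoly_torsTw W hΔ ℓ hℓ hℓ3 hgood B hB σ hσ,
      Fermat.Agent.R.H91.charpoly_eq_of_finrank_two U.finrank_eq, htr, hdet]
    rfl
  obtain ⟨e⟩ := hequiv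
  refine ⟨(show U.V ≃ₗ[ZMod 3] Submodule.torsionBy ℤ
      ((W.map (Int.castRingHom ℚ))⁄(AlgebraicClosure ℚ)).Point (3 : ℕ) from e.toLinearEquiv),
    fun σ u => ?_⟩
  exact e.map_apply σ u

/-! ### From traces to determinants (no Chebotarev, only Frobenius density) -/

/-- A residual representation takes the same value at two elements which agree on a field
containing a finite level. -/
theorem rho_eq_of_eqOn {k : Type} [Field k] (ρ : ResidualGaloisRep k)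
    (L₀ L : IntermediateField ℚ (AlgebraicClosure ℚ)) (hL : L₀ ≤ L)
    (h₀ : ∀ σ : GQ, (∀ x ∈ L₀, σ x = x) → ρ.ρ σ = 1) (g h : GQ)
    (hgh : ∀ x ∈ L, g x = h x) : ρ.ρ g = ρ.ρ h := by
  have hτ : ∀ x ∈ L₀, (g⁻¹ * h) x = x := by
    intro x hx
    rw [AlgEquiv.mul_apply, ← hgh x (hL hx)]
    exact AlgEquiv.symm_apply_apply g x
  have h1 : g * (g⁻¹ * h) = h := mul_inv_cancel_left g h
  rw [← h1, map_mul, h₀ _ hτ, mul_one]

theorem det_rho_ne_zero {k : Type} [Field k] (ρ : ResidualGaloisRep k) (σ : GQ) :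
    LinearMap.det (ρ.ρ σ) ≠ 0 := by
  intro h0
  have h1 : LinearMap.det (ρ.ρ σ) * LinearMap.det (ρ.ρ σ⁻¹) = 1 := by
    rw [← map_mul, ← map_mul, mul_inv_cancel, map_one, map_one]
  rw [h0, zero_mul] at h1
  exact zero_ne_one h1

theorem zmod3_sq_eq_one {x : ZMod 3} (hx : x ≠ 0) : x ^ 2 = 1 := by
  revert hx
  revert x
  decide

/-- **Traces give determinants.**  With the two-sided existence form of Frobenius density:
`τ = (σ²)^i` is a Frobenius element with `τ ^ j = σ²`; its determinant is `1` in both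
representations, so the characteristic polynomials at `τ`, hence at `σ²`, agree, and
`tr (A²) = (tr A)² - 2 det A` gives the determinant at `σ`. -/
theorem frobTwist_of_tracesTwist (W : WeierstrassCurve ℤ) (hΔ : W.Δ ≠ 0)
    (U : ResidualGaloisRep (ZMod 3)) (hU : TracesTwist W U) : FrobTwist W U := by
  classical
  obtain ⟨S, hS⟩ := hU
  obtain ⟨S₁, hS₁⟩ := frobTwist_torsTw W hΔ
  refine ⟨S ∪ S₁, fun ℓ hℓ hℓS A hA σ hσ => ?_⟩
  have hℓS0 : ℓ ∉ S := fun h => hℓS (Finset.mem_union_left _ h)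
  have hℓS1 : ℓ ∉ S₁ := fun h => hℓS (Finset.mem_union_right _ h)
  have htrU := hS ℓ hℓ hℓS0 A hA σ hσ
  obtain ⟨htrT, hdetT⟩ := hS₁ ℓ hℓ hℓS1 A hA σ hσ
  refine ⟨htrU, ?_⟩
  obtain ⟨L₁, hL₁, h₁⟩ := U.factorsThroughFiniteLevel
  obtain ⟨L₂, hL₂, h₂⟩ := (torsTw W hΔ).factorsThroughFiniteLevel
  have := hL₁
  have := hL₂
  have hL : FiniteDimensional ℚ ↥(L₁ ⊔ L₂) := IntermediateField.finiteDimensional_sup L₁ L₂
  obtain ⟨ℓ', A', τ, j, i, hℓ', hℓ'S, hA', hτ, hj, hi⟩ :=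
    Fermat.Agent.Lib.FrobDensity.H47.stmt_FD2 (S ∪ S₁) (L₁ ⊔ L₂) hL (σ * σ)
  have hℓ'S0 : ℓ' ∉ S := fun h => hℓ'S (Finset.mem_union_left _ h)
  have hℓ'S1 : ℓ' ∉ S₁ := fun h => hℓ'S (Finset.mem_union_right _ h)
  -- values at `τ ^ j` and at `τ`
  have eU1 : U.ρ (τ ^ j) = U.ρ (σ * σ) :=
    rho_eq_of_eqOn U L₁ (L₁ ⊔ L₂) le_sup_left h₁ _ _ hj
  have eT1 : (torsTw W hΔ).ρ (τ ^ j) = (torsTw W hΔ).ρ (σ * σ) :=
    rho_eq_of_eqOn (torsTw W hΔ) L₂ (L₁ ⊔ L₂) le_sup_right h₂ _ _ hj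
  have eU2 : U.ρ ((σ * σ) ^ i) = U.ρ τ :=
    rho_eq_of_eqOn U L₁ (L₁ ⊔ L₂) le_sup_left h₁ _ _ hi
  have eT2 : (torsTw W hΔ).ρ ((σ * σ) ^ i) = (torsTw W hΔ).ρ τ :=
    rho_eq_of_eqOn (torsTw W hΔ) L₂ (L₁ ⊔ L₂) le_sup_right h₂ _ _ hi
  -- determinants at `τ` are `1`
  have hdet1 : ∀ ρ : ResidualGaloisRep (ZMod 3), LinearMap.det (ρ.ρ ((σ * σ) ^ i)) = 1 := by
    intro ρ
    rw [map_pow, map_mul, map_pow, map_mul, ← pow_two, zmod3_sq_eq_one (det_rho_ne_zero ρ σ),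
      one_pow]
  have hdU : LinearMap.det (U.ρ τ) = 1 := by rw [← eU2]; exact hdet1 U
  have hdT : LinearMap.det ((torsTw W hΔ).ρ τ) = 1 := by rw [← eT2]; exact hdet1 _
  -- characteristic polynomials at `τ`
  have htrUτ := hS ℓ' hℓ' hℓ'S0 A' hA' τ hτ
  have htrTτ := (hS₁ ℓ' hℓ' hℓ'S1 A' hA' τ hτ).1
  have hcpτ : LinearMap.charpoly (U.ρ τ) = LinearMap.charpoly ((torsTw W hΔ).ρ τ) := by
    rw [Fermat.Agent.R.H91.charpoly_eq_of_finrank_two U.finrank_eq,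
      Fermat.Agent.R.H91.charpoly_eq_of_finrank_two (torsTw W hΔ).finrank_eq,
      htrUτ, htrTτ, hdU, hdT]
  -- characteristic polynomials at `σ²`
  have hcp2 : LinearMap.charpoly (U.ρ σ ^ 2) = LinearMap.charpoly ((torsTw W hΔ).ρ σ ^ 2) := by
    have h := Fermat.Agent.R.H91.charpoly_pow_eq_of_charpoly_eq U.finrank_eq
      (torsTw W hΔ).finrank_eq _ _ hcpτ j
    rw [← map_pow, ← map_pow, eU1, eT1, map_mul, map_mul, ← pow_two, ← pow_two] at h
    exact h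
  -- traces of the squares
  have htU2 := Fermat.Agent.R.H91.trace_pow_of_charpoly U.finrank_eq (U.ρ σ)
    (Fermat.Agent.R.H91.charpoly_eq_of_finrank_two U.finrank_eq (U.ρ σ)) 2
  have htT2 := Fermat.Agent.R.H91.trace_pow_of_charpoly (torsTw W hΔ).finrank_eq
    ((torsTw W hΔ).ρ σ)
    (Fermat.Agent.R.H91.charpoly_eq_of_finrank_two (torsTw W hΔ).finrank_eq
      ((torsTw W hΔ).ρ σ)) 2
  have htr2 : LinearMap.trace (ZMod 3) U.V (U.ρ σ ^ 2) =
      LinearMap.trace (ZMod 3) (torsTw W hΔ).V ((torsTw W hΔ).ρ σ ^ 2) := by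
    have hU2 := Fermat.Agent.R.H91.charpoly_eq_of_finrank_two U.finrank_eq (U.ρ σ ^ 2)
    have hT2 := Fermat.Agent.R.H91.charpoly_eq_of_finrank_two (torsTw W hΔ).finrank_eq
      ((torsTw W hΔ).ρ σ ^ 2)
    rw [hU2, hT2] at hcp2
    have h1 := congrArg (fun p : (ZMod 3)[X] => p.coeff 1) hcp2
    simp only [coeff_add, coeff_sub, coeff_X_pow, coeff_C_mul, coeff_X, coeff_C] at h1
    norm_num at h1
    exact h1
  rw [htU2, htT2, htrU, htrT, hdetT] at htr2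
  simp only [Fermat.Agent.R.H91.lucasV_add_two, Fermat.Agent.R.H91.lucasV_zero] at htr2
  -- `t * t - d * 2 = t * t - ℓ * 2` in `ZMod 3`
  have h2 : LinearMap.det (U.ρ σ) * 2 = (ℓ : ZMod 3) * 2 := by
    have := sub_right_injective htr2
    exact this
  have h3 : (2 : ZMod 3) ≠ 0 := by decide
  exact mul_right_cancel₀ h3 h2

/-- **GAL-ISO over `ZMod 3` from traces only** (the form (B) asked for by the TWX-LOC wiring). -/
theorem stmt_GALISO_traces (W : WeierstrassCurve ℤ) (hΔ : W.Δ ≠ 0)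
    (h3 : W.ModRepIsIrreducible 3) (U : ResidualGaloisRep (ZMod 3)) (hU : TracesTwist W U) :
    ∃ e : U.V ≃ₗ[ZMod 3] Submodule.torsionBy ℤ
        ((W.map (Int.castRingHom ℚ))⁄(AlgebraicClosure ℚ)).Point (3 : ℕ),
      ∀ (σ : GQ) (u : U.V), e (U.ρ σ u) = Fermat.Agent.W.LL3.omega3 σ • (σ • e u) :=
  stmt_GALISO3 W hΔ h3 U (frobTwist_of_tracesTwist W hΔ U hU)

end Fermat.Agent.W.LL3.H88
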